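/-
T1 (wave 2), S32 ⇐ S19, assembly brick (helper8), abstract form.

`J` an abelian group with a `Gal(ℚ̄/ℚ)`-action by additive maps whose `p^n`-torsion subgroups all
have finite flat models (the S19 statement), `V` a `ℤ_p`-module with a Galois action and an
injective equivariant `ℤ_p`-linear map `Ψ : V → (T_p J)^r` (from Carayol/BLR + faithfulness).
Then for every Galois-stable subgroup `W ⊇ p^k V`, the quotient `V/W` has a finite flat model:
it is a subquotient of `(J[p^n])^r` for `n` large (lattice step `Flat83.Lattice.exists_level`),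
and `Flat44.HasFlatModel.subquotient` applies.
-/
import Mathlib
import Fermat.Agent.Flat44.Main
import Fermat.Agent.Flat83.Lattice
import Fermat.Prelude.Def_GaloisRep_Flat

set_option autoImplicit false
set_option linter.unusedSectionVars false
set_option linter.style.haveILetI false

noncomputable section

namespace Fermat.Agent.T1.S32Asm8

open Fermat.Agent.Flat44 Fermat.Agent.ES.J.TateModule13 Fermat.Agent.Flat83.Lattice

variable {p : ℕ} [hp : Fact p.Prime] {J : Type} [AddCommGroup J] [DistribMulAction GQ J]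

/-- The Galois action on `J[p^n]` (the torsion submodule of the frozen S19 statement). -/
def torAct (n : ℕ) (σ : GQ) (x : ↥(Submodule.torsionBy ℤ J ((p : ℤ) ^ n))) :
    ↥(Submodule.torsionBy ℤ J ((p : ℤ) ^ n)) :=
  ⟨σ • (x : J), by
    have hx := x.2
    rw [Submodule.mem_torsionBy_iff] at hx ⊢
    rw [← smul_comm σ, hx, smul_zero]⟩

@[simp] theorem coe_torAct (n : ℕ) (σ : GQ) (x : ↥(Submodule.torsionBy ℤ J ((p : ℤ) ^ n))) :
    ((torAct n σ x : ↥(Submodule.torsionBy ℤ J ((p : ℤ) ^ n))) : J) = σ • (x : J) := rfl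

/-- Projection of the Tate module to `J[p^n]`. -/
def projTor (n : ℕ) : TateModule p J →+ ↥(Submodule.torsionBy ℤ J ((p : ℤ) ^ n)) where
  toFun x := ⟨proj n x, by
    rw [Submodule.mem_torsionBy_iff]
    have h := pow_smul_proj n x
    rw [← h]
    norm_cast⟩
  map_zero' := Subtype.ext (map_zero _)
  map_add' x y := Subtype.ext (map_add _ x y)

@[simp] theorem coe_projTor (n : ℕ) (x : TateModule p J) :
    ((projTor n x : ↥(Submodule.torsionBy ℤ J ((p : ℤ) ^ n))) : J) = proj n x := rfl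

theorem projTor_rho (n : ℕ) (σ : GQ) (x : TateModule p J) :
    projTor n (rho p J σ x) = torAct n σ (projTor n x) := Subtype.ext (proj_rho σ x n)

variable [hfin : Finite {y : J // p • y = 0}]

/-- **Assembly.** -/
theorem hasFlatModel_quot
    (hJ : ∀ n : ℕ, HasFlatModel p ↥(Submodule.torsionBy ℤ J ((p : ℤ) ^ n)) (torAct n))
    {V : Type} [AddCommGroup V] [Module ℤ_[p] V] (actV : GQ → V → V)
    {r : ℕ} (Ψ : V →ₗ[ℤ_[p]] (Fin r → TateModule p J)) (hΨ : Function.Injective Ψ)
    (hΨσ : ∀ (σ : GQ) (v : V) (i : Fin r), Ψ (actV σ v) i = rho p J σ (Ψ v i))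
    (W : AddSubgroup V) (k : ℕ) (hk : ∀ v : V, ((p : ℤ_[p]) ^ k) • v ∈ W)
    (hW : ∀ σ, ∀ v ∈ W, actV σ v ∈ W)
    (actq : GQ → V ⧸ W → V ⧸ W)
    (hq : ∀ σ v, actq σ (QuotientAddGroup.mk v) = QuotientAddGroup.mk (actV σ v)) :
    HasFlatModel p (V ⧸ W) actq := by
  classical
  obtain ⟨n, hn⟩ := exists_level Ψ hΨ k
  -- the map to `(J[p^n])^r`
  let π : V →+ (Fin r → ↥(Submodule.torsionBy ℤ J ((p : ℤ) ^ n))) :=
    { toFun := fun v i => projTor n (Ψ v i)
      map_zero' := by
        funext i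
        simp
      map_add' := fun v w => by
        funext i
        simp }
  have hπ : ∀ v i, π v i = projTor n (Ψ v i) := fun _ _ => rfl
  have hπσ : ∀ σ v, (fun i => torAct n σ (π v i)) = π (actV σ v) := by
    intro σ v
    funext i
    rw [hπ, hπ, hΨσ, projTor_rho]
  have hker : ∀ v, π v = 0 → v ∈ W := by
    intro v hv
    obtain ⟨w, rfl⟩ := hn v (fun j => by
      have := congrFun hv j
      rw [hπ] at this
      exact congrArg Subtype.val this)
    exact hk w
  set A : AddSubgroup (Fin r → ↥(Submodule.torsionBy ℤ J ((p : ℤ) ^ n))) := π.range with hA'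
  set B : AddSubgroup (Fin r → ↥(Submodule.torsionBy ℤ J ((p : ℤ) ^ n))) := W.map π with hB'
  have hA : ∀ σ, ∀ f ∈ A, (fun i => torAct n σ (f i)) ∈ A := by
    rintro σ f ⟨v, rfl⟩
    exact ⟨actV σ v, (hπσ σ v).symm⟩
  have hB : ∀ σ, ∀ f ∈ B, (fun i => torAct n σ (f i)) ∈ B := by
    rintro σ f ⟨v, hv, rfl⟩
    exact ⟨actV σ v, hW σ v hv, (hπσ σ v).symm⟩
  -- the surjection `V → A/B`
  let ψ : V →+ A ⧸ B.addSubgroupOf A :=
    (QuotientAddGroup.mk' (B.addSubgroupOf A)).comp π.rangeRestrict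
  have hψ : ∀ v, ψ v = QuotientAddGroup.mk (⟨π v, ⟨v, rfl⟩⟩ : A) := fun _ => rfl
  have hψsurj : Function.Surjective ψ := by
    intro q
    obtain ⟨⟨f, v, rfl⟩, rfl⟩ := QuotientAddGroup.mk_surjective q
    exact ⟨v, rfl⟩
  have hψker : ψ.ker = W := by
    ext v
    rw [AddMonoidHom.mem_ker, hψ, QuotientAddGroup.eq_zero_iff, AddSubgroup.mem_addSubgroupOf]
    constructor
    · rintro ⟨w, hw, hwv⟩
      have h1 : π (v - w) = 0 := by
        rw [map_sub]
        exact sub_eq_zero.2 hwv.symm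
      have h2 := hker _ h1
      have h3 : v = (v - w) + w := by abel
      rw [h3]
      exact W.add_mem h2 hw
    · intro hv
      exact ⟨v, hv, rfl⟩
  let φ : (A ⧸ B.addSubgroupOf A) ≃+ V ⧸ W :=
    (QuotientAddGroup.quotientKerEquivOfSurjective ψ hψsurj).symm.trans
      (QuotientAddGroup.quotientAddEquivOfEq hψker)
  have hφ : ∀ v, φ (ψ v) = QuotientAddGroup.mk v := by
    intro v
    show (QuotientAddGroup.quotientAddEquivOfEq hψker)
      ((QuotientAddGroup.quotientKerEquivOfSurjective ψ hψsurj).symm (ψ v)) = _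
    have h1 : (QuotientAddGroup.quotientKerEquivOfSurjective ψ hψsurj).symm (ψ v)
        = QuotientAddGroup.mk v := by
      rw [AddEquiv.symm_apply_eq]
      rfl
    rw [h1]
    rfl
  refine (hJ n).subquotient r A B hA hB φ ?_
  rintro σ ⟨f, v, rfl⟩
  have h1 : (QuotientAddGroup.mk (⟨fun i => torAct n σ (π v i), hA σ (π v) ⟨v, rfl⟩⟩ : A) :
      A ⧸ B.addSubgroupOf A) = ψ (actV σ v) := by
    rw [hψ]
    congr 1
    exact Subtype.ext (hπσ σ v)
  have h2 : (QuotientAddGroup.mk (⟨π v, ⟨v, rfl⟩⟩ : A) : A ⧸ B.addSubgroupOf A) = ψ v :=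
    (hψ v).symm
  rw [h1, h2, hφ, hφ, hq]

/-- A finite quotient of a local ring of residue characteristic `p` is killed by a power of `p`. -/
theorem exists_pow_mem_of_finite_quotient {A : Type} [CommRing A] [IsLocalRing A]
    (hpA : (p : A) ∈ IsLocalRing.maximalIdeal A) (I : Ideal A) [Finite (A ⧸ I)] :
    ∃ k : ℕ, (p : A) ^ k ∈ I := by
  classical
  -- the additive order of `1` in `A ⧸ I`
  have hfin : IsOfFinAddOrder (1 : A ⧸ I) := isOfFinAddOrder_of_finite _
  set m := addOrderOf (1 : A ⧸ I) with hm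
  have hm0 : 0 < m := hfin.addOrderOf_pos
  have hmI : (m : A) ∈ I := by
    rw [← Ideal.Quotient.eq_zero_iff_mem, map_natCast]
    have := addOrderOf_nsmul_eq_zero (1 : A ⧸ I)
    rwa [nsmul_eq_mul, mul_one] at this
  obtain ⟨a, m', hm', hmeq⟩ := Nat.exists_eq_pow_mul_and_not_dvd hm0.ne' p hp.out.ne_one
  rw [hmeq] at hmI
  refine ⟨a, ?_⟩
  have hunit : IsUnit (m' : A) := by
    by_contra hnu
    have hmem : (m' : A) ∈ IsLocalRing.maximalIdeal A := (IsLocalRing.mem_maximalIdeal _).2 hnu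
    -- `gcd(p, m') = 1` gives `1 ∈ 𝔪`
    have hcop : Nat.Coprime p m' := (Nat.Prime.coprime_iff_not_dvd hp.out).2 hm'
    have h1 : ((p : ℤ) * Nat.gcdA p m' + (m' : ℤ) * Nat.gcdB p m' : ℤ) = 1 := by
      have := Nat.gcd_eq_gcd_ab p m'
      rw [hcop] at this
      exact_mod_cast this.symm
    have h2 : (1 : A) ∈ IsLocalRing.maximalIdeal A := by
      have h3 : ((p : A) * ((Nat.gcdA p m' : ℤ) : A) + (m' : A) * ((Nat.gcdB p m' : ℤ) : A)) = 1 := by
        have := congrArg (Int.cast : ℤ → A) h1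
        push_cast at this
        exact this
      rw [← h3]
      exact Ideal.add_mem _ (Ideal.mul_mem_right _ _ hpA) (Ideal.mul_mem_right _ _ hmem)
    exact (Ideal.ne_top_iff_one _).1 (IsLocalRing.maximalIdeal.isMaximal A).ne_top h2
  have : ((p ^ a * m' : ℕ) : A) = (p : A) ^ a * (m' : A) := by push_cast; ring
  rw [this] at hmI
  exact (Ideal.mul_unit_mem_iff_mem I hunit).1 hmI

/-- **Assembly, `IsFlatAt` form.**  `A` a local `ℤ_p`-algebra of residue characteristic `p` with finite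
residue field, `ρ : GaloisRepAdic A` with an injective equivariant `ℤ_p`-linear map
`ρ.V → (T_p J)^r`; if all `J[p^n]` have finite flat models, `ρ` is flat at `p`. -/
theorem isFlatAt_of_embedding {A : Type} [CommRing A] [IsLocalRing A] [Algebra ℤ_[p] A]
    (ρ : GaloisRepAdic A) (hres : Finite (IsLocalRing.ResidueField A))
    (hpA : (p : A) ∈ IsLocalRing.maximalIdeal A)
    (hJ : ∀ n : ℕ, HasFlatModel p ↥(Submodule.torsionBy ℤ J ((p : ℤ) ^ n)) (torAct n))
    {r : ℕ} (Ψ : ρ.V →+ (Fin r → TateModule p J))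
    (hΨlin : ∀ (c : ℤ_[p]) (v : ρ.V), Ψ (algebraMap ℤ_[p] A c • v) = c • Ψ v)
    (hΨ : Function.Injective Ψ)
    (hΨσ : ∀ (σ : GQ) (v : ρ.V) (i : Fin r), Ψ (ρ.ρ σ v) i = rho p J σ (Ψ v i)) :
    ρ.IsFlatAt p := by
  refine ⟨hres, fun I hI => ?_⟩
  letI : Module ℤ_[p] ρ.V := Module.compHom ρ.V (algebraMap ℤ_[p] A)
  have hsmul : ∀ (c : ℤ_[p]) (v : ρ.V), c • v = algebraMap ℤ_[p] A c • v := fun _ _ => rfl
  let Ψ' : ρ.V →ₗ[ℤ_[p]] (Fin r → TateModule p J) :=
    { toFun := Ψ
      map_add' := map_add Ψ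
      map_smul' := fun c v => by
        rw [hsmul, hΨlin]
        rfl }
  obtain ⟨k, hk⟩ := exists_pow_mem_of_finite_quotient hpA I
  set S : Submodule A ρ.V := I • (⊤ : Submodule A ρ.V) with hS
  have hkW : ∀ v : ρ.V, ((p : ℤ_[p]) ^ k) • v ∈ S.toAddSubgroup := by
    intro v
    rw [hsmul, map_pow, map_natCast]
    exact Submodule.smul_mem_smul hk Submodule.mem_top
  have hW : ∀ σ, ∀ v ∈ S.toAddSubgroup, ρ.ρ σ v ∈ S.toAddSubgroup := by
    intro σ v hv
    have h1 : S ≤ S.comap (ρ.ρ σ) := by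
      rw [← Submodule.map_le_iff_le_comap, hS, Submodule.map_smul'']
      exact Submodule.smul_mono le_rfl le_top
    exact h1 hv
  -- `V ⧸ S.toAddSubgroup` and `V ⧸ S`
  let φ : (ρ.V ⧸ S.toAddSubgroup) ≃+ (ρ.V ⧸ S) :=
    { toFun := QuotientAddGroup.lift S.toAddSubgroup S.mkQ.toAddMonoidHom (fun v hv => by
        show S.mkQ v = 0
        rw [Submodule.mkQ_apply, Submodule.Quotient.mk_eq_zero]
        exact hv)
      invFun := fun q => Quotient.liftOn' q (fun v => (QuotientAddGroup.mk v : ρ.V ⧸ S.toAddSubgroup))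
        (fun a b hab => by
          rw [QuotientAddGroup.eq]
          have := (Submodule.quotientRel_def S).1 hab
          have h2 : -a + b = -(a - b) := by abel
          rw [h2]
          exact S.toAddSubgroup.neg_mem this)
      left_inv := fun q => by
        induction q using QuotientAddGroup.induction_on
        rfl
      right_inv := fun q => by
        induction q using Submodule.Quotient.induction_on
        rfl
      map_add' := fun a b => map_add _ a b }
  have hφ : ∀ v : ρ.V, φ (QuotientAddGroup.mk v) = Submodule.Quotient.mk v := fun _ => rfl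
  let actq : GQ → ρ.V ⧸ S.toAddSubgroup → ρ.V ⧸ S.toAddSubgroup := fun σ q =>
    φ.symm (ρ.levelAction I σ (φ q))
  have hq : ∀ σ v, actq σ (QuotientAddGroup.mk v) = QuotientAddGroup.mk (ρ.ρ σ v) := by
    intro σ v
    show φ.symm (ρ.levelAction I σ (φ (QuotientAddGroup.mk v))) = _
    rw [AddEquiv.symm_apply_eq, hφ, hφ]
    rfl
  have h1 := hasFlatModel_quot hJ (fun σ v => ρ.ρ σ v) Ψ' hΨ hΨσ S.toAddSubgroup k hkW hW actq hq
  refine h1.of_equiv φ fun σ q => ?_
  show φ (φ.symm (ρ.levelAction I σ (φ q))) = _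
  rw [AddEquiv.apply_symm_apply]

end Fermat.Agent.T1.S32Asm8
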