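/-
Programme T1a (S19), layer (A) ALG: the abstract local criterion
"local analytic group data  ⇒  finite flat function order".   INTERFACE (helper47, lead of (A)).

Everything is in the TRUNCATED / POLYNOMIAL form agreed in the cell (helper48, helper17, helper41):
no power series, no `HasSum`, no completion of `K̄`.

Local model (as in `TW/B5/Iface`): `K̄ = Kbar ℓ = PadicAlgCl ℓ` with its norm, `G_ℓ = Gp ℓ = Gal(K̄/ℚ_ℓ)`,
fields = `IntermediateField ℚ_[ℓ] K̄`, `intSubring ℓ E = 𝒪_E` as a subring of `K̄`,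
`IsUnramifiedField ℓ E` = value group of `E` is that of `ℚ_ℓ`, `IsInertial ℓ σ`.

CONTENT

* `LocalFunOrder ℓ M act`   the local analogue over `ℤ_ℓ` of `Flat44.FunOrder` (same seven fields, `K̄`-valued
                            functions, `G_ℓ`-equivariance).
* `DiscGroupData ℓ J M actM` the input of (A): ambient group `J` with `G_ℓ`-action, the "kernel of reduction"
                            `J1 ≤ J` with injective equivariant coordinates `t : J1 → (𝔪_{K̄})^g`, the addition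
                            law given by POLYNOMIALS over `𝒪_{K'}` (`K'` finite unramified) UP TO `ℓ^n` on
                            every ball of radius `ρ < 1`, an equivariant embedding `M ↪ J` of the finite module, and
                            UNRAMIFIED CENTRES for the cosets of `J1` met by `M`.
* `ALC`                     **the theorem of (A)**: `DiscGroupData ⇒ Nonempty LocalFunOrder`.
* `GLUE`                    local ⇒ global (owner helper83; he may restate it in his own file).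
* brick statements `Lipschitz`, `ClosedFG`, `FGOfInt`, `UnramLeMu`, `UnramDescent`, `TraceOne`.

Everything here is definitions and statements (`Prop`s); no proofs are required from this file.
-/
import Mathlib
import Fermat.Agent.TW.B5.Iface
import Fermat.Agent.TW.B5.LG83W
import Fermat.Agent.Flat44.FunOrder

set_option autoImplicit false

noncomputable section

namespace Fermat.Agent.T1.AlgIface47

open Fermat.Agent.TW.B5.Iface

variable (ℓ : ℕ) [Fact ℓ.Prime]

/-! ### The output of (A): local function orders -/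

/-- A local function order on `(M, act)`: a `ℤ_ℓ`-subalgebra `B` of the functions `M → K̄`, finite as a module,
consisting of `G_ℓ`-equivariant functions, separating the points of `M`, stable under the comultiplication
`b ↦ ((x, y) ↦ b (x + y))` (a finite sum `∑ u i x * v i y`), under `b ↦ b ∘ neg`, and with `b 0 ∈ ℤ_ℓ`.
(Same shape as `Flat44.FunOrder`, with `(ℤ_(ℓ), ℚ̄, G_ℚ)` replaced by `(ℤ_ℓ, K̄, G_ℓ)`.) -/
structure LocalFunOrder (M : Type) [AddCommGroup M] (act : Gp ℓ → M → M) where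
  /-- the order -/
  B : Subalgebra ℤ_[ℓ] (M → Kbar ℓ)
  fg : Module.Finite ℤ_[ℓ] B
  equivariant : ∀ b ∈ B, ∀ (σ : Gp ℓ) (x : M), b (act σ x) = σ (b x)
  separates : ∀ x y : M, (∀ b ∈ B, b x = b y) → x = y
  comul_mem : ∀ b ∈ B, ∃ (ι : Type) (_ : Fintype ι) (u v : ι → M → Kbar ℓ),
    (∀ i, u i ∈ B) ∧ (∀ i, v i ∈ B) ∧ ∀ x y, b (x + y) = ∑ i, u i x * v i y
  neg_mem : ∀ b ∈ B, (fun x => b (-x)) ∈ B
  zero_mem : ∀ b ∈ B, ∃ r : ℤ_[ℓ], algebraMap ℤ_[ℓ] (Kbar ℓ) r = b 0

/-! ### The input of (A) -/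

/-- **Local analytic group data** (truncated form) for a finite `G_ℓ`-module `M`.

* `J` : ambient abelian group (think `J(K̄)`), `act` the `G_ℓ`-action by additive maps.
* `J1 ≤ J` : a `G_ℓ`-stable subgroup (think: kernel of reduction).
* `t : J → Fin g → K̄` (only its values on `J1` matter): coordinates of norm `< 1`, injective on `J1`, equivariant.
* `K'` : ONE finite unramified extension of `ℚ_ℓ`; the polynomials below have coefficients in `𝒪_{K'}`.
* `add_approx` : for every radius `ρ < 1` and every `n` there are polynomials `F i ∈ 𝒪_{K'}[X, Y]` with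
  `t (x + y) i ≡ F i (t x, t y)  mod ℓ^n` for all `x, y ∈ J1` in the ball of radius `ρ`.
* (NO negation law: for a finite module, stability of the order under `b ↦ b ∘ neg` follows from the
  comultiplication, `-m = (|M| - 1) • m`; observation of helper48, `CosetOrder48.neg_mem_of_comul`.)
* `emb : M →+ J` injective and equivariant.
* `centres` : every `y ∈ M` is congruent modulo `J1` to a point `x ∈ J` fixed by `Gal(K̄/E)` for some finite
  unramified `E` (an "unramified point"; NOT required to be torsion, NOT required to be chosen equivariantly). -/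
structure DiscGroupData (J : Type) [AddCommGroup J] (M : Type) [AddCommGroup M]
    (actM : Gp ℓ → M → M) where
  /-- the `G_ℓ`-action on the ambient group -/
  act : Gp ℓ → J →+ J
  act_one : ∀ x, act 1 x = x
  act_mul : ∀ σ τ x, act (σ * τ) x = act σ (act τ x)
  /-- the kernel of reduction -/
  J1 : AddSubgroup J
  J1_stable : ∀ σ, ∀ x ∈ J1, act σ x ∈ J1
  /-- the dimension -/
  g : ℕ
  /-- the coordinates (junk outside `J1`) -/
  t : J → Fin g → Kbar ℓ
  t_norm : ∀ x ∈ J1, ∀ i, ‖t x i‖ < 1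
  t_inj : ∀ x ∈ J1, ∀ y ∈ J1, t x = t y → x = y
  t_equiv : ∀ σ, ∀ x ∈ J1, ∀ i, t (act σ x) i = σ (t x i)
  /-- the field of coefficients of the group law -/
  K' : IntermediateField ℚ_[ℓ] (Kbar ℓ)
  K'_fin : FiniteDimensional ℚ_[ℓ] K'
  K'_unr : IsUnramifiedField ℓ K'
  add_approx : ∀ ρ : ℝ, ρ < 1 → ∀ n : ℕ,
    ∃ F : Fin g → MvPolynomial (Fin g ⊕ Fin g) (intSubring ℓ K'),
      ∀ x ∈ J1, ∀ y ∈ J1, (∀ i, ‖t x i‖ ≤ ρ) → (∀ i, ‖t y i‖ ≤ ρ) → ∀ i,
        ‖t (x + y) i - MvPolynomial.aeval (Sum.elim (t x) (t y)) (F i)‖ ≤ ‖(ℓ : Kbar ℓ)‖ ^ n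
  /-- the finite module inside the ambient group -/
  emb : M →+ J
  emb_inj : Function.Injective emb
  emb_equiv : ∀ σ y, emb (actM σ y) = act σ (emb y)
  centres : ∀ y : M, ∃ x : J, emb y - x ∈ J1 ∧
    ∃ E : IntermediateField ℚ_[ℓ] (Kbar ℓ), FiniteDimensional ℚ_[ℓ] E ∧ IsUnramifiedField ℓ E ∧
      ∀ σ : Gp ℓ, (∀ e ∈ E, σ e = e) → act σ x = x

/-- **(A) ALC, the abstract local criterion.**  Local analytic group data for a finite module give a local
function order. -/
def ALC : Prop :=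
  ∀ (J : Type) [AddCommGroup J] (M : Type) [AddCommGroup M] [Finite M] (actM : Gp ℓ → M → M),
    DiscGroupData ℓ J M actM → Nonempty (LocalFunOrder ℓ M actM)

/-! ### Local ⇒ global (owner: helper83) -/

/-- **GLUE.**  `ι : ℚ̄ → K̄` a field embedding, `res : G_ℓ → G_ℚ` the attached restriction map.  A finite
`G_ℚ`-module (additive action with open stabilisers) whose restriction to `G_ℓ` has a local function order has a
function order over `ℤ_(ℓ)`.  (Draft: the owner fixes the final form, e.g. through `LocGlob57.padicPlace`.) -/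
def GLUE : Prop :=
  ∀ (ι : Flat44.Qb →+* Kbar ℓ) (res : Gp ℓ → Flat44.GQ), (∀ σ x, ι (res σ x) = σ (ι x)) →
    ∀ (M : Type) [AddCommGroup M] [Finite M] (act : Flat44.GQ → M → M),
      (∀ x, act 1 x = x) → (∀ σ τ x, act (σ * τ) x = act σ (act τ x)) →
      (∀ σ x y, act σ (x + y) = act σ x + act σ y) →
      (∀ x : M, ∃ L : IntermediateField ℚ Flat44.Qb, FiniteDimensional ℚ L ∧
        ∀ σ : Flat44.GQ, (∀ e ∈ L, σ e = e) → act σ x = x) →
      Nonempty (LocalFunOrder ℓ M (fun σ => act (res σ))) → Nonempty (Flat44.FunOrder ℓ M act)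

/-! ### Brick statements for (A) -/

/-- **(a1) Lipschitz.**  A polynomial with coefficients in `𝒪_E` is bounded by `1` and `1`-Lipschitz on the
closed unit polydisc. -/
def Lipschitz : Prop :=
  ∀ (E : IntermediateField ℚ_[ℓ] (Kbar ℓ)) (ι : Type) (f : MvPolynomial ι (intSubring ℓ E))
    (a a' : ι → Kbar ℓ) (ε : ℝ), (∀ i, ‖a i‖ ≤ 1) → (∀ i, ‖a' i‖ ≤ 1) → (∀ i, ‖a i - a' i‖ ≤ ε) →
    0 ≤ ε → ‖MvPolynomial.aeval a f‖ ≤ 1 ∧ ‖MvPolynomial.aeval a f - MvPolynomial.aeval a' f‖ ≤ ε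

/-- **(a1) closedness.**  A finitely generated `ℤ_ℓ`-submodule of `X → K̄` (`X` finite) is closed: a function
which is approximated modulo `ℓ^n` by elements of `P` for every `n` lies in `P`.
(Krull intersection on a finite module over `ℤ_ℓ`, or compactness of `ℤ_ℓ^r`.) -/
def ClosedFG : Prop :=
  ∀ (X : Type) [Finite X] (P : Submodule ℤ_[ℓ] (X → Kbar ℓ)), P.FG → ∀ b : X → Kbar ℓ,
    (∀ n : ℕ, ∃ q ∈ P, ∀ x, ‖b x - q x‖ ≤ ‖(ℓ : Kbar ℓ)‖ ^ n) → b ∈ P

/-- **(a1) finite generation.**  A `ℤ_ℓ`-submodule of `X → K̄` (`X` finite) all of whose values lie in the ring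
of integers of ONE finite extension is finitely generated (`𝒪_L` is finite over the noetherian `ℤ_ℓ`). -/
def FGOfInt : Prop :=
  ∀ (X : Type) [Finite X] (L : IntermediateField ℚ_[ℓ] (Kbar ℓ)), FiniteDimensional ℚ_[ℓ] L →
    ∀ P : Submodule ℤ_[ℓ] (X → Kbar ℓ), (∀ q ∈ P, ∀ x, q x ∈ intSubring ℓ L) → P.FG

/-- **(a2)** A finite unramified extension of `ℚ_ℓ` lies in some `ℚ_ℓ(μ_m)`, `ℓ ∤ m`. -/
def UnramLeMu : Prop :=
  ∀ E : IntermediateField ℚ_[ℓ] (Kbar ℓ), FiniteDimensional ℚ_[ℓ] E → IsUnramifiedField ℓ E →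
    ∃ m : ℕ, ¬ ℓ ∣ m ∧ E ≤ Fermat.Agent.TW.B5.LG83W.muField ℓ m

/-- The semilinear action of `G_ℓ` on functions `X → K̄`, `X` a set with `G_ℓ`-action:
`(σ • b) x = σ (b (σ⁻¹ x))`.  `b` is equivariant iff `galFun σ b = b` for all `σ`. -/
def galFun {X : Type} (actX : Gp ℓ → X → X) (σ : Gp ℓ) (b : X → Kbar ℓ) : X → Kbar ℓ :=
  fun x => σ (b (actX σ⁻¹ x))

/-- **(b) unramified Galois descent (dual basis / trace trick), owner helper83.**
`K'' = ℚ_ℓ(μ_m)`, `ℓ ∤ m` (finite, unramified, `G_ℓ`-stable: `LG83W`), `R'' = 𝒪_{K''}`.  Let `B'` be an additive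
group of functions `X → K̄`, stable under multiplication by `R''` and under the semilinear action of `G_ℓ`, on
which `Gal(K̄/K'')` acts trivially.  Then every element of `B'` is an `R''`-linear combination of
`G_ℓ`-invariant elements of `B'`.
(`b = ∑ i, a i • Tr (b i • b)` with `∑ i, a i * g (b i) = δ_{g,1}` for `g ∈ Gal(K''/ℚ_ℓ)`.  A proof for every
finite unramified `G_ℓ`-stable `K''` is of course welcome; (A) only uses `K'' = muField ℓ m`, and may take `m`
as divisible as one wishes.) -/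
def UnramDescent : Prop :=
  ∀ m : ℕ, ¬ ℓ ∣ m →
    ∀ (X : Type) (actX : Gp ℓ → X → X), (∀ x, actX 1 x = x) →
      (∀ σ τ x, actX (σ * τ) x = actX σ (actX τ x)) →
    ∀ B' : AddSubgroup (X → Kbar ℓ),
      (∀ r ∈ intSubring ℓ (Fermat.Agent.TW.B5.LG83W.muField ℓ m), ∀ b ∈ B', (fun x => r * b x) ∈ B') →
      (∀ σ : Gp ℓ, ∀ b ∈ B', galFun ℓ actX σ b ∈ B') →
      (∀ σ : Gp ℓ, (∀ e ∈ Fermat.Agent.TW.B5.LG83W.muField ℓ m, σ e = e) →
        ∀ b ∈ B', galFun ℓ actX σ b = b) →
      ∀ b ∈ B', ∃ (ι : Type) (_ : Fintype ι) (a : ι → Kbar ℓ) (c : ι → X → Kbar ℓ),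
        (∀ i, a i ∈ intSubring ℓ (Fermat.Agent.TW.B5.LG83W.muField ℓ m)) ∧ (∀ i, c i ∈ B') ∧
        (∀ i (σ : Gp ℓ), galFun ℓ actX σ (c i) = c i) ∧ ∀ x, b x = ∑ i, a i * c i x

/-- **(b) trace one, owner helper83.**  `K'' = ℚ_ℓ(μ_m)`, `ℓ ∤ m`.  A `G_ℓ`-invariant function which is an
`𝒪_{K''}`-linear combination of `G_ℓ`-invariant functions `w i` is a `ℤ_ℓ`-linear combination of the same
`w i` (apply `Tr (r · -)` with `Tr r = 1`; `Tr (r * a i) ∈ ℤ_ℓ`). -/
def TraceOne : Prop :=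
  ∀ m : ℕ, ¬ ℓ ∣ m →
    ∀ (X : Type) (actX : Gp ℓ → X → X) (ι : Type) [Fintype ι] (a : ι → Kbar ℓ) (w : ι → X → Kbar ℓ)
      (b : X → Kbar ℓ), (∀ i, a i ∈ intSubring ℓ (Fermat.Agent.TW.B5.LG83W.muField ℓ m)) →
      (∀ i (σ : Gp ℓ), galFun ℓ actX σ (w i) = w i) → (∀ σ : Gp ℓ, galFun ℓ actX σ b = b) →
      (∀ x, b x = ∑ i, a i * w i x) →
      ∃ z : ι → ℤ_[ℓ], ∀ x, b x = ∑ i, algebraMap ℤ_[ℓ] (Kbar ℓ) (z i) * w i x

end Fermat.Agent.T1.AlgIface47
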