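/-
Programme T1a (S19), layer (A) ALG: the TRUNCATED input (helper47).

`DiscGroupDataTrunc` is `AlgIface47.DiscGroupData` with the exact coordinates `t` replaced by a compatible
system of approximations `tn n : J → Fin g → K̄` ("`t` modulo `ℓ^n`", e.g. the image under `ι : ℚ̄ → K̄` of ANY
lift of `t_n x ∈ (𝔪_L / ℓ^n)^g`, `L` a number field), all properties being congruences modulo `ℓ^n`.
The only analytic input is that, for a fixed `x`, all `tn n x i` lie in ONE finite extension of `ℚ_ℓ`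
(which is complete), so that `t x i := lim tn n x i` exists in `K̄`.

`TruncToExact` : `DiscGroupDataTrunc ⟹ Nonempty DiscGroupData` (open brick, ~300 lines, pure ultrametric limits).
-/
import Mathlib
import Fermat.Agent.T1.AlgIface47

set_option autoImplicit false

noncomputable section

namespace Fermat.Agent.T1.TruncIface47

open Fermat.Agent.TW.B5.Iface Fermat.Agent.T1.AlgIface47

variable (ℓ : ℕ) [Fact ℓ.Prime]

/-- Truncated local analytic group data: see the header.  Fields not mentioned there are as in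
`AlgIface47.DiscGroupData`. -/
structure DiscGroupDataTrunc (J : Type) [AddCommGroup J] (M : Type) [AddCommGroup M]
    (actM : Gp ℓ → M → M) where
  act : Gp ℓ → J →+ J
  act_one : ∀ x, act 1 x = x
  act_mul : ∀ σ τ x, act (σ * τ) x = act σ (act τ x)
  J1 : AddSubgroup J
  J1_stable : ∀ σ, ∀ x ∈ J1, act σ x ∈ J1
  g : ℕ
  /-- `tn n x` = the coordinates of `x` modulo `ℓ ^ n` (junk outside `J1`) -/
  tn : ℕ → J → Fin g → Kbar ℓ
  tn_norm : ∀ x ∈ J1, ∀ n i, ‖tn n x i‖ < 1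
  tn_compat : ∀ x ∈ J1, ∀ n i, ‖tn (n + 1) x i - tn n x i‖ ≤ ‖(ℓ : Kbar ℓ)‖ ^ n
  tn_field : ∀ x ∈ J1, ∃ L : IntermediateField ℚ_[ℓ] (Kbar ℓ), FiniteDimensional ℚ_[ℓ] L ∧
    ∀ n i, tn n x i ∈ L
  tn_inj : ∀ x ∈ J1, ∀ y ∈ J1, (∀ n i, ‖tn n x i - tn n y i‖ ≤ ‖(ℓ : Kbar ℓ)‖ ^ n) → x = y
  tn_equiv : ∀ σ, ∀ x ∈ J1, ∀ n i, ‖tn n (act σ x) i - σ (tn n x i)‖ ≤ ‖(ℓ : Kbar ℓ)‖ ^ n
  K' : IntermediateField ℚ_[ℓ] (Kbar ℓ)
  K'_fin : FiniteDimensional ℚ_[ℓ] K'
  K'_unr : IsUnramifiedField ℓ K'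
  add_approx : ∀ ρ : ℝ, ρ < 1 → ∀ n : ℕ,
    ∃ F : Fin g → MvPolynomial (Fin g ⊕ Fin g) (intSubring ℓ K'),
      ∀ x ∈ J1, ∀ y ∈ J1, (∀ i, ‖tn n x i‖ ≤ ρ) → (∀ i, ‖tn n y i‖ ≤ ρ) → ∀ i,
        ‖tn n (x + y) i - MvPolynomial.aeval (Sum.elim (tn n x) (tn n y)) (F i)‖
          ≤ ‖(ℓ : Kbar ℓ)‖ ^ n
  emb : M →+ J
  emb_inj : Function.Injective emb
  emb_equiv : ∀ σ y, emb (actM σ y) = act σ (emb y)
  centres : ∀ y : M, ∃ x : J, emb y - x ∈ J1 ∧
    ∃ E : IntermediateField ℚ_[ℓ] (Kbar ℓ), FiniteDimensional ℚ_[ℓ] E ∧ IsUnramifiedField ℓ E ∧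
      ∀ σ : Gp ℓ, (∀ e ∈ E, σ e = e) → act σ x = x

/-- **Truncated ⟹ exact.**  Put `t x i := lim_n tn n x i` (the sequence is Cauchy by `tn_compat` and lives in the
complete field `L_x`); then `‖t x i - tn n x i‖ ≤ ‖ℓ‖ ^ n`, and all exact properties of `DiscGroupData` follow
from the congruences (ultrametric inequality; `σ` is an isometry; polynomials over `𝒪_{K'}` are `1`-Lipschitz on
the unit polydisc: `PolyNorm47.norm_aeval_sub_le`).  For `add_approx` at radius `ρ`: `‖t x i‖ ≤ ρ` implies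
`‖tn n x i‖ ≤ max ρ ‖ℓ‖ < 1` for `n ≥ 1`; use the truncated law (whose ball condition is at level `n` only) at
radius `max ρ ‖ℓ‖`; for `n = 0` the statement is trivial (`F = 0`). -/
def TruncToExact : Prop :=
  ∀ (J : Type) [AddCommGroup J] (M : Type) [AddCommGroup M] (actM : Gp ℓ → M → M),
    DiscGroupDataTrunc ℓ J M actM → Nonempty (DiscGroupData ℓ J M actM)

end Fermat.Agent.T1.TruncIface47
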