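/-
Programme T1a (S19), layer (A) ALG: the ABSTRACT ASSEMBLY step (statement by helper47; open brick).

From a non-equivariant order `B'` over `𝒪_{K''}`, `K'' = ℚ_ℓ(μ_m)`, stable under the semilinear action of `G_ℓ`
with `Gal(K̄/K'')` acting trivially, to the local function order `B := (B')^{G_ℓ}` over `ℤ_ℓ`, using the two
descent statements `UnramDescent`, `TraceOne` (brick A2) as hypotheses.

PROOF SKETCH.  `B := {b ∈ B' | ∀ σ, galFun ℓ actM σ b = b}`.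
* `ℤ_ℓ`-subalgebra: constants `r ∈ ℤ_ℓ` are `r • 1` with `r ∈ 𝒪_{K''}`, and are invariant.
* `fg`: `B` is a `ℤ_ℓ`-submodule of `M → 𝒪_L`, a finite module over the Noetherian `ℤ_ℓ`
  (`PmTwist48.moduleFinite_intSubring`).
* `equivariant`: evaluate `galFun σ b = b` at `actM σ x`.
* `separates`: if `b ∈ B'` separates `x, y`, write `b = ∑ a i * c i` (`UnramDescent`); some `c i ∈ B` separates.
* `comul_mem`: `b (x + y) = ∑ u k x * v k y` with `u k, v k ∈ B'`; expand `u k`, `v k` by `UnramDescent`; the function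
  `(x, y) ↦ b (x + y)` on `M × M` (diagonal action) is invariant and an `𝒪_{K''}`-combination of the invariant
  functions `(x, y) ↦ c x * c' y`; `TraceOne` makes the coefficients `ℤ_ℓ`-integral; absorb them into the `u`'s.
* `neg_mem`: `actM σ (-x) = -actM σ x`.
* `zero_mem`: `b 0` is fixed by `G_ℓ` (`actM σ 0 = 0`), hence in `ℚ_ℓ` (`InfiniteGalois.fixedField_fixingSubgroup ⊥`),
  and of norm `≤ 1`, hence in `ℤ_ℓ` (`PadicAlgCl.norm_extends`).
-/
import Mathlib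
import Fermat.Agent.T1.AlgIface47

set_option autoImplicit false

noncomputable section

namespace Fermat.Agent.T1.AsmIface47

open Fermat.Agent.TW.B5.Iface Fermat.Agent.TW.B5.LG83W Fermat.Agent.T1.AlgIface47

variable (ℓ : ℕ) [Fact ℓ.Prime]

/-- **Abstract assembly.** -/
def Assembly : Prop :=
  UnramDescent ℓ → TraceOne ℓ →
  ∀ (M : Type) [AddCommGroup M] [Finite M] (actM : Gp ℓ → M → M),
    (∀ x, actM 1 x = x) → (∀ σ τ x, actM (σ * τ) x = actM σ (actM τ x)) →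
    (∀ σ x y, actM σ (x + y) = actM σ x + actM σ y) →
  ∀ (m : ℕ), ¬ ℓ ∣ m → ∀ (L : IntermediateField ℚ_[ℓ] (Kbar ℓ)), FiniteDimensional ℚ_[ℓ] L →
  ∀ (B' : Subring (M → Kbar ℓ)),
    (∀ b ∈ B', ∀ y, b y ∈ intSubring ℓ L) →
    (∀ r ∈ intSubring ℓ (muField ℓ m), ∀ b ∈ B', (fun x => r * b x) ∈ B') →
    (∀ σ : Gp ℓ, ∀ b ∈ B', galFun ℓ actM σ b ∈ B') →
    (∀ σ : Gp ℓ, (∀ e ∈ muField ℓ m, σ e = e) → ∀ b ∈ B', galFun ℓ actM σ b = b) →
    (∀ x y : M, (∀ b ∈ B', b x = b y) → x = y) →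
    (∀ b ∈ B', ∃ (ι : Type) (_ : Fintype ι) (u v : ι → M → Kbar ℓ),
      (∀ i, u i ∈ B') ∧ (∀ i, v i ∈ B') ∧ ∀ x y, b (x + y) = ∑ i, u i x * v i y) →
    (∀ b ∈ B', (fun x => b (-x)) ∈ B') →
    Nonempty (LocalFunOrder ℓ M actM)

end Fermat.Agent.T1.AsmIface47
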