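/-
Programme T1a (S19), layer (A) ALG, bridge file (helper47): ring-theoretic properties of the subrings
`intSubring ℓ E = 𝒪_E ⊆ K̄`, needed to instantiate the Mathlib-only core `PolyOrder48` (`R` Noetherian
local, `𝒪` a finite `R`-algebra) with `R = 𝒪_E`, `𝒪 = 𝒪_L`, `E ≤ L` finite over `ℚ_ℓ`.

* `intEquiv : intSubring ℓ E ≃+* intRing ℓ E`, hence `isNoetherianRing`, `isLocalRing`, `isDomain`;
* `incl h : intSubring ℓ E →+* intSubring ℓ L` for `h : E ≤ L`, `algOfLe`, `moduleFinite_of_le`;
* `mem_span_pow_iff` : `a ∈ (ℓ ^ n) 𝒪_L ↔ ‖a‖ ≤ ‖ℓ‖ ^ n`;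
* `natCast_mem_maximalIdeal` : `ℓ ∈ 𝔪_{𝒪_E}`.
-/
import Mathlib
import Fermat.Agent.TW.B5.Iface
import Fermat.Agent.TW.PmModel48
import Fermat.Agent.TW.PmTwist48

set_option autoImplicit false
set_option linter.style.haveILetI false
set_option linter.unusedSectionVars false

open scoped Fermat.Agent.PT.LOC.Interface12
open Fermat.Agent.PT.LOC.Interface12 Fermat.Agent.PT.LOC.Structure14
open Fermat.Agent.TW.B5.Iface Fermat.Agent.TW.PmModel48 Fermat.Agent.TW.PmTwist48

namespace Fermat.Agent.T1.IntSub47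

noncomputable section

variable (p : ℕ) [hp : Fact p.Prime]

theorem norm_p_lt_one : ‖(p : Kbar p)‖ < 1 := by
  have h1 : ((p : ℚ_[p]) : Kbar p) = (p : Kbar p) := map_natCast (algebraMap ℚ_[p] (Kbar p)) p
  rw [← h1, PadicAlgCl.norm_extends, Padic.norm_p]
  exact inv_lt_one_of_one_lt₀ (by exact_mod_cast hp.out.one_lt)

theorem norm_p_pos : 0 < ‖(p : Kbar p)‖ := by
  rw [norm_pos_iff]
  exact_mod_cast hp.out.ne_zero

section Ring

variable (E : IntermediateField ℚ_[p] (Kbar p)) [FiniteDimensional ℚ_[p] E]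

/-- `𝒪_E` in the subring model is the integral closure of `ℤ_p` in `E`. -/
def intEquiv : intSubring p E ≃+* intRing p E :=
  { toInt p E with
    invFun := ofInt p E
    left_inv := ofInt_toInt p E
    right_inv := toInt_ofInt p E }

theorem isNoetherianRing : IsNoetherianRing (intSubring p E) :=
  isNoetherianRing_of_ringEquiv (intRing p E) (intEquiv p E).symm

theorem isLocalRing : IsLocalRing (intSubring p E) := (intEquiv p E).symm.isLocalRing

theorem natCast_mem_maximalIdeal :
    letI := isLocalRing p E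
    (p : intSubring p E) ∈ IsLocalRing.maximalIdeal (intSubring p E) := by
  letI := isLocalRing p E
  rw [IsLocalRing.mem_maximalIdeal, mem_nonunits_iff]
  rintro ⟨u, hu⟩
  have h1 : (p : Kbar p) * ((u⁻¹ : (intSubring p E)ˣ) : intSubring p E) = 1 := by
    have h2 : (u : intSubring p E) * ((u⁻¹ : (intSubring p E)ˣ) : intSubring p E) = 1 := u.mul_inv
    rw [hu] at h2
    have h3 := congrArg (fun z : intSubring p E => (z : Kbar p)) h2
    simpa using h3
  have h4 : ‖(p : Kbar p)‖ * ‖(((u⁻¹ : (intSubring p E)ˣ) : intSubring p E) : Kbar p)‖ = 1 := by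
    rw [← norm_mul, h1, norm_one]
  have h5 : ‖(((u⁻¹ : (intSubring p E)ˣ) : intSubring p E) : Kbar p)‖ ≤ 1 :=
    ((u⁻¹ : (intSubring p E)ˣ) : intSubring p E).2.2
  have h6 := norm_p_lt_one p
  have h7 := norm_p_pos p
  nlinarith [norm_nonneg (((u⁻¹ : (intSubring p E)ˣ) : intSubring p E) : Kbar p)]

end Ring

section Tower

variable {E L : IntermediateField ℚ_[p] (Kbar p)}

theorem intSubring_mono (h : E ≤ L) : intSubring p E ≤ intSubring p L :=
  fun _ hx => ⟨h hx.1, hx.2⟩

/-- `𝒪_E → 𝒪_L` for `E ≤ L`. -/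
def incl (h : E ≤ L) : intSubring p E →+* intSubring p L :=
  Subring.inclusion (intSubring_mono p h)

@[simp] theorem coe_incl (h : E ≤ L) (x : intSubring p E) :
    ((incl p h x : intSubring p L) : Kbar p) = (x : Kbar p) := rfl

/-- The `𝒪_E`-algebra structure of `𝒪_L` (not an instance). -/
@[reducible] def algOfLe (h : E ≤ L) : Algebra (intSubring p E) (intSubring p L) :=
  (incl p h).toAlgebra

theorem coe_algebraMap (h : E ≤ L) (x : intSubring p E) :
    letI := algOfLe p h
    ((algebraMap (intSubring p E) (intSubring p L) x : intSubring p L) : Kbar p) = (x : Kbar p) :=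
  rfl

theorem moduleFinite_of_le (h : E ≤ L) [FiniteDimensional ℚ_[p] L] :
    letI := algOfLe p h
    Module.Finite (intSubring p E) (intSubring p L) := by
  letI := algOfLe p h
  letI := algZpSub p L
  letI := algZpSub p E
  haveI : IsScalarTower ℤ_[p] (intSubring p E) (intSubring p L) :=
    IsScalarTower.of_algebraMap_eq (fun x => Subtype.ext rfl)
  haveI : Module.Finite ℤ_[p] (intSubring p L) := moduleFinite_intSubring p L
  exact Module.Finite.of_restrictScalars_finite ℤ_[p] (intSubring p E) (intSubring p L)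

/-- **Dictionary**: divisibility by `ℓ ^ n` in `𝒪_L` is the norm condition. -/
theorem mem_span_pow_iff (h : E ≤ L) (n : ℕ) (a : intSubring p L) :
    letI := algOfLe p h
    a ∈ Ideal.span {algebraMap (intSubring p E) (intSubring p L) ((p : intSubring p E) ^ n)} ↔
      ‖(a : Kbar p)‖ ≤ ‖(p : Kbar p)‖ ^ n := by
  letI := algOfLe p h
  have hp0 : (p : Kbar p) ≠ 0 := by exact_mod_cast hp.out.ne_zero
  rw [Ideal.mem_span_singleton']
  constructor
  · rintro ⟨w, hw⟩
    have h1 : (a : Kbar p) = (w : Kbar p) * (p : Kbar p) ^ n := by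
      rw [← hw, Subring.coe_mul, coe_algebraMap]
      simp
    rw [h1, norm_mul, norm_pow]
    have h2 : ‖(w : Kbar p)‖ ≤ 1 := w.2.2
    have h3 : 0 ≤ ‖(p : Kbar p)‖ ^ n := pow_nonneg (norm_nonneg _) n
    nlinarith
  · intro hle
    have hmem : (a : Kbar p) / (p : Kbar p) ^ n ∈ intSubring p L := by
      refine ⟨L.div_mem a.2.1 (pow_mem (natCast_mem L p) n), ?_⟩
      rw [norm_div, norm_pow]
      exact div_le_one_of_le₀ hle (pow_nonneg (norm_nonneg _) n)
    refine ⟨⟨_, hmem⟩, Subtype.ext ?_⟩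
    rw [Subring.coe_mul, coe_algebraMap]
    simp only [SubmonoidClass.coe_pow, SubringClass.coe_natCast]
    field_simp

end Tower

end

end Fermat.Agent.T1.IntSub47
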