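/-
Programme T1a (S19), layer (A) ALG, brick A1z: the ABSTRACT ASSEMBLY (helper25).

`theorem assembly (ℓ) : AsmIface47.Assembly ℓ` : from a non-equivariant order `B'` over `𝒪_{K''}`,
`K'' = ℚ_ℓ(μ_m)`, stable under the semilinear action of `G_ℓ` with `Gal(K̄/K'')` acting trivially, to
the local function order `B := (B')^{G_ℓ}` over `ℤ_ℓ`, with the two descent statements
`UnramDescent`, `TraceOne` (brick A2) as hypotheses.
-/
import Mathlib
import Fermat.Agent.T1.AsmIface47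
import Fermat.Agent.T1.IntSub47

set_option autoImplicit false
set_option maxHeartbeats 400000

noncomputable section

namespace Fermat.Agent.T1.Assembly25

open Fermat.Agent.TW.B5.Iface Fermat.Agent.TW.B5.LG83W Fermat.Agent.T1.AlgIface47
  Fermat.Agent.T1.AsmIface47 Fermat.Agent.TW.PmTwist48

variable (ℓ : ℕ) [Fact ℓ.Prime]

/-! ### `galFun` is a ring automorphism of the functions -/

section GalFun

variable {X : Type} (actX : Gp ℓ → X → X)

lemma galFun_apply (σ : Gp ℓ) (b : X → Kbar ℓ) (x : X) :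
    galFun ℓ actX σ b x = σ (b (actX σ⁻¹ x)) := rfl

lemma galFun_mul (σ : Gp ℓ) (b c : X → Kbar ℓ) :
    galFun ℓ actX σ (b * c) = galFun ℓ actX σ b * galFun ℓ actX σ c := by
  funext x
  simp [galFun_apply]

lemma galFun_add (σ : Gp ℓ) (b c : X → Kbar ℓ) :
    galFun ℓ actX σ (b + c) = galFun ℓ actX σ b + galFun ℓ actX σ c := by
  funext x
  simp [galFun_apply]

lemma galFun_const_of_fixed (σ : Gp ℓ) (c : Kbar ℓ) (hc : σ c = c) :
    galFun ℓ actX σ (fun _ => c) = fun _ => c := by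
  funext x
  simp [galFun_apply, hc]

end GalFun

/-! ### Elements of `K̄` fixed by `G_ℓ` -/

/-- An element of `K̄` of norm `≤ 1` fixed by `G_ℓ` comes from `ℤ_ℓ`. -/
theorem exists_padicInt_of_fixed {a : Kbar ℓ} (hfix : ∀ σ : Gp ℓ, σ a = a) (hnorm : ‖a‖ ≤ 1) :
    ∃ r : ℤ_[ℓ], algebraMap ℤ_[ℓ] (Kbar ℓ) r = a := by
  have h1 : a ∈ (⊥ : IntermediateField ℚ_[ℓ] (Kbar ℓ)) := by
    rw [← InfiniteGalois.fixedField_fixingSubgroup (⊥ : IntermediateField ℚ_[ℓ] (Kbar ℓ)),
      IntermediateField.mem_fixedField_iff]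
    intro σ _
    exact hfix σ
  obtain ⟨q, rfl⟩ := IntermediateField.mem_bot.1 h1
  rw [PadicAlgCl.norm_extends] at hnorm
  obtain ⟨r, hr⟩ : ∃ r : ℤ_[ℓ], (r : ℚ_[ℓ]) = q := ⟨⟨q, hnorm⟩, rfl⟩
  refine ⟨r, ?_⟩
  rw [IsScalarTower.algebraMap_apply ℤ_[ℓ] ℚ_[ℓ] (Kbar ℓ), ← hr]
  rfl

/-! ### The algebra of invariants -/

section Inv

variable {ℓ}
variable {M : Type} (actM : Gp ℓ → M → M) (m : ℕ) (B' : Subring (M → Kbar ℓ))
  (hmuS : ∀ r ∈ intSubring ℓ (muField ℓ m), ∀ b ∈ B', (fun x => r * b x) ∈ B')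

lemma algebraMap_zp_mem (E : IntermediateField ℚ_[ℓ] (Kbar ℓ)) (r : ℤ_[ℓ]) :
    algebraMap ℤ_[ℓ] (Kbar ℓ) r ∈ intSubring ℓ E := by
  have h := (zpToSub ℓ E r).2
  rw [IsScalarTower.algebraMap_apply ℤ_[ℓ] ℚ_[ℓ] (Kbar ℓ)]
  exact h

lemma algebraMap_zp_fixed (σ : Gp ℓ) (r : ℤ_[ℓ]) :
    σ (algebraMap ℤ_[ℓ] (Kbar ℓ) r) = algebraMap ℤ_[ℓ] (Kbar ℓ) r := by
  rw [IsScalarTower.algebraMap_apply ℤ_[ℓ] ℚ_[ℓ] (Kbar ℓ), σ.commutes]

include hmuS in
lemma const_mem (c : Kbar ℓ) (hc : c ∈ intSubring ℓ (muField ℓ m)) :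
    (fun _ : M => c) ∈ B' := by
  have h := hmuS c hc 1 B'.one_mem
  simpa using h

/-- `B = (B')^{G_ℓ}` as a `ℤ_ℓ`-subalgebra of the functions `M → K̄`. -/
def invSub : Subalgebra ℤ_[ℓ] (M → Kbar ℓ) where
  carrier := {b | b ∈ B' ∧ ∀ σ : Gp ℓ, galFun ℓ actM σ b = b}
  mul_mem' := fun {b c} hb hc => ⟨B'.mul_mem hb.1 hc.1, fun σ => by
    rw [galFun_mul, hb.2 σ, hc.2 σ]⟩
  add_mem' := fun {b c} hb hc => ⟨B'.add_mem hb.1 hc.1, fun σ => by
    rw [galFun_add, hb.2 σ, hc.2 σ]⟩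
  algebraMap_mem' := fun r => ⟨const_mem m B' hmuS _ (algebraMap_zp_mem _ r), fun σ =>
    galFun_const_of_fixed ℓ actM σ _ (algebraMap_zp_fixed σ r)⟩

lemma mem_invSub {b : M → Kbar ℓ} :
    b ∈ invSub actM m B' hmuS ↔ b ∈ B' ∧ ∀ σ : Gp ℓ, galFun ℓ actM σ b = b := Iff.rfl

end Inv

/-! ### Finiteness -/

section Fin

variable {ℓ}
variable {M : Type} [Finite M] (L : IntermediateField ℚ_[ℓ] (Kbar ℓ)) [FiniteDimensional ℚ_[ℓ] L]

/-- The `ℤ_ℓ`-module of the functions `M → 𝒪_L`, inside `M → K̄`. -/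
def intFun : Submodule ℤ_[ℓ] (M → Kbar ℓ) where
  carrier := {f | ∀ x, f x ∈ intSubring ℓ L}
  add_mem' := fun {f g} hf hg x => (intSubring ℓ L).add_mem (hf x) (hg x)
  zero_mem' := fun _ => (intSubring ℓ L).zero_mem
  smul_mem' := fun c f hf x => by
    show c • f x ∈ intSubring ℓ L
    rw [Algebra.smul_def]
    exact (intSubring ℓ L).mul_mem (algebraMap_zp_mem L c) (hf x)

theorem finite_intFun : Module.Finite ℤ_[ℓ] (intFun (M := M) L) := by
  letI := algZpSub ℓ L
  haveI : Module.Finite ℤ_[ℓ] (intSubring ℓ L) := moduleFinite_intSubring ℓ L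
  let g : (M → intSubring ℓ L) →ₗ[ℤ_[ℓ]] intFun (M := M) L :=
    { toFun := fun f => ⟨fun x => (f x : Kbar ℓ), fun x => (f x).2⟩
      map_add' := fun f f' => rfl
      map_smul' := fun c f => by
        apply Subtype.ext
        funext x
        show ((c • f x : intSubring ℓ L) : Kbar ℓ) = c • (f x : Kbar ℓ)
        rw [Algebra.smul_def, Algebra.smul_def, IsScalarTower.algebraMap_apply ℤ_[ℓ] ℚ_[ℓ] (Kbar ℓ)]
        rfl }
  refine Module.Finite.of_surjective g fun f => ⟨fun x => ⟨f.1 x, f.2 x⟩, rfl⟩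

end Fin

/-! ### The assembly -/

/-- **Abstract assembly** (brick A1z of layer (A)). -/
theorem assembly : Assembly ℓ := by
  intro hUD hT1 M _ _ actM h1 hmul hadd m hm L hL B' hval hmuS hgal htriv hsep hcomul hneg
  classical
  -- elementary consequences of the action axioms
  have hinv : ∀ (σ : Gp ℓ) (x : M), actM σ⁻¹ (actM σ x) = x := fun σ x => by
    rw [← hmul, inv_mul_cancel, h1]
  have hzero : ∀ σ : Gp ℓ, actM σ 0 = 0 := fun σ => by
    have h := hadd σ 0 0
    rw [add_zero] at h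
    exact left_eq_add.mp h
  have hnegM : ∀ (σ : Gp ℓ) (x : M), actM σ (-x) = -actM σ x := fun σ x => by
    have h := hadd σ x (-x)
    rw [add_neg_cancel, hzero] at h
    exact eq_neg_of_add_eq_zero_right h.symm
  -- the descent statement for `B'`
  have hdesc := hUD m hm M actM h1 hmul B'.toAddSubgroup hmuS hgal htriv
  set B : Subalgebra ℤ_[ℓ] (M → Kbar ℓ) := invSub actM m B' hmuS with hB
  refine ⟨{ B := B, fg := ?_, equivariant := ?_, separates := ?_, comul_mem := ?_,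
            neg_mem := ?_, zero_mem := ?_ }⟩
  · -- finiteness
    haveI : Module.Finite ℤ_[ℓ] (intFun (M := M) L) := finite_intFun L
    haveI : IsNoetherian ℤ_[ℓ] (intFun (M := M) L) := isNoetherian_of_isNoetherianRing_of_finite _ _
    have hle : Subalgebra.toSubmodule B ≤ intFun (M := M) L := fun b hb x => hval b hb.1 x
    exact Module.Finite.of_injective (Submodule.inclusion hle) (Submodule.inclusion_injective hle)
  · -- equivariance
    intro b hb σ x
    have h := congrFun (hb.2 σ) (actM σ x)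
    rw [galFun_apply, hinv] at h
    exact h.symm
  · -- separation
    intro x y hxy
    apply hsep x y
    intro b hb
    obtain ⟨ι, _, a, c, -, hc, hcinv, hbc⟩ := hdesc b hb
    rw [hbc x, hbc y]
    refine Finset.sum_congr rfl fun i _ => ?_
    rw [hxy (c i) ⟨hc i, hcinv i⟩]
  · -- comultiplication
    intro b hb
    obtain ⟨κ, _, u, v, hu, hv, huv⟩ := hcomul b hb.1
    choose I hI a c ha hc hcinv huc using fun k => hdesc (u k) (hu k)
    choose I' hI' a' c' ha' hc' hcinv' hvc using fun k => hdesc (v k) (hv k)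
    letI : ∀ k, Fintype (I k) := hI
    letI : ∀ k, Fintype (I' k) := hI'
    -- the diagonal action on `M × M`
    let actX : Gp ℓ → M × M → M × M := fun σ xy => (actM σ xy.1, actM σ xy.2)
    let T : Type := Σ k : κ, I k × I' k
    let w : T → M × M → Kbar ℓ := fun t xy => c t.1 t.2.1 xy.1 * c' t.1 t.2.2 xy.2
    let A : T → Kbar ℓ := fun t => a t.1 t.2.1 * a' t.1 t.2.2
    let β : M × M → Kbar ℓ := fun xy => b (xy.1 + xy.2)
    have hA : ∀ t, A t ∈ intSubring ℓ (muField ℓ m) := fun t =>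
      (intSubring ℓ (muField ℓ m)).mul_mem (ha t.1 t.2.1) (ha' t.1 t.2.2)
    have hw : ∀ (t : T) (σ : Gp ℓ), galFun ℓ actX σ (w t) = w t := by
      intro t σ
      funext xy
      have e1 := congrFun (hcinv t.1 t.2.1 σ) xy.1
      have e2 := congrFun (hcinv' t.1 t.2.2 σ) xy.2
      rw [galFun_apply] at e1 e2
      show σ (c t.1 t.2.1 (actM σ⁻¹ xy.1) * c' t.1 t.2.2 (actM σ⁻¹ xy.2)) = _
      rw [map_mul, e1, e2]
    have hβ : ∀ σ : Gp ℓ, galFun ℓ actX σ β = β := by
      intro σ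
      funext xy
      have e1 := congrFun (hb.2 σ) (xy.1 + xy.2)
      rw [galFun_apply, hadd] at e1
      exact e1
    have hβw : ∀ xy, β xy = ∑ t, A t * w t xy := by
      intro xy
      show b (xy.1 + xy.2) = _
      rw [huv, Fintype.sum_sigma]
      refine Finset.sum_congr rfl fun k _ => ?_
      rw [huc k xy.1, hvc k xy.2, Finset.sum_mul_sum, Fintype.sum_prod_type]
      refine Finset.sum_congr rfl fun i _ => Finset.sum_congr rfl fun j _ => ?_
      show a k i * c k i xy.1 * (a' k j * c' k j xy.2) =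
        a k i * a' k j * (c k i xy.1 * c' k j xy.2)
      ring
    obtain ⟨z, hz⟩ := hT1 m hm (M × M) actX T A w β hA hw hβ hβw
    refine ⟨T, inferInstance, fun t x => algebraMap ℤ_[ℓ] (Kbar ℓ) (z t) * c t.1 t.2.1 x,
      fun t => c' t.1 t.2.2, fun t => ?_, fun t => ⟨hc' _ _, hcinv' _ _⟩, fun x y => ?_⟩
    · have hmem : c t.1 t.2.1 ∈ B := ⟨hc _ _, hcinv _ _⟩
      have := B.smul_mem hmem (z t)
      convert this using 1
      funext x
      rw [Pi.smul_apply, Algebra.smul_def]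
    · have := hz (x, y)
      show b (x + y) = _
      rw [show b (x + y) = β (x, y) from rfl, this]
      refine Finset.sum_congr rfl fun t _ => ?_
      show algebraMap ℤ_[ℓ] (Kbar ℓ) (z t) * (c t.1 t.2.1 x * c' t.1 t.2.2 y) = _
      ring
  · -- negation
    intro b hb
    refine ⟨hneg b hb.1, fun σ => ?_⟩
    funext x
    have e1 := congrFun (hb.2 σ) (-x)
    rw [galFun_apply, hnegM] at e1
    exact e1
  · -- value at zero
    intro b hb
    refine exists_padicInt_of_fixed ℓ (fun σ => ?_) (hval b hb.1 0).2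
    have e1 := congrFun (hb.2 σ) 0
    rw [galFun_apply, hzero] at e1
    exact e1

end Fermat.Agent.T1.Assembly25
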