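/-
Programme T1a (S19), algebra half (A), Mathlib-only core (helper48): **orders of polynomial functions
on finite point sets**.

`R` a Noetherian local ring, `ϖ` in its maximal ideal, `𝒪` a finite `R`-algebra.  For a family of
points `P : Z → σ → 𝒪` (`Z` finite) let `polyAlg P` be the `R`-algebra of functions
`z ↦ f (P z)`, `f ∈ R[T_i : i ∈ σ]`.

* `mem_of_forall_approx` (closedness = Krull's intersection theorem): a vector of a finite `R`-module
  which is congruent to elements of a submodule `S` modulo every power of a proper ideal lies in `S`;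
* `polyAlg_le_of_approx` (transport): if the coordinates `Q z i` of a second family are, modulo every
  power of `ϖ`, polynomials over `R` in the coordinates `P z j`, then `polyAlg Q ≤ polyAlg P`.
  No power series, no completeness, no topology;
* `exists_decomp_of_mem_polyAlg_sum` : polynomial functions on `Z × Z'` in the coordinates
  `P z ⊕ P' z'` are finite sums `∑ u_k(z) v_k(z')` with `u_k ∈ polyAlg P`, `v_k ∈ polyAlg P'`;
* `comul_decomp`, `neg_mem`, `zero_mem`, `separates`, `finite`: for a finite additive group `M` with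
  injective coordinates `P : M → σ → 𝒪` whose addition and negation laws are polynomial over `R`
  modulo every power of `ϖ`, the algebra `polyAlg P` is an `R`-order of functions on `M` closed under
  comultiplication, antipode and counit (the shape of `Flat44.FunOrder`, over the base `R`).
-/
import Mathlib

set_option autoImplicit false
set_option linter.unusedSectionVars false

open MvPolynomial

namespace Fermat.Agent.T1.PolyOrder48

/-! ### Closedness -/

section Closed

variable {R : Type*} [CommRing R] [IsNoetherianRing R] [IsLocalRing R]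
  {N : Type*} [AddCommGroup N] [Module R N] [Module.Finite R N]

/-- **Closedness of submodules** (Krull): a vector which is congruent to elements of `S` modulo
`I ^ n • N` for all `n` (`I` a proper ideal) lies in `S`. -/
theorem mem_of_forall_approx (S : Submodule R N) {I : Ideal R} (hI : I ≠ ⊤) {v : N}
    (h : ∀ n : ℕ, ∃ a ∈ S, v - a ∈ (I ^ n • ⊤ : Submodule R N)) : v ∈ S := by
  have hkrull := Ideal.iInf_pow_smul_eq_bot_of_isLocalRing (M := N ⧸ S) I hI
  have hmem : S.mkQ v ∈ (⨅ i : ℕ, I ^ i • ⊤ : Submodule R (N ⧸ S)) := by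
    rw [Submodule.mem_iInf]
    intro n
    obtain ⟨a, ha, hva⟩ := h n
    have h0 : S.mkQ a = 0 := (Submodule.Quotient.mk_eq_zero S).mpr ha
    have h1 : S.mkQ v = S.mkQ (v - a) := by
      rw [map_sub, h0, sub_zero]
    rw [h1]
    have h2 : S.mkQ (v - a) ∈ Submodule.map S.mkQ (I ^ n • ⊤ : Submodule R N) :=
      Submodule.mem_map_of_mem hva
    rw [Submodule.map_smul''] at h2
    exact Submodule.smul_mono le_rfl le_top h2
  rw [hkrull, Submodule.mem_bot] at hmem
  exact (Submodule.Quotient.mk_eq_zero S).mp hmem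

end Closed

/-! ### Polynomial functions on a family of points -/

section PolyAlg

variable {R : Type*} [CommRing R] {𝒪 : Type*} [CommRing 𝒪] [Algebra R 𝒪]
  {Z : Type*} {σ : Type*}

/-- Evaluation of polynomials over `R` at the points of the family `P`. -/
noncomputable def polyFun (P : Z → σ → 𝒪) : MvPolynomial σ R →ₐ[R] (Z → 𝒪) :=
  AlgHom.pi (fun z => MvPolynomial.aeval (P z))

@[simp] theorem polyFun_apply (P : Z → σ → 𝒪) (f : MvPolynomial σ R) (z : Z) :
    polyFun P f z = MvPolynomial.aeval (P z) f := rfl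

/-- The algebra of polynomial functions on the family `P`. -/
noncomputable def polyAlg (P : Z → σ → 𝒪) : Subalgebra R (Z → 𝒪) := (polyFun (R := R) P).range

theorem mem_polyAlg_iff (P : Z → σ → 𝒪) (b : Z → 𝒪) :
    b ∈ polyAlg (R := R) P ↔ ∃ f : MvPolynomial σ R, ∀ z, b z = MvPolynomial.aeval (P z) f := by
  constructor
  · rintro ⟨f, rfl⟩
    exact ⟨f, fun _ => rfl⟩
  · rintro ⟨f, hf⟩
    exact ⟨f, funext fun z => (hf z).symm⟩

theorem polyFun_mem (P : Z → σ → 𝒪) (f : MvPolynomial σ R) : polyFun P f ∈ polyAlg (R := R) P :=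
  ⟨f, rfl⟩

/-- The coordinate functions are polynomial functions. -/
theorem coord_mem (P : Z → σ → 𝒪) (i : σ) : (fun z => P z i) ∈ polyAlg (R := R) P :=
  (mem_polyAlg_iff P _).mpr ⟨X i, fun z => (aeval_X (P z) i).symm⟩

/-- Polynomials with coefficients in `R` are `1`-Lipschitz modulo any ideal of `𝒪`. -/
theorem aeval_sub_mem (J : Ideal 𝒪) (f : MvPolynomial σ R) {p q : σ → 𝒪}
    (h : ∀ i, p i - q i ∈ J) : MvPolynomial.aeval p f - MvPolynomial.aeval q f ∈ J := by
  rw [← Ideal.Quotient.eq_zero_iff_mem, map_sub, sub_eq_zero]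
  have h1 : ∀ r : σ → 𝒪, Ideal.Quotient.mk J (MvPolynomial.aeval r f)
      = MvPolynomial.eval₂ ((Ideal.Quotient.mk J).comp (algebraMap R 𝒪))
          (⇑(Ideal.Quotient.mk J) ∘ r) f := fun r => by
    rw [MvPolynomial.aeval_def, MvPolynomial.eval₂_comp_left]
  rw [h1 p, h1 q]
  congr 1
  funext i
  exact (Ideal.Quotient.eq.mpr (h i))

/-- Separation: injective coordinates give a separating algebra. -/
theorem separates (P : Z → σ → 𝒪) (hP : Function.Injective P) (x y : Z)
    (h : ∀ b ∈ polyAlg (R := R) P, b x = b y) : x = y :=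
  hP (funext fun i => h _ (coord_mem P i))

/-- Values at a point with coordinates in `R` lie in `R`. -/
theorem apply_mem_range_of_coord (P : Z → σ → 𝒪) (z : Z)
    (hz : ∀ i, P z i ∈ (algebraMap R 𝒪).range) {b : Z → 𝒪} (hb : b ∈ polyAlg (R := R) P) :
    b z ∈ (algebraMap R 𝒪).range := by
  obtain ⟨f, hf⟩ := (mem_polyAlg_iff P b).mp hb
  choose r hr using hz
  refine ⟨MvPolynomial.aeval r f, ?_⟩
  rw [hf z]
  have h1 : P z = ⇑(algebraMap R 𝒪) ∘ r := funext fun i => (hr i).symm
  rw [h1, MvPolynomial.aeval_algebraMap_apply]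

/-- Finiteness over a Noetherian base. -/
theorem finite [IsNoetherianRing R] [Module.Finite R 𝒪] [Finite Z] (P : Z → σ → 𝒪) :
    Module.Finite R (polyAlg (R := R) P) := by
  have : IsNoetherian R (Z → 𝒪) := isNoetherian_of_isNoetherianRing_of_finite R (Z → 𝒪)
  exact Module.Finite.iff_fg.mpr (IsNoetherian.noetherian (polyAlg (R := R) P).toSubmodule)

end PolyAlg

/-! ### Transport along approximately polynomial changes of coordinates -/

section Transport

variable {R : Type*} [CommRing R] [IsNoetherianRing R] [IsLocalRing R]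
  {𝒪 : Type*} [CommRing 𝒪] [Algebra R 𝒪] [Module.Finite R 𝒪]
  {Z : Type*} [Finite Z] {σ τ : Type*}

/-- **Transport.**  If, modulo every power of `ϖ ∈ 𝔪_R`, the coordinates `Q z i` are polynomials over
`R` in the coordinates `P z j`, then every polynomial function of the `Q`-coordinates is a polynomial
function of the `P`-coordinates. -/
theorem polyAlg_le_of_approx (P : Z → σ → 𝒪) (Q : Z → τ → 𝒪) {ϖ : R}
    (hϖ : ϖ ∈ IsLocalRing.maximalIdeal R)
    (h : ∀ n : ℕ, ∃ G : τ → MvPolynomial σ R, ∀ z i,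
      Q z i - MvPolynomial.aeval (P z) (G i) ∈ Ideal.span {algebraMap R 𝒪 (ϖ ^ n)}) :
    polyAlg (R := R) Q ≤ polyAlg (R := R) P := by
  rintro _ ⟨f, rfl⟩
  change polyFun Q f ∈ polyAlg (R := R) P
  have hI : Ideal.span {ϖ} ≠ (⊤ : Ideal R) := by
    intro htop
    have h1 : IsLocalRing.maximalIdeal R = ⊤ :=
      top_le_iff.mp (htop ▸ (Ideal.span_singleton_le_iff_mem _).mpr hϖ)
    exact (IsLocalRing.maximalIdeal.isMaximal R).ne_top h1
  refine mem_of_forall_approx (N := Z → 𝒪) (polyAlg (R := R) P).toSubmodule hI ?_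
  intro n
  obtain ⟨G, hG⟩ := h n
  refine ⟨polyFun P (bind₁ G f), polyFun_mem P _, ?_⟩
  -- pointwise estimate
  have hpt : ∀ z, ∃ w : 𝒪, (polyFun Q f - polyFun P (bind₁ G f)) z = (ϖ ^ n) • w := by
    intro z
    have h1 : (polyFun Q f - polyFun P (bind₁ G f)) z
        = MvPolynomial.aeval (Q z) f
          - MvPolynomial.aeval (fun i => MvPolynomial.aeval (P z) (G i)) f := by
      rw [Pi.sub_apply, polyFun_apply, polyFun_apply, aeval_bind₁]
    have h2 := aeval_sub_mem (Ideal.span {algebraMap R 𝒪 (ϖ ^ n)}) f (hG z)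
    rw [← h1, Ideal.mem_span_singleton'] at h2
    obtain ⟨w, hw⟩ := h2
    exact ⟨w, by rw [← hw, Algebra.smul_def, mul_comm]⟩
  choose w hw using hpt
  have h3 : polyFun Q f - polyFun P (bind₁ G f) = (ϖ ^ n) • w := funext hw
  rw [h3, Ideal.span_singleton_pow]
  exact Submodule.smul_mem_smul (Ideal.mem_span_singleton_self _) Submodule.mem_top

end Transport

/-! ### Product point sets -/

section Product

variable {R : Type*} [CommRing R] {𝒪 : Type*} [CommRing 𝒪] [Algebra R 𝒪]
  {Z Z' : Type*} {σ σ' : Type*}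

/-- The product family of points: coordinates `P z ⊕ P' z'`. -/
def prodFamily (P : Z → σ → 𝒪) (P' : Z' → σ' → 𝒪) : Z × Z' → (σ ⊕ σ') → 𝒪 :=
  fun zz => Sum.elim (P zz.1) (P' zz.2)

/-- A function on `Z × Z'` is decomposable if it is a finite sum of products `u(z) v(z')` of
polynomial functions. -/
def Decomposable (P : Z → σ → 𝒪) (P' : Z' → σ' → 𝒪) (b : Z × Z' → 𝒪) : Prop :=
  ∃ (ι : Type) (_ : Fintype ι) (u : ι → Z → 𝒪) (v : ι → Z' → 𝒪),
    (∀ k, u k ∈ polyAlg (R := R) P) ∧ (∀ k, v k ∈ polyAlg (R := R) P') ∧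
      ∀ z z', b (z, z') = ∑ k, u k z * v k z'

theorem decomposable_const (P : Z → σ → 𝒪) (P' : Z' → σ' → 𝒪) (a : R) :
    Decomposable (R := R) P P' (fun _ => algebraMap R 𝒪 a) := by
  refine ⟨Unit, inferInstance, fun _ _ => algebraMap R 𝒪 a, fun _ _ => 1, fun _ => ?_, fun _ => ?_,
    fun z z' => by simp⟩
  · exact (polyAlg (R := R) P).algebraMap_mem a
  · exact (polyAlg (R := R) P').one_mem

theorem Decomposable.add {P : Z → σ → 𝒪} {P' : Z' → σ' → 𝒪} {b b' : Z × Z' → 𝒪}
    (hb : Decomposable (R := R) P P' b) (hb' : Decomposable (R := R) P P' b') :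
    Decomposable (R := R) P P' (b + b') := by
  obtain ⟨ι, _, u, v, hu, hv, huv⟩ := hb
  obtain ⟨ι', _, u', v', hu', hv', huv'⟩ := hb'
  refine ⟨ι ⊕ ι', inferInstance, Sum.elim u u', Sum.elim v v', ?_, ?_, fun z z' => ?_⟩
  · rintro (k | k)
    · exact hu k
    · exact hu' k
  · rintro (k | k)
    · exact hv k
    · exact hv' k
  · rw [Pi.add_apply, huv, huv', Fintype.sum_sum_type]
    rfl

theorem Decomposable.mul_left {P : Z → σ → 𝒪} {P' : Z' → σ' → 𝒪} {b : Z × Z' → 𝒪}
    (hb : Decomposable (R := R) P P' b) {c : Z → 𝒪} (hc : c ∈ polyAlg (R := R) P) :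
    Decomposable (R := R) P P' (fun zz => b zz * c zz.1) := by
  obtain ⟨ι, _, u, v, hu, hv, huv⟩ := hb
  refine ⟨ι, inferInstance, fun k => u k * c, v, fun k => (polyAlg (R := R) P).mul_mem (hu k) hc, hv,
    fun z z' => ?_⟩
  show b (z, z') * c z = _
  rw [huv, Finset.sum_mul]
  refine Finset.sum_congr rfl fun k _ => ?_
  show u k z * v k z' * c z = (u k z * c z) * v k z'
  ring

theorem Decomposable.mul_right {P : Z → σ → 𝒪} {P' : Z' → σ' → 𝒪} {b : Z × Z' → 𝒪}
    (hb : Decomposable (R := R) P P' b) {c : Z' → 𝒪} (hc : c ∈ polyAlg (R := R) P') :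
    Decomposable (R := R) P P' (fun zz => b zz * c zz.2) := by
  obtain ⟨ι, _, u, v, hu, hv, huv⟩ := hb
  refine ⟨ι, inferInstance, u, fun k => v k * c, hu,
    fun k => (polyAlg (R := R) P').mul_mem (hv k) hc, fun z z' => ?_⟩
  show b (z, z') * c z' = _
  rw [huv, Finset.sum_mul]
  refine Finset.sum_congr rfl fun k _ => ?_
  show u k z * v k z' * c z' = u k z * (v k z' * c z')
  ring

/-- Polynomial functions in the product coordinates are decomposable. -/
theorem exists_decomp_of_mem_polyAlg_sum (P : Z → σ → 𝒪) (P' : Z' → σ' → 𝒪) {b : Z × Z' → 𝒪}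
    (hb : b ∈ polyAlg (R := R) (prodFamily P P')) : Decomposable (R := R) P P' b := by
  obtain ⟨f, rfl⟩ := hb
  change Decomposable (R := R) P P' (polyFun (prodFamily P P') f)
  induction f using MvPolynomial.induction_on with
  | C a =>
    have h1 : polyFun (R := R) (prodFamily P P') (C a) = fun _ => algebraMap R 𝒪 a := by
      funext zz
      rw [polyFun_apply, aeval_C]
    rw [h1]
    exact decomposable_const P P' a
  | add p q hp hq =>
    rw [map_add]
    exact hp.add hq
  | mul_X p i hp =>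
    rw [map_mul]
    rcases i with i | j
    · have h1 : polyFun (R := R) (prodFamily P P') (X (Sum.inl i)) = fun zz => P zz.1 i := by
        funext zz
        rw [polyFun_apply, aeval_X]
        rfl
      rw [h1]
      exact hp.mul_left (coord_mem P i)
    · have h1 : polyFun (R := R) (prodFamily P P') (X (Sum.inr j)) = fun zz => P' zz.2 j := by
        funext zz
        rw [polyFun_apply, aeval_X]
        rfl
      rw [h1]
      exact hp.mul_right (coord_mem P' j)

end Product

/-! ### The order attached to approximately polynomial group laws -/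

section Group

variable {R : Type*} [CommRing R] [IsNoetherianRing R] [IsLocalRing R]
  {𝒪 : Type*} [CommRing 𝒪] [Algebra R 𝒪] [Module.Finite R 𝒪]
  {M : Type*} [AddCommGroup M] [Finite M] {σ : Type*}

/-- **Comultiplication.**  If the coordinates of `m + m'` are, modulo every power of `ϖ`,
polynomials over `R` in the coordinates of `m` and `m'`, then `b (m + m') = ∑ u_k(m) v_k(m')` with
`u_k, v_k ∈ polyAlg P` for every `b ∈ polyAlg P`. -/
theorem comul_decomp (P : M → σ → 𝒪) {ϖ : R} (hϖ : ϖ ∈ IsLocalRing.maximalIdeal R)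
    (hadd : ∀ n : ℕ, ∃ G : σ → MvPolynomial (σ ⊕ σ) R, ∀ m m' i,
      P (m + m') i - MvPolynomial.aeval (Sum.elim (P m) (P m')) (G i)
        ∈ Ideal.span {algebraMap R 𝒪 (ϖ ^ n)})
    {b : M → 𝒪} (hb : b ∈ polyAlg (R := R) P) :
    ∃ (ι : Type) (_ : Fintype ι) (u v : ι → M → 𝒪),
      (∀ k, u k ∈ polyAlg (R := R) P) ∧ (∀ k, v k ∈ polyAlg (R := R) P) ∧
        ∀ m m', b (m + m') = ∑ k, u k m * v k m' := by
  obtain ⟨f, rfl⟩ := hb
  let Q : M × M → σ → 𝒪 := fun mm => P (mm.1 + mm.2)
  have h1 : polyFun (R := R) Q f ∈ polyAlg (R := R) (prodFamily P P) := by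
    refine polyAlg_le_of_approx (prodFamily P P) Q hϖ ?_ (polyFun_mem Q f)
    intro n
    obtain ⟨G, hG⟩ := hadd n
    exact ⟨G, fun mm i => hG mm.1 mm.2 i⟩
  obtain ⟨ι, hι, u, v, hu, hv, huv⟩ := exists_decomp_of_mem_polyAlg_sum P P h1
  exact ⟨ι, hι, u, v, hu, hv, fun m m' => huv m m'⟩

/-- **Antipode.** -/
theorem neg_mem (P : M → σ → 𝒪) {ϖ : R} (hϖ : ϖ ∈ IsLocalRing.maximalIdeal R)
    (hneg : ∀ n : ℕ, ∃ G : σ → MvPolynomial σ R, ∀ m i,
      P (-m) i - MvPolynomial.aeval (P m) (G i) ∈ Ideal.span {algebraMap R 𝒪 (ϖ ^ n)})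
    {b : M → 𝒪} (hb : b ∈ polyAlg (R := R) P) : (fun m => b (-m)) ∈ polyAlg (R := R) P := by
  obtain ⟨f, rfl⟩ := hb
  let Q : M → σ → 𝒪 := fun m => P (-m)
  exact polyAlg_le_of_approx P Q hϖ hneg (polyFun_mem Q f)

/-- **Counit.** -/
theorem zero_mem (P : M → σ → 𝒪) (hzero : ∀ i, P 0 i ∈ (algebraMap R 𝒪).range)
    {b : M → 𝒪} (hb : b ∈ polyAlg (R := R) P) : b 0 ∈ (algebraMap R 𝒪).range :=
  apply_mem_range_of_coord P 0 hzero hb

end Group

end Fermat.Agent.T1.PolyOrder48
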