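/-
Programme T1a (S19), algebra half (A), brick A1 (helper48): **the non-equivariant order attached to
exact analytic data**, Mathlib-only (on top of `PolyOrder48`).

Setting: `R` a Noetherian local ring, `ϖ ∈ 𝔪_R`, `𝒪` a finite `R`-algebra; `𝒥` an abelian group,
`J1 ≤ 𝒥` ("kernel of reduction") with coordinates `t : 𝒥 → σ → 𝒪` (only the values on `J1` matter)
which are injective on `J1` and in which addition and negation are, modulo every power of `ϖ`,
polynomial over `R`; `X ≤ 𝒥` a subgroup of "rational points" (`t x ∈ R^σ` for `x ∈ X ∩ J1`);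
`M ≤ 𝒥` a finite subgroup all of whose `J1`-cosets meet `X` ("centres").

* Part 1 (`ext`): coordinates on a disjoint union of cosets = local coordinates + indicator
  functions of the cosets; a function is polynomial in the extended coordinates iff it is polynomial
  in the local coordinates on every coset (`mem_polyAlg_ext_iff`); coset-wise approximate polynomial
  laws give approximate polynomial laws in the extended coordinates (`ext_add_law`, `ext_neg_law`,
  `polyAlg_ext_le_of_approx`).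
* Part 2 (`ExactData`, `order`): the canonical `R`-algebra
  `order D = {b : M → 𝒪 | ∀ x ∈ X, ∃ f ∈ R[T], ∀ m ∈ M, m - x ∈ J1 → b m = f (t (m - x))}`;
  it equals `polyAlg (ext κ s)` for any choice of centres (`order_eq_polyAlg`), hence is finite over
  `R`, separates the points of `M`, and is stable under comultiplication, antipode and counit
  (`order_finite`, `order_separates`, `order_comul`, `order_neg`, `order_zero`); it is stable under
  every semilinear automorphism of the data (`order_semilinear`), no approximation needed there.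
-/
import Mathlib
import Fermat.Agent.T1.PolyOrder48

set_option autoImplicit false
set_option linter.unusedSectionVars false

open MvPolynomial

namespace Fermat.Agent.T1.CosetOrder48

open Fermat.Agent.T1.PolyOrder48

/-! ### Part 1: extended coordinates on a union of cosets -/

section Ext

variable {R : Type*} [CommRing R] {𝒪 : Type*} [CommRing 𝒪] [Algebra R 𝒪]
  {Z : Type*} {C : Type*} {σ : Type*}

open Classical in
/-- Extended coordinates: the local coordinates `s z` together with the indicator functions of the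
fibres of `κ`. -/
noncomputable def ext (κ : Z → C) (s : Z → σ → 𝒪) : Z → (σ ⊕ C) → 𝒪 :=
  fun z => Sum.elim (s z) (fun c => if κ z = c then 1 else 0)

@[simp] theorem ext_inl (κ : Z → C) (s : Z → σ → 𝒪) (z : Z) (i : σ) :
    ext κ s z (Sum.inl i) = s z i := rfl

open Classical in
theorem ext_inr (κ : Z → C) (s : Z → σ → 𝒪) (z : Z) (c : C) :
    ext κ s z (Sum.inr c) = if κ z = c then 1 else 0 := rfl

theorem ext_inr_self (κ : Z → C) (s : Z → σ → 𝒪) (z : Z) :
    ext κ s z (Sum.inr (κ z)) = 1 := by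
  classical
  rw [ext_inr, if_pos rfl]

theorem ext_inr_of_ne (κ : Z → C) (s : Z → σ → 𝒪) (z : Z) {c : C} (h : κ z ≠ c) :
    ext κ s z (Sum.inr c) = 0 := by
  classical
  rw [ext_inr, if_neg h]

theorem ext_comp_inl (κ : Z → C) (s : Z → σ → 𝒪) (z : Z) :
    ext κ s z ∘ Sum.inl = s z := rfl

/-- Extended coordinates are injective as soon as the local coordinates are injective on every
fibre. -/
theorem ext_injective [Nontrivial 𝒪] (κ : Z → C) (s : Z → σ → 𝒪)
    (h : ∀ z z', κ z = κ z' → s z = s z' → z = z') : Function.Injective (ext κ s) := by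
  intro z z' hzz
  have h1 : κ z' = κ z := by
    by_contra hne
    have h2 := congrFun hzz (Sum.inr (κ z))
    rw [ext_inr_self, ext_inr_of_ne κ s z' hne] at h2
    exact one_ne_zero h2
  refine h z z' h1.symm ?_
  funext i
  exact congrFun hzz (Sum.inl i)

variable [Fintype C]

/-- Glue polynomials given fibre by fibre. -/
noncomputable def glue (f : C → MvPolynomial σ R) : MvPolynomial (σ ⊕ C) R :=
  ∑ c, X (Sum.inr c) * rename Sum.inl (f c)

theorem aeval_ext_glue (κ : Z → C) (s : Z → σ → 𝒪) (f : C → MvPolynomial σ R) (z : Z) :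
    MvPolynomial.aeval (ext κ s z) (glue f) = MvPolynomial.aeval (s z) (f (κ z)) := by
  classical
  rw [glue, map_sum, Finset.sum_eq_single (κ z)]
  · rw [map_mul, aeval_X, ext_inr_self, one_mul, aeval_rename, ext_comp_inl]
  · intro c _ hc
    rw [map_mul, aeval_X, ext_inr_of_ne κ s z (Ne.symm hc), zero_mul]
  · intro h
    exact absurd (Finset.mem_univ _) h

/-- Restriction of a polynomial in the extended coordinates to the fibre over `c`. -/
noncomputable def fibrePoly (c : C) (F : MvPolynomial (σ ⊕ C) R) : MvPolynomial σ R :=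
  open Classical in
  bind₁ (Sum.elim (fun i => X i) (fun c' => if c = c' then 1 else 0)) F

theorem aeval_fibrePoly (κ : Z → C) (s : Z → σ → 𝒪) (F : MvPolynomial (σ ⊕ C) R) (z : Z) :
    MvPolynomial.aeval (s z) (fibrePoly (κ z) F) = MvPolynomial.aeval (ext κ s z) F := by
  classical
  rw [fibrePoly, aeval_bind₁]
  have h1 : (fun j => MvPolynomial.aeval (s z)
      (Sum.elim (fun i => (X i : MvPolynomial σ R)) (fun c' => if κ z = c' then 1 else 0) j))
      = ext κ s z := by
    funext j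
    rcases j with i | c'
    · simp
    · by_cases hc : κ z = c'
      · simp [ext_inr, hc]
      · simp [ext_inr, hc]
  rw [h1]

/-- A function is polynomial in the extended coordinates iff it is polynomial in the local
coordinates on every fibre. -/
theorem mem_polyAlg_ext_iff (κ : Z → C) (s : Z → σ → 𝒪) (b : Z → 𝒪) :
    b ∈ polyAlg (R := R) (ext κ s) ↔
      ∀ c, ∃ f : MvPolynomial σ R, ∀ z, κ z = c → b z = MvPolynomial.aeval (s z) f := by
  rw [mem_polyAlg_iff]
  constructor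
  · rintro ⟨F, hF⟩ c
    refine ⟨fibrePoly c F, fun z hz => ?_⟩
    rw [hF z, ← hz, aeval_fibrePoly]
  · intro h
    choose f hf using h
    refine ⟨glue f, fun z => ?_⟩
    rw [aeval_ext_glue, hf (κ z) z rfl]

end Ext

section ExtApprox

variable {R : Type*} [CommRing R] [IsNoetherianRing R] [IsLocalRing R]
  {𝒪 : Type*} [CommRing 𝒪] [Algebra R 𝒪] [Module.Finite R 𝒪]
  {Z : Type*} [Finite Z] {C : Type*} [Fintype C] {σ τ : Type*}

/-- Fibre-wise approximately polynomial changes of the local coordinates give an inclusion of the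
algebras of polynomial functions in the extended coordinates. -/
theorem polyAlg_ext_le_of_approx (κ : Z → C) (s : Z → σ → 𝒪) (s' : Z → τ → 𝒪) {ϖ : R}
    (hϖ : ϖ ∈ IsLocalRing.maximalIdeal R)
    (h : ∀ (n : ℕ) (c : C), ∃ G : τ → MvPolynomial σ R, ∀ z, κ z = c → ∀ i,
      s' z i - MvPolynomial.aeval (s z) (G i) ∈ Ideal.span {algebraMap R 𝒪 (ϖ ^ n)}) :
    polyAlg (R := R) (ext κ s') ≤ polyAlg (R := R) (ext κ s) := by
  refine polyAlg_le_of_approx (ext κ s) (ext κ s') hϖ fun n => ?_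
  choose G hG using h n
  refine ⟨Sum.elim (fun i => glue (fun c => G c i)) (fun c => X (Sum.inr c)), fun z j => ?_⟩
  rcases j with i | c
  · rw [ext_inl, Sum.elim_inl, aeval_ext_glue]
    exact hG (κ z) z rfl i
  · rw [Sum.elim_inr, aeval_X, ext_inr, ext_inr, sub_self]
    exact zero_mem _

end ExtApprox

section ExtGroup

variable {R : Type*} [CommRing R] {𝒪 : Type*} [CommRing 𝒪] [Algebra R 𝒪]
  {M : Type*} [AddCommGroup M] {C : Type*} [AddCommGroup C] [Fintype C] {σ : Type*}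

/-- Coset-wise approximate addition laws give an approximate addition law in the extended
coordinates. -/
theorem ext_add_law (κ : M →+ C) (s : M → σ → 𝒪) (J : Ideal 𝒪)
    (h : ∀ c c' : C, ∃ G : σ → MvPolynomial (σ ⊕ σ) R, ∀ m m', κ m = c → κ m' = c' → ∀ i,
      s (m + m') i - MvPolynomial.aeval (Sum.elim (s m) (s m')) (G i) ∈ J) :
    ∃ G : (σ ⊕ C) → MvPolynomial ((σ ⊕ C) ⊕ (σ ⊕ C)) R, ∀ m m' j,
      ext κ s (m + m') j - MvPolynomial.aeval (Sum.elim (ext κ s m) (ext κ s m')) (G j) ∈ J := by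
  classical
  choose G hG using h
  refine ⟨Sum.elim
    (fun i => ∑ c, ∑ c', X (Sum.inl (Sum.inr c)) * X (Sum.inr (Sum.inr c')) *
      rename (Sum.map Sum.inl Sum.inl) (G c c' i))
    (fun c'' => ∑ c, X (Sum.inl (Sum.inr c)) * X (Sum.inr (Sum.inr (c'' - c)))), fun m m' j => ?_⟩
  rcases j with i | c''
  · rw [Sum.elim_inl, ext_inl, map_sum, Finset.sum_eq_single (κ m)]
    · rw [map_sum, Finset.sum_eq_single (κ m')]
      · rw [map_mul, map_mul, aeval_X, aeval_X, Sum.elim_inl, Sum.elim_inr, ext_inr_self,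
          ext_inr_self, one_mul, one_mul, aeval_rename]
        have h1 : Sum.elim (ext κ s m) (ext κ s m') ∘ Sum.map Sum.inl Sum.inl
            = Sum.elim (s m) (s m') := by
          funext j
          rcases j with j | j <;> rfl
        rw [h1]
        exact hG (κ m) (κ m') m m' rfl rfl i
      · intro c' _ hc'
        rw [map_mul, map_mul, aeval_X, aeval_X, Sum.elim_inr,
          ext_inr_of_ne κ s m' (Ne.symm hc'), mul_zero, zero_mul]
      · intro h
        exact absurd (Finset.mem_univ _) h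
    · intro c _ hc
      rw [map_sum]
      refine Finset.sum_eq_zero fun c' _ => ?_
      rw [map_mul, map_mul, aeval_X, Sum.elim_inl, ext_inr_of_ne κ s m (Ne.symm hc), zero_mul,
        zero_mul]
    · intro h
      exact absurd (Finset.mem_univ _) h
  · rw [Sum.elim_inr, map_sum, Finset.sum_eq_single (κ m)]
    · rw [map_mul, aeval_X, aeval_X, Sum.elim_inl, Sum.elim_inr, ext_inr_self, one_mul,
        ext_inr, ext_inr, map_add]
      have h1 : (κ m + κ m' = c'') ↔ (κ m' = c'' - κ m) := by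
        rw [eq_sub_iff_add_eq']
      simp only [h1, sub_self]
      exact zero_mem _
    · intro c _ hc
      rw [map_mul, aeval_X, Sum.elim_inl, ext_inr_of_ne κ s m (Ne.symm hc), zero_mul]
    · intro h
      exact absurd (Finset.mem_univ _) h

/-- Coset-wise approximate negation laws give an approximate negation law in the extended
coordinates. -/
theorem ext_neg_law (κ : M →+ C) (s : M → σ → 𝒪) (J : Ideal 𝒪)
    (h : ∀ c : C, ∃ G : σ → MvPolynomial σ R, ∀ m, κ m = c → ∀ i,
      s (-m) i - MvPolynomial.aeval (s m) (G i) ∈ J) :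
    ∃ G : (σ ⊕ C) → MvPolynomial (σ ⊕ C) R, ∀ m j,
      ext κ s (-m) j - MvPolynomial.aeval (ext κ s m) (G j) ∈ J := by
  classical
  choose G hG using h
  refine ⟨Sum.elim (fun i => glue (fun c => G c i)) (fun c' => X (Sum.inr (-c'))), fun m j => ?_⟩
  rcases j with i | c'
  · rw [Sum.elim_inl, ext_inl, aeval_ext_glue]
    exact hG (κ m) m rfl i
  · rw [Sum.elim_inr, aeval_X, ext_inr, ext_inr, map_neg]
    have h1 : (-κ m = c') ↔ (κ m = -c') := neg_eq_iff_eq_neg
    simp only [h1, sub_self]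
    exact zero_mem _

end ExtGroup

/-! ### Antipode from comultiplication on a finite group -/

section Antipode

variable {R : Type*} [CommRing R] {𝒪 : Type*} [CommRing 𝒪] [Algebra R 𝒪]
  {M : Type*} [AddCommGroup M]

/-- A subalgebra of functions on an additive group which is stable under comultiplication and whose
members take values in `R` at `0` is stable under `b ↦ b (k • ·)`. -/
theorem nsmul_mem_of_comul (B : Subalgebra R (M → 𝒪))
    (hcomul : ∀ b ∈ B, ∃ (ι : Type) (_ : Fintype ι) (u v : ι → M → 𝒪),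
      (∀ k, u k ∈ B) ∧ (∀ k, v k ∈ B) ∧ ∀ m m', b (m + m') = ∑ k, u k m * v k m')
    (hzero : ∀ b ∈ B, b 0 ∈ (algebraMap R 𝒪).range) (k : ℕ) :
    ∀ b ∈ B, (fun m => b (k • m)) ∈ B := by
  induction k with
  | zero =>
    intro b hb
    obtain ⟨r, hr⟩ := hzero b hb
    have h1 : (fun m : M => b (0 • m)) = algebraMap R (M → 𝒪) r := by
      funext m
      rw [zero_smul, Pi.algebraMap_apply, hr]
    rw [h1]
    exact B.algebraMap_mem r
  | succ k ih =>
    intro b hb
    obtain ⟨ι, _, u, v, hu, hv, huv⟩ := hcomul b hb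
    have h1 : (fun m : M => b ((k + 1) • m)) = ∑ j, (fun m => u j (k • m)) * v j := by
      funext m
      rw [succ_nsmul, huv, Finset.sum_apply]
      rfl
    rw [h1]
    exact B.sum_mem fun j _ => B.mul_mem (ih (u j) (hu j)) (hv j)

/-- On a finite group, stability under comultiplication and counit implies stability under the
antipode. -/
theorem neg_mem_of_comul [Finite M] (B : Subalgebra R (M → 𝒪))
    (hcomul : ∀ b ∈ B, ∃ (ι : Type) (_ : Fintype ι) (u v : ι → M → 𝒪),
      (∀ k, u k ∈ B) ∧ (∀ k, v k ∈ B) ∧ ∀ m m', b (m + m') = ∑ k, u k m * v k m')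
    (hzero : ∀ b ∈ B, b 0 ∈ (algebraMap R 𝒪).range) :
    ∀ b ∈ B, (fun m => b (-m)) ∈ B := by
  intro b hb
  have hpos : 0 < Nat.card M := Nat.card_pos
  have h1 : ∀ m : M, (Nat.card M - 1) • m = -m := by
    intro m
    have h2 : (Nat.card M - 1) • m + m = 0 := by
      rw [← succ_nsmul, Nat.sub_add_cancel hpos]
      exact card_nsmul_eq_zero'
    exact eq_neg_of_add_eq_zero_left h2
  have h3 := nsmul_mem_of_comul B hcomul hzero (Nat.card M - 1) b hb
  have h4 : (fun m : M => b ((Nat.card M - 1) • m)) = fun m => b (-m) := by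
    funext m
    rw [h1]
  rwa [h4] at h3

end Antipode

/-! ### Part 2: exact analytic data and the canonical order -/

/-- **Exact analytic data**: a kernel of reduction `J1` with coordinates `t` (injective on `J1`,
addition polynomial over `R` modulo every power of `ϖ`), a subgroup `Rat` of rational points (their
coordinates lie in `R`), and a subgroup `M` all of whose `J1`-cosets contain rational points. -/
structure ExactData (R : Type*) [CommRing R] (𝒪 : Type*) [CommRing 𝒪] [Algebra R 𝒪]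
    (𝒥 : Type*) [AddCommGroup 𝒥] (σ : Type*) (ϖ : R) where
  /-- the kernel of reduction -/
  J1 : AddSubgroup 𝒥
  /-- the rational points -/
  Rat : AddSubgroup 𝒥
  /-- the (finite) group of interest -/
  M : AddSubgroup 𝒥
  /-- the coordinates; only the values on `J1` matter -/
  t : 𝒥 → σ → 𝒪
  t_inj : ∀ x ∈ J1, ∀ y ∈ J1, t x = t y → x = y
  t_add : ∀ n : ℕ, ∃ F : σ → MvPolynomial (σ ⊕ σ) R, ∀ x ∈ J1, ∀ y ∈ J1, ∀ i,
    t (x + y) i - MvPolynomial.aeval (Sum.elim (t x) (t y)) (F i)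
      ∈ Ideal.span {algebraMap R 𝒪 (ϖ ^ n)}
  t_rat : ∀ x ∈ Rat, x ∈ J1 → ∀ i, t x i ∈ (algebraMap R 𝒪).range
  centres : ∀ m ∈ M, ∃ x ∈ Rat, m - x ∈ J1

namespace ExactData

section Basic

variable {R : Type*} [CommRing R] {𝒪 : Type*} [CommRing 𝒪] [Algebra R 𝒪]
  {𝒥 : Type*} [AddCommGroup 𝒥] {σ : Type*} {ϖ : R} (D : ExactData R 𝒪 𝒥 σ ϖ)

/-- The canonical algebra of functions on `M` which, on every `J1`-coset, are polynomials over `R`
in the coordinates centred at any rational point of the coset. -/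
def order : Subalgebra R (D.M → 𝒪) where
  carrier := {b | ∀ x ∈ D.Rat, ∃ f : MvPolynomial σ R, ∀ m : D.M, (m : 𝒥) - x ∈ D.J1 →
    b m = MvPolynomial.aeval (D.t ((m : 𝒥) - x)) f}
  mul_mem' := by
    intro a b ha hb x hx
    obtain ⟨f, hf⟩ := ha x hx
    obtain ⟨f', hf'⟩ := hb x hx
    exact ⟨f * f', fun m hm => by rw [Pi.mul_apply, hf m hm, hf' m hm, map_mul]⟩
  add_mem' := by
    intro a b ha hb x hx
    obtain ⟨f, hf⟩ := ha x hx
    obtain ⟨f', hf'⟩ := hb x hx
    exact ⟨f + f', fun m hm => by rw [Pi.add_apply, hf m hm, hf' m hm, map_add]⟩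
  algebraMap_mem' := by
    intro r x _
    exact ⟨C r, fun m _ => by rw [Pi.algebraMap_apply, aeval_C]⟩

theorem mem_order (b : D.M → 𝒪) :
    b ∈ D.order ↔ ∀ x ∈ D.Rat, ∃ f : MvPolynomial σ R, ∀ m : D.M, (m : 𝒥) - x ∈ D.J1 →
      b m = MvPolynomial.aeval (D.t ((m : 𝒥) - x)) f := Iff.rfl

/-- The group of `J1`-cosets of `M`. -/
abbrev Coset : Type _ := D.M ⧸ D.J1.addSubgroupOf D.M

/-- The class map. -/
def κ : D.M →+ D.Coset := QuotientAddGroup.mk' _

theorem κ_surjective : Function.Surjective D.κ := QuotientAddGroup.mk'_surjective _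

theorem κ_eq_iff (m m' : D.M) : D.κ m = D.κ m' ↔ (m : 𝒥) - m' ∈ D.J1 := by
  have h1 : D.κ m = D.κ m' ↔ -m + m' ∈ D.J1.addSubgroupOf D.M := QuotientAddGroup.eq
  rw [h1, AddSubgroup.mem_addSubgroupOf, ← neg_mem_iff]
  have h2 : -((-m + m' : D.M) : 𝒥) = (m : 𝒥) - m' := by
    push_cast
    abel
  rw [h2]

/-- A system of rational centres exists. -/
theorem exists_centres : ∃ x : D.Coset → 𝒥, (∀ c, x c ∈ D.Rat) ∧
    ∀ m : D.M, (m : 𝒥) - x (D.κ m) ∈ D.J1 := by
  have h : ∀ c : D.Coset, ∃ x ∈ D.Rat, ∀ m : D.M, D.κ m = c → (m : 𝒥) - x ∈ D.J1 := by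
    intro c
    obtain ⟨m₀, rfl⟩ := D.κ_surjective c
    obtain ⟨x, hx, hmx⟩ := D.centres m₀ m₀.2
    refine ⟨x, hx, fun m hm => ?_⟩
    have h1 : (m : 𝒥) - x = ((m : 𝒥) - m₀) + ((m₀ : 𝒥) - x) := by abel
    rw [h1]
    exact D.J1.add_mem ((D.κ_eq_iff m m₀).mp hm) hmx
  choose x hx hx' using h
  exact ⟨x, hx, fun m => hx' (D.κ m) m rfl⟩

/-- Local coordinates with respect to a system of centres. -/
def s (x : D.Coset → 𝒥) : D.M → σ → 𝒪 := fun m => D.t ((m : 𝒥) - x (D.κ m))

theorem s_inj_on_coset (x : D.Coset → 𝒥) (hx' : ∀ m : D.M, (m : 𝒥) - x (D.κ m) ∈ D.J1)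
    (m m' : D.M) (hκ : D.κ m = D.κ m') (hs : D.s x m = D.s x m') : m = m' := by
  have h1 := D.t_inj _ (hx' m) _ (hx' m') hs
  rw [hκ] at h1
  exact Subtype.ext (sub_left_injective h1)

/-- Semilinear maps and evaluation of polynomials. -/
theorem map_aeval_semilinear (φ : 𝒪 →+* 𝒪) (φR : R →+* R)
    (hφ : ∀ r, φ (algebraMap R 𝒪 r) = algebraMap R 𝒪 (φR r)) (p : σ → 𝒪) (f : MvPolynomial σ R) :
    φ (MvPolynomial.aeval p f) = MvPolynomial.aeval (fun i => φ (p i)) (MvPolynomial.map φR f) := by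
  rw [aeval_def, aeval_def, eval₂_comp_left, eval₂_map]
  congr 1
  exact RingHom.ext hφ

/-- **Semilinear stability** of the canonical order: no approximation needed. -/
theorem order_semilinear (e : 𝒥 ≃+ 𝒥) (φ : 𝒪 →+* 𝒪) (φR : R →+* R)
    (hφ : ∀ r, φ (algebraMap R 𝒪 r) = algebraMap R 𝒪 (φR r))
    (hJ : ∀ y ∈ D.J1, e.symm y ∈ D.J1) (hRat : ∀ y ∈ D.Rat, e.symm y ∈ D.Rat)
    (hM : ∀ y ∈ D.M, e.symm y ∈ D.M)
    (ht : ∀ y ∈ D.J1, ∀ i, D.t (e y) i = φ (D.t y i))
    {b : D.M → 𝒪} (hb : b ∈ D.order) :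
    (fun m : D.M => φ (b ⟨e.symm m, hM m m.2⟩)) ∈ D.order := by
  intro x hx
  obtain ⟨f, hf⟩ := hb (e.symm x) (hRat x hx)
  refine ⟨MvPolynomial.map φR f, fun m hm => ?_⟩
  have h1 : ((⟨e.symm m, hM m m.2⟩ : D.M) : 𝒥) - e.symm x = e.symm ((m : 𝒥) - x) := by
    rw [map_sub]
  have h2 : e.symm ((m : 𝒥) - x) ∈ D.J1 := hJ _ hm
  show φ (b ⟨e.symm m, hM m m.2⟩) = _
  rw [hf ⟨e.symm m, hM m m.2⟩ (h1 ▸ h2), h1, map_aeval_semilinear φ φR hφ]
  congr 2
  funext i
  rw [← ht _ h2 i, AddEquiv.apply_symm_apply]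

end Basic

section Laws

variable {R : Type*} [CommRing R] {𝒪 : Type*} [CommRing 𝒪] [Algebra R 𝒪]
  {𝒥 : Type*} [AddCommGroup 𝒥] {σ : Type*} {ϖ : R} (D : ExactData R 𝒪 𝒥 σ ϖ)

/-- Translation by a rational point of `J1` is approximately polynomial. -/
theorem exists_translate (n : ℕ) (δ : 𝒥) (hδ : δ ∈ D.Rat) (hδ1 : δ ∈ D.J1) :
    ∃ G : σ → MvPolynomial σ R, ∀ a ∈ D.J1, ∀ i,
      D.t (a + δ) i - MvPolynomial.aeval (D.t a) (G i) ∈ Ideal.span {algebraMap R 𝒪 (ϖ ^ n)} := by
  obtain ⟨F, hF⟩ := D.t_add n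
  choose r hr using D.t_rat δ hδ hδ1
  refine ⟨fun i => bind₁ (Sum.elim (fun j => X j) (fun j => C (r j))) (F i), fun a ha i => ?_⟩
  have h1 : (fun k => MvPolynomial.aeval (D.t a)
      (Sum.elim (fun j => (X j : MvPolynomial σ R)) (fun j => C (r j)) k))
      = Sum.elim (D.t a) (D.t δ) := by
    funext k
    rcases k with j | j
    · simp
    · simp [hr j]
  rw [aeval_bind₁, h1]
  exact hF a ha δ hδ1 i

/-- The coset-wise addition law in local coordinates. -/
theorem s_add_law (x : D.Coset → 𝒥) (hx : ∀ c, x c ∈ D.Rat)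
    (hx' : ∀ m : D.M, (m : 𝒥) - x (D.κ m) ∈ D.J1) (n : ℕ) (c c' : D.Coset) :
    ∃ G : σ → MvPolynomial (σ ⊕ σ) R, ∀ m m', D.κ m = c → D.κ m' = c' → ∀ i,
      D.s x (m + m') i - MvPolynomial.aeval (Sum.elim (D.s x m) (D.s x m')) (G i)
        ∈ Ideal.span {algebraMap R 𝒪 (ϖ ^ n)} := by
  obtain ⟨m₀, rfl⟩ := D.κ_surjective c
  obtain ⟨m₀', rfl⟩ := D.κ_surjective c'
  set δ : 𝒥 := x (D.κ m₀) + x (D.κ m₀') - x (D.κ m₀ + D.κ m₀') with hδdef
  have hδ : δ ∈ D.Rat := D.Rat.sub_mem (D.Rat.add_mem (hx _) (hx _)) (hx _)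
  have hδ1 : δ ∈ D.J1 := by
    have h1 : δ = (((m₀ + m₀' : D.M) : 𝒥) - x (D.κ (m₀ + m₀')))
        - (((m₀ : 𝒥) - x (D.κ m₀)) + ((m₀' : 𝒥) - x (D.κ m₀'))) := by
      rw [hδdef, map_add]
      push_cast
      abel
    rw [h1]
    exact D.J1.sub_mem (hx' _) (D.J1.add_mem (hx' _) (hx' _))
  obtain ⟨F, hF⟩ := D.t_add n
  obtain ⟨T, hT⟩ := D.exists_translate n δ hδ hδ1
  refine ⟨fun i => bind₁ F (T i), fun m m' hm hm' i => ?_⟩
  set a : 𝒥 := (m : 𝒥) - x (D.κ m) with hadef
  set b : 𝒥 := (m' : 𝒥) - x (D.κ m') with hbdef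
  have ha : a ∈ D.J1 := hx' m
  have hb : b ∈ D.J1 := hx' m'
  have h1 : D.s x (m + m') = D.t ((a + b) + δ) := by
    show D.t (((m + m' : D.M) : 𝒥) - x (D.κ (m + m'))) = _
    congr 1
    rw [hadef, hbdef, hδdef, map_add, hm, hm']
    push_cast
    abel
  have h2 : D.s x m = D.t a := rfl
  have h3 : D.s x m' = D.t b := rfl
  rw [h1, h2, h3, aeval_bind₁]
  have h4 := hT (a + b) (D.J1.add_mem ha hb) i
  have h5 : MvPolynomial.aeval (D.t (a + b)) (T i)
      - MvPolynomial.aeval (fun j => MvPolynomial.aeval (Sum.elim (D.t a) (D.t b)) (F j)) (T i)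
      ∈ Ideal.span {algebraMap R 𝒪 (ϖ ^ n)} :=
    aeval_sub_mem _ (T i) (fun j => hF a ha b hb j)
  have h6 := Ideal.add_mem _ h4 h5
  rwa [sub_add_sub_cancel] at h6

/-- The counit: the extended coordinates of `0` lie in `R`. -/
theorem ext_zero_rat (x : D.Coset → 𝒥) (hx : ∀ c, x c ∈ D.Rat)
    (hx' : ∀ m : D.M, (m : 𝒥) - x (D.κ m) ∈ D.J1) (j : σ ⊕ D.Coset) :
    ext D.κ (D.s x) 0 j ∈ (algebraMap R 𝒪).range := by
  classical
  rcases j with i | c
  · exact D.t_rat _ (D.Rat.sub_mem (D.Rat.zero_mem) (hx _)) (hx' 0) i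
  · rw [ext_inr]
    split_ifs
    · exact ⟨1, map_one _⟩
    · exact ⟨0, map_zero _⟩

end Laws

section Main

variable {R : Type*} [CommRing R] [IsNoetherianRing R] [IsLocalRing R]
  {𝒪 : Type*} [CommRing 𝒪] [Algebra R 𝒪] [Module.Finite R 𝒪]
  {𝒥 : Type*} [AddCommGroup 𝒥] {σ : Type*} {ϖ : R} (D : ExactData R 𝒪 𝒥 σ ϖ) [Finite D.M]

/-- The canonical order is the algebra of polynomial functions in the extended coordinates, for any
system of rational centres. -/
theorem order_eq_polyAlg (hϖ : ϖ ∈ IsLocalRing.maximalIdeal R) (x : D.Coset → 𝒥)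
    (hx : ∀ c, x c ∈ D.Rat) (hx' : ∀ m : D.M, (m : 𝒥) - x (D.κ m) ∈ D.J1) :
    D.order = polyAlg (R := R) (ext D.κ (D.s x)) := by
  have : Fintype D.Coset := Fintype.ofFinite _
  apply le_antisymm
  · intro b hb
    rw [mem_polyAlg_ext_iff]
    intro c
    obtain ⟨f, hf⟩ := hb (x c) (hx c)
    refine ⟨f, fun m hm => ?_⟩
    have h1 : (m : 𝒥) - x c ∈ D.J1 := hm ▸ hx' m
    rw [hf m h1]
    show _ = MvPolynomial.aeval (D.t ((m : 𝒥) - x (D.κ m))) f
    rw [hm]
  · intro b hb
    rw [mem_polyAlg_ext_iff] at hb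
    intro y hy
    by_cases hne : ∃ m₀ : D.M, (m₀ : 𝒥) - y ∈ D.J1
    · obtain ⟨m₀, hm₀⟩ := hne
      obtain ⟨f, hf⟩ := hb (D.κ m₀)
      -- the coset of `y`
      let Zy : Type _ := {m : D.M // (m : 𝒥) - y ∈ D.J1}
      have hκ : ∀ z : Zy, D.κ z.1 = D.κ m₀ := by
        intro z
        rw [D.κ_eq_iff]
        have h1 : ((z.1 : D.M) : 𝒥) - m₀ = (((z.1 : D.M) : 𝒥) - y) - ((m₀ : 𝒥) - y) := by abel
        rw [h1]
        exact D.J1.sub_mem z.2 hm₀
      set δ : 𝒥 := y - x (D.κ m₀) with hδdef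
      have hδ : δ ∈ D.Rat := D.Rat.sub_mem hy (hx _)
      have hδ1 : δ ∈ D.J1 := by
        have h1 : δ = ((m₀ : 𝒥) - x (D.κ m₀)) - ((m₀ : 𝒥) - y) := by
          rw [hδdef]; abel
        rw [h1]
        exact D.J1.sub_mem (hx' m₀) hm₀
      let P : Zy → σ → 𝒪 := fun z => D.t (((z.1 : D.M) : 𝒥) - y)
      let Q : Zy → σ → 𝒪 := fun z => D.t (((z.1 : D.M) : 𝒥) - x (D.κ m₀))
      have hQP : polyAlg (R := R) Q ≤ polyAlg (R := R) P := by
        refine polyAlg_le_of_approx P Q hϖ fun n => ?_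
        obtain ⟨T, hT⟩ := D.exists_translate n δ hδ hδ1
        refine ⟨T, fun z i => ?_⟩
        have h1 : ((z.1 : D.M) : 𝒥) - x (D.κ m₀) = (((z.1 : D.M) : 𝒥) - y) + δ := by
          rw [hδdef]; abel
        show D.t (((z.1 : D.M) : 𝒥) - x (D.κ m₀)) i - _ ∈ _
        rw [h1]
        exact hT _ z.2 i
      have hbQ : (fun z : Zy => b z.1) ∈ polyAlg (R := R) Q := by
        rw [mem_polyAlg_iff]
        refine ⟨f, fun z => ?_⟩
        rw [hf z.1 (hκ z)]
        show MvPolynomial.aeval (D.t (((z.1 : D.M) : 𝒥) - x (D.κ z.1))) f = _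
        rw [hκ z]
      obtain ⟨f', hf'⟩ := (mem_polyAlg_iff P _).mp (hQP hbQ)
      exact ⟨f', fun m hm => hf' ⟨m, hm⟩⟩
    · exact ⟨0, fun m hm => absurd ⟨m, hm⟩ hne⟩

variable [Nontrivial 𝒪]

/-- The canonical order is finite over `R`. -/
theorem order_finite : Module.Finite R D.order := by
  have : IsNoetherian R (D.M → 𝒪) := isNoetherian_of_isNoetherianRing_of_finite R (D.M → 𝒪)
  exact Module.Finite.iff_fg.mpr (IsNoetherian.noetherian D.order.toSubmodule)

/-- The canonical order separates the points of `M`. -/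
theorem order_separates (hϖ : ϖ ∈ IsLocalRing.maximalIdeal R) (m m' : D.M)
    (h : ∀ b ∈ D.order, b m = b m') : m = m' := by
  obtain ⟨x, hx, hx'⟩ := D.exists_centres
  rw [D.order_eq_polyAlg hϖ x hx hx'] at h
  exact separates _ (ext_injective D.κ (D.s x) (D.s_inj_on_coset x hx')) m m' h

/-- The canonical order is stable under comultiplication. -/
theorem order_comul (hϖ : ϖ ∈ IsLocalRing.maximalIdeal R) {b : D.M → 𝒪} (hb : b ∈ D.order) :
    ∃ (ι : Type) (_ : Fintype ι) (u v : ι → D.M → 𝒪),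
      (∀ k, u k ∈ D.order) ∧ (∀ k, v k ∈ D.order) ∧
        ∀ m m', b (m + m') = ∑ k, u k m * v k m' := by
  have : Fintype D.Coset := Fintype.ofFinite _
  obtain ⟨x, hx, hx'⟩ := D.exists_centres
  rw [D.order_eq_polyAlg hϖ x hx hx'] at hb ⊢
  exact comul_decomp (ext D.κ (D.s x)) hϖ
    (fun n => ext_add_law D.κ (D.s x) _ (D.s_add_law x hx hx' n)) hb

/-- Values at `0` lie in `R`. -/
theorem order_zero (hϖ : ϖ ∈ IsLocalRing.maximalIdeal R) {b : D.M → 𝒪} (hb : b ∈ D.order) :
    b 0 ∈ (algebraMap R 𝒪).range := by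
  obtain ⟨x, hx, hx'⟩ := D.exists_centres
  rw [D.order_eq_polyAlg hϖ x hx hx'] at hb
  exact zero_mem (ext D.κ (D.s x)) (D.ext_zero_rat x hx hx') hb

/-- The canonical order is stable under the antipode. -/
theorem order_neg (hϖ : ϖ ∈ IsLocalRing.maximalIdeal R) {b : D.M → 𝒪} (hb : b ∈ D.order) :
    (fun m => b (-m)) ∈ D.order :=
  neg_mem_of_comul D.order (fun _ hb' => D.order_comul hϖ hb') (fun _ hb' => D.order_zero hϖ hb')
    b hb

end Main

end ExactData

end Fermat.Agent.T1.CosetOrder48
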