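/-
Programme T1a (S19), layer (A) ALG (helper47): gluing coset-wise polynomials into ONE polynomial in the
extended coordinates (local coordinates ⊕ coset indicators).  Mathlib-only.

`ext a k : ι ⊕ C → 𝒪` is `a` on `ι` and the indicator of `k` on `C`.
* `aeval_glue` : `(∑ c, X (inr c) * rename inl (fam c)) (ext a k) = (fam k) (a)`;
* `aeval_glue₂` : the two-variable version on `(ι ⊕ C) ⊕ (ι ⊕ C)`;
* `aeval_ind₂` : `(∑_{c + c' = c''} X (inl (inr c)) * X (inr (inr c'))) (ext a k, ext a' k') = [k + k' = c'']`.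
-/
import Mathlib

set_option autoImplicit false
set_option linter.unusedSectionVars false

open MvPolynomial

namespace Fermat.Agent.T1.CosetPoly47

variable {R : Type*} [CommRing R] {𝒪 : Type*} [CommRing 𝒪] [Algebra R 𝒪]
  {ι : Type*} {C : Type*} [Fintype C] [DecidableEq C]

/-- Extended coordinates: `a` and the indicator of the coset `k`. -/
def ext (a : ι → 𝒪) (k : C) : ι ⊕ C → 𝒪 := Sum.elim a (fun c => if k = c then 1 else 0)

@[simp] theorem ext_inl (a : ι → 𝒪) (k : C) (i : ι) : ext a k (Sum.inl i) = a i := rfl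

@[simp] theorem ext_inr (a : ι → 𝒪) (k : C) (c : C) :
    ext a k (Sum.inr c) = if k = c then 1 else 0 := rfl

/-- The glued polynomial. -/
noncomputable def glue (fam : C → MvPolynomial ι R) : MvPolynomial (ι ⊕ C) R :=
  ∑ c, X (Sum.inr c) * rename Sum.inl (fam c)

theorem aeval_glue (a : ι → 𝒪) (k : C) (fam : C → MvPolynomial ι R) :
    aeval (ext a k) (glue fam) = aeval a (fam k) := by
  unfold glue
  rw [map_sum]
  rw [Finset.sum_eq_single k]
  · rw [map_mul, aeval_X, ext_inr, if_pos rfl, one_mul, aeval_rename]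
    rfl
  · intro c _ hc
    rw [map_mul, aeval_X, ext_inr, if_neg (Ne.symm hc), zero_mul]
  · intro h
    exact absurd (Finset.mem_univ k) h

/-- The glued polynomial in two sets of variables. -/
noncomputable def glue₂ (fam : C → C → MvPolynomial (ι ⊕ ι) R) :
    MvPolynomial ((ι ⊕ C) ⊕ (ι ⊕ C)) R :=
  ∑ c, ∑ c', X (Sum.inl (Sum.inr c)) * X (Sum.inr (Sum.inr c')) *
    rename (Sum.map Sum.inl Sum.inl) (fam c c')

theorem aeval_glue₂ (a a' : ι → 𝒪) (k k' : C) (fam : C → C → MvPolynomial (ι ⊕ ι) R) :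
    aeval (Sum.elim (ext a k) (ext a' k')) (glue₂ fam)
      = aeval (Sum.elim a a') (fam k k') := by
  unfold glue₂
  rw [map_sum]
  rw [Finset.sum_eq_single k]
  · rw [map_sum, Finset.sum_eq_single k']
    · rw [map_mul, map_mul, aeval_X, aeval_X, Sum.elim_inl, Sum.elim_inr, ext_inr, ext_inr,
        if_pos rfl, if_pos rfl, one_mul, one_mul, aeval_rename]
      have hfun : Sum.elim (ext a k) (ext a' k') ∘ Sum.map Sum.inl Sum.inl = Sum.elim a a' := by
        funext j
        cases j <;> rfl
      rw [hfun]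
    · intro c' _ hc'
      rw [map_mul, map_mul, aeval_X, aeval_X, Sum.elim_inr, ext_inr, if_neg (Ne.symm hc'),
        mul_zero, zero_mul]
    · intro h
      exact absurd (Finset.mem_univ k') h
  · intro c _ hc
    rw [map_sum]
    refine Finset.sum_eq_zero fun c' _ => ?_
    rw [map_mul, map_mul, aeval_X, Sum.elim_inl, ext_inr, if_neg (Ne.symm hc), zero_mul, zero_mul]
  · intro h
    exact absurd (Finset.mem_univ k) h

/-- The indicator polynomial of `c + c' = c''` in two sets of variables. -/
noncomputable def ind₂ [Add C] (c'' : C) : MvPolynomial ((ι ⊕ C) ⊕ (ι ⊕ C)) R :=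
  ∑ c, ∑ c', if c + c' = c'' then X (Sum.inl (Sum.inr c)) * X (Sum.inr (Sum.inr c')) else 0

theorem aeval_ind₂ [Add C] (a a' : ι → 𝒪) (k k' c'' : C) :
    aeval (Sum.elim (ext a k) (ext a' k')) (ind₂ (R := R) (ι := ι) c'')
      = if k + k' = c'' then 1 else 0 := by
  unfold ind₂
  rw [map_sum]
  rw [Finset.sum_eq_single k]
  · rw [map_sum, Finset.sum_eq_single k']
    · by_cases h : k + k' = c''
      · rw [if_pos h, if_pos h, map_mul, aeval_X, aeval_X, Sum.elim_inl, Sum.elim_inr, ext_inr,
          ext_inr, if_pos rfl, if_pos rfl, one_mul]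
      · rw [if_neg h, if_neg h, map_zero]
    · intro c' _ hc'
      by_cases h : k + c' = c''
      · rw [if_pos h, map_mul, aeval_X, aeval_X, Sum.elim_inr, ext_inr, if_neg (Ne.symm hc'),
          mul_zero]
      · rw [if_neg h, map_zero]
    · intro h
      exact absurd (Finset.mem_univ k') h
  · intro c _ hc
    rw [map_sum]
    refine Finset.sum_eq_zero fun c' _ => ?_
    by_cases h : c + c' = c''
    · rw [if_pos h, map_mul, aeval_X, Sum.elim_inl, ext_inr, if_neg (Ne.symm hc), zero_mul]
    · rw [if_neg h, map_zero]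
  · intro h
    exact absurd (Finset.mem_univ k) h

end Fermat.Agent.T1.CosetPoly47
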