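/-
Programme T1a (S19), layer (A) ALG (helper47): abstract Galois stability of the polynomial orders of
`PolyOrder48` (Mathlib-only).

`s : 𝒪 →+* 𝒪` a ring endomorphism inducing `sR : R →+* R` on the base, `π : Z → Z` a map.  If the coordinates
`s (P (π z) i)` are, modulo every power of `ϖ`, polynomials over `R` in the coordinates `P z j`, then
`z ↦ s (b (π z))` lies in `polyAlg P` for every `b ∈ polyAlg P`.
-/
import Mathlib
import Fermat.Agent.T1.PolyOrder48

set_option autoImplicit false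
set_option linter.unusedSectionVars false

open MvPolynomial

namespace Fermat.Agent.T1.GalStab47

open Fermat.Agent.T1.PolyOrder48

variable {R : Type*} [CommRing R] [IsNoetherianRing R] [IsLocalRing R]
  {𝒪 : Type*} [CommRing 𝒪] [Algebra R 𝒪] [Module.Finite R 𝒪]
  {Z : Type*} [Finite Z] {σ : Type*}

/-- `s (f (a)) = (sR f) (s ∘ a)`. -/
theorem map_aeval_semilinear (s : 𝒪 →+* 𝒪) (sR : R →+* R)
    (hs : ∀ r : R, s (algebraMap R 𝒪 r) = algebraMap R 𝒪 (sR r)) (a : σ → 𝒪)
    (f : MvPolynomial σ R) :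
    s (MvPolynomial.aeval a f) = MvPolynomial.aeval (fun i => s (a i)) (MvPolynomial.map sR f) := by
  induction f using MvPolynomial.induction_on with
  | C r => simp [hs]
  | add f g hf hg => simp [hf, hg]
  | mul_X f i hf => simp [hf]

/-- **Semilinear transport.** -/
theorem semilinear_mem (P : Z → σ → 𝒪) {ϖ : R} (hϖ : ϖ ∈ IsLocalRing.maximalIdeal R)
    (s : 𝒪 →+* 𝒪) (sR : R →+* R)
    (hs : ∀ r : R, s (algebraMap R 𝒪 r) = algebraMap R 𝒪 (sR r)) (π : Z → Z)
    (h : ∀ n : ℕ, ∃ H : σ → MvPolynomial σ R, ∀ z i,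
      s (P (π z) i) - MvPolynomial.aeval (P z) (H i) ∈ Ideal.span {algebraMap R 𝒪 (ϖ ^ n)})
    {b : Z → 𝒪} (hb : b ∈ polyAlg (R := R) P) :
    (fun z => s (b (π z))) ∈ polyAlg (R := R) P := by
  obtain ⟨f, rfl⟩ := hb
  let Q : Z → σ → 𝒪 := fun z i => s (P (π z) i)
  have h1 : (fun z => s (polyFun (R := R) P f (π z))) = polyFun (R := R) Q (MvPolynomial.map sR f) := by
    funext z
    rw [polyFun_apply, polyFun_apply, map_aeval_semilinear s sR hs]
  change (fun z => s (polyFun (R := R) P f (π z))) ∈ polyAlg (R := R) P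
  rw [h1]
  exact polyAlg_le_of_approx P Q hϖ h (polyFun_mem Q _)

end Fermat.Agent.T1.GalStab47
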