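/-
Programme T1a (S19), layer (A) ALG: the interface WITHOUT NEGATION (helper47; observation of helper48).

For a finite module `M`, stability of a function order under `b ↦ b ∘ neg` follows from stability under the
comultiplication and `b 0 ∈ R` (`-m = (|M| - 1) • m`; `CosetOrder48.neg_mem_of_comul`).  Hence the approximate
negation law `neg_approx` of `AlgIface47.DiscGroupData` is NOT needed.

UPDATE (decision of the T1A lead, 11:05Z): the field `neg_approx` has been DELETED from `AlgIface47.DiscGroupData`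
itself, so `DiscGroupDataNN` is now a verbatim copy of `DiscGroupData` (kept because the ALG pipeline
`Setup47`/`Inst47`/`Order47` is written against it); `DiscGroupData.toNN` is the identity on fields.
* `ALCNN` : `DiscGroupDataNN ⟹ Nonempty LocalFunOrder` (proved in `Alc47.alcNN`; `Alc47.alc` is a corollary).
Providers should target `AlgIface47.DiscGroupData` / `TruncIface47.DiscGroupDataTrunc`.
-/
import Mathlib
import Fermat.Agent.T1.AlgIface47

set_option autoImplicit false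

noncomputable section

namespace Fermat.Agent.T1.AlgIface47

open Fermat.Agent.TW.B5.Iface

variable (ℓ : ℕ) [Fact ℓ.Prime]

/-- `DiscGroupData` without the negation law (see `AlgIface47.DiscGroupData` for the meaning of the fields). -/
structure DiscGroupDataNN (J : Type) [AddCommGroup J] (M : Type) [AddCommGroup M]
    (actM : Gp ℓ → M → M) where
  act : Gp ℓ → J →+ J
  act_one : ∀ x, act 1 x = x
  act_mul : ∀ σ τ x, act (σ * τ) x = act σ (act τ x)
  J1 : AddSubgroup J
  J1_stable : ∀ σ, ∀ x ∈ J1, act σ x ∈ J1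
  g : ℕ
  t : J → Fin g → Kbar ℓ
  t_norm : ∀ x ∈ J1, ∀ i, ‖t x i‖ < 1
  t_inj : ∀ x ∈ J1, ∀ y ∈ J1, t x = t y → x = y
  t_equiv : ∀ σ, ∀ x ∈ J1, ∀ i, t (act σ x) i = σ (t x i)
  K' : IntermediateField ℚ_[ℓ] (Kbar ℓ)
  K'_fin : FiniteDimensional ℚ_[ℓ] K'
  K'_unr : IsUnramifiedField ℓ K'
  add_approx : ∀ ρ : ℝ, ρ < 1 → ∀ n : ℕ,
    ∃ F : Fin g → MvPolynomial (Fin g ⊕ Fin g) (intSubring ℓ K'),
      ∀ x ∈ J1, ∀ y ∈ J1, (∀ i, ‖t x i‖ ≤ ρ) → (∀ i, ‖t y i‖ ≤ ρ) → ∀ i,
        ‖t (x + y) i - MvPolynomial.aeval (Sum.elim (t x) (t y)) (F i)‖ ≤ ‖(ℓ : Kbar ℓ)‖ ^ n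
  emb : M →+ J
  emb_inj : Function.Injective emb
  emb_equiv : ∀ σ y, emb (actM σ y) = act σ (emb y)
  centres : ∀ y : M, ∃ x : J, emb y - x ∈ J1 ∧
    ∃ E : IntermediateField ℚ_[ℓ] (Kbar ℓ), FiniteDimensional ℚ_[ℓ] E ∧ IsUnramifiedField ℓ E ∧
      ∀ σ : Gp ℓ, (∀ e ∈ E, σ e = e) → act σ x = x

variable {ℓ}

/-- Forget the negation law. -/
def DiscGroupData.toNN {J : Type} [AddCommGroup J] {M : Type} [AddCommGroup M]
    {actM : Gp ℓ → M → M} (D : DiscGroupData ℓ J M actM) : DiscGroupDataNN ℓ J M actM where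
  act := D.act
  act_one := D.act_one
  act_mul := D.act_mul
  J1 := D.J1
  J1_stable := D.J1_stable
  g := D.g
  t := D.t
  t_norm := D.t_norm
  t_inj := D.t_inj
  t_equiv := D.t_equiv
  K' := D.K'
  K'_fin := D.K'_fin
  K'_unr := D.K'_unr
  add_approx := D.add_approx
  emb := D.emb
  emb_inj := D.emb_inj
  emb_equiv := D.emb_equiv
  centres := D.centres

variable (ℓ)

/-- **ALC without negation.** -/
def ALCNN : Prop :=
  ∀ (J : Type) [AddCommGroup J] (M : Type) [AddCommGroup M] [Finite M] (actM : Gp ℓ → M → M),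
    DiscGroupDataNN ℓ J M actM → Nonempty (LocalFunOrder ℓ M actM)

end Fermat.Agent.T1.AlgIface47
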