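/-
Programme T1a (S19), layer (A) ALG (helper47): norm estimates for polynomials with coefficients in `𝒪_E ⊆ K̄`
evaluated in the closed unit polydisc of `K̄`.

* `norm_add_le_max'`, `norm_sub_le_max'` : the ultrametric inequality in `K̄`;
* `norm_aeval_le_one` : `‖f a‖ ≤ 1`;
* `norm_aeval_sub_le` : `‖f a - f a'‖ ≤ ε` if `‖a i - a' i‖ ≤ ε` for all `i` (`1`-Lipschitz);
* `lipschitz : AlgIface47.Lipschitz ℓ`.
-/
import Mathlib
import Fermat.Agent.T1.AlgIface47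

set_option autoImplicit false

namespace Fermat.Agent.T1.PolyNorm47

open Fermat.Agent.TW.B5.Iface Fermat.Agent.T1.AlgIface47

variable (ℓ : ℕ) [Fact ℓ.Prime]

theorem norm_add_le_max' (x y : Kbar ℓ) : ‖x + y‖ ≤ max ‖x‖ ‖y‖ :=
  PadicAlgCl.isNonarchimedean ℓ x y

theorem norm_sub_le_max' (x y : Kbar ℓ) : ‖x - y‖ ≤ max ‖x‖ ‖y‖ := by
  have := norm_add_le_max' ℓ x (-y)
  rwa [norm_neg, ← sub_eq_add_neg] at this

/-- Transitivity of congruences: `‖x - z‖ ≤ ε` from `‖x - y‖ ≤ ε` and `‖y - z‖ ≤ ε`. -/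
theorem norm_sub_le_of_le {x y z : Kbar ℓ} {ε : ℝ} (h1 : ‖x - y‖ ≤ ε) (h2 : ‖y - z‖ ≤ ε) :
    ‖x - z‖ ≤ ε := by
  have h3 : x - z = (x - y) + (y - z) := by ring
  rw [h3]
  exact (norm_add_le_max' ℓ _ _).trans (max_le h1 h2)

variable {ℓ}

theorem norm_aeval_aux (E : IntermediateField ℚ_[ℓ] (Kbar ℓ)) {ι : Type*}
    (f : MvPolynomial ι (intSubring ℓ E)) (a a' : ι → Kbar ℓ) (ε : ℝ)
    (ha : ∀ i, ‖a i‖ ≤ 1) (ha' : ∀ i, ‖a' i‖ ≤ 1) (h : ∀ i, ‖a i - a' i‖ ≤ ε) (hε : 0 ≤ ε) :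
    ‖MvPolynomial.aeval a f‖ ≤ 1 ∧ ‖MvPolynomial.aeval a' f‖ ≤ 1 ∧
      ‖MvPolynomial.aeval a f - MvPolynomial.aeval a' f‖ ≤ ε := by
  induction f using MvPolynomial.induction_on with
  | C r =>
    refine ⟨?_, ?_, ?_⟩
    · rw [MvPolynomial.aeval_C]; exact r.2.2
    · rw [MvPolynomial.aeval_C]; exact r.2.2
    · rw [MvPolynomial.aeval_C, MvPolynomial.aeval_C, sub_self, norm_zero]; exact hε
  | add f g hf hg =>
    obtain ⟨f1, f2, f3⟩ := hf
    obtain ⟨g1, g2, g3⟩ := hg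
    refine ⟨?_, ?_, ?_⟩
    · rw [map_add]; exact (norm_add_le_max' ℓ _ _).trans (max_le f1 g1)
    · rw [map_add]; exact (norm_add_le_max' ℓ _ _).trans (max_le f2 g2)
    · rw [map_add, map_add, add_sub_add_comm]
      exact (norm_add_le_max' ℓ _ _).trans (max_le f3 g3)
  | mul_X f i hf =>
    obtain ⟨f1, f2, f3⟩ := hf
    refine ⟨?_, ?_, ?_⟩
    · rw [map_mul, MvPolynomial.aeval_X, norm_mul]
      exact mul_le_one₀ f1 (norm_nonneg _) (ha i)
    · rw [map_mul, MvPolynomial.aeval_X, norm_mul]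
      exact mul_le_one₀ f2 (norm_nonneg _) (ha' i)
    · rw [map_mul, map_mul, MvPolynomial.aeval_X, MvPolynomial.aeval_X]
      have h1 : MvPolynomial.aeval a f * a i - MvPolynomial.aeval a' f * a' i
          = (MvPolynomial.aeval a f - MvPolynomial.aeval a' f) * a i
            + MvPolynomial.aeval a' f * (a i - a' i) := by ring
      rw [h1]
      refine (norm_add_le_max' ℓ _ _).trans (max_le ?_ ?_)
      · rw [norm_mul]
        calc ‖MvPolynomial.aeval a f - MvPolynomial.aeval a' f‖ * ‖a i‖ ≤ ε * 1 :=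
              mul_le_mul f3 (ha i) (norm_nonneg _) hε
          _ = ε := mul_one ε
      · rw [norm_mul]
        calc ‖MvPolynomial.aeval a' f‖ * ‖a i - a' i‖ ≤ 1 * ε :=
              mul_le_mul f2 (h i) (norm_nonneg _) zero_le_one
          _ = ε := one_mul ε

/-- A polynomial over `𝒪_E` is bounded by `1` on the closed unit polydisc. -/
theorem norm_aeval_le_one (E : IntermediateField ℚ_[ℓ] (Kbar ℓ)) {ι : Type*}
    (f : MvPolynomial ι (intSubring ℓ E)) (a : ι → Kbar ℓ) (ha : ∀ i, ‖a i‖ ≤ 1) :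
    ‖MvPolynomial.aeval a f‖ ≤ 1 :=
  (norm_aeval_aux E f a a 0 ha ha (fun i => by rw [sub_self, norm_zero]) le_rfl).1

/-- A polynomial over `𝒪_E` is `1`-Lipschitz on the closed unit polydisc. -/
theorem norm_aeval_sub_le (E : IntermediateField ℚ_[ℓ] (Kbar ℓ)) {ι : Type*}
    (f : MvPolynomial ι (intSubring ℓ E)) (a a' : ι → Kbar ℓ) (ε : ℝ)
    (ha : ∀ i, ‖a i‖ ≤ 1) (ha' : ∀ i, ‖a' i‖ ≤ 1) (h : ∀ i, ‖a i - a' i‖ ≤ ε) (hε : 0 ≤ ε) :
    ‖MvPolynomial.aeval a f - MvPolynomial.aeval a' f‖ ≤ ε :=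
  (norm_aeval_aux E f a a' ε ha ha' h hε).2.2

variable (ℓ)

/-- **(a1) Lipschitz** in the norm form of the interface. -/
theorem lipschitz : Lipschitz ℓ := by
  intro E ι f a a' ε ha ha' h hε
  exact ⟨norm_aeval_le_one E f a ha, norm_aeval_sub_le E f a a' ε ha ha' h hε⟩

end Fermat.Agent.T1.PolyNorm47
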