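/-
Programme T1a (S19), layer (A) ALG, brick (a2) (helper47): finite unramified extensions of `ℚ_ℓ` inside
`K̄ = PadicAlgCl ℓ` are cofinal with the fields `ℚ_ℓ(μ_m)`, `ℓ ∤ m`; fixed points of `Gal(K̄/ℚ_ℓ(μ_m))`.

* `unramLeMu : AlgIface47.UnramLeMu ℓ` : `E` finite unramified ⟹ `E ≤ muField ℓ m` for some `ℓ ∤ m`;
* `exists_mu_ge_of_finite` : the same for a finite family of finite unramified fields;
* `mem_muField_of_fixed` : `x` fixed by every `σ` fixing `muField ℓ m` pointwise lies in `muField ℓ m`;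
* `fixes_conj` : if `σ` fixes `muField ℓ m` pointwise then so does `τ * σ * τ⁻¹`.
-/
import Mathlib
import Fermat.Agent.T1.AlgIface47
import Fermat.Agent.TW.B5.LG83X

set_option autoImplicit false
set_option linter.style.haveILetI false

namespace Fermat.Agent.T1.Unram47

open Fermat.Agent.TW.B5.Iface Fermat.Agent.TW.B5.IfaceLG Fermat.Agent.TW.B5.LG83W
  Fermat.Agent.TW.B5.LG83X Fermat.Agent.T1.AlgIface47

variable (ℓ : ℕ) [Fact ℓ.Prime]

/-- An element fixed by all of inertia lies in some `ℚ_ℓ(μ_m)`, `ℓ ∤ m`. -/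
theorem exists_mem_muField_of_fixed {x : Kbar ℓ}
    (hx : ∀ τ : Gp ℓ, IsInertial ℓ τ → τ x = x) : ∃ m : ℕ, ¬ ℓ ∣ m ∧ x ∈ muField ℓ m := by
  have h1 : x ∈ Kur ℓ := by
    rw [← InfiniteGalois.fixedField_fixingSubgroup (Kur ℓ), IntermediateField.mem_fixedField_iff]
    intro τ hτ
    exact hx τ (isInertial_of_mem_fixingSubgroup ℓ hτ)
  exact (mem_Kur_iff ℓ x).1 h1

/-- Finitely many elements fixed by inertia lie in one `ℚ_ℓ(μ_m)`. -/
theorem exists_muField_of_finset (S : Finset (Kbar ℓ))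
    (hS : ∀ x ∈ S, ∀ τ : Gp ℓ, IsInertial ℓ τ → τ x = x) :
    ∃ m : ℕ, ¬ ℓ ∣ m ∧ ∀ x ∈ S, x ∈ muField ℓ m := by
  classical
  have hp : ℓ.Prime := Fact.out
  induction S using Finset.induction_on with
  | empty => exact ⟨1, fun h => hp.one_lt.ne' (Nat.dvd_one.1 h), fun x hx => by simp at hx⟩
  | insert a S _ ih =>
    obtain ⟨m, hm, hmS⟩ := ih (fun x hx => hS x (Finset.mem_insert_of_mem hx))
    obtain ⟨n, hn, hna⟩ := exists_mem_muField_of_fixed ℓ (hS a (Finset.mem_insert_self a S))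
    refine ⟨m * n, ?_, ?_⟩
    · intro h
      rcases (Nat.Prime.dvd_mul hp).1 h with h | h
      · exact hm h
      · exact hn h
    · intro x hx
      rcases Finset.mem_insert.1 hx with rfl | hx
      · exact muField_le_of_dvd ℓ (dvd_mul_left n m) hna
      · exact muField_le_of_dvd ℓ (dvd_mul_right m n) (hmS x hx)

/-- **(a2)** A finite unramified extension of `ℚ_ℓ` lies in some `ℚ_ℓ(μ_m)`, `ℓ ∤ m`. -/
theorem unramLeMu : UnramLeMu ℓ := by
  classical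
  intro E hfd hur
  haveI := hfd
  -- a finite spanning set of `E`
  obtain ⟨S, hS⟩ := (Module.finite_def.1 (inferInstance : Module.Finite ℚ_[ℓ] E))
  obtain ⟨m, hm, hmS⟩ := exists_muField_of_finset ℓ (S.image (fun x : E => (x : Kbar ℓ))) (by
    intro x hx τ hτ
    obtain ⟨y, -, rfl⟩ := Finset.mem_image.1 hx
    exact Fermat.Agent.TW.B5.LG83U.unramFixedByInertia ℓ E hfd hur τ hτ y y.2)
  refine ⟨m, hm, fun x hx => ?_⟩
  have h1 : (⟨x, hx⟩ : E) ∈ Submodule.span ℚ_[ℓ] (S : Set E) := by rw [hS]; exact Submodule.mem_top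
  -- push to `K̄`
  have h2 : ∀ y : E, y ∈ Submodule.span ℚ_[ℓ] (S : Set E) → (y : Kbar ℓ) ∈ muField ℓ m := by
    intro y hy
    induction hy using Submodule.span_induction with
    | mem z hz => exact hmS _ (Finset.mem_image.2 ⟨z, hz, rfl⟩)
    | zero => exact (muField ℓ m).zero_mem
    | add a b _ _ ha hb => exact (muField ℓ m).add_mem ha hb
    | smul c a _ ha =>
      have : ((c • a : E) : Kbar ℓ) = c • (a : Kbar ℓ) := rfl
      rw [this]
      exact (muField ℓ m).smul_mem ha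
  exact h2 ⟨x, hx⟩ h1

/-- Finitely many finite unramified fields lie in one `ℚ_ℓ(μ_m)`; moreover `m` can be taken divisible
by any given `m₀` prime to `ℓ`. -/
theorem exists_mu_ge_of_finite {ι : Type} [Finite ι] (E : ι → IntermediateField ℚ_[ℓ] (Kbar ℓ))
    (hfd : ∀ i, FiniteDimensional ℚ_[ℓ] (E i)) (hur : ∀ i, IsUnramifiedField ℓ (E i))
    (m₀ : ℕ) (hm₀ : ¬ ℓ ∣ m₀) :
    ∃ m : ℕ, ¬ ℓ ∣ m ∧ m₀ ∣ m ∧ ∀ i, E i ≤ muField ℓ m := by
  classical
  have hp : ℓ.Prime := Fact.out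
  haveI := Fintype.ofFinite ι
  choose n hn hle using fun i => unramLeMu ℓ (E i) (hfd i) (hur i)
  refine ⟨m₀ * ∏ i, n i, ?_, dvd_mul_right _ _, fun i => ?_⟩
  · intro h
    rcases (Nat.Prime.dvd_mul hp).1 h with h | h
    · exact hm₀ h
    · rw [Prime.dvd_finsetProd_iff hp.prime] at h
      obtain ⟨i, -, hi⟩ := h
      exact hn i hi
  · exact (hle i).trans (muField_le_of_dvd ℓ
      ((Finset.dvd_prod_of_mem n (Finset.mem_univ i)).trans (dvd_mul_left _ _)))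

/-- An element fixed by `Gal(K̄/ℚ_ℓ(μ_m))` lies in `ℚ_ℓ(μ_m)`. -/
theorem mem_muField_of_fixed (m : ℕ) {x : Kbar ℓ}
    (hx : ∀ σ : Gp ℓ, (∀ e ∈ muField ℓ m, σ e = e) → σ x = x) : x ∈ muField ℓ m := by
  rw [← InfiniteGalois.fixedField_fixingSubgroup (muField ℓ m),
    IntermediateField.mem_fixedField_iff]
  intro σ hσ
  exact hx σ (fun e he => (IntermediateField.mem_fixingSubgroup_iff _ σ).1 hσ e he)

/-- `Gal(K̄/ℚ_ℓ(μ_m))` is normal in `G_ℓ`. -/
theorem fixes_conj (m : ℕ) {σ : Gp ℓ} (hσ : ∀ e ∈ muField ℓ m, σ e = e) (τ : Gp ℓ) :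
    ∀ e ∈ muField ℓ m, (τ * σ * τ⁻¹) e = e := by
  intro e he
  have h1 : τ⁻¹ e ∈ muField ℓ m := isNormalField_muField ℓ m τ⁻¹ e he
  show τ (σ (τ⁻¹ e)) = e
  rw [hσ _ h1]
  show (τ * τ⁻¹) e = e
  rw [mul_inv_cancel]
  rfl

/-- Inertia fixes `ℚ_ℓ(μ_m)`, `ℓ ∤ m`. -/
theorem inertial_fixes_muField {m : ℕ} (hm : ¬ ℓ ∣ m) {τ : Gp ℓ} (hτ : IsInertial ℓ τ) :
    ∀ e ∈ muField ℓ m, τ e = e :=
  Fermat.Agent.TW.B5.LG83U.unramFixedByInertia ℓ (muField ℓ m)
    (finiteDimensional_muField ℓ (ne_zero_of_not_dvd ℓ hm)) (isUnramifiedField_muField ℓ hm) τ hτ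

end Fermat.Agent.T1.Unram47
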