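/-
Programme T1a (S19), layer (A) ALG, SETUP (helper47): from `D : DiscGroupDataNN ℓ J M actM` (`M` finite) to the
coset-wise polynomial laws in norm form.

* action lemmas for `D.act` and `actM`; `M1 = emb⁻¹ J1`, the coset map `κ : M → M ⧸ M1`;
* `cen : M → J` : a centre for each coset (constant on cosets), `emb y - cen y ∈ J1`;
* `lev` : a level `m`, `ℓ ∤ m`, such that `K' ≤ K'' := ℚ_ℓ(μ_m)` and all centres are fixed by `Gal(K̄/K'')`;
* `IsRat δ` : `δ ∈ J1` fixed by `Gal(K̄/K'')`; then `t δ i ∈ 𝒪_{K''}`;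
* `tau y = t (emb y - cen y)` the local coordinate;
* `addS`, `shiftS` : the approximate laws on finite subsets of `J1` with coefficients in `𝒪_{K''}`;
* `coset_add`, `coset_gal`, `tau_zero_mem`, `tau_inj`, `tau_fix` : the coset-wise laws
  (no negation law: it is not needed, see `AlgIfaceNN47`).
-/
import Mathlib
import Fermat.Agent.T1.AlgIfaceNN47
import Fermat.Agent.T1.Unram47
import Fermat.Agent.T1.IntSub47
import Fermat.Agent.T1.PolyNorm47

set_option autoImplicit false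
set_option linter.style.haveILetI false
set_option linter.unusedSectionVars false

noncomputable section

namespace Fermat.Agent.T1.Setup47

open Fermat.Agent.TW.B5.Iface Fermat.Agent.TW.B5.LG83W Fermat.Agent.T1.AlgIface47
  Fermat.Agent.T1.Unram47 Fermat.Agent.T1.PolyNorm47

variable {ℓ : ℕ} [Fact ℓ.Prime] {J : Type} [AddCommGroup J] {M : Type} [AddCommGroup M]
  {actM : Gp ℓ → M → M} (D : DiscGroupDataNN ℓ J M actM)

/-! ### The actions -/

theorem act_inv_act (σ : Gp ℓ) (x : J) : D.act σ⁻¹ (D.act σ x) = x := by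
  rw [← D.act_mul, inv_mul_cancel, D.act_one]

theorem act_act_inv (σ : Gp ℓ) (x : J) : D.act σ (D.act σ⁻¹ x) = x := by
  rw [← D.act_mul, mul_inv_cancel, D.act_one]

section
include D

theorem actM_one (y : M) : actM 1 y = y :=
  D.emb_inj (by rw [D.emb_equiv, D.act_one])

theorem actM_mul (σ τ : Gp ℓ) (y : M) : actM (σ * τ) y = actM σ (actM τ y) :=
  D.emb_inj (by rw [D.emb_equiv, D.emb_equiv, D.emb_equiv, D.act_mul])

theorem actM_add (σ : Gp ℓ) (y y' : M) : actM σ (y + y') = actM σ y + actM σ y' :=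
  D.emb_inj (by simp only [D.emb_equiv, map_add])

theorem actM_zero (σ : Gp ℓ) : actM σ 0 = 0 :=
  D.emb_inj (by simp only [D.emb_equiv, map_zero])

theorem actM_neg (σ : Gp ℓ) (y : M) : actM σ (-y) = -actM σ y :=
  D.emb_inj (by simp only [D.emb_equiv, map_neg])

theorem actM_act_inv (σ : Gp ℓ) (y : M) : actM σ (actM σ⁻¹ y) = y := by
  rw [← actM_mul D, mul_inv_cancel, actM_one D]

theorem actM_inv_act (σ : Gp ℓ) (y : M) : actM σ⁻¹ (actM σ y) = y := by
  rw [← actM_mul D, inv_mul_cancel, actM_one D]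

end

/-! ### Cosets -/

/-- `M ∩ J1`. -/
def M1 : AddSubgroup M := D.J1.comap D.emb

theorem mem_M1 {y : M} : y ∈ M1 D ↔ D.emb y ∈ D.J1 := Iff.rfl

/-- The coset map. -/
def kap (y : M) : M ⧸ M1 D := QuotientAddGroup.mk y

theorem kap_eq_iff {y y' : M} : kap D y = kap D y' ↔ D.emb y - D.emb y' ∈ D.J1 := by
  unfold kap
  rw [QuotientAddGroup.eq, mem_M1, map_add, map_neg]
  constructor
  · intro h
    have := D.J1.neg_mem h
    rwa [neg_add, neg_neg, ← sub_eq_add_neg] at this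
  · intro h
    have := D.J1.neg_mem h
    rwa [neg_sub, sub_eq_add_neg, add_comm] at this

theorem kap_out (c : M ⧸ M1 D) : kap D (Quotient.out c) = c := by
  unfold kap
  exact QuotientAddGroup.out_eq' c

theorem kap_add {y₁ y₁' y₂ y₂' : M} (h₁ : kap D y₁ = kap D y₁') (h₂ : kap D y₂ = kap D y₂') :
    kap D (y₁ + y₂) = kap D (y₁' + y₂') := by
  rw [kap_eq_iff] at *
  have : D.emb (y₁ + y₂) - D.emb (y₁' + y₂') = (D.emb y₁ - D.emb y₁') + (D.emb y₂ - D.emb y₂') := by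
    rw [map_add, map_add]; abel
  rw [this]
  exact D.J1.add_mem h₁ h₂

theorem kap_neg {y y' : M} (h : kap D y = kap D y') : kap D (-y) = kap D (-y') := by
  rw [kap_eq_iff] at *
  have : D.emb (-y) - D.emb (-y') = -(D.emb y - D.emb y') := by
    rw [map_neg, map_neg]; abel
  rw [this]
  exact D.J1.neg_mem h

theorem kap_actM (σ : Gp ℓ) {y y' : M} (h : kap D y = kap D y') :
    kap D (actM σ y) = kap D (actM σ y') := by
  rw [kap_eq_iff] at *
  rw [D.emb_equiv, D.emb_equiv, ← map_sub]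
  exact D.J1_stable σ _ h

/-! ### Centres -/

/-- A centre for `y`, as provided by the data. -/
def rawCentre (y : M) : J := (D.centres y).choose

theorem rawCentre_mem (y : M) : D.emb y - rawCentre D y ∈ D.J1 := (D.centres y).choose_spec.1

/-- A finite unramified field of definition of `rawCentre y`. -/
def rawField (y : M) : IntermediateField ℚ_[ℓ] (Kbar ℓ) := (D.centres y).choose_spec.2.choose

theorem rawField_fin (y : M) : FiniteDimensional ℚ_[ℓ] (rawField D y) :=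
  (D.centres y).choose_spec.2.choose_spec.1

theorem rawField_unr (y : M) : IsUnramifiedField ℓ (rawField D y) :=
  (D.centres y).choose_spec.2.choose_spec.2.1

theorem rawCentre_fixed (y : M) (σ : Gp ℓ) (hσ : ∀ e ∈ rawField D y, σ e = e) :
    D.act σ (rawCentre D y) = rawCentre D y :=
  (D.centres y).choose_spec.2.choose_spec.2.2 σ hσ

/-- The centre of the coset of `y`. -/
def cen (y : M) : J := rawCentre D (Quotient.out (kap D y))

theorem cen_congr {y y' : M} (h : kap D y = kap D y') : cen D y = cen D y' := by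
  unfold cen; rw [h]

theorem emb_sub_cen_mem (y : M) : D.emb y - cen D y ∈ D.J1 := by
  have h1 : kap D y = kap D (Quotient.out (kap D y)) := (kap_out D _).symm
  rw [kap_eq_iff] at h1
  have h2 := rawCentre_mem D (Quotient.out (kap D y))
  have : D.emb y - cen D y
      = (D.emb y - D.emb (Quotient.out (kap D y)))
        + (D.emb (Quotient.out (kap D y)) - rawCentre D (Quotient.out (kap D y))) := by
    unfold cen; abel
  rw [this]
  exact D.J1.add_mem h1 h2

/-! ### The level -/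

variable [Finite M]

theorem exists_level : ∃ m : ℕ, ¬ ℓ ∣ m ∧ D.K' ≤ muField ℓ m ∧
    ∀ y : M, ∀ σ : Gp ℓ, (∀ e ∈ muField ℓ m, σ e = e) → D.act σ (cen D y) = cen D y := by
  classical
  have hp : ℓ.Prime := Fact.out
  let E : Option M → IntermediateField ℚ_[ℓ] (Kbar ℓ) := fun o => o.elim D.K' (rawField D)
  have hfd : ∀ o, FiniteDimensional ℚ_[ℓ] (E o) := by
    intro o
    cases o with
    | none => exact D.K'_fin
    | some y => exact rawField_fin D y
  have hur : ∀ o, IsUnramifiedField ℓ (E o) := by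
    intro o
    cases o with
    | none => exact D.K'_unr
    | some y => exact rawField_unr D y
  obtain ⟨m, hm, -, hle⟩ := exists_mu_ge_of_finite ℓ E hfd hur 1
    (fun h => hp.one_lt.ne' (Nat.dvd_one.1 h))
  refine ⟨m, hm, hle none, fun y σ hσ => ?_⟩
  unfold cen
  exact rawCentre_fixed D _ σ (fun e he => hσ e (hle (some _) he))

/-- The level `m`: `K'' = ℚ_ℓ(μ_m)`. -/
def lev : ℕ := (exists_level D).choose

theorem lev_not_dvd : ¬ ℓ ∣ lev D := (exists_level D).choose_spec.1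

/-- `K''`. -/
def K2 : IntermediateField ℚ_[ℓ] (Kbar ℓ) := muField ℓ (lev D)

theorem K'_le_K2 : D.K' ≤ K2 D := (exists_level D).choose_spec.2.1

theorem cen_fixed (y : M) (σ : Gp ℓ) (hσ : ∀ e ∈ K2 D, σ e = e) : D.act σ (cen D y) = cen D y :=
  (exists_level D).choose_spec.2.2 y σ hσ

theorem K2_fin : FiniteDimensional ℚ_[ℓ] (K2 D) :=
  finiteDimensional_muField ℓ (ne_zero_of_not_dvd ℓ (lev_not_dvd D))

theorem K2_unr : IsUnramifiedField ℓ (K2 D) := isUnramifiedField_muField ℓ (lev_not_dvd D)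

theorem K2_stable (σ : Gp ℓ) : ∀ x ∈ K2 D, σ x ∈ K2 D := isNormalField_muField ℓ (lev D) σ

/-! ### Rational points of `J1` -/

/-- `δ ∈ J1` is fixed by `Gal(K̄/K'')`. -/
def IsRat (δ : J) : Prop :=
  δ ∈ D.J1 ∧ ∀ σ : Gp ℓ, (∀ e ∈ K2 D, σ e = e) → D.act σ δ = δ

theorem IsRat.t_mem {δ : J} (h : IsRat D δ) (i : Fin D.g) : D.t δ i ∈ intSubring ℓ (K2 D) := by
  refine ⟨mem_muField_of_fixed ℓ (lev D) (fun σ hσ => ?_), (D.t_norm δ h.1 i).le⟩
  rw [← D.t_equiv σ δ h.1 i, h.2 σ hσ]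

theorem fixed_act {x : J} (hx : ∀ σ : Gp ℓ, (∀ e ∈ K2 D, σ e = e) → D.act σ x = x) (τ : Gp ℓ) :
    ∀ σ : Gp ℓ, (∀ e ∈ K2 D, σ e = e) → D.act σ (D.act τ x) = D.act τ x := by
  intro σ hσ
  have h1 : ∀ e ∈ K2 D, (τ⁻¹ * σ * τ⁻¹⁻¹) e = e := fixes_conj ℓ (lev D) hσ τ⁻¹
  have h2 := hx _ h1
  rw [inv_inv, D.act_mul, D.act_mul] at h2
  have h3 := congrArg (D.act τ) h2
  rwa [act_act_inv] at h3

theorem isRat_of_sub {a b : J} (hab : a - b ∈ D.J1)
    (ha : ∀ σ : Gp ℓ, (∀ e ∈ K2 D, σ e = e) → D.act σ a = a)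
    (hb : ∀ σ : Gp ℓ, (∀ e ∈ K2 D, σ e = e) → D.act σ b = b) : IsRat D (a - b) :=
  ⟨hab, fun σ hσ => by rw [map_sub, ha σ hσ, hb σ hσ]⟩

/-! ### Polynomials over `𝒪_{K'}` as polynomials over `𝒪_{K''}` -/

/-- `𝒪_{K''}`-coefficients. -/
abbrev R2 : Type := intSubring ℓ (K2 D)

/-- Coefficients `𝒪_{K'} → 𝒪_{K''}`. -/
def up {ι : Type} (f : MvPolynomial ι (intSubring ℓ D.K')) : MvPolynomial ι (R2 D) :=
  MvPolynomial.map (IntSub47.incl ℓ (K'_le_K2 D)) f

theorem aeval_up {ι : Type} (a : ι → Kbar ℓ) (f : MvPolynomial ι (intSubring ℓ D.K')) :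
    MvPolynomial.aeval a (up D f) = MvPolynomial.aeval a f := by
  unfold up
  rw [MvPolynomial.aeval_def, MvPolynomial.eval₂_map, MvPolynomial.aeval_def]
  rfl

/-! ### Laws on finite subsets of `J1` -/

theorem exists_bound {ι : Type} [Finite ι] (f : ι → ℝ) (hf : ∀ i, f i < 1) :
    ∃ ρ : ℝ, ρ < 1 ∧ ∀ i, f i ≤ ρ := by
  classical
  haveI := Fintype.ofFinite ι
  have hne : (insert (0 : ℝ) (Finset.univ.image f)).Nonempty := Finset.insert_nonempty _ _
  refine ⟨(insert (0 : ℝ) (Finset.univ.image f)).max' hne, ?_, fun i => ?_⟩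
  · have hmem := Finset.max'_mem _ hne
    rcases Finset.mem_insert.1 hmem with h | h
    · rw [h]; exact zero_lt_one
    · obtain ⟨i, -, hi⟩ := Finset.mem_image.1 h
      rw [← hi]; exact hf i
  · exact Finset.le_max' _ _ (Finset.mem_insert_of_mem (Finset.mem_image_of_mem f (Finset.mem_univ i)))

theorem exists_radius (S : Finset J) (hS : ∀ z ∈ S, z ∈ D.J1) :
    ∃ ρ : ℝ, ρ < 1 ∧ ∀ z ∈ S, ∀ i, ‖D.t z i‖ ≤ ρ := by
  classical
  obtain ⟨ρ, hρ, h⟩ := exists_bound (ι := {z // z ∈ S} × Fin D.g) (fun zi => ‖D.t zi.1.1 zi.2‖)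
    (fun zi => D.t_norm _ (hS _ zi.1.2) zi.2)
  exact ⟨ρ, hρ, fun z hz i => h (⟨z, hz⟩, i)⟩

theorem addS (S : Finset J) (hS : ∀ z ∈ S, z ∈ D.J1) (n : ℕ) :
    ∃ F : Fin D.g → MvPolynomial (Fin D.g ⊕ Fin D.g) (R2 D), ∀ x ∈ S, ∀ y ∈ S, ∀ i,
      ‖D.t (x + y) i - MvPolynomial.aeval (Sum.elim (D.t x) (D.t y)) (F i)‖
        ≤ ‖(ℓ : Kbar ℓ)‖ ^ n := by
  obtain ⟨ρ, hρ, h⟩ := exists_radius D S hS
  obtain ⟨F, hF⟩ := D.add_approx ρ hρ n
  refine ⟨fun i => up D (F i), fun x hx y hy i => ?_⟩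
  rw [aeval_up]
  exact hF x (hS x hx) y (hS y hy) (h x hx) (h y hy) i

theorem shiftS {δ : J} (hδ : IsRat D δ) (S : Finset J) (hS : ∀ z ∈ S, z ∈ D.J1) (n : ℕ) :
    ∃ H : Fin D.g → MvPolynomial (Fin D.g) (R2 D), ∀ z ∈ S, ∀ i,
      ‖D.t (z + δ) i - MvPolynomial.aeval (D.t z) (H i)‖ ≤ ‖(ℓ : Kbar ℓ)‖ ^ n := by
  classical
  obtain ⟨F, hF⟩ := addS D (insert δ S) (by
    intro z hz
    rcases Finset.mem_insert.1 hz with rfl | hz
    · exact hδ.1
    · exact hS z hz) n
  refine ⟨fun i => MvPolynomial.bind₁ (Sum.elim (fun j => MvPolynomial.X j)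
    (fun j => MvPolynomial.C (⟨D.t δ j, hδ.t_mem D j⟩ : R2 D))) (F i), fun z hz i => ?_⟩
  have h1 := hF z (Finset.mem_insert_of_mem hz) δ (Finset.mem_insert_self δ S) i
  rw [MvPolynomial.aeval_bind₁]
  have h2 : (fun k : Fin D.g ⊕ Fin D.g => MvPolynomial.aeval (D.t z)
      (Sum.elim (fun j => (MvPolynomial.X j : MvPolynomial (Fin D.g) (R2 D)))
        (fun j => MvPolynomial.C (⟨D.t δ j, hδ.t_mem D j⟩ : R2 D)) k))
      = Sum.elim (D.t z) (D.t δ) := by
    funext k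
    cases k with
    | inl j => simp
    | inr j => simp; rfl
  rw [h2]
  exact h1

/-! ### The local coordinate and the coset-wise laws -/

/-- The local coordinate of `y` relative to the centre of its coset. -/
def zed (y : M) : J := D.emb y - cen D y

theorem zed_mem (y : M) : zed D y ∈ D.J1 := emb_sub_cen_mem D y

/-- The local coordinates `τ(y) = t (emb y - cen y)`. -/
def tau (y : M) : Fin D.g → Kbar ℓ := D.t (zed D y)

theorem tau_norm (y : M) (i : Fin D.g) : ‖tau D y i‖ < 1 := D.t_norm _ (zed_mem D y) i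

theorem tau_inj {y y' : M} (hk : kap D y = kap D y') (h : tau D y = tau D y') : y = y' := by
  have h1 := D.t_inj _ (zed_mem D y) _ (zed_mem D y') h
  unfold zed at h1
  rw [cen_congr D hk] at h1
  exact D.emb_inj (sub_left_injective h1)

theorem cen_isRat_sub {a b : M} (hab : cen D a - cen D b ∈ D.J1) : IsRat D (cen D a - cen D b) :=
  isRat_of_sub D hab (cen_fixed D a) (cen_fixed D b)

theorem tau_zero_mem (i : Fin D.g) : tau D 0 i ∈ intSubring ℓ (K2 D) := by
  have h : IsRat D (zed D (0 : M)) := by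
    refine ⟨zed_mem D 0, fun σ hσ => ?_⟩
    unfold zed
    rw [map_zero, zero_sub, map_neg, cen_fixed D 0 σ hσ]
  exact h.t_mem D i

theorem tau_fix (σ : Gp ℓ) (hσ : ∀ e ∈ K2 D, σ e = e) (y : M) :
    kap D (actM σ y) = kap D y ∧ ∀ i, tau D (actM σ y) i = σ (tau D y i) := by
  have h0 : D.act σ (zed D y) = D.emb (actM σ y) - cen D y := by
    unfold zed
    rw [map_sub, cen_fixed D y σ hσ, D.emb_equiv]
  have hk : kap D (actM σ y) = kap D y := by
    rw [kap_eq_iff]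
    have : D.emb (actM σ y) - D.emb y = D.act σ (zed D y) - zed D y := by
      rw [h0]; unfold zed; abel
    rw [this]
    exact D.J1.sub_mem (D.J1_stable σ _ (zed_mem D y)) (zed_mem D y)
  refine ⟨hk, fun i => ?_⟩
  unfold tau
  rw [← D.t_equiv σ _ (zed_mem D y) i, h0]
  unfold zed
  rw [cen_congr D hk]

/-- all local points, as a finset -/
def zedSet : Finset J := (Set.finite_range (zed D)).toFinset

theorem zed_mem_zedSet (y : M) : zed D y ∈ zedSet D := by
  unfold zedSet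
  rw [Set.Finite.mem_toFinset]
  exact Set.mem_range_self y

theorem zedSet_sub : ∀ z ∈ zedSet D, z ∈ D.J1 := by
  intro z hz
  unfold zedSet at hz
  rw [Set.Finite.mem_toFinset] at hz
  obtain ⟨y, rfl⟩ := hz
  exact zed_mem D y

/-- **Coset-wise addition law.** -/
theorem coset_add (n : ℕ) (y₀ y₀' : M) :
    ∃ G : Fin D.g → MvPolynomial (Fin D.g ⊕ Fin D.g) (R2 D), ∀ y y' : M,
      kap D y = kap D y₀ → kap D y' = kap D y₀' → ∀ i,
      ‖tau D (y + y') i - MvPolynomial.aeval (Sum.elim (tau D y) (tau D y')) (G i)‖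
        ≤ ‖(ℓ : Kbar ℓ)‖ ^ n := by
  classical
  -- the shift
  set δ : J := cen D y₀ + cen D y₀' - cen D (y₀ + y₀') with hδdef
  have hδJ : δ ∈ D.J1 := by
    have : δ = zed D (y₀ + y₀') - zed D y₀ - zed D y₀' := by
      rw [hδdef]; unfold zed; rw [map_add]; abel
    rw [this]
    exact D.J1.sub_mem (D.J1.sub_mem (zed_mem D _) (zed_mem D _)) (zed_mem D _)
  have hδ : IsRat D δ := ⟨hδJ, fun σ hσ => by
    rw [hδdef, map_sub, map_add, cen_fixed D _ σ hσ, cen_fixed D _ σ hσ, cen_fixed D _ σ hσ]⟩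
  obtain ⟨F, hF⟩ := addS D (zedSet D) (zedSet_sub D) n
  set S2 : Finset J := (zedSet D ×ˢ zedSet D).image (fun p => p.1 + p.2) with hS2
  have hS2sub : ∀ z ∈ S2, z ∈ D.J1 := by
    intro z hz
    obtain ⟨p, hp, rfl⟩ := Finset.mem_image.1 hz
    rw [Finset.mem_product] at hp
    exact D.J1.add_mem (zedSet_sub D _ hp.1) (zedSet_sub D _ hp.2)
  obtain ⟨H, hH⟩ := shiftS D hδ S2 hS2sub n
  refine ⟨fun i => MvPolynomial.bind₁ F (H i), fun y y' hy hy' i => ?_⟩
  have hzz : zed D (y + y') = (zed D y + zed D y') + δ := by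
    rw [hδdef]
    unfold zed
    rw [cen_congr D (kap_add D hy hy'), cen_congr D hy, cen_congr D hy', map_add]
    abel
  have hmem : zed D y + zed D y' ∈ S2 := by
    rw [hS2]
    exact Finset.mem_image.2 ⟨(zed D y, zed D y'),
      Finset.mem_product.2 ⟨zed_mem_zedSet D y, zed_mem_zedSet D y'⟩, rfl⟩
  have h1 := hH _ hmem i
  have h2 := hF _ (zed_mem_zedSet D y) _ (zed_mem_zedSet D y')
  rw [MvPolynomial.aeval_bind₁]
  unfold tau
  rw [hzz]
  refine norm_sub_le_of_le ℓ h1 ?_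
  refine norm_aeval_sub_le (K2 D) (H i) _ _ _ ?_ ?_ h2 (pow_nonneg (norm_nonneg _) n)
  · intro j
    exact (D.t_norm _ (D.J1.add_mem (zed_mem D y) (zed_mem D y')) j).le
  · intro j
    refine norm_aeval_le_one (K2 D) (F j) _ ?_
    intro k
    cases k with
    | inl k => exact (D.t_norm _ (zed_mem D y) k).le
    | inr k => exact (D.t_norm _ (zed_mem D y') k).le

/-- **Coset-wise Galois law.** -/
theorem coset_gal (σ : Gp ℓ) (n : ℕ) (y₀ : M) :
    ∃ H : Fin D.g → MvPolynomial (Fin D.g) (R2 D), ∀ y : M, kap D y = kap D y₀ → ∀ i,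
      ‖σ (tau D (actM σ⁻¹ y) i) - MvPolynomial.aeval (tau D y) (H i)‖ ≤ ‖(ℓ : Kbar ℓ)‖ ^ n := by
  classical
  set δ : J := cen D y₀ - D.act σ (cen D (actM σ⁻¹ y₀)) with hδdef
  have hkey : ∀ y : M, kap D y = kap D y₀ →
      D.act σ (zed D (actM σ⁻¹ y)) = zed D y + δ := by
    intro y hy
    rw [hδdef]
    unfold zed
    rw [map_sub, ← D.emb_equiv, actM_act_inv D, cen_congr D (kap_actM D σ⁻¹ hy), cen_congr D hy]
    abel
  have hδJ : δ ∈ D.J1 := by
    have h1 := hkey y₀ rfl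
    have : δ = D.act σ (zed D (actM σ⁻¹ y₀)) - zed D y₀ := by rw [h1]; abel
    rw [this]
    exact D.J1.sub_mem (D.J1_stable σ _ (zed_mem D _)) (zed_mem D _)
  have hδ : IsRat D δ := ⟨hδJ, fun τ hτ => by
    rw [hδdef, map_sub, cen_fixed D _ τ hτ, fixed_act D (cen_fixed D _) σ τ hτ]⟩
  obtain ⟨H, hH⟩ := shiftS D hδ (zedSet D) (zedSet_sub D) n
  refine ⟨H, fun y hy i => ?_⟩
  have h1 := hH _ (zed_mem_zedSet D y) i
  unfold tau
  rw [← D.t_equiv σ _ (zed_mem D _) i, hkey y hy]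
  exact h1

end Fermat.Agent.T1.Setup47
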