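/-
Programme T1a (S19), layer (A) ALG, INSTANTIATION part 1 (helper47): the rings `R = 𝒪_{K''}` and `𝒪 = 𝒪_L`
attached to `D : DiscGroupDataNN ℓ J M actM`, the local coordinates as elements of `𝒪`, and the coset-wise laws
of `Setup47` in the ideal form used by `PolyOrder48`.

* `Lf D` : a finite `G_ℓ`-stable field containing `K''` and all local coordinates `tau D y i`;
* instances: `R2 D` Noetherian local, `OL D` a finite `R2 D`-algebra, scalar tower to `K̄`;
* `tauO D y i : OL D` with `coe_tauO`;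
* `coe_aeval` : evaluation of polynomials over `R2 D` commutes with `OL D → K̄`;
* `mem_span_iff` : the norm / ideal dictionary;
* `sO D σ`, `sR D σ` : the ring endomorphisms induced by `σ ∈ G_ℓ`;
* `coset_add_O`, `coset_gal_O` : the coset-wise laws in ideal form.
-/
import Mathlib
import Fermat.Agent.T1.Setup47
import Fermat.Agent.TW.B5.FixedField47

set_option autoImplicit false
set_option linter.style.haveILetI false
set_option linter.unusedSectionVars false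

noncomputable section

namespace Fermat.Agent.T1.Inst47

open Fermat.Agent.TW.B5.Iface Fermat.Agent.TW.B5.LG83W Fermat.Agent.T1.AlgIface47
  Fermat.Agent.T1.Unram47 Fermat.Agent.T1.PolyNorm47 Fermat.Agent.T1.Setup47

variable {ℓ : ℕ} [Fact ℓ.Prime] {J : Type} [AddCommGroup J] {M : Type} [AddCommGroup M]
  {actM : Gp ℓ → M → M} (D : DiscGroupDataNN ℓ J M actM) [Finite M]

/-! ### The field `L` -/

theorem exists_L : ∃ L : IntermediateField ℚ_[ℓ] (Kbar ℓ), K2 D ≤ L ∧ FiniteDimensional ℚ_[ℓ] L ∧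
    (∀ σ : Gp ℓ, ∀ x ∈ L, σ x ∈ L) ∧ ∀ y i, tau D y i ∈ L := by
  classical
  let T : Set (Kbar ℓ) := Set.range (fun yi : M × Fin D.g => tau D yi.1 yi.2)
  haveI : Finite T := Set.finite_range _
  haveI : FiniteDimensional ℚ_[ℓ] (K2 D) := K2_fin D
  haveI h1 : FiniteDimensional ℚ_[ℓ] (IntermediateField.adjoin ℚ_[ℓ] T) :=
    IntermediateField.finiteDimensional_adjoin
      (fun x _ => Algebra.IsIntegral.isIntegral (R := ℚ_[ℓ]) x)
  haveI h2 : FiniteDimensional ℚ_[ℓ] ↥(K2 D ⊔ IntermediateField.adjoin ℚ_[ℓ] T) :=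
    IntermediateField.finiteDimensional_sup _ _
  obtain ⟨L, hle, hfd, hn⟩ := Fermat.Agent.TW.B5.FixedField47.exists_normal_finite_ge
    (p := ℓ) (K2 D ⊔ IntermediateField.adjoin ℚ_[ℓ] T)
  refine ⟨L, le_sup_left.trans hle, hfd, hn, fun y i => ?_⟩
  apply hle
  apply (le_sup_right : IntermediateField.adjoin ℚ_[ℓ] T ≤ _)
  exact IntermediateField.subset_adjoin ℚ_[ℓ] T ⟨(y, i), rfl⟩

/-- The field `L`. -/
def Lf : IntermediateField ℚ_[ℓ] (Kbar ℓ) := (exists_L D).choose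

theorem K2_le_Lf : K2 D ≤ Lf D := (exists_L D).choose_spec.1

theorem Lf_fin : FiniteDimensional ℚ_[ℓ] (Lf D) := (exists_L D).choose_spec.2.1

theorem Lf_stable (σ : Gp ℓ) : ∀ x ∈ Lf D, σ x ∈ Lf D := (exists_L D).choose_spec.2.2.1 σ

theorem tau_mem_Lf (y : M) (i : Fin D.g) : tau D y i ∈ Lf D := (exists_L D).choose_spec.2.2.2 y i

/-! ### The rings -/

/-- `𝒪_L`. -/
abbrev OL : Type := intSubring ℓ (Lf D)

instance instNoeth : IsNoetherianRing (R2 D) :=
  haveI := K2_fin D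
  IntSub47.isNoetherianRing ℓ (K2 D)

instance instLocal : IsLocalRing (R2 D) :=
  haveI := K2_fin D
  IntSub47.isLocalRing ℓ (K2 D)

instance instAlg : Algebra (R2 D) (OL D) := IntSub47.algOfLe ℓ (K2_le_Lf D)

instance instFinite : Module.Finite (R2 D) (OL D) :=
  haveI := Lf_fin D
  IntSub47.moduleFinite_of_le ℓ (K2_le_Lf D)

instance instTower : IsScalarTower (R2 D) (OL D) (Kbar ℓ) :=
  IsScalarTower.of_algebraMap_eq (fun _ => rfl)

theorem coe_algebraMap (r : R2 D) : ((algebraMap (R2 D) (OL D) r : OL D) : Kbar ℓ) = (r : Kbar ℓ) :=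
  rfl

/-- the uniformiser `ℓ` of `R2 D` -/
def varpi : R2 D := (ℓ : R2 D)

theorem varpi_mem : varpi D ∈ IsLocalRing.maximalIdeal (R2 D) :=
  haveI := K2_fin D
  IntSub47.natCast_mem_maximalIdeal ℓ (K2 D)

theorem mem_span_iff (n : ℕ) (a : OL D) :
    a ∈ Ideal.span {algebraMap (R2 D) (OL D) (varpi D ^ n)} ↔
      ‖(a : Kbar ℓ)‖ ≤ ‖(ℓ : Kbar ℓ)‖ ^ n :=
  IntSub47.mem_span_pow_iff ℓ (K2_le_Lf D) n a

/-- `𝒪_L → K̄` as an `R2 D`-algebra map. -/
def valA : OL D →ₐ[R2 D] Kbar ℓ :=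
  { (intSubring ℓ (Lf D)).subtype with commutes' := fun _ => rfl }

@[simp] theorem valA_apply (a : OL D) : valA D a = (a : Kbar ℓ) := rfl

theorem coe_aeval {ι : Type} (a : ι → OL D) (f : MvPolynomial ι (R2 D)) :
    ((MvPolynomial.aeval a f : OL D) : Kbar ℓ)
      = MvPolynomial.aeval (fun i => ((a i : OL D) : Kbar ℓ)) f := by
  have := MvPolynomial.comp_aeval_apply (f := a) (valA D) f
  rw [← valA_apply, this]
  rfl

/-! ### Coordinates in `𝒪_L` -/

/-- The local coordinates as elements of `𝒪_L`. -/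
def tauO (y : M) (i : Fin D.g) : OL D := ⟨tau D y i, tau_mem_Lf D y i, (tau_norm D y i).le⟩

@[simp] theorem coe_tauO (y : M) (i : Fin D.g) : ((tauO D y i : OL D) : Kbar ℓ) = tau D y i := rfl

theorem coe_sum_elim (y y' : M) :
    (fun k => ((Sum.elim (tauO D y) (tauO D y') k : OL D) : Kbar ℓ))
      = Sum.elim (tau D y) (tau D y') := by
  funext k
  cases k <;> rfl

/-! ### The Galois endomorphisms -/

/-- `σ` on `𝒪_L`. -/
def sO (σ : Gp ℓ) : OL D →+* OL D where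
  toFun x := ⟨σ (x : Kbar ℓ), Lf_stable D σ _ x.2.1, by
    rw [Fermat.Agent.TW.PmTwist48.norm_gp]; exact x.2.2⟩
  map_one' := Subtype.ext (map_one σ)
  map_mul' x y := Subtype.ext (map_mul σ _ _)
  map_zero' := Subtype.ext (map_zero σ)
  map_add' x y := Subtype.ext (map_add σ _ _)

@[simp] theorem coe_sO (σ : Gp ℓ) (x : OL D) : ((sO D σ x : OL D) : Kbar ℓ) = σ (x : Kbar ℓ) := rfl

/-- `σ` on `𝒪_{K''}`. -/
def sR (σ : Gp ℓ) : R2 D →+* R2 D where
  toFun x := ⟨σ (x : Kbar ℓ), K2_stable D σ _ x.2.1, by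
    rw [Fermat.Agent.TW.PmTwist48.norm_gp]; exact x.2.2⟩
  map_one' := Subtype.ext (map_one σ)
  map_mul' x y := Subtype.ext (map_mul σ _ _)
  map_zero' := Subtype.ext (map_zero σ)
  map_add' x y := Subtype.ext (map_add σ _ _)

theorem sO_algebraMap (σ : Gp ℓ) (r : R2 D) :
    sO D σ (algebraMap (R2 D) (OL D) r) = algebraMap (R2 D) (OL D) (sR D σ r) :=
  Subtype.ext rfl

theorem sR_of_fixes (σ : Gp ℓ) (hσ : ∀ e ∈ K2 D, σ e = e) (r : R2 D) : sR D σ r = r :=
  Subtype.ext (hσ _ r.2.1)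

/-! ### The coset-wise laws in ideal form -/

theorem coset_add_O (n : ℕ) (y₀ y₀' : M) :
    ∃ G : Fin D.g → MvPolynomial (Fin D.g ⊕ Fin D.g) (R2 D), ∀ y y' : M,
      kap D y = kap D y₀ → kap D y' = kap D y₀' → ∀ i,
      tauO D (y + y') i - MvPolynomial.aeval (Sum.elim (tauO D y) (tauO D y')) (G i)
        ∈ Ideal.span {algebraMap (R2 D) (OL D) (varpi D ^ n)} := by
  obtain ⟨G, hG⟩ := coset_add D n y₀ y₀'
  refine ⟨G, fun y y' hy hy' i => ?_⟩
  rw [mem_span_iff, AddSubgroupClass.coe_sub, coe_aeval, coe_sum_elim]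
  exact hG y y' hy hy' i

theorem coset_gal_O (σ : Gp ℓ) (n : ℕ) (y₀ : M) :
    ∃ H : Fin D.g → MvPolynomial (Fin D.g) (R2 D), ∀ y : M, kap D y = kap D y₀ → ∀ i,
      sO D σ (tauO D (actM σ⁻¹ y) i) - MvPolynomial.aeval (tauO D y) (H i)
        ∈ Ideal.span {algebraMap (R2 D) (OL D) (varpi D ^ n)} := by
  obtain ⟨H, hH⟩ := coset_gal D σ n y₀
  refine ⟨H, fun y hy i => ?_⟩
  rw [mem_span_iff, AddSubgroupClass.coe_sub, coe_aeval]
  exact hH y hy i

theorem tauO_inj {y y' : M} (hk : kap D y = kap D y') (h : tauO D y = tauO D y') : y = y' := by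
  apply tau_inj D hk
  funext i
  have := congrFun h i
  exact congrArg (fun a : OL D => (a : Kbar ℓ)) this

theorem tauO_zero_mem (i : Fin D.g) : tauO D 0 i ∈ (algebraMap (R2 D) (OL D)).range :=
  ⟨⟨tau D 0 i, tau_zero_mem D i⟩, Subtype.ext rfl⟩

theorem tauO_fix (σ : Gp ℓ) (hσ : ∀ e ∈ K2 D, σ e = e) (y : M) :
    kap D (actM σ y) = kap D y ∧ ∀ i, tauO D (actM σ y) i = sO D σ (tauO D y i) := by
  obtain ⟨h1, h2⟩ := tau_fix D σ hσ y
  exact ⟨h1, fun i => Subtype.ext (h2 i)⟩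

end Fermat.Agent.T1.Inst47
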