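/-
Programme T1a (S19), layer (A) ALG, INSTANTIATION part 2 (helper47): the non-equivariant order `B'` attached to
`D : DiscGroupDataNN ℓ J M actM` and its properties (the hypotheses of `AsmIface47.Assembly`).

Extended coordinates `Pext D y = (tauO D y, indicator of the coset of y) : Fin g ⊕ (M ⧸ M1) → 𝒪_L`;
`BO D = polyAlg (Pext D)` (an `𝒪_{K''}`-subalgebra of `M → 𝒪_L`); `B' D` = its image in `M → K̄`.
-/
import Mathlib
import Fermat.Agent.T1.Inst47
import Fermat.Agent.T1.PolyOrder48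
import Fermat.Agent.T1.GalStab47
import Fermat.Agent.T1.CosetPoly47
import Fermat.Agent.T1.CosetOrder48

set_option autoImplicit false
set_option linter.style.haveILetI false
set_option linter.unusedSectionVars false

noncomputable section

namespace Fermat.Agent.T1.Order47

open Fermat.Agent.TW.B5.Iface Fermat.Agent.TW.B5.LG83W Fermat.Agent.T1.AlgIface47
  Fermat.Agent.T1.Setup47 Fermat.Agent.T1.Inst47 Fermat.Agent.T1.PolyOrder48
  Fermat.Agent.T1.GalStab47 Fermat.Agent.T1.CosetPoly47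
open MvPolynomial

variable {ℓ : ℕ} [Fact ℓ.Prime] {J : Type} [AddCommGroup J] {M : Type} [AddCommGroup M]
  {actM : Gp ℓ → M → M} (D : DiscGroupDataNN ℓ J M actM) [Finite M]

/-- The cosets. -/
abbrev Cs : Type := M ⧸ M1 D

instance instFintypeCs : Fintype (Cs D) := Fintype.ofFinite _

instance instDecCs : DecidableEq (Cs D) := Classical.decEq _

theorem kap_add' (y y' : M) : kap D (y + y') = kap D y + kap D y' := rfl

theorem kap_neg' (y : M) : kap D (-y) = -kap D y := rfl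

/-- Extended coordinates. -/
def Pext (y : M) : Fin D.g ⊕ Cs D → OL D := ext (tauO D y) (kap D y)

theorem Pext_injective : Function.Injective (Pext D) := by
  intro y y' h
  have hk : kap D y = kap D y' := by
    have h1 := congrFun h (Sum.inr (kap D y))
    unfold Pext at h1
    rw [ext_inr, ext_inr, if_pos rfl] at h1
    by_contra hne
    rw [if_neg (Ne.symm hne)] at h1
    exact one_ne_zero h1
  apply tauO_inj D hk
  funext i
  exact congrFun h (Sum.inl i)

/-- The order over `𝒪_{K''}`, with values in `𝒪_L`. -/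
def BO : Subalgebra (R2 D) (M → OL D) := polyAlg (R := R2 D) (Pext D)

/-! ### Addition, negation, Galois laws in extended coordinates -/

theorem hadd (n : ℕ) : ∃ G : (Fin D.g ⊕ Cs D) → MvPolynomial ((Fin D.g ⊕ Cs D) ⊕ (Fin D.g ⊕ Cs D)) (R2 D),
    ∀ m m' i, Pext D (m + m') i - MvPolynomial.aeval (Sum.elim (Pext D m) (Pext D m')) (G i)
      ∈ Ideal.span {algebraMap (R2 D) (OL D) (varpi D ^ n)} := by
  choose G hG using fun c c' : Cs D => coset_add_O D n (Quotient.out c) (Quotient.out c')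
  refine ⟨fun i => Sum.elim (fun i => glue₂ (fun c c' => G c c' i)) (fun c'' => ind₂ c'') i,
    fun m m' i => ?_⟩
  cases i with
  | inl i =>
    simp only [Sum.elim_inl]
    unfold Pext
    rw [aeval_glue₂, ext_inl]
    exact hG (kap D m) (kap D m') m m' (kap_out D _).symm (kap_out D _).symm i
  | inr c'' =>
    simp only [Sum.elim_inr]
    unfold Pext
    rw [aeval_ind₂, ext_inr, kap_add', sub_self]
    exact Ideal.zero_mem _

theorem kap_inv_iff (σ : Gp ℓ) (y : M) (c : Cs D) :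
    kap D (actM σ⁻¹ y) = c ↔ kap D y = kap D (actM σ (Quotient.out c)) := by
  constructor
  · intro h
    have h1 : kap D (actM σ⁻¹ y) = kap D (Quotient.out c) := by rw [h, kap_out]
    have h2 := kap_actM D σ h1
    rwa [actM_act_inv D] at h2
  · intro h
    have h2 := kap_actM D σ⁻¹ h
    rw [actM_inv_act D, kap_out] at h2
    exact h2

theorem hgal (σ : Gp ℓ) (n : ℕ) : ∃ H : (Fin D.g ⊕ Cs D) → MvPolynomial (Fin D.g ⊕ Cs D) (R2 D),
    ∀ y i, sO D σ (Pext D (actM σ⁻¹ y) i) - MvPolynomial.aeval (Pext D y) (H i)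
      ∈ Ideal.span {algebraMap (R2 D) (OL D) (varpi D ^ n)} := by
  choose H hH using fun c : Cs D => coset_gal_O D σ n (Quotient.out c)
  refine ⟨fun i => Sum.elim (fun i => glue (fun c => H c i))
    (fun c'' => X (Sum.inr (kap D (actM σ (Quotient.out c''))))) i, fun y i => ?_⟩
  cases i with
  | inl i =>
    simp only [Sum.elim_inl]
    unfold Pext
    rw [aeval_glue, ext_inl]
    exact hH (kap D y) y (kap_out D _).symm i
  | inr c'' =>
    simp only [Sum.elim_inr]
    unfold Pext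
    rw [aeval_X, ext_inr, ext_inr]
    by_cases h : kap D (actM σ⁻¹ y) = c''
    · rw [if_pos h, if_pos ((kap_inv_iff D σ y c'').1 h), map_one, sub_self]
      exact Ideal.zero_mem _
    · rw [if_neg h, if_neg (fun h' => h ((kap_inv_iff D σ y c'').2 h')), map_zero, sub_self]
      exact Ideal.zero_mem _

/-! ### The order in `M → K̄` -/

/-- `M → 𝒪_L` to `M → K̄`. -/
def toK : (M → OL D) →+* (M → Kbar ℓ) := (intSubring ℓ (Lf D)).subtype.compLeft M

@[simp] theorem toK_apply (b : M → OL D) (y : M) : toK D b y = ((b y : OL D) : Kbar ℓ) := rfl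

theorem toK_injective : Function.Injective (toK D) := by
  intro b b' h
  funext y
  exact Subtype.ext (congrFun h y)

/-- The non-equivariant order. -/
def B' : Subring (M → Kbar ℓ) := (BO D).toSubring.map (toK D)

theorem mem_B' {b : M → Kbar ℓ} : b ∈ B' D ↔ ∃ bO ∈ BO D, toK D bO = b := by
  unfold B'
  rw [Subring.mem_map]
  rfl

theorem B'_values (b : M → Kbar ℓ) (hb : b ∈ B' D) (y : M) : b y ∈ intSubring ℓ (Lf D) := by
  obtain ⟨bO, -, rfl⟩ := (mem_B' D).1 hb
  exact (bO y).2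

theorem B'_smul (r : Kbar ℓ) (hr : r ∈ intSubring ℓ (K2 D)) (b : M → Kbar ℓ) (hb : b ∈ B' D) :
    (fun x => r * b x) ∈ B' D := by
  obtain ⟨bO, hbO, rfl⟩ := (mem_B' D).1 hb
  refine (mem_B' D).2 ⟨(⟨r, hr⟩ : R2 D) • bO, (BO D).smul_mem hbO _, ?_⟩
  funext x
  rw [toK_apply, Pi.smul_apply, Algebra.smul_def, Subring.coe_mul, Inst47.coe_algebraMap]
  rfl

theorem B'_gal (σ : Gp ℓ) (b : M → Kbar ℓ) (hb : b ∈ B' D) : galFun ℓ actM σ b ∈ B' D := by
  obtain ⟨bO, hbO, rfl⟩ := (mem_B' D).1 hb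
  have h := semilinear_mem (R := R2 D) (Pext D) (varpi_mem D) (sO D σ) (sR D σ)
    (sO_algebraMap D σ) (actM σ⁻¹) (hgal D σ) hbO
  exact (mem_B' D).2 ⟨_, h, rfl⟩

theorem sO_Pext_of_fixes (σ : Gp ℓ) (hσ : ∀ e ∈ K2 D, σ e = e) (x : M) (i : Fin D.g ⊕ Cs D) :
    sO D σ (Pext D (actM σ⁻¹ x) i) = Pext D x i := by
  obtain ⟨h1, h2⟩ := tauO_fix D σ hσ (actM σ⁻¹ x)
  rw [actM_act_inv D] at h1 h2
  unfold Pext
  cases i with
  | inl i => rw [ext_inl, ext_inl, h2 i]
  | inr c =>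
    rw [ext_inr, ext_inr, ← h1]
    by_cases h : kap D x = c
    · rw [if_pos h, map_one]
    · rw [if_neg h, map_zero]

theorem B'_fix (σ : Gp ℓ) (hσ : ∀ e ∈ K2 D, σ e = e) (b : M → Kbar ℓ) (hb : b ∈ B' D) :
    galFun ℓ actM σ b = b := by
  obtain ⟨bO, hbO, rfl⟩ := (mem_B' D).1 hb
  obtain ⟨f, rfl⟩ := hbO
  funext x
  unfold galFun
  rw [toK_apply, toK_apply]
  have h1 : σ (((polyFun (R := R2 D) (Pext D) f (actM σ⁻¹ x) : OL D)) : Kbar ℓ)
      = ((sO D σ (polyFun (R := R2 D) (Pext D) f (actM σ⁻¹ x)) : OL D) : Kbar ℓ) := rfl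
  change σ (((polyFun (R := R2 D) (Pext D) f (actM σ⁻¹ x) : OL D)) : Kbar ℓ) = _
  rw [h1, polyFun_apply, map_aeval_semilinear (sO D σ) (sR D σ) (sO_algebraMap D σ)]
  have h2 : MvPolynomial.map (sR D σ) f = f := by
    have : sR D σ = RingHom.id _ := RingHom.ext (fun r => sR_of_fixes D σ hσ r)
    rw [this, MvPolynomial.map_id]
  have h3 : (fun i => sO D σ (Pext D (actM σ⁻¹ x) i)) = Pext D x :=
    funext (fun i => sO_Pext_of_fixes D σ hσ x i)
  rw [h2, h3]
  rfl

theorem B'_separates (x y : M) (h : ∀ b ∈ B' D, b x = b y) : x = y := by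
  refine PolyOrder48.separates (R := R2 D) (Pext D) (Pext_injective D) x y (fun bO hbO => ?_)
  have := h (toK D bO) ((mem_B' D).2 ⟨bO, hbO, rfl⟩)
  exact Subtype.ext this

theorem B'_comul (b : M → Kbar ℓ) (hb : b ∈ B' D) :
    ∃ (ι : Type) (_ : Fintype ι) (u v : ι → M → Kbar ℓ),
      (∀ i, u i ∈ B' D) ∧ (∀ i, v i ∈ B' D) ∧ ∀ x y, b (x + y) = ∑ i, u i x * v i y := by
  obtain ⟨bO, hbO, rfl⟩ := (mem_B' D).1 hb
  obtain ⟨ι, hι, u, v, hu, hv, huv⟩ :=
    comul_decomp (R := R2 D) (Pext D) (varpi_mem D) (hadd D) hbO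
  refine ⟨ι, hι, fun i => toK D (u i), fun i => toK D (v i),
    fun i => (mem_B' D).2 ⟨_, hu i, rfl⟩, fun i => (mem_B' D).2 ⟨_, hv i, rfl⟩, fun x y => ?_⟩
  rw [toK_apply, huv x y]
  simp only [toK_apply]
  rw [← Subring.coe_subtype, map_sum]
  simp

theorem Pext_zero_mem (i : Fin D.g ⊕ Cs D) : Pext D 0 i ∈ (algebraMap (R2 D) (OL D)).range := by
  unfold Pext
  cases i with
  | inl i => exact tauO_zero_mem D i
  | inr c =>
    rw [ext_inr]
    by_cases h : kap D 0 = c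
    · rw [if_pos h]; exact ⟨1, map_one _⟩
    · rw [if_neg h]; exact ⟨0, map_zero _⟩

theorem BO_neg (bO : M → OL D) (hbO : bO ∈ BO D) : (fun m => bO (-m)) ∈ BO D :=
  CosetOrder48.neg_mem_of_comul (BO D)
    (fun b hb => comul_decomp (R := R2 D) (Pext D) (varpi_mem D) (hadd D) hb)
    (fun b hb => PolyOrder48.zero_mem (R := R2 D) (Pext D) (Pext_zero_mem D) hb) bO hbO

theorem B'_neg (b : M → Kbar ℓ) (hb : b ∈ B' D) : (fun x => b (-x)) ∈ B' D := by
  obtain ⟨bO, hbO, rfl⟩ := (mem_B' D).1 hb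
  exact (mem_B' D).2 ⟨_, BO_neg D bO hbO, rfl⟩

end Fermat.Agent.T1.Order47
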