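/-
Programme T1a (S19), layer (A) ALG, brick A2 (helper9): UNRAMIFIED GALOIS DESCENT `𝒪_{K''} → ℤ_ℓ`,
`K'' = ℚ_ℓ(μ_m)`, `ℓ ∤ m`.

* `exists_sep`    : the separating element: finitely many `a i, e i ∈ 𝒪_{K''}` with
                    `∑ i, a i * σ (e i) = [σ fixes K'']` for all `σ ∈ G_ℓ`;
* `exists_trace_one` : `r ∈ 𝒪_{K''}` with `∑_{g ∈ Gal(K''/ℚ_ℓ)} g r = 1`;
* **`unramDescent : AlgIface47.UnramDescent ℓ`**, **`traceOne : AlgIface47.TraceOne ℓ`**.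
-/
import Mathlib
import Fermat.Agent.T1.AlgIface47

set_option autoImplicit false
set_option linter.unusedSectionVars false
set_option linter.style.haveILetI false

noncomputable section

namespace Fermat.Agent.T1.UnramDescent9

open Fermat.Agent.TW.B5.Iface Fermat.Agent.TW.B5.IfaceLG Fermat.Agent.TW.B5.LG83W
  Fermat.Agent.TW.B5.LG83B Fermat.Agent.T1.AlgIface47

variable (ℓ : ℕ) [Fact ℓ.Prime]

/-! ### Ultrametric sums -/

theorem norm_add_le_max9 (x y : Kbar ℓ) : ‖x + y‖ ≤ max ‖x‖ ‖y‖ :=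
  PadicAlgCl.isNonarchimedean ℓ x y

theorem norm_sum_le9 {ι : Type} (s : Finset ι) (f : ι → Kbar ℓ) (c : ℝ) (hc : 0 ≤ c)
    (h : ∀ i ∈ s, ‖f i‖ ≤ c) : ‖∑ i ∈ s, f i‖ ≤ c := by
  classical
  induction s using Finset.induction_on with
  | empty => simpa using hc
  | insert a s ha ih =>
    rw [Finset.sum_insert ha]
    refine (norm_add_le_max9 ℓ _ _).trans (max_le (h a (Finset.mem_insert_self a s)) ?_)
    exact ih fun i hi => h i (Finset.mem_insert_of_mem hi)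

theorem norm_sum_lt_one9 {ι : Type} (s : Finset ι) (f : ι → Kbar ℓ)
    (h : ∀ i ∈ s, ‖f i‖ < 1) : ‖∑ i ∈ s, f i‖ < 1 := by
  classical
  induction s using Finset.induction_on with
  | empty => simp
  | insert a s ha ih =>
    rw [Finset.sum_insert ha]
    refine lt_of_le_of_lt (norm_add_le_max9 ℓ _ _) (max_lt (h a (Finset.mem_insert_self a s)) ?_)
    exact ih fun i hi => h i (Finset.mem_insert_of_mem hi)

/-! ### `𝒪_{K''}` is `G_ℓ`-stable -/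

theorem gal_mem_muField (m : ℕ) (σ : Gp ℓ) {x : Kbar ℓ} (hx : x ∈ muField ℓ m) :
    σ x ∈ muField ℓ m :=
  isNormalField_muField ℓ m σ x hx

theorem gal_mem_int (m : ℕ) (σ : Gp ℓ) {x : Kbar ℓ} (hx : x ∈ intSubring ℓ (muField ℓ m)) :
    σ x ∈ intSubring ℓ (muField ℓ m) :=
  ⟨gal_mem_muField ℓ m σ hx.1, by rw [norm_gal]; exact hx.2⟩

/-- An element of `K̄` fixed by `G_ℓ`, of norm `≤ 1`, comes from `ℤ_ℓ`. -/
theorem exists_padicInt_of_fixed (y : Kbar ℓ) (hy : ∀ σ : Gp ℓ, σ y = y) (hn : ‖y‖ ≤ 1) :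
    ∃ z : ℤ_[ℓ], algebraMap ℤ_[ℓ] (Kbar ℓ) z = y := by
  have h := InfiniteGalois.fixedField_fixingSubgroup (k := ℚ_[ℓ]) (K := Kbar ℓ) ⊥
  have hy' : y ∈ (⊥ : IntermediateField ℚ_[ℓ] (Kbar ℓ)) := by
    rw [← h]
    intro τ
    exact hy τ.1
  obtain ⟨q, rfl⟩ := IntermediateField.mem_bot.1 hy'
  rw [PadicAlgCl.norm_extends] at hn
  let z : ℤ_[ℓ] := ⟨q, hn⟩
  refine ⟨z, ?_⟩
  rw [IsScalarTower.algebraMap_apply ℤ_[ℓ] ℚ_[ℓ] (Kbar ℓ)]
  rfl

/-! ### Roots of unity of order prime to `ℓ` -/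

theorem norm_root_eq_one {m : ℕ} (hm : m ≠ 0) {v : Kbar ℓ} (hv : v ^ m = 1) : ‖v‖ = 1 := by
  have h2 : ‖v‖ ^ m = 1 := by rw [← norm_pow, hv, norm_one]
  exact (pow_eq_one_iff_of_nonneg (norm_nonneg _) hm).1 h2

theorem norm_sub_root_eq_one {m : ℕ} (hm : ¬ ℓ ∣ m) {v v' : Kbar ℓ} (hv : v ^ m = 1)
    (hv' : v' ^ m = 1) (hne : v ≠ v') : ‖v - v'‖ = 1 := by
  have hm0 := ne_zero_of_not_dvd ℓ hm
  apply le_antisymm
  · have := norm_add_le_max9 ℓ v (-v')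
    rw [norm_neg, norm_root_eq_one ℓ hm0 hv, norm_root_eq_one ℓ hm0 hv', max_self,
      ← sub_eq_add_neg] at this
    exact this
  · by_contra hlt
    exact hne (eq_of_norm_sub_lt_one ℓ hm hv hv' (not_le.1 hlt))

theorem root_mem_int {m : ℕ} (hm : m ≠ 0) {v : Kbar ℓ} (hv : v ^ m = 1) :
    v ∈ intSubring ℓ (muField ℓ m) :=
  ⟨mem_muField ℓ hv, (norm_root_eq_one ℓ hm hv).le⟩

theorem inv_sub_root_mem_int {m : ℕ} (hm : ¬ ℓ ∣ m) {v v' : Kbar ℓ} (hv : v ^ m = 1)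
    (hv' : v' ^ m = 1) (hne : v ≠ v') : (v - v')⁻¹ ∈ intSubring ℓ (muField ℓ m) := by
  refine ⟨(muField ℓ m).inv_mem ((muField ℓ m).sub_mem (mem_muField ℓ hv) (mem_muField ℓ hv')), ?_⟩
  rw [norm_inv, norm_sub_root_eq_one ℓ hm hv hv' hne, inv_one]

/-- `σ` fixes `ℚ_ℓ(μ_m)` pointwise iff it fixes a primitive `m`-th root of unity. -/
theorem fixes_muField_iff {m : ℕ} (hm : m ≠ 0) {ζ : Kbar ℓ} (hζ : IsPrimitiveRoot ζ m) (σ : Gp ℓ) :
    (∀ e ∈ muField ℓ m, σ e = e) ↔ σ ζ = ζ := by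
  haveI : NeZero m := ⟨hm⟩
  constructor
  · intro h
    exact h ζ (mem_muField ℓ hζ.pow_eq_one)
  · intro h e he
    unfold muField at he
    induction he using IntermediateField.adjoin_induction with
    | mem x hx =>
      obtain ⟨i, -, rfl⟩ := hζ.eq_pow_of_pow_eq_one (show x ^ m = 1 from hx)
      rw [map_pow, h]
    | algebraMap x => exact σ.commutes x
    | add x y _ _ hx hy => rw [map_add, hx, hy]
    | inv x _ hx => rw [map_inv₀, hx]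
    | mul x y _ _ hx hy => rw [map_mul, hx, hy]

/-! ### The ring of functions `σ ↦ ∑ i, a i * σ (e i)` -/

/-- Functions on `G_ℓ` of the form `σ ↦ ∑ i, a i * σ (e i)` with `a i, e i ∈ 𝒪_{K''}`. -/
def sepRing (m : ℕ) : Subring (Gp ℓ → Kbar ℓ) where
  carrier := {φ | ∃ (ι : Type) (_ : Fintype ι) (a e : ι → Kbar ℓ),
    (∀ i, a i ∈ intSubring ℓ (muField ℓ m)) ∧ (∀ i, e i ∈ intSubring ℓ (muField ℓ m)) ∧
      ∀ σ : Gp ℓ, φ σ = ∑ i, a i * σ (e i)}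
  mul_mem' := by
    rintro φ ψ ⟨ι, _, a, e, ha, he, h⟩ ⟨κ, _, a', e', ha', he', h'⟩
    refine ⟨ι × κ, inferInstance, fun i => a i.1 * a' i.2, fun i => e i.1 * e' i.2,
      fun i => Subring.mul_mem _ (ha _) (ha' _), fun i => Subring.mul_mem _ (he _) (he' _), ?_⟩
    intro σ
    rw [Pi.mul_apply, h, h', Finset.sum_mul_sum, Fintype.sum_prod_type]
    refine Finset.sum_congr rfl fun i _ => Finset.sum_congr rfl fun j _ => ?_
    rw [map_mul]
    ring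
  one_mem' := by
    refine ⟨Unit, inferInstance, fun _ => 1, fun _ => 1, fun _ => Subring.one_mem _,
      fun _ => Subring.one_mem _, ?_⟩
    intro σ
    simp
  add_mem' := by
    rintro φ ψ ⟨ι, _, a, e, ha, he, h⟩ ⟨κ, _, a', e', ha', he', h'⟩
    refine ⟨ι ⊕ κ, inferInstance, Sum.elim a a', Sum.elim e e', ?_, ?_, ?_⟩
    · rintro (i | i)
      · exact ha i
      · exact ha' i
    · rintro (i | i)
      · exact he i
      · exact he' i
    · intro σ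
      rw [Pi.add_apply, h, h', Fintype.sum_sum_type]
      rfl
  zero_mem' := by
    refine ⟨Empty, inferInstance, fun _ => 0, fun _ => 0, fun i => i.elim, fun i => i.elim, ?_⟩
    intro σ
    simp
  neg_mem' := by
    rintro φ ⟨ι, _, a, e, ha, he, h⟩
    refine ⟨ι, inferInstance, fun i => -a i, e, fun i => Subring.neg_mem _ (ha i), he, ?_⟩
    intro σ
    rw [Pi.neg_apply, h, ← Finset.sum_neg_distrib]
    refine Finset.sum_congr rfl fun i _ => ?_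
    ring

theorem const_mem_sepRing (m : ℕ) {a : Kbar ℓ} (ha : a ∈ intSubring ℓ (muField ℓ m)) :
    (fun _ : Gp ℓ => a) ∈ sepRing ℓ m := by
  refine ⟨Unit, inferInstance, fun _ => a, fun _ => 1, fun _ => ha, fun _ => Subring.one_mem _, ?_⟩
  intro σ
  simp

theorem gal_mem_sepRing (m : ℕ) {e : Kbar ℓ} (he : e ∈ intSubring ℓ (muField ℓ m)) :
    (fun σ : Gp ℓ => σ e) ∈ sepRing ℓ m := by
  refine ⟨Unit, inferInstance, fun _ => 1, fun _ => e, fun _ => Subring.one_mem _, fun _ => he, ?_⟩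
  intro σ
  simp

/-- **The separating element.** -/
theorem exists_sep {m : ℕ} (hm : ¬ ℓ ∣ m) [DecidablePred fun σ : Gp ℓ => ∀ e ∈ muField ℓ m, σ e = e] :
    ∃ (ι : Type) (_ : Fintype ι) (a e : ι → Kbar ℓ),
      (∀ i, a i ∈ intSubring ℓ (muField ℓ m)) ∧ (∀ i, e i ∈ intSubring ℓ (muField ℓ m)) ∧
      ∀ σ : Gp ℓ, (∑ i, a i * σ (e i)) = if (∀ x ∈ muField ℓ m, σ x = x) then 1 else 0 := by
  classical
  have hm0 := ne_zero_of_not_dvd ℓ hm
  haveI : NeZero m := ⟨hm0⟩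
  obtain ⟨ζ, hζ⟩ := HasEnoughRootsOfUnity.exists_primitiveRoot (Kbar ℓ) m
  have hζ1 : ζ ^ m = 1 := hζ.pow_eq_one
  set V : Finset (Kbar ℓ) := (Polynomial.nthRootsFinset m (1 : Kbar ℓ)).erase ζ with hV
  have hVmem : ∀ v, v ∈ V ↔ v ≠ ζ ∧ v ^ m = 1 := by
    intro v
    rw [hV, Finset.mem_erase, Polynomial.mem_nthRootsFinset (Nat.pos_of_ne_zero hm0)]
  set φ : Gp ℓ → Kbar ℓ := ∏ v ∈ V, fun σ : Gp ℓ => (ζ - σ v) * σ ((ζ - v)⁻¹) with hφ
  have hmem : φ ∈ sepRing ℓ m := by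
    refine Subring.prod_mem _ fun v hv => ?_
    obtain ⟨hne, hv1⟩ := (hVmem v).1 hv
    have h1 : (fun σ : Gp ℓ => ζ - σ v) ∈ sepRing ℓ m :=
      Subring.sub_mem _ (const_mem_sepRing ℓ m (root_mem_int ℓ hm0 hζ1))
        (gal_mem_sepRing ℓ m (root_mem_int ℓ hm0 hv1))
    have h2 : (fun σ : Gp ℓ => σ ((ζ - v)⁻¹)) ∈ sepRing ℓ m :=
      gal_mem_sepRing ℓ m (inv_sub_root_mem_int ℓ hm hζ1 hv1 (Ne.symm hne))
    exact Subring.mul_mem _ h1 h2
  obtain ⟨ι, hι, a, e, ha, he, h⟩ := hmem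
  refine ⟨ι, hι, a, e, ha, he, ?_⟩
  intro σ
  rw [← h σ, hφ, Finset.prod_apply]
  by_cases hσ : ∀ x ∈ muField ℓ m, σ x = x
  · rw [if_pos hσ]
    refine Finset.prod_eq_one fun v hv => ?_
    obtain ⟨hne, hv1⟩ := (hVmem v).1 hv
    have h3 : σ ((ζ - v)⁻¹) = (ζ - v)⁻¹ :=
      hσ _ ((muField ℓ m).inv_mem ((muField ℓ m).sub_mem (mem_muField ℓ hζ1) (mem_muField ℓ hv1)))
    rw [h3, hσ v (mem_muField ℓ hv1)]
    exact mul_inv_cancel₀ (sub_ne_zero.2 (Ne.symm hne))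
  · rw [if_neg hσ]
    have hσζ : σ ζ ≠ ζ := fun h0 => hσ ((fixes_muField_iff ℓ hm0 hζ σ).2 h0)
    have hv : σ⁻¹ ζ ∈ V := by
      rw [hVmem]
      refine ⟨fun h0 => hσζ ?_, by rw [← map_pow, hζ1, map_one]⟩
      have := congrArg σ h0
      rw [AlgEquiv.aut_inv, AlgEquiv.apply_symm_apply] at this
      exact this.symm
    refine Finset.prod_eq_zero hv ?_
    rw [AlgEquiv.aut_inv, AlgEquiv.apply_symm_apply, sub_self, zero_mul]

/-! ### `Gal(K''/ℚ_ℓ)`, lifts and restrictions -/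

/-- `Gal(ℚ_ℓ(μ_m)/ℚ_ℓ)`. -/
abbrev Gal2 (m : ℕ) : Type := (muField ℓ m) ≃ₐ[ℚ_[ℓ]] (muField ℓ m)

/-- A lift of `g ∈ Gal(K''/ℚ_ℓ)` to `G_ℓ`. -/
def lift9 (m : ℕ) (g : Gal2 ℓ m) : Gp ℓ := g.liftNormal (Kbar ℓ)

theorem lift9_apply (m : ℕ) (g : Gal2 ℓ m) (x : muField ℓ m) :
    lift9 ℓ m g (x : Kbar ℓ) = ((g x : muField ℓ m) : Kbar ℓ) :=
  AlgEquiv.liftNormal_commutes g (Kbar ℓ) x

/-- The restriction `G_ℓ → Gal(K''/ℚ_ℓ)`. -/
def res9 (m : ℕ) (σ : Gp ℓ) : Gal2 ℓ m :=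
  haveI := normal_muField ℓ m
  σ.restrictNormal (muField ℓ m)

theorem res9_apply (m : ℕ) (σ : Gp ℓ) (x : muField ℓ m) :
    ((res9 ℓ m σ x : muField ℓ m) : Kbar ℓ) = σ (x : Kbar ℓ) :=
  haveI := normal_muField ℓ m
  AlgEquiv.restrictNormal_commutes σ (muField ℓ m) x

/-- `σ * lift g = lift (res σ * g) * η` with `η` trivial on `K''`. -/
theorem exists_eta (m : ℕ) (σ : Gp ℓ) (g : Gal2 ℓ m) :
    ∃ η : Gp ℓ, (∀ e ∈ muField ℓ m, η e = e) ∧
      σ * lift9 ℓ m g = lift9 ℓ m (res9 ℓ m σ * g) * η := by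
  refine ⟨(lift9 ℓ m (res9 ℓ m σ * g))⁻¹ * (σ * lift9 ℓ m g), ?_, (mul_inv_cancel_left _ _).symm⟩
  intro e he
  have h1 : (σ * lift9 ℓ m g) e = lift9 ℓ m (res9 ℓ m σ * g) e := by
    rw [AlgEquiv.mul_apply]
    have h2 := lift9_apply ℓ m g ⟨e, he⟩
    have h3 := lift9_apply ℓ m (res9 ℓ m σ * g) ⟨e, he⟩
    rw [AlgEquiv.mul_apply, res9_apply] at h3
    simp only at h2 h3
    rw [h2, h3]
  rw [AlgEquiv.mul_apply, h1, AlgEquiv.aut_inv, AlgEquiv.symm_apply_apply]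

theorem lift9_fixes_iff (m : ℕ) (g : Gal2 ℓ m) :
    (∀ e ∈ muField ℓ m, lift9 ℓ m g e = e) ↔ g = 1 := by
  constructor
  · intro h
    ext y
    have h1 := lift9_apply ℓ m g y
    rw [h y.1 y.2] at h1
    rw [AlgEquiv.one_apply]
    exact h1.symm
  · rintro rfl e he
    have h1 := lift9_apply ℓ m 1 ⟨e, he⟩
    simpa using h1

section Trace

variable (m : ℕ) [NeZero m]

theorem finiteDimensional_muField9 : FiniteDimensional ℚ_[ℓ] (muField ℓ m) :=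
  finiteDimensional_muField ℓ (NeZero.ne m)

attribute [local instance] finiteDimensional_muField9

/-- The abstract invariance of the trace: if `v` is fixed by `Gal(K̄/K'')` then
`∑_{g} lift g • v` is `G_ℓ`-invariant. -/
theorem sum_lift_invariant {A : Type*} [AddCommMonoid A] (ρ : Gp ℓ → A →+ A)
    (hmul : ∀ σ τ w, ρ (σ * τ) w = ρ σ (ρ τ w)) (v : A)
    (hv : ∀ η : Gp ℓ, (∀ e ∈ muField ℓ m, η e = e) → ρ η v = v) (σ : Gp ℓ) :
    ρ σ (∑ g : Gal2 ℓ m, ρ (lift9 ℓ m g) v) = ∑ g : Gal2 ℓ m, ρ (lift9 ℓ m g) v := by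
  rw [map_sum]
  refine Fintype.sum_equiv (Equiv.mulLeft (res9 ℓ m σ)) _ _ fun g => ?_
  obtain ⟨η, hη, h⟩ := exists_eta ℓ m σ g
  rw [← hmul, h, hmul, hv η hη]
  rfl

/-- The trace of an element, as a sum over lifts. -/
def tr9 (y : Kbar ℓ) : Kbar ℓ := ∑ g : Gal2 ℓ m, lift9 ℓ m g y

theorem tr9_fixed {y : Kbar ℓ} (hy : y ∈ muField ℓ m) (σ : Gp ℓ) : σ (tr9 ℓ m y) = tr9 ℓ m y := by
  let ρ : Gp ℓ → Kbar ℓ →+ Kbar ℓ := fun σ => AddMonoidHom.mk' (fun w => σ w) (map_add σ)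
  exact sum_lift_invariant ℓ m ρ (fun σ τ w => rfl) y (fun η hη => hη y hy) σ

theorem norm_tr9_le {y : Kbar ℓ} (hy : ‖y‖ ≤ 1) : ‖tr9 ℓ m y‖ ≤ 1 :=
  norm_sum_le9 ℓ _ _ 1 zero_le_one fun g _ => by rw [norm_gal]; exact hy

theorem tr9_mem {y : Kbar ℓ} (hy : y ∈ muField ℓ m) : tr9 ℓ m y ∈ muField ℓ m :=
  sum_mem fun _ _ => gal_mem_muField ℓ m _ hy

theorem tr9_mul_fixed (y u : Kbar ℓ) (hu : ∀ σ : Gp ℓ, σ u = u) :
    tr9 ℓ m (y * u) = tr9 ℓ m y * u := by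
  unfold tr9
  rw [Finset.sum_mul]
  refine Finset.sum_congr rfl fun g _ => ?_
  rw [map_mul, hu]

theorem sum_ite_lift (c : Kbar ℓ)
    [DecidablePred fun σ : Gp ℓ => ∀ e ∈ muField ℓ m, σ e = e] :
    (∑ g : Gal2 ℓ m, if (∀ e ∈ muField ℓ m, lift9 ℓ m g e = e) then c else 0) = c := by
  classical
  have : ∀ g : Gal2 ℓ m, (if (∀ e ∈ muField ℓ m, lift9 ℓ m g e = e) then c else 0)
      = if g = 1 then c else 0 := by
    intro g
    by_cases hg : g = 1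
    · rw [if_pos hg, if_pos ((lift9_fixes_iff ℓ m g).2 hg)]
    · rw [if_neg hg, if_neg (fun h => hg ((lift9_fixes_iff ℓ m g).1 h))]
  rw [Finset.sum_congr rfl fun g _ => this g, Finset.sum_ite_eq' Finset.univ (1 : Gal2 ℓ m)]
  simp

end Trace

/-- **An integer of `K''` of trace one.** -/
theorem exists_trace_one {m : ℕ} [NeZero m] (hm : ¬ ℓ ∣ m) :
    haveI := finiteDimensional_muField9 ℓ m
    ∃ r ∈ intSubring ℓ (muField ℓ m), tr9 ℓ m r = 1 := by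
  classical
  haveI := finiteDimensional_muField9 ℓ m
  obtain ⟨ι, hι, a, e, ha, he, hsep⟩ := exists_sep ℓ hm
  have hsum : ∑ i, a i * tr9 ℓ m (e i) = 1 := by
    unfold tr9
    simp_rw [Finset.mul_sum]
    rw [Finset.sum_comm]
    simp_rw [hsep]
    exact sum_ite_lift ℓ m 1
  have hex : ∃ i, ¬ ‖tr9 ℓ m (e i)‖ < 1 := by
    by_contra hcon
    push Not at hcon
    have h1 : ‖∑ i, a i * tr9 ℓ m (e i)‖ < 1 := by
      refine norm_sum_lt_one9 ℓ _ _ fun i _ => ?_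
      rw [norm_mul]
      calc ‖a i‖ * ‖tr9 ℓ m (e i)‖ ≤ 1 * ‖tr9 ℓ m (e i)‖ :=
            mul_le_mul_of_nonneg_right (ha i).2 (norm_nonneg _)
        _ < 1 := by rw [one_mul]; exact hcon i
    rw [hsum, norm_one] at h1
    exact lt_irrefl _ h1
  obtain ⟨i, hi⟩ := hex
  have hu1 : ‖tr9 ℓ m (e i)‖ = 1 := le_antisymm (norm_tr9_le ℓ m (he i).2) (not_lt.1 hi)
  have hu0 : tr9 ℓ m (e i) ≠ 0 := by
    intro h0
    rw [h0, norm_zero] at hu1
    exact zero_ne_one hu1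
  have hufix : ∀ σ : Gp ℓ, σ (tr9 ℓ m (e i))⁻¹ = (tr9 ℓ m (e i))⁻¹ := by
    intro σ
    rw [map_inv₀, tr9_fixed ℓ m (he i).1]
  refine ⟨e i * (tr9 ℓ m (e i))⁻¹, ⟨(muField ℓ m).mul_mem (he i).1
    ((muField ℓ m).inv_mem (tr9_mem ℓ m (he i).1)), ?_⟩, ?_⟩
  · rw [norm_mul, norm_inv, hu1, inv_one, mul_one]
    exact (he i).2
  · rw [tr9_mul_fixed ℓ m _ _ hufix, mul_inv_cancel₀ hu0]

/-! ### The semilinear action on functions -/

section Fun

variable {X : Type} (actX : Gp ℓ → X → X)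

/-- `galFun` as an additive map. -/
def galFunHom (σ : Gp ℓ) : (X → Kbar ℓ) →+ (X → Kbar ℓ) where
  toFun := galFun ℓ actX σ
  map_zero' := by
    funext x
    simp [galFun]
  map_add' := by
    intro b b'
    funext x
    simp [galFun]

theorem galFun_mul9 (h1 : ∀ σ τ x, actX (σ * τ) x = actX σ (actX τ x)) (σ τ : Gp ℓ)
    (b : X → Kbar ℓ) : galFun ℓ actX (σ * τ) b = galFun ℓ actX σ (galFun ℓ actX τ b) := by
  funext x
  unfold galFun
  rw [mul_inv_rev, h1, AlgEquiv.mul_apply]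

theorem galFun_smul9 (σ : Gp ℓ) (r : Kbar ℓ) (b : X → Kbar ℓ) (x : X) :
    galFun ℓ actX σ (fun x => r * b x) x = σ r * galFun ℓ actX σ b x := by
  unfold galFun
  rw [map_mul]

end Fun

/-! ### The two statements of brick A2 -/

/-- **(A2) unramified Galois descent.** -/
theorem unramDescent : UnramDescent ℓ := by
  classical
  intro m hm X actX _ actmul B' hsmul hgal hfix b hb
  have hm0 := ne_zero_of_not_dvd ℓ hm
  haveI : NeZero m := ⟨hm0⟩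
  haveI := finiteDimensional_muField9 ℓ m
  obtain ⟨ι, hι, a, e, ha, he, hsep⟩ := exists_sep ℓ hm
  have hρmul : ∀ (σ τ : Gp ℓ) (w : X → Kbar ℓ),
      galFunHom ℓ actX (σ * τ) w = galFunHom ℓ actX σ (galFunHom ℓ actX τ w) :=
    fun σ τ w => galFun_mul9 ℓ actX actmul σ τ w
  refine ⟨ι, hι, a,
    fun i => ∑ g : Gal2 ℓ m, galFun ℓ actX (lift9 ℓ m g) (fun x => e i * b x), ha, ?_, ?_, ?_⟩
  · intro i
    exact sum_mem fun g _ => hgal _ _ (hsmul _ (he i) _ hb)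
  · intro i σ
    exact sum_lift_invariant ℓ m (galFunHom ℓ actX) hρmul (fun x => e i * b x)
      (fun η hη => hfix η hη _ (hsmul _ (he i) _ hb)) σ
  · intro x
    have h1 : ∀ i, (∑ g : Gal2 ℓ m, galFun ℓ actX (lift9 ℓ m g) (fun x => e i * b x)) x
        = ∑ g : Gal2 ℓ m, lift9 ℓ m g (e i) * galFun ℓ actX (lift9 ℓ m g) b x := by
      intro i
      rw [Finset.sum_apply]
      exact Finset.sum_congr rfl fun g _ => galFun_smul9 ℓ actX _ _ _ _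
    simp_rw [h1, Finset.mul_sum]
    rw [Finset.sum_comm]
    have h2 : ∀ g : Gal2 ℓ m,
        (∑ i, a i * (lift9 ℓ m g (e i) * galFun ℓ actX (lift9 ℓ m g) b x))
          = if (∀ y ∈ muField ℓ m, lift9 ℓ m g y = y) then b x else 0 := by
      intro g
      have h3 : (∑ i, a i * (lift9 ℓ m g (e i) * galFun ℓ actX (lift9 ℓ m g) b x))
          = (∑ i, a i * lift9 ℓ m g (e i)) * galFun ℓ actX (lift9 ℓ m g) b x := by
        rw [Finset.sum_mul]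
        exact Finset.sum_congr rfl fun i _ => (mul_assoc _ _ _).symm
      rw [h3, hsep]
      by_cases hg : ∀ y ∈ muField ℓ m, lift9 ℓ m g y = y
      · rw [if_pos hg, if_pos hg, one_mul, hfix _ hg b hb]
      · rw [if_neg hg, if_neg hg, zero_mul]
    rw [Finset.sum_congr rfl fun g _ => h2 g]
    exact (sum_ite_lift ℓ m (b x)).symm

/-- **(A2) trace one.** -/
theorem traceOne : TraceOne ℓ := by
  classical
  intro m hm X actX ι _ a w b ha hw hb hbw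
  have hm0 := ne_zero_of_not_dvd ℓ hm
  haveI : NeZero m := ⟨hm0⟩
  haveI := finiteDimensional_muField9 ℓ m
  obtain ⟨r, hr, hr1⟩ := exists_trace_one ℓ hm
  have key : ∀ (σ : Gp ℓ) (x : X), b x = ∑ i, σ (a i) * w i x := by
    intro σ x
    have h1 : σ (b (actX σ⁻¹ x)) = b x := congrFun (hb σ) x
    rw [← h1, hbw, map_sum]
    refine Finset.sum_congr rfl fun i _ => ?_
    rw [map_mul]
    have h2 : σ (w i (actX σ⁻¹ x)) = w i x := congrFun (hw i σ) x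
    rw [h2]
  have hz : ∀ i, ∃ z : ℤ_[ℓ], algebraMap ℤ_[ℓ] (Kbar ℓ) z = tr9 ℓ m (r * a i) := by
    intro i
    have hmem : r * a i ∈ intSubring ℓ (muField ℓ m) := Subring.mul_mem _ hr (ha i)
    exact exists_padicInt_of_fixed ℓ _ (tr9_fixed ℓ m hmem.1) (norm_tr9_le ℓ m hmem.2)
  choose z hz using hz
  refine ⟨z, fun x => ?_⟩
  have h1 : b x = (∑ g : Gal2 ℓ m, lift9 ℓ m g r) * b x := by
    have : (∑ g : Gal2 ℓ m, lift9 ℓ m g r) = 1 := hr1
    rw [this, one_mul]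
  rw [h1, Finset.sum_mul]
  have h2 : ∀ g : Gal2 ℓ m, lift9 ℓ m g r * b x
      = ∑ i, lift9 ℓ m g (r * a i) * w i x := by
    intro g
    rw [key (lift9 ℓ m g) x, Finset.mul_sum]
    refine Finset.sum_congr rfl fun i _ => ?_
    rw [map_mul, mul_assoc]
  rw [Finset.sum_congr rfl fun g _ => h2 g, Finset.sum_comm]
  refine Finset.sum_congr rfl fun i _ => ?_
  rw [hz i, tr9, Finset.sum_mul]

end Fermat.Agent.T1.UnramDescent9
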