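/-
Programme T1a (S19), layer (A) ALG (helper47): **the abstract local criterion** `ALC`, from the abstract
assembly step (`AsmIface47.Assembly`, proved in `Assembly25` by helper25) and the unramified descent
(`UnramDescent9`, helper9).  Final theorem: `alc : AlgIface47.ALC ℓ`.
-/
import Mathlib
import Fermat.Agent.T1.Order47
import Fermat.Agent.T1.AsmIface47
import Fermat.Agent.T1.UnramDescent9
import Fermat.Agent.T1.Assembly25

set_option autoImplicit false

namespace Fermat.Agent.T1.Alc47

open Fermat.Agent.TW.B5.Iface Fermat.Agent.TW.B5.LG83W Fermat.Agent.T1.AlgIface47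
  Fermat.Agent.T1.Setup47 Fermat.Agent.T1.Inst47 Fermat.Agent.T1.Order47

variable (ℓ : ℕ) [Fact ℓ.Prime]

/-- `ALCNN` from the abstract assembly. -/
theorem alcNN_of_assembly (hA : AsmIface47.Assembly ℓ) : ALCNN ℓ := by
  intro J _ M _ _ actM D
  exact hA (UnramDescent9.unramDescent (ℓ := ℓ)) (UnramDescent9.traceOne (ℓ := ℓ)) M actM
    (actM_one D) (actM_mul D) (actM_add D) (lev D) (lev_not_dvd D) (Lf D) (Lf_fin D) (B' D)
    (B'_values D) (B'_smul D) (B'_gal D) (B'_fix D) (B'_separates D) (B'_comul D) (B'_neg D)

/-- **(A) ALC, the abstract local criterion** (form without negation law): local analytic group data for a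
finite module give a local function order.  (Unconditional.) -/
theorem alcNN : ALCNN ℓ := alcNN_of_assembly ℓ (Assembly25.assembly ℓ)

/-- **(A) ALC** in the original form (with the redundant negation law among the hypotheses). -/
theorem alc : ALC ℓ := fun J _ M _ _ actM D => alcNN ℓ J M actM D.toNN

end Fermat.Agent.T1.Alc47
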