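/-
Programme T1a (S19), brick G9-T LIFT (helper9): ARITHMETIC ⟹ TRUNCATED LOCAL DATA.

`truncOfModCoord : Assembly41.TruncOfModCoord ℓ` : from `ModCoordData` (representatives of the coordinates
in `ℚ̄`, congruences modulo `ℓ ^ n • O`) to `TruncIface47.DiscGroupDataTrunc` (`tn n x i := ι (c n x i)` with
`ι = padicEmbedding ℓ`, `K' := muField ℓ m`, the polynomials of the group law mapped coefficientwise by `ι`).

* `norm_iota_pow_mul_le` : `‖ι (ℓ ^ n * z)‖ ≤ ‖ℓ‖ ^ n` for `‖ι z‖ ≤ 1`;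
* `norm_le_of_congrMod`  : `CongrMod ℓ O n a b ⟹ ‖ι a - ι b‖ ≤ ‖ℓ‖ ^ n`;
* `iota_aeval`           : `ι (aeval v F) = aeval (ι ∘ v) (map φ F)`.
-/
import Mathlib
import Fermat.Agent.T1.Assembly41.ModCoord
import Fermat.Agent.TW.B5.LG83W

set_option autoImplicit false

noncomputable section

namespace Fermat.Agent.T1.Lift9

open Fermat.Agent.TW.B5.Iface Fermat.Agent.TW.B5.LG83W Fermat.Agent.T1.AlgIface47
  Fermat.Agent.T1.TruncIface47 Fermat.Agent.T1.Assembly41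

variable (ℓ : ℕ) [Fact ℓ.Prime]

theorem iota_natCast : padicEmbedding ℓ ((ℓ : ℕ) : Qb) = ((ℓ : ℕ) : Kbar ℓ) :=
  map_natCast (padicEmbedding ℓ) ℓ

theorem norm_iota_pow_mul_le (n : ℕ) {z : Qb} (hz : ‖padicEmbedding ℓ z‖ ≤ 1) :
    ‖padicEmbedding ℓ (((ℓ : ℕ) : Qb) ^ n * z)‖ ≤ ‖((ℓ : ℕ) : Kbar ℓ)‖ ^ n := by
  rw [map_mul, map_pow, iota_natCast, norm_mul, norm_pow]
  calc ‖((ℓ : ℕ) : Kbar ℓ)‖ ^ n * ‖padicEmbedding ℓ z‖ ≤ ‖((ℓ : ℕ) : Kbar ℓ)‖ ^ n * 1 :=
        mul_le_mul_of_nonneg_left hz (pow_nonneg (norm_nonneg _) n)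
    _ = ‖((ℓ : ℕ) : Kbar ℓ)‖ ^ n := mul_one _

/-- A congruence modulo `ℓ ^ n • O` becomes a norm inequality in `K̄`. -/
theorem norm_le_of_congrMod {O : Subring Qb} (hO : ∀ x ∈ O, ‖padicEmbedding ℓ x‖ ≤ 1) {n : ℕ}
    {a b : Qb} (h : CongrMod ℓ O n a b) :
    ‖padicEmbedding ℓ a - padicEmbedding ℓ b‖ ≤ ‖((ℓ : ℕ) : Kbar ℓ)‖ ^ n := by
  obtain ⟨z, hz, hab⟩ := h
  rw [← map_sub, hab]
  exact norm_iota_pow_mul_le ℓ n (hO z hz)

/-- Transport of polynomial evaluation along `ι`. -/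
theorem iota_aeval {σ : Type*} (W0 : Subring Qb) (S : Subring (Kbar ℓ)) (φ : W0 →+* S)
    (hφ : ∀ w : W0, ((φ w : S) : Kbar ℓ) = padicEmbedding ℓ (w : Qb))
    (F : MvPolynomial σ W0) (v : σ → Qb) :
    padicEmbedding ℓ (MvPolynomial.aeval v F) =
      MvPolynomial.aeval (fun i => padicEmbedding ℓ (v i)) (MvPolynomial.map φ F) := by
  induction F using MvPolynomial.induction_on with
  | C a =>
    rw [MvPolynomial.map_C, MvPolynomial.aeval_C, MvPolynomial.aeval_C]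
    exact (hφ a).symm
  | add p q hp hq => rw [map_add, map_add, hp, hq, map_add, map_add]
  | mul_X p i hp => rw [map_mul, map_mul, hp, map_mul, map_mul, MvPolynomial.aeval_X,
      MvPolynomial.map_X, MvPolynomial.aeval_X]

/-- The coefficient map `W0 → 𝒪_{K''}` induced by `ι`. -/
def coeffHom (W0 : Subring Qb) (S : Subring (Kbar ℓ))
    (h : ∀ w ∈ W0, padicEmbedding ℓ w ∈ S) : W0 →+* S :=
  ((padicEmbedding ℓ).toRingHom.comp W0.subtype).codRestrict S (fun w => h w w.2)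

theorem coe_coeffHom (W0 : Subring Qb) (S : Subring (Kbar ℓ))
    (h : ∀ w ∈ W0, padicEmbedding ℓ w ∈ S) (w : W0) :
    ((coeffHom ℓ W0 S h w : S) : Kbar ℓ) = padicEmbedding ℓ (w : Qb) := rfl

theorem sumElim_iota {α β : Type*} (a : α → Qb) (b : β → Qb) :
    (fun i => padicEmbedding ℓ (Sum.elim a b i)) =
      Sum.elim (fun i => padicEmbedding ℓ (a i)) (fun i => padicEmbedding ℓ (b i)) := by
  funext i
  cases i <;> rfl

/-- **G9-T (LIFT).** -/
theorem truncOfModCoord : TruncOfModCoord ℓ := by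
  intro J _ M _ actM D
  have hm0 : D.m ≠ 0 := ne_zero_of_not_dvd ℓ D.m_ndvd
  refine ⟨{
    act := D.act
    act_one := D.act_one
    act_mul := D.act_mul
    J1 := D.J1
    J1_stable := D.J1_stable
    g := D.g
    tn := fun n x i => padicEmbedding ℓ (D.c n x i)
    tn_norm := fun x hx n i => D.c_small x hx n i
    tn_compat := fun x hx n i => norm_le_of_congrMod ℓ D.O_int (D.c_compat x hx n i)
    tn_field := fun x hx => by
      obtain ⟨E, hE, h⟩ := D.O_field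
      exact ⟨E, hE, fun n i => h _ (D.c_mem x hx n i)⟩
    tn_inj := fun x hx y hy h => D.c_inj x hx y hy (fun n i => by rw [map_sub]; exact h n i)
    tn_equiv := fun σ x hx n i => by
      rw [← padicEmbedding_localGaloisToGlobal]
      exact norm_le_of_congrMod ℓ D.O_int (D.c_equiv σ x hx n i)
    K' := muField ℓ D.m
    K'_fin := finiteDimensional_muField ℓ hm0
    K'_unr := isUnramifiedField_muField ℓ D.m_ndvd
    add_approx := fun ρ _ n => by
      obtain ⟨F, hF⟩ := D.add_law n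
      refine ⟨fun i => MvPolynomial.map
        (coeffHom ℓ D.W0 (intSubring ℓ (muField ℓ D.m)) D.W0_mu) (F i), ?_⟩
      intro x hx y hy _ _ i
      have h1 := iota_aeval ℓ D.W0 (intSubring ℓ (muField ℓ D.m))
        (coeffHom ℓ D.W0 (intSubring ℓ (muField ℓ D.m)) D.W0_mu)
        (coe_coeffHom ℓ D.W0 _ D.W0_mu) (F i) (Sum.elim (D.c n x) (D.c n y))
      rw [sumElim_iota] at h1
      rw [← h1]
      exact norm_le_of_congrMod ℓ D.O_int (hF x hx y hy i)
    emb := D.emb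
    emb_inj := D.emb_inj
    emb_equiv := D.emb_equiv
    centres := D.centres }⟩

end Fermat.Agent.T1.Lift9
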