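/-
Programme T1a (S19), layer (A) ALG, brick A0t (helper46): TRUNCATED ⟹ EXACT.

`truncToExact : TruncIface47.TruncToExact ℓ` : from `DiscGroupDataTrunc` (coordinates `tn n x` known modulo `ℓ^n`)
to `DiscGroupData` (exact coordinates `t x i := lim_n tn n x i`, the limit existing because all `tn n x i` lie in
ONE finite extension `L_x` of `ℚ_ℓ`, which is complete).  Everything else is the ultrametric inequality, the
fact that `σ ∈ G_ℓ` is an isometry, and `PolyNorm47.norm_aeval_sub_le`.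
-/
import Mathlib
import Fermat.Agent.T1.TruncIface47
import Fermat.Agent.T1.PolyNorm47

set_option autoImplicit false
set_option linter.unusedSectionVars false
set_option linter.unusedVariables false

noncomputable section

namespace Fermat.Agent.T1.Trunc46

open Fermat.Agent.TW.B5.Iface Fermat.Agent.T1.AlgIface47 Fermat.Agent.T1.TruncIface47
  Fermat.Agent.T1.PolyNorm47 Filter Topology

variable (ℓ : ℕ) [hℓ : Fact ℓ.Prime]

/-- `‖ℓ‖ = ℓ⁻¹` in `K̄`. -/
theorem norm_ell : ‖((ℓ : ℕ) : Kbar ℓ)‖ = (ℓ : ℝ)⁻¹ := by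
  have h1 : ((ℓ : ℕ) : Kbar ℓ) = algebraMap ℚ_[ℓ] (Kbar ℓ) (ℓ : ℚ_[ℓ]) := by
    rw [map_natCast]
  rw [h1, PadicAlgCl.norm_extends]
  exact Padic.norm_p

theorem norm_ell_pos : 0 < ‖((ℓ : ℕ) : Kbar ℓ)‖ := by
  rw [norm_ell]
  exact inv_pos.2 (by exact_mod_cast hℓ.out.pos)

theorem norm_ell_lt_one : ‖((ℓ : ℕ) : Kbar ℓ)‖ < 1 := by
  rw [norm_ell]
  exact inv_lt_one_of_one_lt₀ (by exact_mod_cast hℓ.out.one_lt)

theorem norm_gp (σ : Gp ℓ) (y : Kbar ℓ) : ‖σ y‖ = ‖y‖ := by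
  have h := nnnorm_padicAlgCl_algEquiv ℓ σ y
  rw [← coe_nnnorm, ← coe_nnnorm, h]

/-- three-term ultrametric inequality -/
theorem norm_sub_le_of_le3 {x y z w : Kbar ℓ} {ε : ℝ} (h1 : ‖x - y‖ ≤ ε) (h2 : ‖y - z‖ ≤ ε)
    (h3 : ‖z - w‖ ≤ ε) : ‖x - w‖ ≤ ε :=
  norm_sub_le_of_le ℓ (norm_sub_le_of_le ℓ h1 h2) h3

/-- **The limit.**  A sequence in a finite extension of `ℚ_ℓ` with `‖a (n+1) - a n‖ ≤ ‖ℓ‖ ^ n` has a limit `b` with
`‖b - a n‖ ≤ ‖ℓ‖ ^ n` for all `n`. -/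
theorem exists_limit (a : ℕ → Kbar ℓ) (L : IntermediateField ℚ_[ℓ] (Kbar ℓ))
    (hL : FiniteDimensional ℚ_[ℓ] L) (haL : ∀ n, a n ∈ L)
    (hc : ∀ n, ‖a (n + 1) - a n‖ ≤ ‖((ℓ : ℕ) : Kbar ℓ)‖ ^ n) :
    ∃ b : Kbar ℓ, ∀ n, ‖b - a n‖ ≤ ‖((ℓ : ℕ) : Kbar ℓ)‖ ^ n := by
  set r : ℝ := ‖((ℓ : ℕ) : Kbar ℓ)‖ with hr
  have hr0 : 0 < r := norm_ell_pos ℓ
  have hr1 : r < 1 := norm_ell_lt_one ℓ
  -- `‖a m - a n‖ ≤ r ^ n` for `m ≥ n`
  have hmn : ∀ n k, ‖a (n + k) - a n‖ ≤ r ^ n := by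
    intro n k
    induction k with
    | zero => simp only [add_zero, sub_self, norm_zero]; exact pow_nonneg hr0.le n
    | succ k ih =>
      have h1 : ‖a (n + (k + 1)) - a (n + k)‖ ≤ r ^ n := by
        rw [← add_assoc]
        exact (hc (n + k)).trans (pow_le_pow_of_le_one hr0.le hr1.le (Nat.le_add_right n k))
      exact norm_sub_le_of_le ℓ h1 ih
  have hcau : CauchySeq a := by
    rw [Metric.cauchySeq_iff']
    intro ε hε
    obtain ⟨N, hN⟩ := exists_pow_lt_of_lt_one hε hr1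
    refine ⟨N, fun n hn => ?_⟩
    obtain ⟨k, rfl⟩ := Nat.exists_eq_add_of_le hn
    rw [dist_eq_norm]
    exact lt_of_le_of_lt (hmn N k) hN
  have hcomp : IsComplete ((L.toSubalgebra.toSubmodule : Submodule ℚ_[ℓ] (Kbar ℓ)) : Set (Kbar ℓ)) := by
    have : FiniteDimensional ℚ_[ℓ] (L.toSubalgebra.toSubmodule : Submodule ℚ_[ℓ] (Kbar ℓ)) := hL
    exact Submodule.complete_of_finiteDimensional _
  obtain ⟨b, -, hb⟩ := cauchySeq_tendsto_of_isComplete hcomp (fun n => haL n) hcau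
  refine ⟨b, fun n => ?_⟩
  have hlim : Tendsto (fun m => ‖a m - a n‖) atTop (𝓝 ‖b - a n‖) :=
    (hb.sub_const (a n)).norm
  refine le_of_tendsto hlim ?_
  rw [eventually_atTop]
  refine ⟨n, fun m hm => ?_⟩
  obtain ⟨k, rfl⟩ := Nat.exists_eq_add_of_le hm
  exact hmn n k

variable {ℓ}
variable {J : Type} [AddCommGroup J] {M : Type} [AddCommGroup M] {actM : Gp ℓ → M → M}

/-- the exact coordinate of a point of `J1` exists -/
theorem exists_coord (D : DiscGroupDataTrunc ℓ J M actM) {x : J} (hx : x ∈ D.J1) (i : Fin D.g) :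
    ∃ b : Kbar ℓ, ∀ n, ‖b - D.tn n x i‖ ≤ ‖((ℓ : ℕ) : Kbar ℓ)‖ ^ n := by
  obtain ⟨L, hL, hmem⟩ := D.tn_field x hx
  exact exists_limit ℓ (fun n => D.tn n x i) L hL (fun n => hmem n i) (fun n => D.tn_compat x hx n i)

open Classical in
/-- the exact coordinates (`0` outside `J1`) -/
def coord (D : DiscGroupDataTrunc ℓ J M actM) (x : J) (i : Fin D.g) : Kbar ℓ :=
  if hx : x ∈ D.J1 then Classical.choose (exists_coord D hx i) else 0

theorem coord_spec (D : DiscGroupDataTrunc ℓ J M actM) {x : J} (hx : x ∈ D.J1) (i : Fin D.g) (n : ℕ) :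
    ‖coord D x i - D.tn n x i‖ ≤ ‖((ℓ : ℕ) : Kbar ℓ)‖ ^ n := by
  unfold coord
  rw [dif_pos hx]
  exact Classical.choose_spec (exists_coord D hx i) n

theorem coord_spec' (D : DiscGroupDataTrunc ℓ J M actM) {x : J} (hx : x ∈ D.J1) (i : Fin D.g) (n : ℕ) :
    ‖D.tn n x i - coord D x i‖ ≤ ‖((ℓ : ℕ) : Kbar ℓ)‖ ^ n := by
  rw [norm_sub_rev]; exact coord_spec D hx i n

/-- an element of `K̄` of norm `≤ ‖ℓ‖ ^ n` for all `n` vanishes -/
theorem eq_zero_of_forall_le {z : Kbar ℓ} (h : ∀ n : ℕ, ‖z‖ ≤ ‖((ℓ : ℕ) : Kbar ℓ)‖ ^ n) : z = 0 := by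
  by_contra hz
  have hpos : 0 < ‖z‖ := norm_pos_iff.2 hz
  obtain ⟨N, hN⟩ := exists_pow_lt_of_lt_one hpos (norm_ell_lt_one ℓ)
  exact not_lt.2 (h N) hN

theorem coord_norm_lt (D : DiscGroupDataTrunc ℓ J M actM) {x : J} (hx : x ∈ D.J1) (i : Fin D.g) :
    ‖coord D x i‖ < 1 := by
  have h1 : coord D x i = (coord D x i - D.tn 1 x i) + D.tn 1 x i := by ring
  rw [h1]
  refine lt_of_le_of_lt (norm_add_le_max' ℓ _ _) (max_lt ?_ (D.tn_norm x hx 1 i))
  refine lt_of_le_of_lt (coord_spec D hx i 1) ?_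
  rw [pow_one]
  exact norm_ell_lt_one ℓ

/-- bound on the truncated coordinates from a bound on the exact ones -/
theorem tn_norm_le (D : DiscGroupDataTrunc ℓ J M actM) {x : J} (hx : x ∈ D.J1) (i : Fin D.g) {n : ℕ}
    (hn : 1 ≤ n) {ρ : ℝ} (h : ‖coord D x i‖ ≤ ρ) :
    ‖D.tn n x i‖ ≤ max ρ ‖((ℓ : ℕ) : Kbar ℓ)‖ := by
  have h1 : D.tn n x i = (D.tn n x i - coord D x i) + coord D x i := by ring
  rw [h1]
  refine (norm_add_le_max' ℓ _ _).trans (max_le ?_ (h.trans (le_max_left _ _)))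
  refine (coord_spec' D hx i n).trans ((pow_le_pow_of_le_one (norm_ell_pos ℓ).le (norm_ell_lt_one ℓ).le hn).trans ?_)
  rw [pow_one]
  exact le_max_right _ _

/-- **Truncated ⟹ exact.** -/
theorem truncToExact' : TruncToExact ℓ := by
  intro J _ M _ actM D
  classical
  have hr0 := norm_ell_pos ℓ
  have hr1 := norm_ell_lt_one ℓ
  refine ⟨{
    act := D.act
    act_one := D.act_one
    act_mul := D.act_mul
    J1 := D.J1
    J1_stable := D.J1_stable
    g := D.g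
    t := coord D
    t_norm := fun x hx i => coord_norm_lt D hx i
    t_inj := ?_
    t_equiv := ?_
    K' := D.K'
    K'_fin := D.K'_fin
    K'_unr := D.K'_unr
    add_approx := ?_
    emb := D.emb
    emb_inj := D.emb_inj
    emb_equiv := D.emb_equiv
    centres := D.centres }⟩
  · -- injectivity
    intro x hx y hy hxy
    apply D.tn_inj x hx y hy
    intro n i
    have h1 : ‖D.tn n x i - coord D x i‖ ≤ ‖((ℓ : ℕ) : Kbar ℓ)‖ ^ n := coord_spec' D hx i n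
    have h2 : ‖coord D x i - D.tn n y i‖ ≤ ‖((ℓ : ℕ) : Kbar ℓ)‖ ^ n := by
      rw [hxy]; exact coord_spec D hy i n
    exact norm_sub_le_of_le ℓ h1 h2
  · -- equivariance
    intro σ x hx i
    have hσx := D.J1_stable σ x hx
    rw [← sub_eq_zero]
    apply eq_zero_of_forall_le
    intro n
    have h1 := coord_spec D hσx i n
    have h2 := D.tn_equiv σ x hx n i
    have h3 : ‖σ (D.tn n x i) - σ (coord D x i)‖ ≤ ‖((ℓ : ℕ) : Kbar ℓ)‖ ^ n := by
      rw [← map_sub, norm_gp]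
      exact coord_spec' D hx i n
    exact norm_sub_le_of_le3 ℓ h1 h2 h3
  · -- addition law
    intro ρ hρ n
    rcases Nat.eq_zero_or_pos n with rfl | hn
    · refine ⟨fun _ => 0, fun x hx y hy _ _ i => ?_⟩
      rw [map_zero, sub_zero, pow_zero]
      exact (coord_norm_lt D (D.J1.add_mem hx hy) i).le
    · obtain ⟨F, hF⟩ := D.add_approx (max ρ ‖((ℓ : ℕ) : Kbar ℓ)‖) (max_lt hρ hr1) n
      refine ⟨F, fun x hx y hy hxρ hyρ i => ?_⟩
      have hxy := D.J1.add_mem hx hy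
      have h1 := coord_spec D hxy i n
      have h2 := hF x hx y hy (fun j => tn_norm_le D hx j hn (hxρ j))
        (fun j => tn_norm_le D hy j hn (hyρ j)) i
      have h3 : ‖MvPolynomial.aeval (Sum.elim (D.tn n x) (D.tn n y)) (F i) -
          MvPolynomial.aeval (Sum.elim (coord D x) (coord D y)) (F i)‖
          ≤ ‖((ℓ : ℕ) : Kbar ℓ)‖ ^ n := by
        apply norm_aeval_sub_le D.K' (F i) _ _ _ ?_ ?_ ?_ (pow_nonneg hr0.le n)
        · rintro (j | j)
          · exact (D.tn_norm x hx n j).le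
          · exact (D.tn_norm y hy n j).le
        · rintro (j | j)
          · exact (coord_norm_lt D hx j).le
          · exact (coord_norm_lt D hy j).le
        · rintro (j | j)
          · exact coord_spec' D hx j n
          · exact coord_spec' D hy j n
      exact norm_sub_le_of_le3 ℓ h1 h2 h3

end Fermat.Agent.T1.Trunc46

namespace Fermat.Agent.T1.Trunc46

/-- **Brick A0t.** -/
theorem truncToExact (ℓ : ℕ) [Fact ℓ.Prime] : Fermat.Agent.T1.TruncIface47.TruncToExact ℓ :=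
  truncToExact'

end Fermat.Agent.T1.Trunc46
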