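import Mathlib
import Fermat.Agent.Jac.Core
import Fermat.Agent.Jac.JSmooth85Alg
import Fermat.Agent.Jac.BaseChange75.Tensor
import Fermat.Agent.Jac.JGroup85Pic

/-!
# T1A (S19), REDUCTION layer G4-G6: interface, part 1 = the HUB OBJECT  (helper75)

`W` is the base ring (in the application the DVR `O_{K1} = A ∩ K1`, `K1 = ℚ(ζ_M)`, of the unramified
model), `(B0, B1, B01)` the two-chart curve over `W` (`c0 : TwoChart W B0 B1 B01`).  For a
`W`-algebra `A` the curve `X_A` has charts `(A ⊗[W] B0, A ⊗[W] B1, A ⊗[W] B01)`
(`BaseChange75`), and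

* `PicX c0 A` := `JGroup85Pic.LinePic (c0.baseChange A)` : isomorphism classes of line two-chart
  modules on `X_A`, a commutative group (tensor product; helper85);
* `PicX.map c0 A A'` : base change along a `W`-algebra map `A → A'` (given as `[Algebra A A']`
  with a scalar tower), a group homomorphism;
* `ChartAut` : a ring automorphism `σ` of the whole chart system `(W, B0, B1, B01)` (in the
  application: the coefficientwise action of an element of `Gal(ℚ̄/ℚ)` preserving `K1`, on
  `B_j ⊂ K1((q))`); `PicX.mapSemi S f` : base change along a ring homomorphism `f : A → A'`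
  which is `σ_W`-SEMILINEAR (`f (w • a) = σ_W w • f a`).  For `A = A' = L` a Galois number field
  and `f = σ|_L` this is the Galois action on `Pic X_L` used by DICT (G7) and by the local
  analysis (G5).
-/

set_option autoImplicit false

open TensorProduct

namespace Fermat.Agent.T1.RedIface75

open Fermat.Agent.Jac Fermat.Agent.Jac.JSmooth85Alg Fermat.Agent.Jac.JGroup85Pic
open Fermat.Agent.Jac.BaseChange75
open scoped Fermat.Agent.Jac.BaseChange75

universe u

section Hub

variable {W B0 B1 B01 : Type u} [CommRing W] [CommRing B0] [CommRing B1] [CommRing B01]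
  [Algebra W B0] [Algebra W B1] [Algebra W B01] [Algebra B0 B01] [Algebra B1 B01]
  [IsScalarTower W B0 B01] [IsScalarTower W B1 B01]
  (c0 : TwoChart W B0 B1 B01)

/-- **Hub object**: the Picard group of `X_A`, `A` a `W`-algebra. -/
abbrev PicX (A : Type u) [CommRing A] [Algebra W A] : Type (u + 1) :=
  LinePic (c0.baseChange A)

/-- Base change `Pic X_A → Pic X_{A'}` along a `W`-algebra map `A → A'`. -/
noncomputable def PicX.map (A A' : Type u) [CommRing A] [CommRing A'] [Algebra W A]
    [Algebra W A'] [Algebra A A'] [IsScalarTower W A A'] : PicX c0 A →* PicX c0 A' :=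
  LinePic.bc (square_comm W A A' B0 B01) (square_comm W A A' B1 B01)
    (c0.baseChange A) (c0.baseChange A')

end Hub

/-! ### Semilinear tensor maps -/

section SemiTensor

variable {W A A' B : Type u} [CommRing W] [CommRing A] [CommRing A'] [CommRing B]
  [Algebra W A] [Algebra W A'] [Algebra W B]

/-- The additive map `a ⊗ b ↦ f a ⊗ τ b` for `σW`-semilinear `f`, `τ`. -/
noncomputable def semiTensorAdd (σW : W →+* W) (f : A →+* A') (τ : B →+* B)
    (hf : ∀ (w : W) (a : A), f (w • a) = σW w • f a)
    (hτ : ∀ (w : W) (b : B), τ (w • b) = σW w • τ b) : A ⊗[W] B →+ A' ⊗[W] B :=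
  TensorProduct.liftAddHom
    { toFun := fun a =>
        { toFun := fun b => f a ⊗ₜ[W] τ b
          map_zero' := by simp
          map_add' := fun b b' => by simp [TensorProduct.tmul_add] }
      map_zero' := by ext b; simp
      map_add' := fun a a' => by ext b; simp [TensorProduct.add_tmul] }
    (fun w a b => by
      simp only [AddMonoidHom.coe_mk, ZeroHom.coe_mk]
      rw [hf, hτ, TensorProduct.smul_tmul])

theorem semiTensorAdd_tmul (σW : W →+* W) (f : A →+* A') (τ : B →+* B)
    (hf : ∀ (w : W) (a : A), f (w • a) = σW w • f a)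
    (hτ : ∀ (w : W) (b : B), τ (w • b) = σW w • τ b) (a : A) (b : B) :
    semiTensorAdd σW f τ hf hτ (a ⊗ₜ b) = f a ⊗ₜ τ b := rfl

/-- The ring homomorphism `A ⊗[W] B → A' ⊗[W] B`, `a ⊗ b ↦ f a ⊗ τ b`, for `σW`-semilinear ring
homomorphisms `f : A → A'` and `τ : B → B`. -/
noncomputable def semiTensor (σW : W →+* W) (f : A →+* A') (τ : B →+* B)
    (hf : ∀ (w : W) (a : A), f (w • a) = σW w • f a)
    (hτ : ∀ (w : W) (b : B), τ (w • b) = σW w • τ b) : A ⊗[W] B →+* A' ⊗[W] B :=
  { semiTensorAdd σW f τ hf hτ with
    map_one' := by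
      show semiTensorAdd σW f τ hf hτ (1 ⊗ₜ 1) = 1
      rw [semiTensorAdd_tmul, map_one, map_one]; rfl
    map_mul' := fun x y => by
      show semiTensorAdd σW f τ hf hτ (x * y) =
        semiTensorAdd σW f τ hf hτ x * semiTensorAdd σW f τ hf hτ y
      induction x using TensorProduct.induction_on with
      | zero => simp
      | add x x' hx hx' => rw [add_mul, map_add, hx, hx', map_add, add_mul]
      | tmul a b =>
        induction y using TensorProduct.induction_on with
        | zero => simp
        | add y y' hy hy' => rw [mul_add, map_add, hy, hy', map_add, mul_add]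
        | tmul a' b' =>
          rw [Algebra.TensorProduct.tmul_mul_tmul, semiTensorAdd_tmul, semiTensorAdd_tmul,
            semiTensorAdd_tmul, Algebra.TensorProduct.tmul_mul_tmul, map_mul, map_mul] }

@[simp]
theorem semiTensor_tmul (σW : W →+* W) (f : A →+* A') (τ : B →+* B)
    (hf : ∀ (w : W) (a : A), f (w • a) = σW w • f a)
    (hτ : ∀ (w : W) (b : B), τ (w • b) = σW w • τ b) (a : A) (b : B) :
    semiTensor σW f τ hf hτ (a ⊗ₜ b) = f a ⊗ₜ τ b := rfl

end SemiTensor

section Semi

variable {W B0 B1 B01 : Type u} [CommRing W] [CommRing B0] [CommRing B1] [CommRing B01]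
  [Algebra W B0] [Algebra W B1] [Algebra W B01] [Algebra B0 B01] [Algebra B1 B01]
  [IsScalarTower W B0 B01] [IsScalarTower W B1 B01]

/-- A ring endomorphism of the whole chart system `(W, B0, B1, B01)` (semilinear over `σW`,
compatible with the restriction maps, preserving the coordinates `t`, `s`).  In the application:
the coefficientwise action of a Galois element on `B_j ⊂ K1((q))`. -/
structure ChartAut (c0 : TwoChart W B0 B1 B01) where
  σW : W →+* W
  σ0 : B0 →+* B0
  σ1 : B1 →+* B1
  σ01 : B01 →+* B01
  semi0 : ∀ (w : W) (b : B0), σ0 (w • b) = σW w • σ0 b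
  semi1 : ∀ (w : W) (b : B1), σ1 (w • b) = σW w • σ1 b
  semi01 : ∀ (w : W) (b : B01), σ01 (w • b) = σW w • σ01 b
  comm0 : ∀ b : B0, σ01 (algebraMap B0 B01 b) = algebraMap B0 B01 (σ0 b)
  comm1 : ∀ b : B1, σ01 (algebraMap B1 B01 b) = algebraMap B1 B01 (σ1 b)
  map_t : σ0 c0.t = c0.t
  map_s : σ1 c0.s = c0.s

variable {c0 : TwoChart W B0 B1 B01} (S : ChartAut c0)
  {A A' : Type u} [CommRing A] [CommRing A'] [Algebra W A] [Algebra W A']
  (f : A →+* A') (hf : ∀ (w : W) (a : A), f (w • a) = S.σW w • f a)

/-- The square of semilinear tensor maps commutes (chart 0). -/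
theorem ChartAut.square0 :
    (algebraMap (A' ⊗[W] B0) (A' ⊗[W] B01)).comp (semiTensor S.σW f S.σ0 hf S.semi0) =
      (semiTensor S.σW f S.σ01 hf S.semi01).comp (algebraMap (A ⊗[W] B0) (A ⊗[W] B01)) := by
  refine RingHom.ext fun x => ?_
  induction x using TensorProduct.induction_on with
  | zero => simp
  | add x y hx hy => rw [map_add, map_add, hx, hy]
  | tmul a b => simp [S.comm0]

/-- The square of semilinear tensor maps commutes (chart 1). -/
theorem ChartAut.square1 :
    (algebraMap (A' ⊗[W] B1) (A' ⊗[W] B01)).comp (semiTensor S.σW f S.σ1 hf S.semi1) =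
      (semiTensor S.σW f S.σ01 hf S.semi01).comp (algebraMap (A ⊗[W] B1) (A ⊗[W] B01)) := by
  refine RingHom.ext fun x => ?_
  induction x using TensorProduct.induction_on with
  | zero => simp
  | add x y hx hy => rw [map_add, map_add, hx, hy]
  | tmul a b => simp [S.comm1]

/-- **Semilinear base change** `Pic X_A → Pic X_{A'}` along a ring homomorphism `f : A → A'`
which is semilinear over the automorphism `S` of the chart system. -/
noncomputable def PicX.mapSemi : PicX c0 A →* PicX c0 A' :=
  letI : Algebra A A' := f.toAlgebra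
  letI : Algebra (A ⊗[W] B0) (A' ⊗[W] B0) := (semiTensor S.σW f S.σ0 hf S.semi0).toAlgebra
  letI : Algebra (A ⊗[W] B1) (A' ⊗[W] B1) := (semiTensor S.σW f S.σ1 hf S.semi1).toAlgebra
  letI : Algebra (A ⊗[W] B01) (A' ⊗[W] B01) := (semiTensor S.σW f S.σ01 hf S.semi01).toAlgebra
  LinePic.bc (A := A) (A' := A') (S.square0 f hf) (S.square1 f hf)
    (c0.baseChange A) (c0.baseChange A')

end Semi

/-! ### Čech lines -/

section Cech

variable {A R0 R1 R01 : Type u} [CommRing A] [CommRing R0] [CommRing R1] [CommRing R01]
  [Algebra A R0] [Algebra A R1] [Algebra A R01] [Algebra R0 R01] [Algebra R1 R01]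
  [IsScalarTower A R0 R01] [IsScalarTower A R1 R01]

/-- Multiplication by a unit of `R01`, as an `R01`-linear automorphism of `R01`. -/
noncomputable def unitMulEquiv (u : R01ˣ) : R01 ≃ₗ[R01] R01 :=
  LinearEquiv.ofLinearMap (LinearMap.mulLeft R01 (u : R01)) (LinearMap.mulLeft R01 ((u⁻¹ : R01ˣ) : R01))
    (by ext; simp) (by ext; simp)

/-- **The Čech line of a unit** `u` on the overlap: trivial on both charts, glued by `u`
(`r0 = algebraMap`, `r1 = u * algebraMap`). -/
noncomputable def cechLine (u : R01ˣ) : QC2 A R0 R1 R01 where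
  N0 := R0
  N1 := R1
  N01 := R01
  r0 := Algebra.linearMap R0 R01
  r1 := ((unitMulEquiv u).toLinearMap.restrictScalars R1).comp (Algebra.linearMap R1 R01)
  bc0 := IsBaseChange.linearMap R0 R01
  bc1 := (IsBaseChange.iff_of_equiv_comm (LinearEquiv.refl R1 R1) (unitMulEquiv u)
    (by ext; rfl)).1 (IsBaseChange.linearMap R1 R01)

theorem cechLine_isLine (u : R01ˣ) : (cechLine (A := A) (R0 := R0) (R1 := R1) u).IsLine :=
  ⟨inferInstanceAs (Module.Invertible R0 R0), inferInstanceAs (Module.Invertible R1 R1)⟩

/-- The class of the Čech line of `u` in the Picard group. -/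
noncomputable def cechClass (c : TwoChart A R0 R1 R01) (u : R01ˣ) : LinePic c :=
  LinePic.mk c (cechLine u) (cechLine_isLine u)

end Cech

/-! ### The statements of the bricks G4 (EXT), G5 (COORD), G6 (CENTRES) -/

section Statements

variable {W B0 B1 B01 : Type u} [CommRing W] [CommRing B0] [CommRing B1] [CommRing B01]
  [Algebra W B0] [Algebra W B1] [Algebra W B01] [Algebra B0 B01] [Algebra B1 B01]
  [IsScalarTower W B0 B01] [IsScalarTower W B1 B01]
  (c0 : TwoChart W B0 B1 B01)

/-- The class in `Pic X_A` of the ideal sheaf of an `A`-point of chart 0 is *some* class `x` whose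
underlying line module has chart-0 module isomorphic to the kernel of `A ⊗ B0 → A` and trivial
chart-1 module away from the point; the precise definition is part of brick G4 (`ptClass0`,
`ptClass1`, built on `LineOps39.ofIdeals`).  The interface only uses the SUBGROUP generated by
point classes, as an abstract parameter. -/
structure PointClasses where
  /-- the subgroup of `Pic X_A` generated by the classes of `A`-points (either chart) -/
  PicPt : ∀ (A : Type u) [CommRing A] [Algebra W A], Subgroup (PicX c0 A)
  /-- stable under base change -/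
  map_mem : ∀ (A A' : Type u) [CommRing A] [CommRing A'] [Algebra W A] [Algebra W A']
    [Algebra A A'] [IsScalarTower W A A'] (x : PicX c0 A), x ∈ PicPt A →
    PicX.map c0 A A' x ∈ PicPt A'

variable (O : Type u) [CommRing O] [IsDomain O] [IsDiscreteValuationRing O] [Algebra W O]
  (L : Type u) [Field L] [Algebra W L] [Algebra O L] [IsScalarTower W O L] [IsFractionRing O L]

/-- The reduction homomorphism `Pic X_O → Pic X_{κ(O)}`. -/
noncomputable def red : PicX c0 O →* PicX c0 (IsLocalRing.ResidueField O) :=
  PicX.map c0 O (IsLocalRing.ResidueField O)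

/-- `J̃1(O)`: classes with trivial special fibre. -/
noncomputable def J1 : Subgroup (PicX c0 O) := (red c0 O).ker

/-- **G4 (EXT), injectivity**: a line module on `X_O` with trivial generic fibre is trivial
(so `Pic X_O → Pic X_L` is injective and `red` is well defined on its image). -/
def ExtInjective : Prop := Function.Injective (PicX.map c0 O L)

/-- **G4 (EXT), surjectivity on point classes**: every class on `X_L` generated by `L`-points
extends to `X_O` (each `L`-point is an `O`-point of chart 0 or of chart 1). -/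
def ExtSurjective (P : PointClasses c0) : Prop :=
  ∀ y ∈ P.PicPt L, ∃ x ∈ P.PicPt O, PicX.map c0 O L x = y

/-- The truncation `O / 𝔪^n`. -/
abbrev Trunc (n : ℕ) : Type u := O ⧸ (IsLocalRing.maximalIdeal O) ^ n

/-- The Čech unit `∏ (1 + a_i ⊗ b_i)` attached to coordinates `a` (helper70's `phi`). -/
noncomputable def cechElt {R : Type u} [CommRing R] [Algebra W R] {g : ℕ} (b : Fin g → B01)
    (a : Fin g → R) : R ⊗[W] B01 :=
  ∏ i, (1 + a i ⊗ₜ[W] b i)

/-- **G5 (COORD), existence and uniqueness of the coordinates**: for `y ∈ J̃1(O)` and every `n`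
there is a unique `a ∈ (𝔪/𝔪^n)^g` such that the base change of `y` to `O/𝔪^n` is the class of
the Čech line of `∏ (1 + a_i ⊗ b_i)`. -/
def CoordExistsUnique {g : ℕ} (b : Fin g → B01) : Prop :=
  ∀ y ∈ J1 c0 O, ∀ n : ℕ, ∃! a : Fin g → Trunc O n,
    (∀ i, a i ∈ (IsLocalRing.maximalIdeal O).map (Ideal.Quotient.mk _)) ∧
    ∃ u : (Trunc O n ⊗[W] B01)ˣ, (u : Trunc O n ⊗[W] B01) = cechElt b a ∧
      PicX.map c0 O (Trunc O n) y = cechClass (c0.baseChange (Trunc O n)) u

/-- **G5 (COORD), injectivity** (formal functions over the non-complete DVR `O`): a class which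
becomes trivial on `X_{O/𝔪^n}` for every `n` is trivial. -/
def CoordInjective : Prop :=
  ∀ y : PicX c0 O, (∀ n : ℕ, PicX.map c0 O (Trunc O n) y = 1) → y = 1

/-- **G6 (CENTRES), pointwise form**: `G` acts on `O` by `W`-algebra automorphisms, `I ≤ G` acts
trivially on the residue field ("inertia").  Every `O`-point `q` of chart `j` has, after
enlarging `O` (so this is stated for the integers `O` of a big field), an `I`-fixed `O`-point `q'`
with the same reduction.  (Then `x := ∏ [q'_i]^{±1}` is an `I`-fixed centre of `y = ∏ [q_i]^{±1}`.) -/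
def CentresPointwise {B : Type u} [CommRing B] [Algebra W B] (I : Subgroup (O ≃ₐ[W] O)) : Prop :=
  ∀ q : B →ₐ[W] O, ∃ q' : B →ₐ[W] O,
    (∀ b, IsLocalRing.residue O (q' b) = IsLocalRing.residue O (q b)) ∧
    ∀ σ ∈ I, ∀ b, σ (q' b) = q' b

end Statements

end Fermat.Agent.T1.RedIface75
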