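import Mathlib
import Fermat.Agent.T1.RedIface75
import Fermat.Agent.Jac.LineOps39.PatchInvertible
import Fermat.Agent.Jac.LineOps39.BCOps
import Fermat.Agent.Jac.ConverseDiv60BC

/-!
# T1A (S19), REDUCTION layer, brick R-b: point classes  (helper75)

`W` base ring, `c0 : TwoChart W B0 B1 B01`, `A` a `W`-algebra.  An `A`-point of chart `j` is a
`W`-algebra homomorphism `q : B_j →ₐ[W] A`.

* `ptEval q : A ⊗[W] B →ₐ[A] A`, `ptIdeal q = ker (ptEval q)`; `ptIdeal_eq_span`,
  `ptIdeal_map_left` (base change), `ptIdeal_map_semi` (semilinear base change);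
* `ptPair0 c0 q`, `ptPair1 c0 q` : the ideal pair of (the closure of) the point;
  `ptPair0_eq_ptPair1` for a point of the overlap;
* `ptClass0 c0 q h`, `ptClass1 c0 q h : PicX c0 A` for `h : Module.Invertible _ (ptIdeal q)`;
* `map_ptClass0`, `map_ptClass1` : compatibility with `PicX.map`;
* `pointClasses c0 : RedIface75.PointClasses c0`.
-/

set_option autoImplicit false
set_option linter.unusedSectionVars false
set_option linter.style.haveILetI false

open TensorProduct

namespace Fermat.Agent.T1.PtLine75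

open Fermat.Agent.Jac Fermat.Agent.Jac.JSmooth85Alg Fermat.Agent.Jac.JGroup85Pic
open Fermat.Agent.Jac.BaseChange75 Fermat.Agent.Jac.LineOps39 Fermat.Agent.T1.RedIface75
open scoped Fermat.Agent.Jac.BaseChange75

universe u

/-! ### The ideal of an `A`-valued point -/

section Eval

variable {W A B : Type u} [CommRing W] [CommRing A] [CommRing B] [Algebra W A] [Algebra W B]

/-- Evaluation `A ⊗[W] B → A`, `a ⊗ b ↦ a * q b`, at an `A`-point `q : B →ₐ[W] A`. -/
noncomputable def ptEval (q : B →ₐ[W] A) : A ⊗[W] B →ₐ[A] A :=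
  Algebra.TensorProduct.lift (AlgHom.id A A) q (fun _ _ => Commute.all _ _)

@[simp]
theorem ptEval_tmul (q : B →ₐ[W] A) (a : A) (b : B) : ptEval q (a ⊗ₜ[W] b) = a * q b := by
  simp [ptEval]

theorem ptEval_surjective (q : B →ₐ[W] A) : Function.Surjective (ptEval q) := fun a =>
  ⟨a ⊗ₜ[W] 1, by simp⟩

/-- The ideal of the `A`-point `q` of `Spec (A ⊗[W] B)`. -/
noncomputable def ptIdeal (q : B →ₐ[W] A) : Ideal (A ⊗[W] B) := RingHom.ker (ptEval q)

theorem mem_ptIdeal (q : B →ₐ[W] A) (x : A ⊗[W] B) : x ∈ ptIdeal q ↔ ptEval q x = 0 :=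
  RingHom.mem_ker

theorem sub_mem_ptIdeal (q : B →ₐ[W] A) (b : B) :
    (1 : A) ⊗ₜ[W] b - q b ⊗ₜ[W] (1 : B) ∈ ptIdeal q := by
  rw [mem_ptIdeal, map_sub, ptEval_tmul, ptEval_tmul, map_one, one_mul, mul_one, sub_self]

/-- Every element is congruent to a constant modulo the span of the `1 ⊗ b - q b ⊗ 1`. -/
theorem sub_ptEval_mem_span (q : B →ₐ[W] A) (x : A ⊗[W] B) :
    x - ptEval q x ⊗ₜ[W] (1 : B) ∈
      Ideal.span (Set.range fun b : B => (1 : A) ⊗ₜ[W] b - q b ⊗ₜ[W] (1 : B)) := by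
  induction x using TensorProduct.induction_on with
  | zero => simp
  | tmul a b =>
    have h : a ⊗ₜ[W] b - ptEval q (a ⊗ₜ[W] b) ⊗ₜ[W] (1 : B) =
        (a ⊗ₜ[W] (1 : B)) * ((1 : A) ⊗ₜ[W] b - q b ⊗ₜ[W] (1 : B)) := by
      rw [ptEval_tmul, mul_sub, Algebra.TensorProduct.tmul_mul_tmul,
        Algebra.TensorProduct.tmul_mul_tmul, mul_one, one_mul, mul_one]
    rw [h]
    exact Ideal.mul_mem_left _ _ (Ideal.subset_span ⟨b, rfl⟩)
  | add x y hx hy =>
    have h : x + y - ptEval q (x + y) ⊗ₜ[W] (1 : B) =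
        (x - ptEval q x ⊗ₜ[W] (1 : B)) + (y - ptEval q y ⊗ₜ[W] (1 : B)) := by
      rw [map_add, add_tmul]; ring
    rw [h]
    exact Ideal.add_mem _ hx hy

theorem ptIdeal_eq_span (q : B →ₐ[W] A) :
    ptIdeal q = Ideal.span (Set.range fun b : B => (1 : A) ⊗ₜ[W] b - q b ⊗ₜ[W] (1 : B)) := by
  apply le_antisymm
  · intro x hx
    have h := sub_ptEval_mem_span q x
    rwa [(mem_ptIdeal q x).1 hx, zero_tmul, sub_zero] at h
  · rw [Ideal.span_le]
    rintro _ ⟨b, rfl⟩
    exact sub_mem_ptIdeal q b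

/-- The residue ring of the point is `A`. -/
noncomputable def quotPtIdealEquiv (q : B →ₐ[W] A) : ((A ⊗[W] B) ⧸ ptIdeal q) ≃ₐ[A] A :=
  Ideal.quotientKerAlgEquivOfSurjective (ptEval_surjective q)

theorem flat_quot_ptIdeal (q : B →ₐ[W] A) : Module.Flat A ((A ⊗[W] B) ⧸ ptIdeal q) :=
  Module.Flat.of_linearEquiv (quotPtIdealEquiv q).toLinearEquiv

theorem finite_quot_ptIdeal (q : B →ₐ[W] A) : Module.Finite A ((A ⊗[W] B) ⧸ ptIdeal q) :=
  Module.Finite.equiv (quotPtIdealEquiv q).toLinearEquiv.symm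

section Left

variable {A' : Type u} [CommRing A'] [Algebra W A'] [Algebra A A'] [IsScalarTower W A A']

/-- The composite point `B → A → A'`. -/
noncomputable def ptComp (A' : Type u) [CommRing A'] [Algebra W A'] [Algebra A A']
    [IsScalarTower W A A'] (q : B →ₐ[W] A) : B →ₐ[W] A' :=
  (IsScalarTower.toAlgHom W A A').comp q

@[simp]
theorem ptComp_apply (q : B →ₐ[W] A) (b : B) : ptComp A' q b = algebraMap A A' (q b) := rfl

theorem ptEval_ptComp (q : B →ₐ[W] A) (x : A ⊗[W] B) :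
    ptEval (ptComp A' q) (algebraMap (A ⊗[W] B) (A' ⊗[W] B) x) = algebraMap A A' (ptEval q x) := by
  induction x using TensorProduct.induction_on with
  | zero => simp
  | tmul a b => simp
  | add x y hx hy => rw [map_add, map_add, hx, hy, map_add, map_add]

/-- **Base change of the ideal of a point.** -/
theorem ptIdeal_map_left (q : B →ₐ[W] A) :
    (ptIdeal q).map (algebraMap (A ⊗[W] B) (A' ⊗[W] B)) = ptIdeal (ptComp A' q) := by
  apply le_antisymm
  · rw [Ideal.map_le_iff_le_comap]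
    intro x hx
    rw [Ideal.mem_comap, mem_ptIdeal, ptEval_ptComp, (mem_ptIdeal q x).1 hx, map_zero]
  · rw [ptIdeal_eq_span (ptComp A' q), Ideal.span_le]
    rintro _ ⟨b, rfl⟩
    have h : (1 : A') ⊗ₜ[W] b - ptComp A' q b ⊗ₜ[W] (1 : B) =
        algebraMap (A ⊗[W] B) (A' ⊗[W] B) ((1 : A) ⊗ₜ[W] b - q b ⊗ₜ[W] (1 : B)) := by
      rw [map_sub, algebraMap_left_tmul, algebraMap_left_tmul, map_one, ptComp_apply]
    show (1 : A') ⊗ₜ[W] b - ptComp A' q b ⊗ₜ[W] (1 : B) ∈ _
    rw [h]
    exact Ideal.mem_map_of_mem _ (sub_mem_ptIdeal q b)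

end Left

section SemiMap

variable {A' : Type u} [CommRing A'] [Algebra W A']

/-- **Semilinear base change of the ideal of a point**: if `q' ∘ τ = f ∘ q` and `τ` is surjective,
the ideal of `q'` is the extension of the ideal of `q` along `f ⊗ τ`. -/
theorem ptIdeal_map_semi (σW : W →+* W) (f : A →+* A') (τ : B →+* B)
    (hf : ∀ (w : W) (a : A), f (w • a) = σW w • f a)
    (hτ : ∀ (w : W) (b : B), τ (w • b) = σW w • τ b) (hsurj : Function.Surjective τ)
    (q : B →ₐ[W] A) (q' : B →ₐ[W] A') (hq : ∀ b, q' (τ b) = f (q b)) :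
    (ptIdeal q).map (semiTensor σW f τ hf hτ) = ptIdeal q' := by
  have hev : ∀ x : A ⊗[W] B, ptEval q' (semiTensor σW f τ hf hτ x) = f (ptEval q x) := by
    intro x
    induction x using TensorProduct.induction_on with
    | zero => simp
    | tmul a b => simp [hq]
    | add x y hx hy => rw [map_add, map_add, hx, hy, map_add, map_add]
  apply le_antisymm
  · rw [Ideal.map_le_iff_le_comap]
    intro x hx
    rw [Ideal.mem_comap, mem_ptIdeal, hev, (mem_ptIdeal q x).1 hx, map_zero]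
  · rw [ptIdeal_eq_span q', Ideal.span_le]
    rintro _ ⟨b', rfl⟩
    obtain ⟨b, rfl⟩ := hsurj b'
    have h : (1 : A') ⊗ₜ[W] τ b - q' (τ b) ⊗ₜ[W] (1 : B) =
        semiTensor σW f τ hf hτ ((1 : A) ⊗ₜ[W] b - q b ⊗ₜ[W] (1 : B)) := by
      rw [map_sub, semiTensor_tmul, semiTensor_tmul, map_one, map_one, hq]
    show (1 : A') ⊗ₜ[W] τ b - q' (τ b) ⊗ₜ[W] (1 : B) ∈ _
    rw [h]
    exact Ideal.mem_map_of_mem _ (sub_mem_ptIdeal q b)

end SemiMap

end Eval

/-! ### Flatness of the other chart (chart-1 version of `ConverseDiv60BC.flat_quot_I1`) -/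

section FlatChart

variable {A R0 R1 R01 : Type u} [CommRing A] [CommRing R0] [CommRing R1] [CommRing R01]
  [Algebra A R0] [Algebra A R1] [Algebra A R01] [Algebra R0 R01] [Algebra R1 R01]
  [IsScalarTower A R0 R01] [IsScalarTower A R1 R01]
  (c : TwoChart A R0 R1 R01)

open ConverseDiv60BC in
include c in
theorem flat_quot_I01_of_I1 (D : IdealPair R0 R1 R01) [Module.Flat A (R1 ⧸ D.I1)] :
    Module.Flat A (R01 ⧸ D.I01) := by
  have := isLocalizedModule_r1 c (structureQuot c D)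
  have h1 : Module.Flat A (structureQuot c D).N1 := ‹Module.Flat A (R1 ⧸ D.I1)›
  show Module.Flat A (structureQuot c D).N01
  exact flat_of_isLocalizedModule (A := A) (Submonoid.powers c.s) (structureQuot c D).r1

open ConverseDiv60BC in
theorem structureQuot_bijective_r0 (D : IdealPair R0 R1 R01) (v : R0) (hv : v * c.t - 1 ∈ D.I0) :
    Function.Bijective (structureQuot c D).r0 := by
  have := isLocalizedModule_r0 c (structureQuot c D)
  refine bijective_of_isLocalizedModule_of_unit c.t v _ ?_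
  show ∀ x : R0 ⧸ D.I0, (v * c.t) • x = x
  intro x
  obtain ⟨y, rfl⟩ := Submodule.mkQ_surjective D.I0 x
  rw [← sub_eq_zero, ← map_smul, ← map_sub, Submodule.mkQ_apply, Submodule.Quotient.mk_eq_zero]
  have : (v * c.t) • y - y = (v * c.t - 1) * y := by rw [smul_eq_mul]; ring
  rw [this]
  exact Ideal.mul_mem_right _ _ hv

open ConverseDiv60BC in
theorem flat_quot_I0 (D : IdealPair R0 R1 R01) [Module.Flat A (R1 ⧸ D.I1)] (v : R0)
    (hv : v * c.t - 1 ∈ D.I0) : Module.Flat A (R0 ⧸ D.I0) := by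
  have h01 := flat_quot_I01_of_I1 c D
  let e : (R0 ⧸ D.I0) ≃ₗ[A] (R01 ⧸ D.I01) :=
    LinearEquiv.ofBijective ((structureQuot c D).r0.restrictScalars A)
      (structureQuot_bijective_r0 c D v hv)
  exact Module.Flat.of_linearEquiv e

end FlatChart

/-! ### Point pairs and point classes -/

section Pairs

variable {W B0 B1 B01 : Type u} [CommRing W] [CommRing B0] [CommRing B1] [CommRing B01]
  [Algebra W B0] [Algebra W B1] [Algebra W B01] [Algebra B0 B01] [Algebra B1 B01]
  [IsScalarTower W B0 B01] [IsScalarTower W B1 B01]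
  (c0 : TwoChart W B0 B1 B01)
  {A : Type u} [CommRing A] [Algebra W A]

/-- The ideal pair of (the closure of) an `A`-point of chart 0. -/
noncomputable def ptPair0 (q : B0 →ₐ[W] A) :
    IdealPair (A ⊗[W] B0) (A ⊗[W] B1) (A ⊗[W] B01) :=
  IdealPair.ofChart0 (c0.baseChange A) (ptIdeal q)

/-- The ideal pair of (the closure of) an `A`-point of chart 1. -/
noncomputable def ptPair1 (q : B1 →ₐ[W] A) :
    IdealPair (A ⊗[W] B0) (A ⊗[W] B1) (A ⊗[W] B01) :=
  IdealPair.ofChart1 (c0.baseChange A) (ptIdeal q)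

@[simp] theorem ptPair0_I0 (q : B0 →ₐ[W] A) : (ptPair0 c0 q).I0 = ptIdeal q := rfl

@[simp] theorem ptPair1_I1 (q : B1 →ₐ[W] A) : (ptPair1 c0 q).I1 = ptIdeal q := rfl

/-- The coordinate `t` is congruent to the constant `q t` modulo the ideal of the point. -/
theorem t_sub_mem_ptIdeal (q : B0 →ₐ[W] A) :
    (c0.baseChange A).t - algebraMap A (A ⊗[W] B0) (q c0.t) ∈ ptIdeal q := by
  rw [baseChange_t, Algebra.TensorProduct.algebraMap_apply, Algebra.algebraMap_self,
    RingHom.id_apply]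
  exact sub_mem_ptIdeal q c0.t

/-- The coordinate `s` is congruent to the constant `q s` modulo the ideal of the point. -/
theorem s_sub_mem_ptIdeal (q : B1 →ₐ[W] A) :
    (c0.baseChange A).s - algebraMap A (A ⊗[W] B1) (q c0.s) ∈ ptIdeal q := by
  rw [baseChange_s, Algebra.TensorProduct.algebraMap_apply, Algebra.algebraMap_self,
    RingHom.id_apply]
  exact sub_mem_ptIdeal q c0.s

theorem unit_mod_ptPair0 (q : B0 →ₐ[W] A) :
    algebraMap A (A ⊗[W] B1) (q c0.t) * (c0.baseChange A).s - 1 ∈ (ptPair0 c0 q).I1 :=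
  ofChart0_unit_mod (c0.baseChange A) (ptIdeal q) _ (t_sub_mem_ptIdeal c0 q)

theorem unit_mod_ptPair1 (q : B1 →ₐ[W] A) :
    algebraMap A (A ⊗[W] B0) (q c0.s) * (c0.baseChange A).t - 1 ∈ (ptPair1 c0 q).I0 :=
  ofChart1_unit_mod (c0.baseChange A) (ptIdeal q) _ (s_sub_mem_ptIdeal c0 q)

theorem isLine_ptPair0 (q : B0 →ₐ[W] A) (h : Module.Invertible (A ⊗[W] B0) (ptIdeal q)) :
    (ofIdeals (c0.baseChange A) (ptPair0 c0 q)).IsLine :=
  isLine_ofIdeals_ofChart0 (c0.baseChange A) (ptIdeal q) h (q c0.t) (t_sub_mem_ptIdeal c0 q)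

theorem isLine_ptPair1 (q : B1 →ₐ[W] A) (h : Module.Invertible (A ⊗[W] B1) (ptIdeal q)) :
    (ofIdeals (c0.baseChange A) (ptPair1 c0 q)).IsLine :=
  isLine_ofIdeals_ofChart1 (c0.baseChange A) (ptIdeal q) h (q c0.s) (s_sub_mem_ptIdeal c0 q)

/-- **The class of the ideal sheaf `O(-q)` of an `A`-point of chart 0** (the ideal of the point
being an invertible module). -/
noncomputable def ptClass0 (q : B0 →ₐ[W] A) (h : Module.Invertible (A ⊗[W] B0) (ptIdeal q)) :
    PicX c0 A :=
  LinePic.mk (c0.baseChange A) (ofIdeals (c0.baseChange A) (ptPair0 c0 q)) (isLine_ptPair0 c0 q h)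

/-- **The class of the ideal sheaf `O(-q)` of an `A`-point of chart 1**. -/
noncomputable def ptClass1 (q : B1 →ₐ[W] A) (h : Module.Invertible (A ⊗[W] B1) (ptIdeal q)) :
    PicX c0 A :=
  LinePic.mk (c0.baseChange A) (ofIdeals (c0.baseChange A) (ptPair1 c0 q)) (isLine_ptPair1 c0 q h)

theorem flat_quot_ptPair0_I0 (q : B0 →ₐ[W] A) :
    Module.Flat A ((A ⊗[W] B0) ⧸ (ptPair0 c0 q).I0) := flat_quot_ptIdeal q

theorem flat_quot_ptPair0_I1 (q : B0 →ₐ[W] A) :
    Module.Flat A ((A ⊗[W] B1) ⧸ (ptPair0 c0 q).I1) :=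
  have := flat_quot_ptPair0_I0 c0 q
  ConverseDiv60BC.flat_quot_I1 (c0.baseChange A) (ptPair0 c0 q) _ (unit_mod_ptPair0 c0 q)

theorem flat_quot_ptPair1_I1 (q : B1 →ₐ[W] A) :
    Module.Flat A ((A ⊗[W] B1) ⧸ (ptPair1 c0 q).I1) := flat_quot_ptIdeal q

theorem flat_quot_ptPair1_I0 (q : B1 →ₐ[W] A) :
    Module.Flat A ((A ⊗[W] B0) ⧸ (ptPair1 c0 q).I0) :=
  have := flat_quot_ptPair1_I1 c0 q
  flat_quot_I0 (c0.baseChange A) (ptPair1 c0 q) _ (unit_mod_ptPair1 c0 q)

end Pairs

/-! ### Base change of point classes -/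

section BC

variable {W B0 B1 B01 : Type u} [CommRing W] [CommRing B0] [CommRing B1] [CommRing B01]
  [Algebra W B0] [Algebra W B1] [Algebra W B01] [Algebra B0 B01] [Algebra B1 B01]
  [IsScalarTower W B0 B01] [IsScalarTower W B1 B01]
  (c0 : TwoChart W B0 B1 B01)
  {A : Type u} [CommRing A] [Algebra W A]
  (A' : Type u) [CommRing A'] [Algebra W A'] [Algebra A A'] [IsScalarTower W A A']

/-- The ideal pair of a point of chart 0 commutes with base change. -/
theorem ptPair0_isBC (q : B0 →ₐ[W] A) : (ptPair0 c0 q).IsBC (ptPair0 c0 (ptComp A' q)) := by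
  have h := IdealPair.isBC_ofChart0 (square_comm W A A' B0 B01) (square_comm W A A' B1 B01)
    (c0.baseChange A) (c0.baseChange A') (algebraMap_baseChange_s c0 A A') (ptIdeal q) _
    (unit_mod_ptPair0 c0 q)
  rw [ptIdeal_map_left] at h
  exact h

/-- The ideal pair of a point of chart 1 commutes with base change. -/
theorem ptPair1_isBC (q : B1 →ₐ[W] A) : (ptPair1 c0 q).IsBC (ptPair1 c0 (ptComp A' q)) := by
  have h := IdealPair.isBC_ofChart1 (square_comm W A A' B0 B01) (square_comm W A A' B1 B01)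
    (c0.baseChange A) (c0.baseChange A') (algebraMap_baseChange_t c0 A A') (ptIdeal q) _
    (unit_mod_ptPair1 c0 q)
  rw [ptIdeal_map_left] at h
  exact h

/-- The ideal sheaf of a point of chart 0 commutes with base change. -/
noncomputable def liftDataPt0 (q : B0 →ₐ[W] A) :
    LiftData (ofIdeals (c0.baseChange A) (ptPair0 c0 q))
      (ofIdeals (c0.baseChange A') (ptPair0 c0 (ptComp A' q))) :=
  liftDataOfIdealsOfPushout (square_comm W A A' B0 B01) (square_comm W A A' B1 B01)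
    (c0.baseChange A) (c0.baseChange A') (ptPair0_isBC c0 A' q)
    (flat_quot_ptPair0_I0 c0 q) (flat_quot_ptPair0_I1 c0 q)

/-- The ideal sheaf of a point of chart 1 commutes with base change. -/
noncomputable def liftDataPt1 (q : B1 →ₐ[W] A) :
    LiftData (ofIdeals (c0.baseChange A) (ptPair1 c0 q))
      (ofIdeals (c0.baseChange A') (ptPair1 c0 (ptComp A' q))) :=
  liftDataOfIdealsOfPushout (square_comm W A A' B0 B01) (square_comm W A A' B1 B01)
    (c0.baseChange A) (c0.baseChange A') (ptPair1_isBC c0 A' q)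
    (flat_quot_ptPair1_I0 c0 q) (flat_quot_ptPair1_I1 c0 q)

include c0 in
/-- Invertibility of the ideal of a point is stable under base change (chart 0). -/
theorem invertible_ptIdeal_ptComp0 (q : B0 →ₐ[W] A)
    (h : Module.Invertible (A ⊗[W] B0) (ptIdeal q)) :
    Module.Invertible (A' ⊗[W] B0) (ptIdeal (ptComp A' q)) :=
  (LiftData.isLine (liftDataPt0 c0 A' q) (isLine_ptPair0 c0 q h)).1

include c0 in
/-- Invertibility of the ideal of a point is stable under base change (chart 1). -/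
theorem invertible_ptIdeal_ptComp1 (q : B1 →ₐ[W] A)
    (h : Module.Invertible (A ⊗[W] B1) (ptIdeal q)) :
    Module.Invertible (A' ⊗[W] B1) (ptIdeal (ptComp A' q)) :=
  (LiftData.isLine (liftDataPt1 c0 A' q) (isLine_ptPair1 c0 q h)).2

/-- **Base change of a point class** (chart 0). -/
theorem map_ptClass0 (q : B0 →ₐ[W] A) (h : Module.Invertible (A ⊗[W] B0) (ptIdeal q))
    (h' : Module.Invertible (A' ⊗[W] B0) (ptIdeal (ptComp A' q))) :
    PicX.map c0 A A' (ptClass0 c0 q h) = ptClass0 c0 (ptComp A' q) h' :=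
  LinePic.bc_mk _ _ _ _ (isLine_ptPair0 c0 q h) (liftDataPt0 c0 A' q)

/-- **Base change of a point class** (chart 1). -/
theorem map_ptClass1 (q : B1 →ₐ[W] A) (h : Module.Invertible (A ⊗[W] B1) (ptIdeal q))
    (h' : Module.Invertible (A' ⊗[W] B1) (ptIdeal (ptComp A' q))) :
    PicX.map c0 A A' (ptClass1 c0 q h) = ptClass1 c0 (ptComp A' q) h' :=
  LinePic.bc_mk _ _ _ _ (isLine_ptPair1 c0 q h) (liftDataPt1 c0 A' q)

end BC

/-! ### Points of the overlap -/

section Overlap

variable {W B0 B1 B01 : Type u} [CommRing W] [CommRing B0] [CommRing B1] [CommRing B01]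
  [Algebra W B0] [Algebra W B1] [Algebra W B01] [Algebra B0 B01] [Algebra B1 B01]
  [IsScalarTower W B0 B01] [IsScalarTower W B1 B01]
  (c0 : TwoChart W B0 B1 B01)
  {A : Type u} [CommRing A] [Algebra W A]

/-- The restriction of a point of the overlap to chart 0. -/
noncomputable def ptRes0 (q : B01 →ₐ[W] A) : B0 →ₐ[W] A := q.comp (IsScalarTower.toAlgHom W B0 B01)

/-- The restriction of a point of the overlap to chart 1. -/
noncomputable def ptRes1 (q : B01 →ₐ[W] A) : B1 →ₐ[W] A := q.comp (IsScalarTower.toAlgHom W B1 B01)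

@[simp] theorem ptRes0_apply (q : B01 →ₐ[W] A) (b : B0) : ptRes0 q b = q (algebraMap B0 B01 b) := rfl

@[simp] theorem ptRes1_apply (q : B01 →ₐ[W] A) (b : B1) : ptRes1 q b = q (algebraMap B1 B01 b) := rfl

theorem ptEval_ptRes0 (q : B01 →ₐ[W] A) (x : A ⊗[W] B0) :
    ptEval q (algebraMap (A ⊗[W] B0) (A ⊗[W] B01) x) = ptEval (ptRes0 q) x := by
  induction x using TensorProduct.induction_on with
  | zero => simp
  | tmul a b => simp
  | add x y hx hy => rw [map_add, map_add, hx, hy, map_add]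

theorem ptEval_ptRes1 (q : B01 →ₐ[W] A) (x : A ⊗[W] B1) :
    ptEval q (algebraMap (A ⊗[W] B1) (A ⊗[W] B01) x) = ptEval (ptRes1 q) x := by
  induction x using TensorProduct.induction_on with
  | zero => simp
  | tmul a b => simp
  | add x y hx hy => rw [map_add, map_add, hx, hy, map_add]

theorem comap_ptIdeal0 (q : B01 →ₐ[W] A) :
    (ptIdeal q).comap (algebraMap (A ⊗[W] B0) (A ⊗[W] B01)) = ptIdeal (ptRes0 q) := by
  ext x
  rw [Ideal.mem_comap, mem_ptIdeal, mem_ptIdeal, ptEval_ptRes0]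

theorem comap_ptIdeal1 (q : B01 →ₐ[W] A) :
    (ptIdeal q).comap (algebraMap (A ⊗[W] B1) (A ⊗[W] B01)) = ptIdeal (ptRes1 q) := by
  ext x
  rw [Ideal.mem_comap, mem_ptIdeal, mem_ptIdeal, ptEval_ptRes1]

include c0 in
theorem map_ptIdeal0 (q : B01 →ₐ[W] A) :
    (ptIdeal (ptRes0 q)).map (algebraMap (A ⊗[W] B0) (A ⊗[W] B01)) = ptIdeal q := by
  have := (c0.baseChange A).away0
  rw [← comap_ptIdeal0]
  exact IsLocalization.map_under (Submonoid.powers (c0.baseChange A).t) (A ⊗[W] B01) (ptIdeal q)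

include c0 in
theorem map_ptIdeal1 (q : B01 →ₐ[W] A) :
    (ptIdeal (ptRes1 q)).map (algebraMap (A ⊗[W] B1) (A ⊗[W] B01)) = ptIdeal q := by
  have := (c0.baseChange A).away1
  rw [← comap_ptIdeal1]
  exact IsLocalization.map_under (Submonoid.powers (c0.baseChange A).s) (A ⊗[W] B01) (ptIdeal q)

theorem idealPair_ext {R0 R1 R01 : Type u} [CommRing R0] [CommRing R1] [CommRing R01]
    [Algebra R0 R01] [Algebra R1 R01] {D E : IdealPair R0 R1 R01} (h0 : D.I0 = E.I0)
    (h1 : D.I1 = E.I1) : D = E := by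
  cases D; cases E
  simp only at h0 h1
  subst h0 h1
  rfl

/-- **A point of the overlap has the same ideal pair in both charts.** -/
theorem ptPair0_eq_ptPair1 (q : B01 →ₐ[W] A) :
    ptPair0 c0 (ptRes0 q) = ptPair1 c0 (ptRes1 q) := by
  refine idealPair_ext ?_ ?_
  · show ptIdeal (ptRes0 q) =
      ((ptIdeal (ptRes1 q)).map (algebraMap (A ⊗[W] B1) (A ⊗[W] B01))).comap
        (algebraMap (A ⊗[W] B0) (A ⊗[W] B01))
    rw [map_ptIdeal1 c0, comap_ptIdeal0]
  · show ((ptIdeal (ptRes0 q)).map (algebraMap (A ⊗[W] B0) (A ⊗[W] B01))).comap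
        (algebraMap (A ⊗[W] B1) (A ⊗[W] B01)) = ptIdeal (ptRes1 q)
    rw [map_ptIdeal0 c0, comap_ptIdeal1]

theorem linePic_mk_congr {A R0 R1 R01 : Type u} [CommRing A] [CommRing R0] [CommRing R1]
    [CommRing R01] [Algebra A R0] [Algebra A R1] [Algebra A R01] [Algebra R0 R01] [Algebra R1 R01]
    [IsScalarTower A R0 R01] [IsScalarTower A R1 R01] (c : TwoChart A R0 R1 R01)
    {L M : QC2 A R0 R1 R01} (h : L = M) (hL : L.IsLine) (hM : M.IsLine) :
    LinePic.mk c L hL = LinePic.mk c M hM := by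
  subst h
  rfl

/-- **The class of a point of the overlap can be computed in either chart.** -/
theorem ptClass0_eq_ptClass1 (q : B01 →ₐ[W] A)
    (h0 : Module.Invertible (A ⊗[W] B0) (ptIdeal (ptRes0 q)))
    (h1 : Module.Invertible (A ⊗[W] B1) (ptIdeal (ptRes1 q))) :
    ptClass0 c0 (ptRes0 q) h0 = ptClass1 c0 (ptRes1 q) h1 :=
  linePic_mk_congr _ (by rw [ptPair0_eq_ptPair1]) _ _

include c0 in
/-- In the overlap, invertibility in chart 0 implies invertibility in chart 1. -/
theorem invertible_ptRes1_of_ptRes0 (q : B01 →ₐ[W] A)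
    (h0 : Module.Invertible (A ⊗[W] B0) (ptIdeal (ptRes0 (B0 := B0) q))) :
    Module.Invertible (A ⊗[W] B1) (ptIdeal (ptRes1 (B1 := B1) q)) := by
  have h := (isLine_ptPair0 c0 (ptRes0 q) h0).2
  rw [ptPair0_eq_ptPair1] at h
  exact h

include c0 in
/-- In the overlap, invertibility in chart 1 implies invertibility in chart 0. -/
theorem invertible_ptRes0_of_ptRes1 (q : B01 →ₐ[W] A)
    (h1 : Module.Invertible (A ⊗[W] B1) (ptIdeal (ptRes1 (B1 := B1) q))) :
    Module.Invertible (A ⊗[W] B0) (ptIdeal (ptRes0 (B0 := B0) q)) := by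
  have h := (isLine_ptPair1 c0 (ptRes1 q) h1).1
  rw [← ptPair0_eq_ptPair1] at h
  exact h

end Overlap

/-! ### Base change of ideal sheaves along a cube of ring ISOMORPHISMS, semilinear base change -/

section IsoCube

variable {A R0 R1 R01 A' R0' R1' R01' : Type u}
  [CommRing A] [CommRing R0] [CommRing R1] [CommRing R01]
  [Algebra A R0] [Algebra A R1] [Algebra A R01] [Algebra R0 R01] [Algebra R1 R01]
  [IsScalarTower A R0 R01] [IsScalarTower A R1 R01]
  [CommRing A'] [CommRing R0'] [CommRing R1'] [CommRing R01']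
  [Algebra A' R0'] [Algebra A' R1'] [Algebra A' R01'] [Algebra R0' R01'] [Algebra R1' R01']
  [IsScalarTower A' R0' R01'] [IsScalarTower A' R1' R01']
  [Algebra R0 R0'] [Algebra R1 R1'] [Algebra R01 R01']

theorem injective_baseChange_of_bijective {R R' N N' : Type u} [CommRing R] [CommRing R']
    [Algebra R R'] [AddCommGroup N] [Module R N] [AddCommGroup N'] [Module R N']
    (hb : Function.Bijective (algebraMap R R')) (g : N →ₗ[R] N') (hg : Function.Injective g) :
    Function.Injective (g.baseChange R') := by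
  have hflat : Module.Flat R R' :=
    Module.Flat.of_linearEquiv (LinearEquiv.ofBijective (Algebra.linearMap R R') hb).symm
  rw [LinearMap.baseChange_eq_ltensor]
  exact Module.Flat.lTensor_preserves_injective_linearMap g hg

/-- Base change of the class of an ideal sheaf along a cube whose chart maps `R0 → R0'`,
`R1 → R1'` are bijective (e.g. a semilinear automorphism). -/
theorem bc_mk_ofIdeals_of_bijective
    (hc0 : (algebraMap R0' R01').comp (algebraMap R0 R0') =
      (algebraMap R01 R01').comp (algebraMap R0 R01))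
    (hc1 : (algebraMap R1' R01').comp (algebraMap R1 R1') =
      (algebraMap R01 R01').comp (algebraMap R1 R01))
    (c : TwoChart A R0 R1 R01) (c' : TwoChart A' R0' R1' R01')
    {D : IdealPair R0 R1 R01} {D' : IdealPair R0' R1' R01'} (hD : D.IsBC D')
    (hb0 : Function.Bijective (algebraMap R0 R0')) (hb1 : Function.Bijective (algebraMap R1 R1'))
    (hL : (ofIdeals c D).IsLine) (hL' : (ofIdeals c' D').IsLine) :
    LinePic.bc hc0 hc1 c c' (LinePic.mk c (ofIdeals c D) hL) =
      LinePic.mk c' (ofIdeals c' D') hL' :=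
  LinePic.bc_mk hc0 hc1 c c' hL
    (liftDataOfIdeals hc0 hc1 c c' hD
      (injective_baseChange_of_bijective hb0 _ Subtype.val_injective)
      (injective_baseChange_of_bijective hb1 _ Subtype.val_injective))

end IsoCube

section Semi

variable {W B0 B1 B01 : Type u} [CommRing W] [CommRing B0] [CommRing B1] [CommRing B01]
  [Algebra W B0] [Algebra W B1] [Algebra W B01] [Algebra B0 B01] [Algebra B1 B01]
  [IsScalarTower W B0 B01] [IsScalarTower W B1 B01]
  {c0 : TwoChart W B0 B1 B01} (S : ChartAut c0)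
  {A A' : Type u} [CommRing A] [CommRing A'] [Algebra W A] [Algebra W A']
  (f : A →+* A') (hf : ∀ (w : W) (a : A), f (w • a) = S.σW w • f a)

/-- **Semilinear base change of ideal sheaves**: if `D'` is the image of `D` under the
(bijective) semilinear tensor maps, `PicX.mapSemi` maps the class of `O(-D)` to that of
`O(-D')`. -/
theorem mapSemi_mk_ofIdeals
    (hb0 : Function.Bijective (semiTensor S.σW f S.σ0 hf S.semi0))
    (hb1 : Function.Bijective (semiTensor S.σW f S.σ1 hf S.semi1))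
    {D : IdealPair (A ⊗[W] B0) (A ⊗[W] B1) (A ⊗[W] B01)}
    {D' : IdealPair (A' ⊗[W] B0) (A' ⊗[W] B1) (A' ⊗[W] B01)}
    (h0 : D'.I0 = D.I0.map (semiTensor S.σW f S.σ0 hf S.semi0))
    (h1 : D'.I1 = D.I1.map (semiTensor S.σW f S.σ1 hf S.semi1))
    (hL : (ofIdeals (c0.baseChange A) D).IsLine) (hL' : (ofIdeals (c0.baseChange A') D').IsLine) :
    PicX.mapSemi S f hf (LinePic.mk (c0.baseChange A) (ofIdeals (c0.baseChange A) D) hL) =
      LinePic.mk (c0.baseChange A') (ofIdeals (c0.baseChange A') D') hL' := by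
  letI : Algebra A A' := f.toAlgebra
  letI : Algebra (A ⊗[W] B0) (A' ⊗[W] B0) := (semiTensor S.σW f S.σ0 hf S.semi0).toAlgebra
  letI : Algebra (A ⊗[W] B1) (A' ⊗[W] B1) := (semiTensor S.σW f S.σ1 hf S.semi1).toAlgebra
  letI : Algebra (A ⊗[W] B01) (A' ⊗[W] B01) := (semiTensor S.σW f S.σ01 hf S.semi01).toAlgebra
  exact bc_mk_ofIdeals_of_bijective (A := A) (A' := A') (S.square0 f hf) (S.square1 f hf)
    (c0.baseChange A) (c0.baseChange A') ⟨h0, h1⟩ hb0 hb1 hL hL'

/-- **Semilinear base change of a point class** (chart 0): if `q' ∘ σ0 = f ∘ q`, then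
`mapSemi` maps the class of `q` to the class of `q'`. -/
theorem mapSemi_ptClass0
    (hb0 : Function.Bijective (semiTensor S.σW f S.σ0 hf S.semi0))
    (hb1 : Function.Bijective (semiTensor S.σW f S.σ1 hf S.semi1))
    (hσ0 : Function.Surjective S.σ0)
    (q : B0 →ₐ[W] A) (q' : B0 →ₐ[W] A') (hq : ∀ b, q' (S.σ0 b) = f (q b))
    (h : Module.Invertible (A ⊗[W] B0) (ptIdeal q))
    (h' : Module.Invertible (A' ⊗[W] B0) (ptIdeal q')) :
    PicX.mapSemi S f hf (ptClass0 c0 q h) = ptClass0 c0 q' h' := by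
  refine mapSemi_mk_ofIdeals S f hf hb0 hb1 ?_ ?_ _ _
  · exact (ptIdeal_map_semi S.σW f S.σ0 hf S.semi0 hσ0 q q' hq).symm
  · letI : Algebra A A' := f.toAlgebra
    letI : Algebra (A ⊗[W] B0) (A' ⊗[W] B0) := (semiTensor S.σW f S.σ0 hf S.semi0).toAlgebra
    letI : Algebra (A ⊗[W] B1) (A' ⊗[W] B1) := (semiTensor S.σW f S.σ1 hf S.semi1).toAlgebra
    letI : Algebra (A ⊗[W] B01) (A' ⊗[W] B01) := (semiTensor S.σW f S.σ01 hf S.semi01).toAlgebra
    have hs : algebraMap (A ⊗[W] B1) (A' ⊗[W] B1) (c0.baseChange A).s = (c0.baseChange A').s := by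
      show semiTensor S.σW f S.σ1 hf S.semi1 ((1 : A) ⊗ₜ[W] c0.s) = (1 : A') ⊗ₜ[W] c0.s
      rw [semiTensor_tmul, map_one, S.map_s]
    have hbc := IdealPair.isBC_ofChart0 (A := A) (A' := A') (S.square0 f hf) (S.square1 f hf)
      (c0.baseChange A) (c0.baseChange A') hs (ptIdeal q) _ (unit_mod_ptPair0 c0 q)
    have hI : (ptIdeal q).map (algebraMap (A ⊗[W] B0) (A' ⊗[W] B0)) = ptIdeal q' :=
      ptIdeal_map_semi S.σW f S.σ0 hf S.semi0 hσ0 q q' hq
    rw [hI] at hbc
    exact hbc.h1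

/-- **Semilinear base change of a point class** (chart 1). -/
theorem mapSemi_ptClass1
    (hb0 : Function.Bijective (semiTensor S.σW f S.σ0 hf S.semi0))
    (hb1 : Function.Bijective (semiTensor S.σW f S.σ1 hf S.semi1))
    (hσ1 : Function.Surjective S.σ1)
    (q : B1 →ₐ[W] A) (q' : B1 →ₐ[W] A') (hq : ∀ b, q' (S.σ1 b) = f (q b))
    (h : Module.Invertible (A ⊗[W] B1) (ptIdeal q))
    (h' : Module.Invertible (A' ⊗[W] B1) (ptIdeal q')) :
    PicX.mapSemi S f hf (ptClass1 c0 q h) = ptClass1 c0 q' h' := by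
  refine mapSemi_mk_ofIdeals S f hf hb0 hb1 ?_ ?_ _ _
  · letI : Algebra A A' := f.toAlgebra
    letI : Algebra (A ⊗[W] B0) (A' ⊗[W] B0) := (semiTensor S.σW f S.σ0 hf S.semi0).toAlgebra
    letI : Algebra (A ⊗[W] B1) (A' ⊗[W] B1) := (semiTensor S.σW f S.σ1 hf S.semi1).toAlgebra
    letI : Algebra (A ⊗[W] B01) (A' ⊗[W] B01) := (semiTensor S.σW f S.σ01 hf S.semi01).toAlgebra
    have ht : algebraMap (A ⊗[W] B0) (A' ⊗[W] B0) (c0.baseChange A).t = (c0.baseChange A').t := by
      show semiTensor S.σW f S.σ0 hf S.semi0 ((1 : A) ⊗ₜ[W] c0.t) = (1 : A') ⊗ₜ[W] c0.t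
      rw [semiTensor_tmul, map_one, S.map_t]
    have hbc := IdealPair.isBC_ofChart1 (A := A) (A' := A') (S.square0 f hf) (S.square1 f hf)
      (c0.baseChange A) (c0.baseChange A') ht (ptIdeal q) _ (unit_mod_ptPair1 c0 q)
    have hI : (ptIdeal q).map (algebraMap (A ⊗[W] B1) (A' ⊗[W] B1)) = ptIdeal q' :=
      ptIdeal_map_semi S.σW f S.σ1 hf S.semi1 hσ1 q q' hq
    rw [hI] at hbc
    exact hbc.h0
  · exact (ptIdeal_map_semi S.σW f S.σ1 hf S.semi1 hσ1 q q' hq).symm

end Semi

/-! ### The subgroup generated by point classes -/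

section PointClasses

variable {W B0 B1 B01 : Type u} [CommRing W] [CommRing B0] [CommRing B1] [CommRing B01]
  [Algebra W B0] [Algebra W B1] [Algebra W B01] [Algebra B0 B01] [Algebra B1 B01]
  [IsScalarTower W B0 B01] [IsScalarTower W B1 B01]
  (c0 : TwoChart W B0 B1 B01)

/-- `x` is the class of (the ideal sheaf of) an `A`-point of one of the charts, the ideal of the
point being an invertible module. -/
def IsPtClass (A : Type u) [CommRing A] [Algebra W A] (x : PicX c0 A) : Prop :=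
  (∃ (q : B0 →ₐ[W] A) (h : Module.Invertible (A ⊗[W] B0) (ptIdeal q)), x = ptClass0 c0 q h) ∨
  (∃ (q : B1 →ₐ[W] A) (h : Module.Invertible (A ⊗[W] B1) (ptIdeal q)), x = ptClass1 c0 q h)

theorem IsPtClass.map {A A' : Type u} [CommRing A] [CommRing A'] [Algebra W A] [Algebra W A']
    [Algebra A A'] [IsScalarTower W A A'] {x : PicX c0 A} (hx : IsPtClass c0 A x) :
    IsPtClass c0 A' (PicX.map c0 A A' x) := by
  rcases hx with ⟨q, h, rfl⟩ | ⟨q, h, rfl⟩
  · exact Or.inl ⟨ptComp A' q, invertible_ptIdeal_ptComp0 c0 A' q h, map_ptClass0 c0 A' q h _⟩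
  · exact Or.inr ⟨ptComp A' q, invertible_ptIdeal_ptComp1 c0 A' q h, map_ptClass1 c0 A' q h _⟩

/-- **The point classes**: `PicPt A` is the subgroup of `Pic X_A` generated by the classes of
`A`-points (with invertible ideal) of the two charts. -/
noncomputable def pointClasses : PointClasses c0 where
  PicPt A _ _ := Subgroup.closure {x | IsPtClass c0 A x}
  map_mem A A' _ _ _ _ _ _ x hx := by
    have hle : Subgroup.closure {x | IsPtClass c0 A x} ≤
        (Subgroup.closure {x | IsPtClass c0 A' x}).comap (PicX.map c0 A A') := by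
      rw [Subgroup.closure_le]
      intro y hy
      exact Subgroup.subset_closure (IsPtClass.map c0 hy)
    exact hle hx

theorem ptClass0_mem_picPt {A : Type u} [CommRing A] [Algebra W A] (q : B0 →ₐ[W] A)
    (h : Module.Invertible (A ⊗[W] B0) (ptIdeal q)) :
    ptClass0 c0 q h ∈ (pointClasses c0).PicPt A :=
  Subgroup.subset_closure (Or.inl ⟨q, h, rfl⟩)

theorem ptClass1_mem_picPt {A : Type u} [CommRing A] [Algebra W A] (q : B1 →ₐ[W] A)
    (h : Module.Invertible (A ⊗[W] B1) (ptIdeal q)) :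
    ptClass1 c0 q h ∈ (pointClasses c0).PicPt A :=
  Subgroup.subset_closure (Or.inr ⟨q, h, rfl⟩)

end PointClasses

end Fermat.Agent.T1.PtLine75
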