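import Mathlib
import Fermat.Agent.T1.PtLine75
import Fermat.Agent.T1.Adapt39.SemiBij

/-!
# T1A (S19), brick R-h CENTRES-CLASS (helper47): from pointwise centres to class-level centres

`c0 : TwoChart W B0 B1 B01`, `O` a local `W`-algebra with residue field `κ`, `red = PicX.map c0 O κ`.

* `red_ptClass0_eq`, `red_ptClass1_eq` : two `O`-points of a chart with the same reduction have point classes
  with the same reduction;
* `chartAutRefl c0 : ChartAut c0` : the identity automorphism of the chart system;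
* `LinAut O` : a `W`-linear ring automorphism `f` of `O` (with its inverse `f'`);
  `mapSemi_refl_ptClass0_of_fixed`, `..1..` : a point fixed by `f` has a point class fixed by
  `PicX.mapSemi (chartAutRefl c0) f`;
* `HasCentre0 I q`, `HasCentre1 I q` : the point `q` has a CENTRE, i.e. a point `q'` (of the same chart, with
  invertible ideal) with the same reduction and fixed by every `F ∈ I`;
* `exists_centre` (PER-CLASS form, as requested by helper92): every class `y` in the subgroup generated by the
  classes of points having a centre has a class-level centre: `x ∈ PicPt O` with `red (y * x⁻¹) = 1` and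
  `PicX.mapSemi (chartAutRefl c0) F.f F.hf x = x` for all `F ∈ I`.
-/

set_option autoImplicit false

open TensorProduct

namespace Fermat.Agent.T1.CentresClass47

open Fermat.Agent.Jac Fermat.Agent.T1.RedIface75 Fermat.Agent.T1.PtLine75 Fermat.Agent.T1.Adapt39

universe u

variable {W B0 B1 B01 : Type u} [CommRing W] [CommRing B0] [CommRing B1] [CommRing B01]
  [Algebra W B0] [Algebra W B1] [Algebra W B01] [Algebra B0 B01] [Algebra B1 B01]
  [IsScalarTower W B0 B01] [IsScalarTower W B1 B01]
  (c0 : TwoChart W B0 B1 B01)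

/-! ### Congruence lemmas -/

theorem ptClass0_congr {A : Type u} [CommRing A] [Algebra W A] {q q' : B0 →ₐ[W] A} (hq : q = q')
    (h : Module.Invertible (A ⊗[W] B0) (ptIdeal q))
    (h' : Module.Invertible (A ⊗[W] B0) (ptIdeal q')) : ptClass0 c0 q h = ptClass0 c0 q' h' := by
  subst hq
  rfl

theorem ptClass1_congr {A : Type u} [CommRing A] [Algebra W A] {q q' : B1 →ₐ[W] A} (hq : q = q')
    (h : Module.Invertible (A ⊗[W] B1) (ptIdeal q))
    (h' : Module.Invertible (A ⊗[W] B1) (ptIdeal q')) : ptClass1 c0 q h = ptClass1 c0 q' h' := by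
  subst hq
  rfl

/-! ### Reduction of point classes -/

section Red

variable (O : Type u) [CommRing O] [IsLocalRing O] [Algebra W O]

/-- Two `O`-points of chart 0 with the same reduction have point classes with the same reduction. -/
theorem red_ptClass0_eq (q q' : B0 →ₐ[W] O)
    (h : Module.Invertible (O ⊗[W] B0) (ptIdeal q))
    (h' : Module.Invertible (O ⊗[W] B0) (ptIdeal q'))
    (hqq : ∀ b, IsLocalRing.residue O (q b) = IsLocalRing.residue O (q' b)) :
    PicX.map c0 O (IsLocalRing.ResidueField O) (ptClass0 c0 q h) =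
      PicX.map c0 O (IsLocalRing.ResidueField O) (ptClass0 c0 q' h') := by
  rw [map_ptClass0 c0 (IsLocalRing.ResidueField O) q h
      (invertible_ptIdeal_ptComp0 c0 (IsLocalRing.ResidueField O) q h),
    map_ptClass0 c0 (IsLocalRing.ResidueField O) q' h'
      (invertible_ptIdeal_ptComp0 c0 (IsLocalRing.ResidueField O) q' h')]
  apply ptClass0_congr
  apply AlgHom.ext
  intro b
  rw [ptComp_apply, ptComp_apply]
  exact hqq b

/-- Two `O`-points of chart 1 with the same reduction have point classes with the same reduction. -/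
theorem red_ptClass1_eq (q q' : B1 →ₐ[W] O)
    (h : Module.Invertible (O ⊗[W] B1) (ptIdeal q))
    (h' : Module.Invertible (O ⊗[W] B1) (ptIdeal q'))
    (hqq : ∀ b, IsLocalRing.residue O (q b) = IsLocalRing.residue O (q' b)) :
    PicX.map c0 O (IsLocalRing.ResidueField O) (ptClass1 c0 q h) =
      PicX.map c0 O (IsLocalRing.ResidueField O) (ptClass1 c0 q' h') := by
  rw [map_ptClass1 c0 (IsLocalRing.ResidueField O) q h
      (invertible_ptIdeal_ptComp1 c0 (IsLocalRing.ResidueField O) q h),
    map_ptClass1 c0 (IsLocalRing.ResidueField O) q' h'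
      (invertible_ptIdeal_ptComp1 c0 (IsLocalRing.ResidueField O) q' h')]
  apply ptClass1_congr
  apply AlgHom.ext
  intro b
  rw [ptComp_apply, ptComp_apply]
  exact hqq b

end Red

/-! ### The identity automorphism of the chart system and linear automorphisms of `O` -/

/-- The identity automorphism of the chart system. -/
def chartAutRefl : ChartAut c0 where
  σW := RingHom.id W
  σ0 := RingHom.id B0
  σ1 := RingHom.id B1
  σ01 := RingHom.id B01
  semi0 _ _ := rfl
  semi1 _ _ := rfl
  semi01 _ _ := rfl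
  comm0 _ := rfl
  comm1 _ := rfl
  map_t := rfl
  map_s := rfl

/-- A `W`-linear ring automorphism of `A` (given with its inverse). -/
structure LinAut (W A : Type u) [CommRing W] [CommRing A] [Algebra W A] where
  f : A →+* A
  f' : A →+* A
  hf : ∀ (w : W) (a : A), f (w • a) = w • f a
  hf' : ∀ (w : W) (a : A), f' (w • a) = w • f' a
  left : ∀ a, f' (f a) = a
  right : ∀ a, f (f' a) = a

section Lin

variable {A : Type u} [CommRing A] [Algebra W A] (F : LinAut W A)

theorem LinAut.bij0 :
    Function.Bijective (semiTensor (chartAutRefl c0).σW F.f (chartAutRefl c0).σ0 F.hf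
      (chartAutRefl c0).semi0) :=
  semiTensor_bijective (RingHom.id W) (RingHom.id W) F.f F.f' (RingHom.id B0) (RingHom.id B0)
    F.hf (fun _ _ => rfl) F.hf' (fun _ _ => rfl) F.left F.right (fun _ => rfl) (fun _ => rfl)

theorem LinAut.bij1 :
    Function.Bijective (semiTensor (chartAutRefl c0).σW F.f (chartAutRefl c0).σ1 F.hf
      (chartAutRefl c0).semi1) :=
  semiTensor_bijective (RingHom.id W) (RingHom.id W) F.f F.f' (RingHom.id B1) (RingHom.id B1)
    F.hf (fun _ _ => rfl) F.hf' (fun _ _ => rfl) F.left F.right (fun _ => rfl) (fun _ => rfl)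

/-- The class of a point of chart 0 fixed by `F` is fixed by the semilinear base change along `F`. -/
theorem mapSemi_refl_ptClass0_of_fixed (q : B0 →ₐ[W] A)
    (h : Module.Invertible (A ⊗[W] B0) (ptIdeal q)) (hfix : ∀ b, F.f (q b) = q b) :
    PicX.mapSemi (chartAutRefl c0) F.f F.hf (ptClass0 c0 q h) = ptClass0 c0 q h :=
  mapSemi_ptClass0 (chartAutRefl c0) F.f F.hf (F.bij0 c0) (F.bij1 c0) Function.surjective_id q q
    (fun b => (hfix b).symm) h h

/-- The class of a point of chart 1 fixed by `F` is fixed by the semilinear base change along `F`. -/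
theorem mapSemi_refl_ptClass1_of_fixed (q : B1 →ₐ[W] A)
    (h : Module.Invertible (A ⊗[W] B1) (ptIdeal q)) (hfix : ∀ b, F.f (q b) = q b) :
    PicX.mapSemi (chartAutRefl c0) F.f F.hf (ptClass1 c0 q h) = ptClass1 c0 q h :=
  mapSemi_ptClass1 (chartAutRefl c0) F.f F.hf (F.bij0 c0) (F.bij1 c0) Function.surjective_id q q
    (fun b => (hfix b).symm) h h

end Lin

/-! ### Class-level centres -/

section Centres

variable (O : Type u) [CommRing O] [IsLocalRing O] [Algebra W O] (I : Set (LinAut W O))

/-- The point `q` of chart 0 has a centre: a point `q'` with invertible ideal, the same reduction, fixed by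
all `F ∈ I`. -/
def HasCentre0 (q : B0 →ₐ[W] O) : Prop :=
  ∃ (q' : B0 →ₐ[W] O) (_ : Module.Invertible (O ⊗[W] B0) (ptIdeal q')),
    (∀ b, IsLocalRing.residue O (q' b) = IsLocalRing.residue O (q b)) ∧
    ∀ F ∈ I, ∀ b, LinAut.f F (q' b) = q' b

/-- The point `q` of chart 1 has a centre. -/
def HasCentre1 (q : B1 →ₐ[W] O) : Prop :=
  ∃ (q' : B1 →ₐ[W] O) (_ : Module.Invertible (O ⊗[W] B1) (ptIdeal q')),
    (∀ b, IsLocalRing.residue O (q' b) = IsLocalRing.residue O (q b)) ∧
    ∀ F ∈ I, ∀ b, LinAut.f F (q' b) = q' b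

/-- The classes of the points (with invertible ideal) having a centre. -/
def GenC : Set (PicX c0 O) :=
  {x | (∃ (q : B0 →ₐ[W] O) (h : Module.Invertible (O ⊗[W] B0) (ptIdeal q)),
          HasCentre0 O I q ∧ x = ptClass0 c0 q h) ∨
       (∃ (q : B1 →ₐ[W] O) (h : Module.Invertible (O ⊗[W] B1) (ptIdeal q)),
          HasCentre1 O I q ∧ x = ptClass1 c0 q h)}

theorem genC_le_picPt :
    Subgroup.closure (GenC c0 O I) ≤ (pointClasses c0).PicPt O := by
  rw [Subgroup.closure_le]
  rintro x (⟨q, h, -, rfl⟩ | ⟨q, h, -, rfl⟩)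
  · exact ptClass0_mem_picPt c0 q h
  · exact ptClass1_mem_picPt c0 q h

/-- **Class-level centres** (per-class form): every class generated by points having centres is congruent
modulo the kernel of reduction to a class of `PicPt O` fixed by all `F ∈ I`. -/
theorem exists_centre (y : PicX c0 O) (hy : y ∈ Subgroup.closure (GenC c0 O I)) :
    ∃ x ∈ (pointClasses c0).PicPt O,
      PicX.map c0 O (IsLocalRing.ResidueField O) (y * x⁻¹) = 1 ∧
      ∀ F ∈ I, PicX.mapSemi (chartAutRefl c0) (LinAut.f F) (LinAut.hf F) x = x := by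
  induction hy using Subgroup.closure_induction with
  | mem y hy =>
    rcases hy with ⟨q, h, ⟨q', h', hred, hfix⟩, rfl⟩ | ⟨q, h, ⟨q', h', hred, hfix⟩, rfl⟩
    · refine ⟨ptClass0 c0 q' h', ptClass0_mem_picPt c0 q' h', ?_, fun F hF => ?_⟩
      · rw [map_mul, map_inv, red_ptClass0_eq c0 O q q' h h' (fun b => (hred b).symm),
          mul_inv_cancel]
      · exact mapSemi_refl_ptClass0_of_fixed c0 F q' h' (hfix F hF)
    · refine ⟨ptClass1 c0 q' h', ptClass1_mem_picPt c0 q' h', ?_, fun F hF => ?_⟩
      · rw [map_mul, map_inv, red_ptClass1_eq c0 O q q' h h' (fun b => (hred b).symm),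
          mul_inv_cancel]
      · exact mapSemi_refl_ptClass1_of_fixed c0 F q' h' (hfix F hF)
  | one =>
    refine ⟨1, Subgroup.one_mem _, ?_, fun F _ => map_one _⟩
    rw [inv_one, mul_one, map_one]
  | mul y₁ y₂ _ _ ih₁ ih₂ =>
    obtain ⟨x₁, hx₁, hr₁, hf₁⟩ := ih₁
    obtain ⟨x₂, hx₂, hr₂, hf₂⟩ := ih₂
    refine ⟨x₁ * x₂, Subgroup.mul_mem _ hx₁ hx₂, ?_, fun F hF => ?_⟩
    · have : y₁ * y₂ * (x₁ * x₂)⁻¹ = (y₁ * x₁⁻¹) * (y₂ * x₂⁻¹) := by
        rw [mul_inv]; exact mul_mul_mul_comm _ _ _ _
      rw [this, map_mul, hr₁, hr₂, mul_one]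
    · rw [map_mul, hf₁ F hF, hf₂ F hF]
  | inv y _ ih =>
    obtain ⟨x, hx, hr, hf⟩ := ih
    refine ⟨x⁻¹, Subgroup.inv_mem _ hx, ?_, fun F hF => ?_⟩
    · have : y⁻¹ * x⁻¹⁻¹ = (y * x⁻¹)⁻¹ := by
        rw [mul_inv, inv_inv]
      rw [this, map_inv, hr, inv_one]
    · rw [map_inv, hf F hF]

end Centres

end Fermat.Agent.T1.CentresClass47
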