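import Mathlib
import Fermat.Agent.T1.RedIface75
import Fermat.Agent.T1.PtLine75
import Fermat.Agent.T1.Red20.BcSemiComp
import Fermat.Agent.T1.Red20.CoordSemi
import Fermat.Agent.T1.Adapt39.SemiBij

/-!
# T1A (S19), assembly layer G9, brick G9-H2 GALACT: the Galois action on the hub  (helper44)

`c0 : TwoChart W B0 B1 B01` the chart system, `G` a group.

* `ChartAction c0 G` : `G` acts on the chart system `(W, B0, B1, B01)` by `ChartAut`s
  (`S 1 = id`, `S (g h) = S g ∘ S h` componentwise);
* `SemiAction H A` : a compatible action of `G` on a `W`-algebra `A` by ring homomorphisms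
  `f g : A →+* A`, `f g` semilinear over `(H.S g).σW`;
* `actPic H R g : PicX c0 A →* PicX c0 A` := `PicX.mapSemi (H.S g) (R.f g)`, with
  `actPic_one`, `actPic_mul` (hence `actPicEquiv`, `actPic_inv_apply`);
* `actPic_mem_picPt` : the subgroup `(PtLine75.pointClasses c0).PicPt A` generated by the classes of
  `A`-points is stable under `actPic H R g` (and `actPic_ptClass0/1` compute the action on a
  point class: the point `q` goes to `f g ∘ q ∘ (S g⁻¹).σ_j`);
* over a DVR `O`: every `R.f g` is a local homomorphism (`isLocalHom_f`), `J̃1(O)` is stable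
  (`actPic_mem_J1`), and the action commutes with base change `O → L`
  (`map_actPic`) for compatible actions on `O` and `L`.
-/

set_option autoImplicit false
set_option linter.unusedSectionVars false
set_option linter.style.haveILetI false

open TensorProduct

namespace Fermat.Agent.T1.GalAct44

open Fermat.Agent.Jac Fermat.Agent.Jac.JSmooth85Alg Fermat.Agent.Jac.JGroup85Pic
open Fermat.Agent.Jac.BaseChange75 Fermat.Agent.Jac.LineOps39 Fermat.Agent.T1.RedIface75
open Fermat.Agent.T1.PtLine75
open scoped Fermat.Agent.Jac.BaseChange75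

universe u v

variable {W B0 B1 B01 : Type u} [CommRing W] [CommRing B0] [CommRing B1] [CommRing B01]
  [Algebra W B0] [Algebra W B1] [Algebra W B01] [Algebra B0 B01] [Algebra B1 B01]
  [IsScalarTower W B0 B01] [IsScalarTower W B1 B01]

/-- An action of the group `G` on the chart system `(W, B0, B1, B01)`. -/
structure ChartAction (c0 : TwoChart W B0 B1 B01) (G : Type v) [Group G] where
  /-- the chart automorphisms -/
  S : G → ChartAut c0
  oneW : (S 1).σW = RingHom.id W
  one0 : (S 1).σ0 = RingHom.id B0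
  one1 : (S 1).σ1 = RingHom.id B1
  one01 : (S 1).σ01 = RingHom.id B01
  mulW : ∀ g h, (S (g * h)).σW = (S g).σW.comp (S h).σW
  mul0 : ∀ g h, (S (g * h)).σ0 = (S g).σ0.comp (S h).σ0
  mul1 : ∀ g h, (S (g * h)).σ1 = (S g).σ1.comp (S h).σ1
  mul01 : ∀ g h, (S (g * h)).σ01 = (S g).σ01.comp (S h).σ01

variable {c0 : TwoChart W B0 B1 B01} {G : Type v} [Group G]

/-- A compatible action of `G` on a `W`-algebra `A`: ring homomorphisms `f g`, semilinear over
the action on `W`. -/
structure SemiAction (H : ChartAction c0 G) (A : Type u) [CommRing A] [Algebra W A] where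
  /-- the ring homomorphisms -/
  f : G → A →+* A
  one : f 1 = RingHom.id A
  mul : ∀ g h, f (g * h) = (f g).comp (f h)
  semi : ∀ (g : G) (w : W) (a : A), f g (w • a) = (H.S g).σW w • f g a

namespace ChartAction

variable (H : ChartAction c0 G)

theorem σW_inv_apply (g : G) (w : W) : (H.S g⁻¹).σW ((H.S g).σW w) = w := by
  have := congrArg (fun φ : W →+* W => φ w) (H.mulW g⁻¹ g)
  simpa [inv_mul_cancel, H.oneW] using this.symm

theorem σW_apply_inv (g : G) (w : W) : (H.S g).σW ((H.S g⁻¹).σW w) = w := by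
  have := congrArg (fun φ : W →+* W => φ w) (H.mulW g g⁻¹)
  simpa [mul_inv_cancel, H.oneW] using this.symm

theorem σ0_inv_apply (g : G) (b : B0) : (H.S g⁻¹).σ0 ((H.S g).σ0 b) = b := by
  have := congrArg (fun φ : B0 →+* B0 => φ b) (H.mul0 g⁻¹ g)
  simpa [inv_mul_cancel, H.one0] using this.symm

theorem σ0_apply_inv (g : G) (b : B0) : (H.S g).σ0 ((H.S g⁻¹).σ0 b) = b := by
  have := congrArg (fun φ : B0 →+* B0 => φ b) (H.mul0 g g⁻¹)
  simpa [mul_inv_cancel, H.one0] using this.symm

theorem σ1_inv_apply (g : G) (b : B1) : (H.S g⁻¹).σ1 ((H.S g).σ1 b) = b := by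
  have := congrArg (fun φ : B1 →+* B1 => φ b) (H.mul1 g⁻¹ g)
  simpa [inv_mul_cancel, H.one1] using this.symm

theorem σ1_apply_inv (g : G) (b : B1) : (H.S g).σ1 ((H.S g⁻¹).σ1 b) = b := by
  have := congrArg (fun φ : B1 →+* B1 => φ b) (H.mul1 g g⁻¹)
  simpa [mul_inv_cancel, H.one1] using this.symm

theorem σ0_surjective (g : G) : Function.Surjective (H.S g).σ0 := fun b =>
  ⟨(H.S g⁻¹).σ0 b, H.σ0_apply_inv g b⟩

theorem σ1_surjective (g : G) : Function.Surjective (H.S g).σ1 := fun b =>
  ⟨(H.S g⁻¹).σ1 b, H.σ1_apply_inv g b⟩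

/-- `σ0` on constants. -/
theorem σ0_algebraMap (g : G) (w : W) :
    (H.S g).σ0 (algebraMap W B0 w) = algebraMap W B0 ((H.S g).σW w) := by
  rw [Algebra.algebraMap_eq_smul_one, (H.S g).semi0, map_one, ← Algebra.algebraMap_eq_smul_one]

/-- `σ1` on constants. -/
theorem σ1_algebraMap (g : G) (w : W) :
    (H.S g).σ1 (algebraMap W B1 w) = algebraMap W B1 ((H.S g).σW w) := by
  rw [Algebra.algebraMap_eq_smul_one, (H.S g).semi1, map_one, ← Algebra.algebraMap_eq_smul_one]

end ChartAction

namespace SemiAction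

variable {H : ChartAction c0 G} {A : Type u} [CommRing A] [Algebra W A] (R : SemiAction H A)

theorem f_inv_apply (g : G) (a : A) : R.f g⁻¹ (R.f g a) = a := by
  have := congrArg (fun φ : A →+* A => φ a) (R.mul g⁻¹ g)
  simpa [inv_mul_cancel, R.one] using this.symm

theorem f_apply_inv (g : G) (a : A) : R.f g (R.f g⁻¹ a) = a := by
  have := congrArg (fun φ : A →+* A => φ a) (R.mul g g⁻¹)
  simpa [mul_inv_cancel, R.one] using this.symm

theorem f_bijective (g : G) : Function.Bijective (R.f g) :=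
  Function.bijective_iff_has_inverse.mpr ⟨R.f g⁻¹, R.f_inv_apply g, R.f_apply_inv g⟩

/-- `f g` on constants. -/
theorem f_algebraMap (g : G) (w : W) :
    R.f g (algebraMap W A w) = algebraMap W A ((H.S g).σW w) := by
  rw [Algebra.algebraMap_eq_smul_one, R.semi, map_one, ← Algebra.algebraMap_eq_smul_one]

/-- Every `f g` is a local homomorphism (it is bijective). -/
theorem isLocalHom_f (g : G) : IsLocalHom (R.f g) :=
  ⟨fun a ha => by
    have h := ha.map (R.f g⁻¹)
    rwa [R.f_inv_apply] at h⟩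

/-- The semilinear tensor maps of the action are bijective (chart 0). -/
theorem semiTensor0_bijective (g : G) :
    Function.Bijective (semiTensor (H.S g).σW (R.f g) (H.S g).σ0 (R.semi g) (H.S g).semi0) :=
  Adapt39.semiTensor_bijective (H.S g).σW (H.S g⁻¹).σW (R.f g) (R.f g⁻¹) (H.S g).σ0 (H.S g⁻¹).σ0
    (R.semi g) (H.S g).semi0 (R.semi g⁻¹) (H.S g⁻¹).semi0 (R.f_inv_apply g) (R.f_apply_inv g)
    (H.σ0_inv_apply g) (H.σ0_apply_inv g)

/-- The semilinear tensor maps of the action are bijective (chart 1). -/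
theorem semiTensor1_bijective (g : G) :
    Function.Bijective (semiTensor (H.S g).σW (R.f g) (H.S g).σ1 (R.semi g) (H.S g).semi1) :=
  Adapt39.semiTensor_bijective (H.S g).σW (H.S g⁻¹).σW (R.f g) (R.f g⁻¹) (H.S g).σ1 (H.S g⁻¹).σ1
    (R.semi g) (H.S g).semi1 (R.semi g⁻¹) (H.S g⁻¹).semi1 (R.f_inv_apply g) (R.f_apply_inv g)
    (H.σ1_inv_apply g) (H.σ1_apply_inv g)

end SemiAction

/-! ### (1) The action on `Pic X_A` -/

section Act

variable (H : ChartAction c0 G) {A : Type u} [CommRing A] [Algebra W A] (R : SemiAction H A)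

/-- **The action of `g` on `Pic X_A`.** -/
noncomputable def actPic (g : G) : PicX c0 A →* PicX c0 A :=
  PicX.mapSemi (H.S g) (R.f g) (R.semi g)

theorem actPic_apply (g : G) (x : PicX c0 A) :
    actPic H R g x = PicX.mapSemi (H.S g) (R.f g) (R.semi g) x := rfl

theorem actPic_one_apply (x : PicX c0 A) : actPic H R 1 x = x := by
  have hid : ∀ (w : W) (a : A), RingHom.id A (w • a) = (H.S 1).σW w • RingHom.id A a := by
    intro w a
    have := R.semi 1 w a
    rwa [R.one] at this
  rw [actPic_apply, Red20.BcSquare.PicX.mapSemi_congr (H.S 1) R.one (R.semi 1) hid x]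
  exact Red20.BcSemiComp.PicX.mapSemi_id (H.S 1) H.one0 H.one1 H.one01 hid x

theorem actPic_mul_apply (g h : G) (x : PicX c0 A) :
    actPic H R (g * h) x = actPic H R g (actPic H R h x) := by
  have hg : ∀ (w : W) (a : A), ((R.f g).comp (R.f h)) (w • a) =
      (H.S (g * h)).σW w • ((R.f g).comp (R.f h)) a := by
    intro w a
    have := R.semi (g * h) w a
    rwa [R.mul] at this
  rw [actPic_apply, actPic_apply, actPic_apply,
    Red20.BcSemiComp.PicX.mapSemi_mapSemi (H.S h) (H.S g) (H.S (g * h)) (H.mul0 g h) (H.mul1 g h)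
      (H.mul01 g h) (R.f h) (R.semi h) (R.f g) (R.semi g) hg x]
  exact Red20.BcSquare.PicX.mapSemi_congr (H.S (g * h)) (R.mul g h) (R.semi (g * h)) hg x

theorem actPic_one : actPic H R 1 = MonoidHom.id (PicX c0 A) :=
  MonoidHom.ext (actPic_one_apply H R)

theorem actPic_mul (g h : G) : actPic H R (g * h) = (actPic H R g).comp (actPic H R h) :=
  MonoidHom.ext (actPic_mul_apply H R g h)

theorem actPic_inv_apply (g : G) (x : PicX c0 A) : actPic H R g⁻¹ (actPic H R g x) = x := by
  rw [← actPic_mul_apply, inv_mul_cancel, actPic_one_apply]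

theorem actPic_apply_inv (g : G) (x : PicX c0 A) : actPic H R g (actPic H R g⁻¹ x) = x := by
  rw [← actPic_mul_apply, mul_inv_cancel, actPic_one_apply]

/-- The action of `g` as a group automorphism of `Pic X_A`. -/
noncomputable def actPicEquiv (g : G) : PicX c0 A ≃* PicX c0 A :=
  { actPic H R g with
    invFun := actPic H R g⁻¹
    left_inv := actPic_inv_apply H R g
    right_inv := actPic_apply_inv H R g }

@[simp] theorem actPicEquiv_apply (g : G) (x : PicX c0 A) :
    actPicEquiv H R g x = actPic H R g x := rfl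

/-- The action as a homomorphism `G →* MulAut (Pic X_A)`. -/
noncomputable def actPicHom : G →* MulAut (PicX c0 A) where
  toFun := actPicEquiv H R
  map_one' := MulEquiv.ext (actPic_one_apply H R)
  map_mul' g h := MulEquiv.ext (actPic_mul_apply H R g h)

end Act

/-! ### (2) Point classes -/

section Points

variable (H : ChartAction c0 G) {A : Type u} [CommRing A] [Algebra W A] (R : SemiAction H A)

/-- The image of an `A`-point of chart 0 under `g`: `f g ∘ q ∘ (S g⁻¹).σ0`. -/
noncomputable def twistPt0 (g : G) (q : B0 →ₐ[W] A) : B0 →ₐ[W] A :=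
  { (R.f g).comp ((q : B0 →+* A).comp (H.S g⁻¹).σ0) with
    commutes' := fun w => by
      show R.f g (q ((H.S g⁻¹).σ0 (algebraMap W B0 w))) = algebraMap W A w
      rw [H.σ0_algebraMap, q.commutes, R.f_algebraMap, H.σW_apply_inv] }

/-- The image of an `A`-point of chart 1 under `g`: `f g ∘ q ∘ (S g⁻¹).σ1`. -/
noncomputable def twistPt1 (g : G) (q : B1 →ₐ[W] A) : B1 →ₐ[W] A :=
  { (R.f g).comp ((q : B1 →+* A).comp (H.S g⁻¹).σ1) with
    commutes' := fun w => by
      show R.f g (q ((H.S g⁻¹).σ1 (algebraMap W B1 w))) = algebraMap W A w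
      rw [H.σ1_algebraMap, q.commutes, R.f_algebraMap, H.σW_apply_inv] }

theorem twistPt0_apply (g : G) (q : B0 →ₐ[W] A) (b : B0) :
    twistPt0 H R g q b = R.f g (q ((H.S g⁻¹).σ0 b)) := rfl

theorem twistPt1_apply (g : G) (q : B1 →ₐ[W] A) (b : B1) :
    twistPt1 H R g q b = R.f g (q ((H.S g⁻¹).σ1 b)) := rfl

theorem twistPt0_σ0 (g : G) (q : B0 →ₐ[W] A) (b : B0) :
    twistPt0 H R g q ((H.S g).σ0 b) = R.f g (q b) := by
  rw [twistPt0_apply, H.σ0_inv_apply]

theorem twistPt1_σ1 (g : G) (q : B1 →ₐ[W] A) (b : B1) :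
    twistPt1 H R g q ((H.S g).σ1 b) = R.f g (q b) := by
  rw [twistPt1_apply, H.σ1_inv_apply]

end Points

/-! #### Invertibility of the ideal of a point under semilinear isomorphisms -/

section Inv

variable (S : ChartAut c0) {A A' : Type u} [CommRing A] [CommRing A'] [Algebra W A]
  [Algebra W A'] (f : A →+* A') (hf : ∀ (w : W) (a : A), f (w • a) = S.σW w • f a)

/-- Chart 0: the ideal of the image point is invertible. -/
theorem invertible_ptIdeal_semi0
    (hb0 : Function.Bijective (semiTensor S.σW f S.σ0 hf S.semi0))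
    (hb1 : Function.Bijective (semiTensor S.σW f S.σ1 hf S.semi1))
    (hσ0 : Function.Surjective S.σ0)
    (q : B0 →ₐ[W] A) (q' : B0 →ₐ[W] A') (hq : ∀ b, q' (S.σ0 b) = f (q b))
    (h : Module.Invertible (A ⊗[W] B0) (ptIdeal q)) :
    Module.Invertible (A' ⊗[W] B0) (ptIdeal q') := by
  letI : Algebra A A' := f.toAlgebra
  letI : Algebra (A ⊗[W] B0) (A' ⊗[W] B0) := (semiTensor S.σW f S.σ0 hf S.semi0).toAlgebra
  letI : Algebra (A ⊗[W] B1) (A' ⊗[W] B1) := (semiTensor S.σW f S.σ1 hf S.semi1).toAlgebra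
  letI : Algebra (A ⊗[W] B01) (A' ⊗[W] B01) := (semiTensor S.σW f S.σ01 hf S.semi01).toAlgebra
  have hs : algebraMap (A ⊗[W] B1) (A' ⊗[W] B1) (c0.baseChange A).s = (c0.baseChange A').s := by
    show semiTensor S.σW f S.σ1 hf S.semi1 ((1 : A) ⊗ₜ[W] c0.s) = (1 : A') ⊗ₜ[W] c0.s
    rw [semiTensor_tmul, map_one, S.map_s]
  have hbc := IdealPair.isBC_ofChart0 (A := A) (A' := A') (S.square0 f hf) (S.square1 f hf)
    (c0.baseChange A) (c0.baseChange A') hs (ptIdeal q) _ (unit_mod_ptPair0 c0 q)
  have hI : (ptIdeal q).map (algebraMap (A ⊗[W] B0) (A' ⊗[W] B0)) = ptIdeal q' :=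
    ptIdeal_map_semi S.σW f S.σ0 hf S.semi0 hσ0 q q' hq
  rw [hI] at hbc
  have hbc' : (ptPair0 c0 q).IsBC (ptPair0 c0 q') := hbc
  have ld := liftDataOfIdeals (A := A) (A' := A') (S.square0 f hf) (S.square1 f hf)
    (c0.baseChange A) (c0.baseChange A') hbc'
    (injective_baseChange_of_bijective hb0 _ Subtype.val_injective)
    (injective_baseChange_of_bijective hb1 _ Subtype.val_injective)
  exact (LiftData.isLine ld (isLine_ptPair0 c0 q h)).1

/-- Chart 1: the ideal of the image point is invertible. -/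
theorem invertible_ptIdeal_semi1
    (hb0 : Function.Bijective (semiTensor S.σW f S.σ0 hf S.semi0))
    (hb1 : Function.Bijective (semiTensor S.σW f S.σ1 hf S.semi1))
    (hσ1 : Function.Surjective S.σ1)
    (q : B1 →ₐ[W] A) (q' : B1 →ₐ[W] A') (hq : ∀ b, q' (S.σ1 b) = f (q b))
    (h : Module.Invertible (A ⊗[W] B1) (ptIdeal q)) :
    Module.Invertible (A' ⊗[W] B1) (ptIdeal q') := by
  letI : Algebra A A' := f.toAlgebra
  letI : Algebra (A ⊗[W] B0) (A' ⊗[W] B0) := (semiTensor S.σW f S.σ0 hf S.semi0).toAlgebra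
  letI : Algebra (A ⊗[W] B1) (A' ⊗[W] B1) := (semiTensor S.σW f S.σ1 hf S.semi1).toAlgebra
  letI : Algebra (A ⊗[W] B01) (A' ⊗[W] B01) := (semiTensor S.σW f S.σ01 hf S.semi01).toAlgebra
  have ht : algebraMap (A ⊗[W] B0) (A' ⊗[W] B0) (c0.baseChange A).t = (c0.baseChange A').t := by
    show semiTensor S.σW f S.σ0 hf S.semi0 ((1 : A) ⊗ₜ[W] c0.t) = (1 : A') ⊗ₜ[W] c0.t
    rw [semiTensor_tmul, map_one, S.map_t]
  have hbc := IdealPair.isBC_ofChart1 (A := A) (A' := A') (S.square0 f hf) (S.square1 f hf)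
    (c0.baseChange A) (c0.baseChange A') ht (ptIdeal q) _ (unit_mod_ptPair1 c0 q)
  have hI : (ptIdeal q).map (algebraMap (A ⊗[W] B1) (A' ⊗[W] B1)) = ptIdeal q' :=
    ptIdeal_map_semi S.σW f S.σ1 hf S.semi1 hσ1 q q' hq
  rw [hI] at hbc
  have hbc' : (ptPair1 c0 q).IsBC (ptPair1 c0 q') := hbc
  have ld := liftDataOfIdeals (A := A) (A' := A') (S.square0 f hf) (S.square1 f hf)
    (c0.baseChange A) (c0.baseChange A') hbc'
    (injective_baseChange_of_bijective hb0 _ Subtype.val_injective)
    (injective_baseChange_of_bijective hb1 _ Subtype.val_injective)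
  exact (LiftData.isLine ld (isLine_ptPair1 c0 q h)).2

end Inv

section PointClasses

variable (H : ChartAction c0 G) {A : Type u} [CommRing A] [Algebra W A] (R : SemiAction H A)

/-- The ideal of the image point is invertible (chart 0). -/
theorem invertible_twistPt0 (g : G) (q : B0 →ₐ[W] A)
    (h : Module.Invertible (A ⊗[W] B0) (ptIdeal q)) :
    Module.Invertible (A ⊗[W] B0) (ptIdeal (twistPt0 H R g q)) :=
  invertible_ptIdeal_semi0 (H.S g) (R.f g) (R.semi g) (R.semiTensor0_bijective g)
    (R.semiTensor1_bijective g) (H.σ0_surjective g) q _ (twistPt0_σ0 H R g q) h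

/-- The ideal of the image point is invertible (chart 1). -/
theorem invertible_twistPt1 (g : G) (q : B1 →ₐ[W] A)
    (h : Module.Invertible (A ⊗[W] B1) (ptIdeal q)) :
    Module.Invertible (A ⊗[W] B1) (ptIdeal (twistPt1 H R g q)) :=
  invertible_ptIdeal_semi1 (H.S g) (R.f g) (R.semi g) (R.semiTensor0_bijective g)
    (R.semiTensor1_bijective g) (H.σ1_surjective g) q _ (twistPt1_σ1 H R g q) h

/-- **The action on a point class** (chart 0). -/
theorem actPic_ptClass0 (g : G) (q : B0 →ₐ[W] A)
    (h : Module.Invertible (A ⊗[W] B0) (ptIdeal q))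
    (h' : Module.Invertible (A ⊗[W] B0) (ptIdeal (twistPt0 H R g q))) :
    actPic H R g (ptClass0 c0 q h) = ptClass0 c0 (twistPt0 H R g q) h' :=
  mapSemi_ptClass0 (H.S g) (R.f g) (R.semi g) (R.semiTensor0_bijective g)
    (R.semiTensor1_bijective g) (H.σ0_surjective g) q _ (twistPt0_σ0 H R g q) h h'

/-- **The action on a point class** (chart 1). -/
theorem actPic_ptClass1 (g : G) (q : B1 →ₐ[W] A)
    (h : Module.Invertible (A ⊗[W] B1) (ptIdeal q))
    (h' : Module.Invertible (A ⊗[W] B1) (ptIdeal (twistPt1 H R g q))) :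
    actPic H R g (ptClass1 c0 q h) = ptClass1 c0 (twistPt1 H R g q) h' :=
  mapSemi_ptClass1 (H.S g) (R.f g) (R.semi g) (R.semiTensor0_bijective g)
    (R.semiTensor1_bijective g) (H.σ1_surjective g) q _ (twistPt1_σ1 H R g q) h h'

/-- Point classes go to point classes. -/
theorem IsPtClass.actPic (g : G) {x : PicX c0 A} (hx : IsPtClass c0 A x) :
    IsPtClass c0 A (actPic H R g x) := by
  rcases hx with ⟨q, h, rfl⟩ | ⟨q, h, rfl⟩
  · exact Or.inl ⟨twistPt0 H R g q, invertible_twistPt0 H R g q h,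
      actPic_ptClass0 H R g q h _⟩
  · exact Or.inr ⟨twistPt1 H R g q, invertible_twistPt1 H R g q h,
      actPic_ptClass1 H R g q h _⟩

/-- **(2) The subgroup generated by the point classes is stable under the action.** -/
theorem actPic_mem_picPt (g : G) {x : PicX c0 A} (hx : x ∈ (pointClasses c0).PicPt A) :
    actPic H R g x ∈ (pointClasses c0).PicPt A := by
  have hle : Subgroup.closure {x | IsPtClass c0 A x} ≤
      (Subgroup.closure {x | IsPtClass c0 A x}).comap (actPic H R g) := by
    rw [Subgroup.closure_le]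
    intro y hy
    exact Subgroup.subset_closure (IsPtClass.actPic H R g hy)
  exact hle hx

/-- The action restricted to the subgroup generated by the point classes. -/
noncomputable def actPicPt (g : G) : (pointClasses c0).PicPt A →* (pointClasses c0).PicPt A :=
  ((actPic H R g).comp ((pointClasses c0).PicPt A).subtype).codRestrict _
    (fun x => actPic_mem_picPt H R g x.2)

@[simp] theorem coe_actPicPt (g : G) (x : (pointClasses c0).PicPt A) :
    ((actPicPt H R g x : (pointClasses c0).PicPt A) : PicX c0 A) = actPic H R g x := rfl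

theorem actPicPt_one (x : (pointClasses c0).PicPt A) : actPicPt H R 1 x = x :=
  Subtype.ext (actPic_one_apply H R x)

theorem actPicPt_mul (g h : G) (x : (pointClasses c0).PicPt A) :
    actPicPt H R (g * h) x = actPicPt H R g (actPicPt H R h x) :=
  Subtype.ext (actPic_mul_apply H R g h x)

end PointClasses

/-! ### (3) Discrete valuation rings: `J̃1` and base change to the fraction field -/

section DVR

variable (H : ChartAction c0 G)
  {O : Type u} [CommRing O] [IsDomain O] [IsDiscreteValuationRing O] [Algebra W O]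
  (RO : SemiAction H O)

/-- **`J̃1(O)` is stable under the action.** -/
theorem actPic_mem_J1 (g : G) {y : PicX c0 O} (hy : y ∈ J1 c0 O) :
    actPic H RO g y ∈ J1 c0 O :=
  haveI := RO.isLocalHom_f g
  Red20.CoordSemi.mapSemi_mem_J1 (H.S g) (RO.f g) (RO.semi g) hy

/-- The action on `J̃1(O)`. -/
noncomputable def actJ1 (g : G) : J1 c0 O →* J1 c0 O :=
  ((actPic H RO g).comp (J1 c0 O).subtype).codRestrict _
    (fun y => actPic_mem_J1 H RO g y.2)

@[simp] theorem coe_actJ1 (g : G) (y : J1 c0 O) :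
    ((actJ1 H RO g y : J1 c0 O) : PicX c0 O) = actPic H RO g y := rfl

theorem actJ1_one (y : J1 c0 O) : actJ1 H RO 1 y = y :=
  Subtype.ext (actPic_one_apply H RO y)

theorem actJ1_mul (g h : G) (y : J1 c0 O) :
    actJ1 H RO (g * h) y = actJ1 H RO g (actJ1 H RO h y) :=
  Subtype.ext (actPic_mul_apply H RO g h y)

end DVR

section Compat

variable (H : ChartAction c0 G)
  {A A1 : Type u} [CommRing A] [CommRing A1] [Algebra W A] [Algebra W A1] [Algebra A A1]
  [IsScalarTower W A A1] (R : SemiAction H A) (R1 : SemiAction H A1)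

/-- **The action commutes with base change** `A → A1` for compatible actions
(e.g. `A = O`, `A1 = L = Frac O`). -/
theorem map_actPic (hc : ∀ (g : G) (a : A), R1.f g (algebraMap A A1 a) = algebraMap A A1 (R.f g a))
    (g : G) (x : PicX c0 A) :
    PicX.map c0 A A1 (actPic H R g x) = actPic H R1 g (PicX.map c0 A A1 x) :=
  Red20.BcSquare.PicX.map_mapSemi_sq (H.S g) (R.f g) (R.semi g) (R1.f g) (R1.semi g)
    (RingHom.ext fun a => hc g a) x

end Compat

end Fermat.Agent.T1.GalAct44
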