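import Mathlib
import Fermat.Agent.T1.Adapt96.ToLinePair
import Fermat.Agent.T1.Coh60.ModelLine
import Fermat.Agent.T1.ModelBC51.ModelEquiv
import Fermat.Agent.Jac.BaseChange75.Rings

/-!
# T1A (S19), brick G7-C CHARTISO  (helper20)

The input `E` of helper96's adapter `Adapt96` and of helper59's DICT-FINAL: for
`hK : TwoChartModel R K F π t B0 B1 Ov` (the model over the small field, `R = W`),
`hL : TwoChartModel R' L F' π' (D.iF t) B0' B1' Ov'` (the model over `L`, `R' = O_L`) and base change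
data `D : BCData K L π π' Ov Ov'`, the hub rings `L ⊗[R] ↥B_j` of the generic fibre are identified
with the field-level charts `Dict59.C0/C1 (K := L) (D.iF t)` (integral closures of `L[t']`,
`L[t'⁻¹]` in `F'`) by the multiplication maps `ModelBC51.Equiv.nu`:

* `isIntegral_nu` : `nu` has values integral over `L[iF s]` when `B` is integral over `R[s]`;
* `mem_range_nu_of_isIntegral` : every element of `F'` integral over `L[iF s]` is a value of `nu`
  (`B'[1/π']` is integrally closed and contains `L[iF s]`; `B' = R' · B`);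
* `chartEquivL` : `L ⊗[R] ↥B ≃ₐ[L] ↥(C0 (K := L) s')` for a chart pair;
* `chartIso : Adapt96.ChartIso ((modelChart hK).baseChange L) (D.iF t)`.
-/

set_option autoImplicit false
set_option linter.unusedSectionVars false
set_option linter.style.haveILetI false

noncomputable section

open TensorProduct Polynomial

namespace Fermat.Agent.T1.ChartIso20

open Fermat.Agent.RED.CORE.CoreIface24 Fermat.Agent.RED.PUR.ChartGeneric22
open Fermat.Agent.T1.ModelBC51.Abstract Fermat.Agent.T1.ModelBC51.Model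
open Fermat.Agent.T1.ModelBC51.Equiv Fermat.Agent.T1.ModelBC51.ModelEquiv
open Fermat.Agent.T1.ModelBC51.InvPi Fermat.Agent.T1.Dict59
open scoped Fermat.Agent.Jac.BaseChange75

universe u

variable {R K F : Type u} [CommRing R] [Field K] [Field F] [Algebra R K] [Algebra K F]
  [Algebra R F] [IsScalarTower R K F]
variable {R' L F' : Type u} [CommRing R'] [Field L] [Field F'] [Algebra R' L] [Algebra L F']
  [Algebra R' F'] [IsScalarTower R' L F']
variable {π : R} {π' : R'} {Ov : ValuationSubring F} {Ov' : ValuationSubring F'}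
  (D : BCData K L π π' Ov Ov') [Algebra R R'] (halg : ∀ r : R, algebraMap R R' r = D.iR r)

/-! ### Integrality of the values of `nu` -/

section Range

/-- `R'[x] ⊆ L[x]` inside `F'`. -/
theorem adjoin_R'_le_adjoin_L (x : F') {y : F'} (hy : y ∈ Algebra.adjoin R' {x}) :
    y ∈ Algebra.adjoin L {x} := by
  induction hy using Algebra.adjoin_induction with
  | mem z hz => exact Algebra.subset_adjoin hz
  | algebraMap r =>
    rw [IsScalarTower.algebraMap_apply R' L F']
    exact Subalgebra.algebraMap_mem _ _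
  | add a b _ _ ha hb => exact add_mem ha hb
  | mul a b _ _ ha hb => exact mul_mem ha hb

/-- The image of an element integral over `R[s]` is integral over `L[iF s]`. -/
theorem isIntegral_iF {s x : F} (hx : IsIntegral (Algebra.adjoin R {s}) x) :
    IsIntegral (Algebra.adjoin L {D.iF s}) (D.iF x) := by
  rw [isIntegral_subalgebra_iff] at hx ⊢
  obtain ⟨P, hP, hcoeff, hPx⟩ := hx
  refine ⟨P.map D.iF, hP.map _, fun i => ?_, ?_⟩
  · rw [coeff_map]
    exact adjoin_R'_le_adjoin_L _ (map_mem_adjoin D s (hcoeff i))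
  · rw [eval_map, eval₂_at_apply, hPx, map_zero]

/-- **The values of `nu` are integral over `L[iF s]`.** -/
theorem isIntegral_nu {B : Subalgebra R F} {s : F}
    (int : ∀ x ∈ B, IsIntegral (Algebra.adjoin R {s}) x) :
    letI := algRL R R' L
    ∀ z : L ⊗[R] ↥B, IsIntegral (Algebra.adjoin L {D.iF s}) (nu D halg B z) := by
  letI := algRL R R' L
  intro z
  induction z using TensorProduct.induction_on with
  | zero => rw [map_zero]; exact isIntegral_zero
  | tmul l b =>
    rw [nu_tmul]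
    refine IsIntegral.mul ?_ (isIntegral_iF D (int _ b.2))
    exact isIntegral_algebraMap (R := Algebra.adjoin L {D.iF s})
      (x := ⟨algebraMap L F' l, Subalgebra.algebraMap_mem _ l⟩)
  | add z₁ z₂ h₁ h₂ => rw [map_add]; exact h₁.add h₂

/-- Elements of `R' · B` are values of `nu`. -/
theorem mem_range_nu_of_mem_spanOf {B : Subalgebra R F} {y : F'} (hy : y ∈ D.spanOf B) :
    letI := algRL R R' L
    ∃ z : L ⊗[R] ↥B, nu D halg B z = y := by
  letI := algRL R R' L
  induction hy using Submodule.span_induction with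
  | mem y hy =>
    obtain ⟨c, hc, rfl⟩ := hy
    exact ⟨1 ⊗ₜ[R] ⟨c, hc⟩, by rw [nu_tmul, map_one, one_mul]⟩
  | zero => exact ⟨0, map_zero _⟩
  | add y₁ y₂ _ _ h₁ h₂ =>
    obtain ⟨z₁, hz₁⟩ := h₁
    obtain ⟨z₂, hz₂⟩ := h₂
    exact ⟨z₁ + z₂, by rw [map_add, hz₁, hz₂]⟩
  | smul r y _ h₁ =>
    obtain ⟨z₁, hz₁⟩ := h₁
    refine ⟨algebraMap R' L r • z₁, ?_⟩
    rw [map_smul, hz₁, Algebra.smul_def, Algebra.smul_def,
      ← IsScalarTower.algebraMap_apply R' L F']

/-- `L[iF s] ⊆ B'[1/π']`. -/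
theorem adjoin_L_le_invPi [IsFractionRing R' L]
    (dvrR' : ∀ r : R', r ≠ 0 → ∃ (k : ℕ) (v : R'ˣ), r = π' ^ k * v)
    {B' : Subalgebra R' F'} {s' : F'} (hs' : s' ∈ B') {y : F'}
    (hy : y ∈ Algebra.adjoin L {s'}) : y ∈ invPi π' B' := by
  induction hy using Algebra.adjoin_induction with
  | mem z hz =>
    rw [Set.mem_singleton_iff] at hz
    subst hz
    exact le_invPi π' B' hs'
  | algebraMap l => exact algebraMap_mem_invPi (K := L) B' dvrR' l
  | add a b _ _ ha hb => exact add_mem ha hb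
  | mul a b _ _ ha hb => exact mul_mem ha hb

include halg in
/-- **Every element of `F'` integral over `L[s']` is a value of `nu`**, when `B'` is integrally
closed, contains `s'`, and `B' ⊆ R' · B`. -/
theorem mem_range_nu_of_isIntegral [IsFractionRing R' L]
    (dvrR' : ∀ r : R', r ≠ 0 → ∃ (k : ℕ) (v : R'ˣ), r = π' ^ k * v)
    (pi'_ne : algebraMap R' F' π' ≠ 0)
    {B : Subalgebra R F} {B' : Subalgebra R' F'} {s' : F'} (hs' : s' ∈ B')
    (intcl' : ∀ x : F', IsIntegral B' x → x ∈ B')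
    (hspan : ∀ x ∈ B', x ∈ D.spanOf B) {x : F'}
    (hx : IsIntegral (Algebra.adjoin L {s'}) x) :
    letI := algRL R R' L
    ∃ z : L ⊗[R] ↥B, nu D halg B z = x := by
  letI := algRL R R' L
  have h1 : IsIntegral (invPi π' B') x := by
    rw [isIntegral_subalgebra_iff] at hx ⊢
    obtain ⟨P, hP, hcoeff, hPx⟩ := hx
    exact ⟨P, hP, fun i => adjoin_L_le_invPi dvrR' hs' (hcoeff i), hPx⟩
  obtain ⟨m, hm⟩ := invPi_intcl intcl' x h1
  obtain ⟨z, hz⟩ := mem_range_nu_of_mem_spanOf D halg (hspan _ hm)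
  have hπL : algebraMap R' L π' ^ m ≠ 0 := by
    refine pow_ne_zero _ fun h => pi'_ne ?_
    rw [IsScalarTower.algebraMap_apply R' L F', h, map_zero]
  refine ⟨(algebraMap R' L π' ^ m)⁻¹ • z, ?_⟩
  rw [map_smul, hz, Algebra.smul_def, map_inv₀, map_pow, ← IsScalarTower.algebraMap_apply R' L F',
    inv_mul_cancel_left₀]
  exact pow_ne_zero _ pi'_ne

end Range

/-! ### The identification of one hub chart with the field-level chart -/

section Equiv

variable {B : Subalgebra R F} {B' : Subalgebra R' F'} {s : F} {s' : F'}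

/-- `nu`, corestricted to the integral closure of `L[s']` in `F'`. -/
def nuC0 (hss' : D.iF s = s') (int : ∀ x ∈ B, IsIntegral (Algebra.adjoin R {s}) x) :
    letI := algRL R R' L
    L ⊗[R] ↥B →ₐ[L] ↥(C0 (K := L) s') :=
  letI := algRL R R' L
  AlgHom.codRestrict (nu D halg B) (C0 (K := L) s') (fun z => by
    subst hss'
    exact isIntegral_nu D halg int z)

theorem coe_nuC0 (hss' : D.iF s = s') (int : ∀ x ∈ B, IsIntegral (Algebra.adjoin R {s}) x) :
    letI := algRL R R' L
    ∀ z : L ⊗[R] ↥B, ((nuC0 D halg hss' int z : ↥(C0 (K := L) s')) : F') = nu D halg B z :=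
  fun _ => rfl

include halg in
theorem nuC0_bijective [IsFractionRing R K] [IsFractionRing R' L]
    (hss' : D.iF s = s') (int : ∀ x ∈ B, IsIntegral (Algebra.adjoin R {s}) x)
    (dvrR : ∀ r : R, r ≠ 0 → ∃ (k : ℕ) (v : Rˣ), r = π ^ k * v) (pi_ne : algebraMap R F π ≠ 0)
    (dvrR' : ∀ r : R', r ≠ 0 → ∃ (k : ℕ) (v : R'ˣ), r = π' ^ k * v)
    (pi'_ne : algebraMap R' F' π' ≠ 0) (hs' : s' ∈ B')
    (intcl' : ∀ x : F', IsIntegral B' x → x ∈ B') (hspan : ∀ x ∈ B', x ∈ D.spanOf B) :
    letI := algRL R R' L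
    Function.Bijective (nuC0 D halg hss' int) := by
  letI := algRL R R' L
  constructor
  · intro z z' h
    apply nu_injective D halg (B := B) dvrR pi_ne
    exact congrArg (fun y : ↥(C0 (K := L) s') => (y : F')) h
  · rintro ⟨x, hx⟩
    obtain ⟨z, hz⟩ := mem_range_nu_of_isIntegral D halg dvrR' pi'_ne hs' intcl' hspan
      ((mem_C0_iff s' x).1 hx)
    exact ⟨z, Subtype.ext hz⟩

/-- **`L ⊗[R] ↥B ≃ₐ[L]` the integral closure of `L[s']` in `F'`.** -/
def chartEquivL [IsFractionRing R K] [IsFractionRing R' L]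
    (hss' : D.iF s = s') (int : ∀ x ∈ B, IsIntegral (Algebra.adjoin R {s}) x)
    (dvrR : ∀ r : R, r ≠ 0 → ∃ (k : ℕ) (v : Rˣ), r = π ^ k * v) (pi_ne : algebraMap R F π ≠ 0)
    (dvrR' : ∀ r : R', r ≠ 0 → ∃ (k : ℕ) (v : R'ˣ), r = π' ^ k * v)
    (pi'_ne : algebraMap R' F' π' ≠ 0) (hs' : s' ∈ B')
    (intcl' : ∀ x : F', IsIntegral B' x → x ∈ B') (hspan : ∀ x ∈ B', x ∈ D.spanOf B) :
    letI := algRL R R' L
    L ⊗[R] ↥B ≃ₐ[L] ↥(C0 (K := L) s') :=
  letI := algRL R R' L
  AlgEquiv.ofBijective (nuC0 D halg hss' int)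
    (nuC0_bijective D halg hss' int dvrR pi_ne dvrR' pi'_ne hs' intcl' hspan)

theorem coe_chartEquivL [IsFractionRing R K] [IsFractionRing R' L]
    (hss' : D.iF s = s') (int : ∀ x ∈ B, IsIntegral (Algebra.adjoin R {s}) x)
    (dvrR : ∀ r : R, r ≠ 0 → ∃ (k : ℕ) (v : Rˣ), r = π ^ k * v) (pi_ne : algebraMap R F π ≠ 0)
    (dvrR' : ∀ r : R', r ≠ 0 → ∃ (k : ℕ) (v : R'ˣ), r = π' ^ k * v)
    (pi'_ne : algebraMap R' F' π' ≠ 0) (hs' : s' ∈ B')
    (intcl' : ∀ x : F', IsIntegral B' x → x ∈ B') (hspan : ∀ x ∈ B', x ∈ D.spanOf B) :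
    letI := algRL R R' L
    ∀ z : L ⊗[R] ↥B,
      ((chartEquivL D halg hss' int dvrR pi_ne dvrR' pi'_ne hs' intcl' hspan z :
        ↥(C0 (K := L) s')) : F') = nu D halg B z :=
  fun _ => rfl

end Equiv

/-! ### The chart isomorphism of the model -/

section Model

open Fermat.Agent.Jac Fermat.Agent.T1.Coh60 Fermat.Agent.T1.ModelCoh30

variable {t : F} {B0 B1 : Subalgebra R F} {B0' B1' : Subalgebra R' F'}
  (hK : TwoChartModel R K F π t B0 B1 Ov)
  (hL : TwoChartModel R' L F' π' (D.iF t) B0' B1' Ov') [CharZero K]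

/-- The identification of chart 0. -/
def e0 : letI := algRL R R' L
    L ⊗[R] ↥B0 ≃ₐ[L] ↥(C0 (K := L) (D.iF t)) :=
  haveI := hK.fracR
  haveI := hL.fracR
  chartEquivL D halg rfl hK.int0 hK.dvrR hK.pi_ne hL.dvrR hL.pi_ne hL.t_mem hL.intcl0
    (span0 D hK hL)

/-- The identification of chart 1. -/
def e1 : letI := algRL R R' L
    L ⊗[R] ↥B1 ≃ₐ[L] ↥(C1 (K := L) (D.iF t)) :=
  haveI := hK.fracR
  haveI := hL.fracR
  chartEquivL D halg (map_inv₀ D.iF t) hK.int1 hK.dvrR hK.pi_ne hL.dvrR hL.pi_ne hL.tinv_mem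
    hL.intcl1 (span1 D hK hL)

theorem coe_e0 : letI := algRL R R' L
    ∀ z : L ⊗[R] ↥B0, ((e0 D halg hK hL z : ↥(C0 (K := L) (D.iF t))) : F') = nu D halg B0 z :=
  fun _ => rfl

theorem coe_e1 : letI := algRL R R' L
    ∀ z : L ⊗[R] ↥B1, ((e1 D halg hK hL z : ↥(C1 (K := L) (D.iF t))) : F') = nu D halg B1 z :=
  fun _ => rfl

/-- **G7-C (CHARTISO).**  The generic fibre of the hub of the model is the field-level two-chart
curve of `F' / L` with coordinate `iF t`. -/
def chartIso :
    letI := algRL R R' L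
    letI := algebra0 B0 B1
    letI := algebra1 B0 B1
    haveI := isScalarTower0 B0 B1
    haveI := isScalarTower1 B0 B1
    Adapt96.ChartIso ((modelChart hK).baseChange L) (D.iF t) :=
  letI := algRL R R' L
  letI := algebra0 B0 B1
  letI := algebra1 B0 B1
  haveI := isScalarTower0 B0 B1
  haveI := isScalarTower1 B0 B1
  haveI := hK.fracR
  { e0 := (e0 D halg hK hL).toRingEquiv
    e1 := (e1 D halg hK hL).toRingEquiv
    e01 := (nu D halg (B0 ⊔ B1)).toRingHom
    e01_inj := nu_injective D halg hK.dvrR hK.pi_ne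
    comm0 := fun x => by
      show nu D halg (B0 ⊔ B1) (algebraMap (L ⊗[R] ↥B0) (L ⊗[R] ↥(B0 ⊔ B1)) x) =
        nu D halg B0 x
      induction x using TensorProduct.induction_on with
      | zero => rw [map_zero, map_zero, map_zero]
      | tmul l b =>
        rw [Fermat.Agent.Jac.BaseChange75.algebraMap_right_tmul, nu_tmul, nu_tmul]
        rfl
      | add x y hx hy => rw [map_add, map_add, hx, hy, map_add]
    comm1 := fun x => by
      show nu D halg (B0 ⊔ B1) (algebraMap (L ⊗[R] ↥B1) (L ⊗[R] ↥(B0 ⊔ B1)) x) =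
        nu D halg B1 x
      induction x using TensorProduct.induction_on with
      | zero => rw [map_zero, map_zero, map_zero]
      | tmul l b =>
        rw [Fermat.Agent.Jac.BaseChange75.algebraMap_right_tmul, nu_tmul, nu_tmul]
        rfl
      | add x y hx hy => rw [map_add, map_add, hx, hy, map_add]
    map_t := by
      show nu D halg B0 ((1 : L) ⊗ₜ[R] (⟨t, hK.t_mem⟩ : ↥B0)) = D.iF t
      rw [nu_tmul, map_one, one_mul]
    map_s := by
      show nu D halg B1 ((1 : L) ⊗ₜ[R] (⟨t⁻¹, hK.tinv_mem⟩ : ↥B1)) = (D.iF t)⁻¹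
      rw [nu_tmul, map_one, one_mul, map_inv₀]
    linear0 := fun a => by
      show nu D halg B0 (algebraMap L (L ⊗[R] ↥B0) a) = algebraMap L F' a
      exact (nu D halg B0).commutes a
    linear1 := fun a => by
      show nu D halg B1 (algebraMap L (L ⊗[R] ↥B1) a) = algebraMap L F' a
      exact (nu D halg B1).commutes a }

/-! ### The chart isomorphism is standard on pure tensors -/

theorem chartIso_e0_tmul (l : L) (b : ↥B0) :
    letI := algRL R R' L
    letI := algebra0 B0 B1
    letI := algebra1 B0 B1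
    haveI := isScalarTower0 B0 B1
    haveI := isScalarTower1 B0 B1
    (((chartIso D halg hK hL).e0 (l ⊗ₜ[R] b) : ↥(C0 (K := L) (D.iF t))) : F') =
      algebraMap L F' l * D.iF (b : F) := rfl

theorem chartIso_e1_tmul (l : L) (b : ↥B1) :
    letI := algRL R R' L
    letI := algebra0 B0 B1
    letI := algebra1 B0 B1
    haveI := isScalarTower0 B0 B1
    haveI := isScalarTower1 B0 B1
    (((chartIso D halg hK hL).e1 (l ⊗ₜ[R] b) : ↥(C1 (K := L) (D.iF t))) : F') =
      algebraMap L F' l * D.iF (b : F) := rfl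

theorem chartIso_e01_tmul (l : L) (b : ↥(B0 ⊔ B1)) :
    letI := algRL R R' L
    letI := algebra0 B0 B1
    letI := algebra1 B0 B1
    haveI := isScalarTower0 B0 B1
    haveI := isScalarTower1 B0 B1
    (chartIso D halg hK hL).e01 (l ⊗ₜ[R] b) = algebraMap L F' l * D.iF (b : F) := rfl

theorem chartIso_e0_apply :
    letI := algRL R R' L
    letI := algebra0 B0 B1
    letI := algebra1 B0 B1
    haveI := isScalarTower0 B0 B1
    haveI := isScalarTower1 B0 B1
    ∀ z : L ⊗[R] ↥B0,
      (((chartIso D halg hK hL).e0 z : ↥(C0 (K := L) (D.iF t))) : F') = nu D halg B0 z :=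
  fun _ => rfl

theorem chartIso_e1_apply :
    letI := algRL R R' L
    letI := algebra0 B0 B1
    letI := algebra1 B0 B1
    haveI := isScalarTower0 B0 B1
    haveI := isScalarTower1 B0 B1
    ∀ z : L ⊗[R] ↥B1,
      (((chartIso D halg hK hL).e1 z : ↥(C1 (K := L) (D.iF t))) : F') = nu D halg B1 z :=
  fun _ => rfl

theorem chartIso_e01_apply :
    letI := algRL R R' L
    letI := algebra0 B0 B1
    letI := algebra1 B0 B1
    haveI := isScalarTower0 B0 B1
    haveI := isScalarTower1 B0 B1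
    ∀ z : L ⊗[R] ↥(B0 ⊔ B1), (chartIso D halg hK hL).e01 z = nu D halg (B0 ⊔ B1) z :=
  fun _ => rfl

end Model

end Fermat.Agent.T1.ChartIso20
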