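/-
Programme T1A (S19), brick G7-C CHARTISO, second seat (helper90): the compatibilities of the chart
isomorphism family `E_L : Adapt96.ChartIso (c0.baseChange ↥L) t_L` with enlarging `L` and with the
Galois action.

GENERIC CORE (no number fields; fast typeclass search).  `k` a ring, `B` a `k`-algebra, `A` a
`k`-algebra, `F` an `A`-algebra, `γ : B →+* F`.  A ring hom `ε : A ⊗[k] B →+* F` is STANDARD for `γ`
(`IsStdG γ ε`) if `ε (a ⊗ b) = a · γ b`.  The three maps of the `ChartIso` built from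
`ModelBC51.Equiv.nu` are standard by `nu_tmul` (`rfl`).
* `stdG_baseChange` : **(a)** for `A₁ → A`, `c : F₁ →+* F` over it with `c ∘ γ₁ = γ`:
  `ε (x_A) = c (ε₁ x)`;
* `stdG_semi` : **(b)** for `g : F →+* F` acting as `f` on `A` and with `γ (τ b) = g (γ b)`:
  `ε (semiTensor σW f τ x) = g (ε x)`;
* `IsStdIsoG`, `chartIsoG_baseChange0/1/01`, `chartIsoG_t_eq`, `chartIsoG_semi0/1/01`: the same for
  the maps `e0`, `e1`, `e01` of a `ChartIso`.

CONCRETE LAYER (`K₁ ≤ L₁ ≤ L ⊂ ℚ̄`, `F = FK M L`, `c = cLL`, `g = arith (σ|_L)`):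
* toolkit `coe_cLL`, `cLL_cLL`, `cLL_refl`, `cLL_algebraMap`, `cLL_injective`, `coe_arith`,
  `arith_algebraMap`, `arith_cLL` (the arithmetic action commutes with `cLL`);
* `IsStd`, `IsStdIso` (standard with respect to `β_j : B_j →+* FK M K₁`, i.e. `γ_j = cLL ∘ β_j`),
  `std_baseChange`, `std_semi`, `chartIso_baseChange0/1/01`, `chartIso_t_eq`, `chartIso_semi0/1/01`.
-/
import Mathlib
import Fermat.Agent.T1.Dict59.Iface
import Fermat.Agent.T1.RedIface75
import Fermat.Agent.T1.Adapt96.ToLinePair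
import Fermat.Agent.T1.HubInst98.Galois

set_option autoImplicit false
set_option linter.unusedSectionVars false
set_option linter.style.haveILetI false

noncomputable section

open TensorProduct
open scoped Fermat.Agent.Jac.BaseChange75

namespace Fermat.Agent.T1.ChartIso90

universe u v

/-! ### Generic core -/

section Generic

open Fermat.Agent.Jac Fermat.Agent.T1.Adapt96 Fermat.Agent.T1.RedIface75

variable {k B : Type u} [CommRing k] [CommRing B] [Algebra k B]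

/-- `ε : A ⊗[k] B → F` is STANDARD for `γ : B → F`: `ε (a ⊗ b) = a · γ b`. -/
def IsStdG {A : Type u} [CommRing A] [Algebra k A] {F : Type v} [CommRing F] [Algebra A F]
    (γ : B →+* F) (ε : A ⊗[k] B →+* F) : Prop :=
  ∀ (a : A) (b : B), ε (a ⊗ₜ[k] b) = algebraMap A F a * γ b

section One

variable {A : Type u} [CommRing A] [Algebra k A] {F : Type v} [CommRing F] [Algebra A F]
  {γ : B →+* F} {ε : A ⊗[k] B →+* F}

theorem IsStdG.one_tmul (h : IsStdG γ ε) (b : B) : ε ((1 : A) ⊗ₜ[k] b) = γ b := by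
  rw [h, map_one, one_mul]

theorem IsStdG.tmul_one (h : IsStdG γ ε) (a : A) : ε (a ⊗ₜ[k] (1 : B)) = algebraMap A F a := by
  rw [h, map_one, mul_one]

/-- A standard map is determined by `γ`. -/
theorem IsStdG.ext {ε' : A ⊗[k] B →+* F} (h : IsStdG γ ε) (h' : IsStdG γ ε') : ε = ε' := by
  refine RingHom.ext fun x => ?_
  induction x using TensorProduct.induction_on with
  | zero => rw [map_zero, map_zero]
  | add x y hx hy => rw [map_add, map_add, hx, hy]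
  | tmul l b => rw [h, h']

/-- **(b) Semilinear compatibility.** -/
theorem stdG_semi (h : IsStdG γ ε) (g : F →+* F) (σW : k →+* k) (f : A →+* A) (τ : B →+* B)
    (hf : ∀ (w : k) (a : A), f (w • a) = σW w • f a)
    (hτ : ∀ (w : k) (b : B), τ (w • b) = σW w • τ b)
    (hg : ∀ a : A, g (algebraMap A F a) = algebraMap A F (f a))
    (hγ : ∀ b : B, γ (τ b) = g (γ b)) (x : A ⊗[k] B) :
    ε (semiTensor σW f τ hf hτ x) = g (ε x) := by
  induction x using TensorProduct.induction_on with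
  | zero => rw [map_zero, map_zero, map_zero]
  | add x y hx hy => rw [map_add, map_add, hx, hy, map_add, map_add]
  | tmul l b => rw [semiTensor_tmul, h, h, map_mul, hg, hγ]

end One

section Two

variable {A₁ A : Type u} [CommRing A₁] [CommRing A] [Algebra k A₁] [Algebra k A] [Algebra A₁ A]
  [IsScalarTower k A₁ A] {F₁ F : Type v} [CommRing F₁] [CommRing F] [Algebra A₁ F₁] [Algebra A F]

/-- **(a) Base change compatibility.** -/
theorem stdG_baseChange (c : F₁ →+* F)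
    (hc : ∀ a : A₁, c (algebraMap A₁ F₁ a) = algebraMap A F (algebraMap A₁ A a))
    {γ₁ : B →+* F₁} {γ : B →+* F} (hγ : ∀ b : B, c (γ₁ b) = γ b)
    {ε₁ : A₁ ⊗[k] B →+* F₁} {ε : A ⊗[k] B →+* F} (h₁ : IsStdG γ₁ ε₁) (h : IsStdG γ ε)
    (x : A₁ ⊗[k] B) : ε (algebraMap (A₁ ⊗[k] B) (A ⊗[k] B) x) = c (ε₁ x) := by
  induction x using TensorProduct.induction_on with
  | zero => rw [map_zero, map_zero, map_zero, map_zero]
  | add x y hx hy => rw [map_add, map_add, hx, hy, map_add, map_add]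
  | tmul l b =>
    rw [Fermat.Agent.Jac.BaseChange75.algebraMap_left_tmul, h, h₁, map_mul, hc, hγ]

end Two

/-! #### `ChartIso` forms (generic) -/

variable {B0 B1 B01 : Type u} [CommRing B0] [CommRing B1] [CommRing B01]
  [Algebra k B0] [Algebra k B1] [Algebra k B01] [Algebra B0 B01] [Algebra B1 B01]
  [IsScalarTower k B0 B01] [IsScalarTower k B1 B01] {c0 : TwoChart k B0 B1 B01}

/-- A chart isomorphism `E` over the field `A` is STANDARD for `γ_j : B_j → F` if its three maps are: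
`E.e_j (a ⊗ b) = a · γ_j b`. -/
structure IsStdIsoG {A : Type u} [Field A] [Algebra k A] {F : Type v} [Field F] [Algebra A F]
    (γ0 : B0 →+* F) (γ1 : B1 →+* F) (γ01 : B01 →+* F) {t : F}
    (E : ChartIso (c0.baseChange A) t) : Prop where
  std0 : IsStdG γ0 E.ι0
  std1 : IsStdG γ1 E.ι1
  std01 : IsStdG γ01 E.e01

section IsoTwo

variable {A₁ A : Type u} [Field A₁] [Field A] [Algebra k A₁] [Algebra k A] [Algebra A₁ A]
  [IsScalarTower k A₁ A] {F₁ F : Type v} [Field F₁] [Field F] [Algebra A₁ F₁] [Algebra A F]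
  (c : F₁ →+* F)
  (hc : ∀ a : A₁, c (algebraMap A₁ F₁ a) = algebraMap A F (algebraMap A₁ A a))
  {γ0₁ : B0 →+* F₁} {γ1₁ : B1 →+* F₁} {γ01₁ : B01 →+* F₁}
  {γ0 : B0 →+* F} {γ1 : B1 →+* F} {γ01 : B01 →+* F}
  (hγ0 : ∀ b, c (γ0₁ b) = γ0 b) (hγ1 : ∀ b, c (γ1₁ b) = γ1 b) (hγ01 : ∀ b, c (γ01₁ b) = γ01 b)
  {t₁ : F₁} {t : F} {E₁ : ChartIso (c0.baseChange A₁) t₁} {E : ChartIso (c0.baseChange A) t}
  (h₁ : IsStdIsoG γ0₁ γ1₁ γ01₁ E₁) (h : IsStdIsoG γ0 γ1 γ01 E)

include hc hγ0 h₁ h in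
/-- **(a), chart 0**: `E.e0 (x_A) = c (E₁.e0 x)`. -/
theorem chartIsoG_baseChange0 (x : A₁ ⊗[k] B0) :
    (E.e0 (algebraMap (A₁ ⊗[k] B0) (A ⊗[k] B0) x) : F) = c (E₁.e0 x : F₁) :=
  stdG_baseChange c hc hγ0 h₁.std0 h.std0 x

include hc hγ1 h₁ h in
/-- **(a), chart 1**. -/
theorem chartIsoG_baseChange1 (x : A₁ ⊗[k] B1) :
    (E.e1 (algebraMap (A₁ ⊗[k] B1) (A ⊗[k] B1) x) : F) = c (E₁.e1 x : F₁) :=
  stdG_baseChange c hc hγ1 h₁.std1 h.std1 x

include hc hγ01 h₁ h in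
/-- **(a), overlap**. -/
theorem chartIsoG_baseChange01 (x : A₁ ⊗[k] B01) :
    E.e01 (algebraMap (A₁ ⊗[k] B01) (A ⊗[k] B01) x) = c (E₁.e01 x) :=
  stdG_baseChange c hc hγ01 h₁.std01 h.std01 x

include hc hγ0 h₁ h in
/-- The coordinates correspond: `t = c t₁`. -/
theorem chartIsoG_t_eq : t = c t₁ := by
  have h0 := chartIsoG_baseChange0 c hc hγ0 h₁ h (c0.baseChange A₁).t
  rw [Fermat.Agent.Jac.BaseChange75.algebraMap_baseChange_t, E.map_t, E₁.map_t] at h0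
  exact h0

end IsoTwo

section IsoSemi

variable {A : Type u} [Field A] [Algebra k A] {F : Type v} [Field F] [Algebra A F]
  {γ0 : B0 →+* F} {γ1 : B1 →+* F} {γ01 : B01 →+* F} {t : F}
  {E : ChartIso (c0.baseChange A) t} (h : IsStdIsoG γ0 γ1 γ01 E)
  (g : F →+* F) (S : ChartAut c0) (f : A →+* A)
  (hf : ∀ (w : k) (a : A), f (w • a) = S.σW w • f a)
  (hg : ∀ a : A, g (algebraMap A F a) = algebraMap A F (f a))

include h hg in
/-- **(b), chart 0**: `E.e0 (semiTensor σW f σ0 x) = g (E.e0 x)`. -/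
theorem chartIsoG_semi0 (hγ : ∀ b : B0, γ0 (S.σ0 b) = g (γ0 b)) (x : A ⊗[k] B0) :
    (E.e0 (semiTensor S.σW f S.σ0 hf S.semi0 x) : F) = g (E.e0 x : F) :=
  stdG_semi h.std0 g S.σW f S.σ0 hf S.semi0 hg hγ x

include h hg in
/-- **(b), chart 1**. -/
theorem chartIsoG_semi1 (hγ : ∀ b : B1, γ1 (S.σ1 b) = g (γ1 b)) (x : A ⊗[k] B1) :
    (E.e1 (semiTensor S.σW f S.σ1 hf S.semi1 x) : F) = g (E.e1 x : F) :=
  stdG_semi h.std1 g S.σW f S.σ1 hf S.semi1 hg hγ x

include h hg in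
/-- **(b), overlap**. -/
theorem chartIsoG_semi01 (hγ : ∀ b : B01, γ01 (S.σ01 b) = g (γ01 b)) (x : A ⊗[k] B01) :
    E.e01 (semiTensor S.σW f S.σ01 hf S.semi01 x) = g (E.e01 x) :=
  stdG_semi h.std01 g S.σW f S.σ01 hf S.semi01 hg hγ x

end IsoSemi

end Generic

/-! ### Concrete layer: `FK M L`, `cLL`, `arith` -/

section Concrete

open HahnSeries ModularCurve IntermediateField
open Fermat.Agent.RED.Interface4 Fermat.Agent.T1.Dict59

set_option synthInstance.maxHeartbeats 400000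
set_option maxHeartbeats 1000000

variable (M : ℕ)

/-- Shortcut for the (slow) instance search `Algebra ↥L ↥(FK M L)`; it IS the canonical instance
`SubalgebraClass.toAlgebra (FK M L)`.  Activate with `open scoped Fermat.Agent.T1.ChartIso90`. -/
@[reducible] def algFK (L : IntermediateField ℚ Qbar) : Algebra ↥L ↥(FK M L) :=
  SubalgebraClass.toAlgebra (FK M L)

scoped[Fermat.Agent.T1.ChartIso90] attribute [instance 10000] algFK

section Toolkit

variable {L₀ L₁ L₂ : IntermediateField ℚ Qbar}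

theorem coe_cLL (h : L₁ ≤ L₂) (x : FK M L₁) :
    ((cLL M h x : FK M L₂) : LaurentSeries L₂) =
      coeffMap (IntermediateField.inclusion h).toRingHom (x : LaurentSeries L₁) := rfl

theorem cLL_injective (h : L₁ ≤ L₂) : Function.Injective (cLL M h) := (cLL M h).injective

theorem cLL_cLL (h₁ : L₀ ≤ L₁) (h₂ : L₁ ≤ L₂) (x : FK M L₀) :
    cLL M h₂ (cLL M h₁ x) = cLL M (h₁.trans h₂) x := by
  apply Subtype.ext
  rw [coe_cLL, coe_cLL, coe_cLL, coeffMap_coeffMap]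
  exact coeffMap_congr (RingHom.ext fun a => rfl) _

theorem cLL_refl (x : FK M L₁) : cLL M (le_refl L₁) x = x := by
  apply Subtype.ext
  rw [coe_cLL]
  have h : (IntermediateField.inclusion (le_refl L₁)).toRingHom = RingHom.id L₁ :=
    RingHom.ext fun a => Subtype.ext rfl
  rw [h, coeffMap_id]

theorem cLL_algebraMap (h : L₁ ≤ L₂) (a : L₁) :
    cLL M h (algebraMap L₁ (FK M L₁) a) =
      algebraMap L₂ (FK M L₂) (IntermediateField.inclusion h a) := by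
  apply Subtype.ext
  exact Fermat.Agent.RED.DESC.CoeffDescent1.coeffMap_algebraMap_of_ringHom
    (IntermediateField.inclusion h).toRingHom a

theorem coe_arith (L : IntermediateField ℚ Qbar) (τ : L ≃ₐ[ℚ] L) (x : FK M L) :
    ((arith M L τ x : FK M L) : LaurentSeries L) =
      coeffMap (τ : L →+* L) (x : LaurentSeries L) := rfl

theorem arith_algebraMap (L : IntermediateField ℚ Qbar) (τ : L ≃ₐ[ℚ] L) (a : L) :
    arith M L τ (algebraMap L (FK M L) a) = algebraMap L (FK M L) (τ a) := by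
  apply Subtype.ext
  exact Fermat.Agent.RED.DESC.CoeffDescent1.coeffMap_algebraMap_of_ringHom (τ : L →+* L) a

/-- The arithmetic action commutes with the coefficient extension, for compatible automorphisms. -/
theorem arith_cLL_of_comm (h : L₁ ≤ L₂) (τ₁ : L₁ ≃ₐ[ℚ] L₁) (τ₂ : L₂ ≃ₐ[ℚ] L₂)
    (hτ : ∀ a : L₁, τ₂ (IntermediateField.inclusion h a) = IntermediateField.inclusion h (τ₁ a))
    (x : FK M L₁) : arith M L₂ τ₂ (cLL M h x) = cLL M h (arith M L₁ τ₁ x) := by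
  apply Subtype.ext
  rw [coe_arith, coe_cLL, coe_cLL, coe_arith, coeffMap_coeffMap, coeffMap_coeffMap]
  exact coeffMap_congr (RingHom.ext fun a => hτ a) _

/-- The arithmetic action of `σ ∈ Gal(ℚ̄/ℚ)` commutes with the coefficient extension. -/
theorem arith_cLL [Normal ℚ L₁] [Normal ℚ L₂] (h : L₁ ≤ L₂) (σ : Qbar ≃ₐ[ℚ] Qbar) (x : FK M L₁) :
    arith M L₂ (σ.restrictNormal L₂) (cLL M h x) =
      cLL M h (arith M L₁ (σ.restrictNormal L₁) x) :=
  arith_cLL_of_comm M h _ _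
    (fun a => Fermat.Agent.T1.HubInst98.resL_inclusion h σ a) x

end Toolkit

section Std

open Fermat.Agent.Jac Fermat.Agent.T1.Adapt96 Fermat.Agent.T1.RedIface75

variable {K₁ L₁ L : IntermediateField ℚ Qbar}
variable {W B : Type} [CommRing W] [CommRing B] [Algebra W B]

/-- `ε : ↥L ⊗[W] B → FK M L` is STANDARD with respect to `β : B → FK M K₁`:
`ε (l ⊗ b) = l · cLL (β b)`. -/
def IsStd [Algebra W ↥L] (hle : K₁ ≤ L) (β : B →+* FK M K₁) (ε : ↥L ⊗[W] B →+* FK M L) : Prop :=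
  IsStdG ((cLL M hle).comp β) ε

variable {M}

theorem isStd_iff [Algebra W ↥L] {hle : K₁ ≤ L} {β : B →+* FK M K₁}
    {ε : ↥L ⊗[W] B →+* FK M L} :
    IsStd M hle β ε ↔
      ∀ (l : ↥L) (b : B), ε (l ⊗ₜ[W] b) = algebraMap ↥L (FK M L) l * cLL M hle (β b) :=
  Iff.rfl

/-- **(a) Base change compatibility**: for standard `ε₁` over `L₁` and `ε` over `L ⊇ L₁`,
`ε (x_L) = cLL (ε₁ x)`. -/
theorem std_baseChange [Algebra W ↥L₁] [Algebra W ↥L] [Algebra ↥L₁ ↥L] [IsScalarTower W ↥L₁ ↥L]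
    (hle₁ : K₁ ≤ L₁) (hL : L₁ ≤ L)
    (halg : ∀ a : ↥L₁, algebraMap ↥L₁ ↥L a = IntermediateField.inclusion hL a)
    {β : B →+* FK M K₁} {ε₁ : ↥L₁ ⊗[W] B →+* FK M L₁} {ε : ↥L ⊗[W] B →+* FK M L}
    (h₁ : IsStd M hle₁ β ε₁) (h : IsStd M (hle₁.trans hL) β ε) (x : ↥L₁ ⊗[W] B) :
    ε (algebraMap (↥L₁ ⊗[W] B) (↥L ⊗[W] B) x) = cLL M hL (ε₁ x) :=
  stdG_baseChange (cLL M hL) (fun a => by rw [cLL_algebraMap, halg])
    (fun b => cLL_cLL M hle₁ hL (β b)) h₁ h x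

/-- **(b) Galois compatibility**: for a standard `ε` over a normal `L`, a `σW`-semilinear `τ` on `B`
which is the arithmetic action of `σ|_{K₁}` under `β`, and `f = σ|_L`:
`ε (semiTensor σW f τ x) = arith (σ|_L) (ε x)`. -/
theorem std_semi [Algebra W ↥L] [Normal ℚ K₁] [Normal ℚ L] (hle : K₁ ≤ L)
    (σ : Qbar ≃ₐ[ℚ] Qbar) {β : B →+* FK M K₁} {ε : ↥L ⊗[W] B →+* FK M L}
    (h : IsStd M hle β ε) (σW : W →+* W) (f : ↥L →+* ↥L) (τ : B →+* B)
    (hf : ∀ (w : W) (a : ↥L), f (w • a) = σW w • f a)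
    (hτ : ∀ (w : W) (b : B), τ (w • b) = σW w • τ b)
    (hfσ : ∀ a : ↥L, f a = σ.restrictNormal L a)
    (hβ : ∀ b : B, β (τ b) = arith M K₁ (σ.restrictNormal K₁) (β b)) (x : ↥L ⊗[W] B) :
    ε (semiTensor σW f τ hf hτ x) = arith M L (σ.restrictNormal L) (ε x) :=
  stdG_semi h (arith M L (σ.restrictNormal L) : FK M L →+* FK M L) σW f τ hf hτ
    (fun a => by
      show arith M L (σ.restrictNormal L) (algebraMap ↥L (FK M L) a) = _
      rw [arith_algebraMap, hfσ])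
    (fun b => by
      show cLL M hle (β (τ b)) = arith M L (σ.restrictNormal L) (cLL M hle (β b))
      rw [hβ, arith_cLL]) x

end Std

/-! #### `ChartIso` forms (concrete) -/

section Iso

open Fermat.Agent.Jac Fermat.Agent.T1.Adapt96 Fermat.Agent.T1.RedIface75

variable {K₁ L₁ L : IntermediateField ℚ Qbar}
variable {W B0 B1 B01 : Type} [CommRing W] [CommRing B0] [CommRing B1] [CommRing B01]
  [Algebra W B0] [Algebra W B1] [Algebra W B01] [Algebra B0 B01] [Algebra B1 B01]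
  [IsScalarTower W B0 B01] [IsScalarTower W B1 B01] {c0 : TwoChart W B0 B1 B01}

/-- A chart isomorphism `E` over `L` is STANDARD (with respect to embeddings `β_j : B_j → FK M K₁`)
if its three maps are: `E.e_j (l ⊗ b) = l · cLL (β_j b)`.  For the `ChartIso` built from
`ModelBC51.Equiv.nu` this is `nu_tmul`. -/
def IsStdIso [Algebra W ↥L] (hle : K₁ ≤ L) (β0 : B0 →+* FK M K₁) (β1 : B1 →+* FK M K₁)
    (β01 : B01 →+* FK M K₁) {t : FK M L} (E : ChartIso (c0.baseChange ↥L) t) : Prop :=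
  IsStdIsoG ((cLL M hle).comp β0) ((cLL M hle).comp β1) ((cLL M hle).comp β01) E

variable {M}
variable {β0 : B0 →+* FK M K₁} {β1 : B1 →+* FK M K₁} {β01 : B01 →+* FK M K₁}

/-- Constructor of `IsStdIso` from the pure tensor formulas. -/
theorem isStdIso_of_tmul [Algebra W ↥L] {hle : K₁ ≤ L} {t : FK M L}
    {E : ChartIso (c0.baseChange ↥L) t}
    (h0 : ∀ (l : ↥L) (b : B0),
      (E.e0 (l ⊗ₜ[W] b) : FK M L) = algebraMap ↥L (FK M L) l * cLL M hle (β0 b))
    (h1 : ∀ (l : ↥L) (b : B1),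
      (E.e1 (l ⊗ₜ[W] b) : FK M L) = algebraMap ↥L (FK M L) l * cLL M hle (β1 b))
    (h01 : ∀ (l : ↥L) (b : B01),
      E.e01 (l ⊗ₜ[W] b) = algebraMap ↥L (FK M L) l * cLL M hle (β01 b)) :
    IsStdIso M hle β0 β1 β01 E :=
  ⟨h0, h1, h01⟩

section BaseChange

variable [Algebra W ↥L₁] [Algebra W ↥L] [Algebra ↥L₁ ↥L] [IsScalarTower W ↥L₁ ↥L]
  {hle₁ : K₁ ≤ L₁} {hL : L₁ ≤ L}
  (halg : ∀ a : ↥L₁, algebraMap ↥L₁ ↥L a = IntermediateField.inclusion hL a)
  {t₁ : FK M L₁} {t : FK M L} {E₁ : ChartIso (c0.baseChange ↥L₁) t₁}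
  {E : ChartIso (c0.baseChange ↥L) t}
  (h₁ : IsStdIso M hle₁ β0 β1 β01 E₁) (h : IsStdIso M (hle₁.trans hL) β0 β1 β01 E)

include halg h₁ h

/-- **(a), chart 0**: `E_L.e0 (x_L) = cLL (E_{L₁}.e0 x)`. -/
theorem chartIso_baseChange0 (x : ↥L₁ ⊗[W] B0) :
    (E.e0 (algebraMap (↥L₁ ⊗[W] B0) (↥L ⊗[W] B0) x) : FK M L) = cLL M hL (E₁.e0 x : FK M L₁) :=
  std_baseChange hle₁ hL halg h₁.std0 h.std0 x

/-- **(a), chart 1**. -/
theorem chartIso_baseChange1 (x : ↥L₁ ⊗[W] B1) :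
    (E.e1 (algebraMap (↥L₁ ⊗[W] B1) (↥L ⊗[W] B1) x) : FK M L) = cLL M hL (E₁.e1 x : FK M L₁) :=
  std_baseChange hle₁ hL halg h₁.std1 h.std1 x

/-- **(a), overlap**. -/
theorem chartIso_baseChange01 (x : ↥L₁ ⊗[W] B01) :
    E.e01 (algebraMap (↥L₁ ⊗[W] B01) (↥L ⊗[W] B01) x) = cLL M hL (E₁.e01 x) :=
  std_baseChange hle₁ hL halg h₁.std01 h.std01 x

/-- The coordinates correspond: `t_L = cLL t_{L₁}`. -/
theorem chartIso_t_eq : t = cLL M hL t₁ := by
  have h0 := chartIso_baseChange0 halg h₁ h (c0.baseChange ↥L₁).t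
  rw [Fermat.Agent.Jac.BaseChange75.algebraMap_baseChange_t, E.map_t, E₁.map_t] at h0
  exact h0

end BaseChange

section Semi

variable [Algebra W ↥L] [Normal ℚ K₁] [Normal ℚ L] {hle : K₁ ≤ L} {t : FK M L}
  {E : ChartIso (c0.baseChange ↥L) t} (h : IsStdIso M hle β0 β1 β01 E)
  (σ : Qbar ≃ₐ[ℚ] Qbar) (S : ChartAut c0) (f : ↥L →+* ↥L)
  (hf : ∀ (w : W) (a : ↥L), f (w • a) = S.σW w • f a)
  (hfσ : ∀ a : ↥L, f a = σ.restrictNormal L a)

include h hfσ

/-- **(b), chart 0**: `E.e0 (semiTensor σW (σ|_L) σ0 x) = arith (σ|_L) (E.e0 x)`. -/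
theorem chartIso_semi0 (hβ : ∀ b : B0, β0 (S.σ0 b) = arith M K₁ (σ.restrictNormal K₁) (β0 b))
    (x : ↥L ⊗[W] B0) :
    (E.e0 (semiTensor S.σW f S.σ0 hf S.semi0 x) : FK M L) =
      arith M L (σ.restrictNormal L) (E.e0 x : FK M L) :=
  std_semi hle σ h.std0 S.σW f S.σ0 hf S.semi0 hfσ hβ x

/-- **(b), chart 1**. -/
theorem chartIso_semi1 (hβ : ∀ b : B1, β1 (S.σ1 b) = arith M K₁ (σ.restrictNormal K₁) (β1 b))
    (x : ↥L ⊗[W] B1) :
    (E.e1 (semiTensor S.σW f S.σ1 hf S.semi1 x) : FK M L) =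
      arith M L (σ.restrictNormal L) (E.e1 x : FK M L) :=
  std_semi hle σ h.std1 S.σW f S.σ1 hf S.semi1 hfσ hβ x

/-- **(b), overlap**. -/
theorem chartIso_semi01
    (hβ : ∀ b : B01, β01 (S.σ01 b) = arith M K₁ (σ.restrictNormal K₁) (β01 b))
    (x : ↥L ⊗[W] B01) :
    E.e01 (semiTensor S.σW f S.σ01 hf S.semi01 x) = arith M L (σ.restrictNormal L) (E.e01 x) :=
  std_semi hle σ h.std01 S.σW f S.σ01 hf S.semi01 hfσ hβ x

end Semi

end Iso

end Concrete

end Fermat.Agent.T1.ChartIso90
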