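/-
Programme T1A (S19), brick G7-C CHARTISO, second seat (helper90): **the constructor of helper59's
`Dict59.ChartIsoFamily` from a family of chart isomorphisms which is STANDARD on pure tensors.**

Input: embeddings `β_j : B_j →+* FK M (K1 M)` of the chart rings of the model over `W = A ∩ ℚ(ζ_M)`
into the function field over `K₁ = ℚ(ζ_M)` (in the application the inclusions `↥B_j ⊂ FK M K₁`), on
which the chart action `H` of `G_ℓ` is the arithmetic (coefficientwise) action (`hσ0`, `hσ1`), and for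
every number field `L ⊇ K₁` a chart isomorphism `E L hle : ChartIso (c0.baseChange ↥L) (t L hle)` with
`(E L hle).e_j (l ⊗ b) = l · cLL (β_j b)` (`hstd`; for `ChartIso20.chartIso` at the `q`-expansion base
change data this is `chartIso_e0/e1/e01_tmul`), and `IsCoord M (t L hle)`.

Output: `chartIsoFamily_of_std : ChartIsoFamily ℓ M c0 H`; all compatibilities (`t_tower`, `tower0/1`,
`t_gal`, `gal0/1`) are derived (`t L hle = cLL (β0 c0.t)` is forced: `isStdIso_t_eq`).
-/
import Mathlib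
import Fermat.Agent.T1.ChartIso90
import Fermat.Agent.T1.Dict59.Family

set_option autoImplicit false
set_option linter.unusedSectionVars false
set_option linter.style.haveILetI false
set_option synthInstance.maxHeartbeats 400000
set_option maxHeartbeats 1000000

noncomputable section

open TensorProduct IntermediateField

namespace Fermat.Agent.T1.ChartIsoFam90

open Fermat.Agent Fermat.Agent.Jac Fermat.Agent.T1.RedIface75 Fermat.Agent.TW.B5.Iface
open Fermat.Agent.T1.HubInst98 Fermat.Agent.T1.GalAct44 Fermat.Agent.T1.Assembly41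
open Fermat.Agent.RED.Interface4 Fermat.Agent.T1.Adapt96 Fermat.Agent.T1.Dict59
open Fermat.Agent.T1.ChartIso90
open Fermat.Agent.Jac.BaseChange75
open scoped Fermat.Agent.Jac.BaseChange75
open scoped Fermat.Agent.T1.ChartIso90

/-! ### Consequences of standardness over one field -/

section One

variable {M : ℕ} {K₁ L : IntermediateField ℚ Qbar}
variable {W B0 B1 B01 : Type} [CommRing W] [CommRing B0] [CommRing B1] [CommRing B01]
  [Algebra W B0] [Algebra W B1] [Algebra W B01] [Algebra B0 B01] [Algebra B1 B01]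
  [IsScalarTower W B0 B01] [IsScalarTower W B1 B01] {c0 : TwoChart W B0 B1 B01}
  [Algebra W ↥L] {hle : K₁ ≤ L}
  {β0 : B0 →+* FK M K₁} {β1 : B1 →+* FK M K₁} {β01 : B01 →+* FK M K₁} {t : FK M L}
  {E : ChartIso (c0.baseChange ↥L) t}

theorem isStdIso_ι0_one_tmul (h : IsStdIso M hle β0 β1 β01 E) (b : B0) :
    E.ι0 ((1 : ↥L) ⊗ₜ[W] b) = cLL M hle (β0 b) :=
  h.std0.one_tmul b

theorem isStdIso_ι1_one_tmul (h : IsStdIso M hle β0 β1 β01 E) (b : B1) :
    E.ι1 ((1 : ↥L) ⊗ₜ[W] b) = cLL M hle (β1 b) :=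
  h.std1.one_tmul b

theorem isStdIso_e01_one_tmul (h : IsStdIso M hle β0 β1 β01 E) (b : B01) :
    E.e01 ((1 : ↥L) ⊗ₜ[W] b) = cLL M hle (β01 b) :=
  h.std01.one_tmul b

/-- The coordinate of a standard chart isomorphism is forced. -/
theorem isStdIso_t_eq (h : IsStdIso M hle β0 β1 β01 E) : t = cLL M hle (β0 c0.t) := by
  rw [← isStdIso_ι0_one_tmul h c0.t]
  exact E.map_t.symm

end One

/-! ### The family -/

section Family

variable (ℓ : ℕ) [Fact ℓ.Prime] (M : ℕ) [NeZero M]
  {B0 B1 B01 : Type} [CommRing B0] [CommRing B1] [CommRing B01]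
  [Algebra (Wr ℓ M) B0] [Algebra (Wr ℓ M) B1] [Algebra (Wr ℓ M) B01] [Algebra B0 B01]
  [Algebra B1 B01] [IsScalarTower (Wr ℓ M) B0 B01] [IsScalarTower (Wr ℓ M) B1 B01]
  (c0 : TwoChart (Wr ℓ M) B0 B1 B01) (H : ChartAction c0 (Gp ℓ))

/-- **The chart isomorphism family from a family standard on pure tensors.** -/
def chartIsoFamily_of_std
    (β0 : B0 →+* FK M (K1 M)) (β1 : B1 →+* FK M (K1 M)) (β01 : B01 →+* FK M (K1 M))
    (hσ0 : ∀ (σ : Gp ℓ) (b : B0), β0 ((H.S σ).σ0 b) =
      arith M (K1 M) (resL (K1 M) (localGaloisToGlobal ℓ σ)) (β0 b))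
    (hσ1 : ∀ (σ : Gp ℓ) (b : B1), β1 ((H.S σ).σ1 b) =
      arith M (K1 M) (resL (K1 M) (localGaloisToGlobal ℓ σ)) (β1 b))
    (t : ∀ (L : IntermediateField ℚ Qbar) [FiniteDimensional ℚ L] (_ : K1 M ≤ L), FK M L)
    (isCoord : ∀ (L : IntermediateField ℚ Qbar) [FiniteDimensional ℚ L] (hle : K1 M ≤ L),
      IsCoord M (t L hle))
    (E : ∀ (L : IntermediateField ℚ Qbar) [FiniteDimensional ℚ L] (hle : K1 M ≤ L),
      letI := algAKL (padicPlace ℓ) hle
      ChartIso (c0.baseChange ↥L) (t L hle))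
    (hstd : ∀ (L : IntermediateField ℚ Qbar) [FiniteDimensional ℚ L] (hle : K1 M ≤ L),
      letI := algAKL (padicPlace ℓ) hle
      IsStdIso M hle β0 β1 β01 (E L hle)) :
    ChartIsoFamily ℓ M c0 H where
  t := t
  isCoord := isCoord
  E := E
  t_tower := fun L₁ L _ _ hle₁ hL => by
    letI := algAKL (padicPlace ℓ) hle₁
    have h1 := isStdIso_t_eq (hstd L₁ hle₁)
    letI := algAKL (padicPlace ℓ) (hle₁.trans hL)
    have h2 := isStdIso_t_eq (hstd L (hle₁.trans hL))
    rw [h2, h1, cLL_cLL]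
  tower0 := fun L₁ L _ _ hle₁ hL b => by
    letI := algAKL (padicPlace ℓ) hle₁
    have h1 := isStdIso_ι0_one_tmul (hstd L₁ hle₁) b
    letI := algAKL (padicPlace ℓ) (hle₁.trans hL)
    have h2 := isStdIso_ι0_one_tmul (hstd L (hle₁.trans hL)) b
    rw [h2, h1, cLL_cLL]
  tower1 := fun L₁ L _ _ hle₁ hL b => by
    letI := algAKL (padicPlace ℓ) hle₁
    have h1 := isStdIso_ι1_one_tmul (hstd L₁ hle₁) b
    letI := algAKL (padicPlace ℓ) (hle₁.trans hL)
    have h2 := isStdIso_ι1_one_tmul (hstd L (hle₁.trans hL)) b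
    rw [h2, h1, cLL_cLL]
  t_gal := fun L _ _ hle σ => by
    letI := algAKL (padicPlace ℓ) hle
    have h1 := isStdIso_t_eq (hstd L hle)
    rw [h1]
    show arith M L ((localGaloisToGlobal ℓ σ).restrictNormal L) (cLL M hle (β0 c0.t)) = _
    rw [arith_cLL]
    have h2 := hσ0 σ c0.t
    rw [(H.S σ).map_t] at h2
    rw [show (localGaloisToGlobal ℓ σ).restrictNormal (K1 M) =
      resL (K1 M) (localGaloisToGlobal ℓ σ) from rfl, ← h2]
  gal0 := fun L _ _ hle σ b => by
    letI := algAKL (padicPlace ℓ) hle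
    have h1 := isStdIso_ι0_one_tmul (hstd L hle) b
    have h2 := isStdIso_ι0_one_tmul (hstd L hle) ((H.S σ).σ0 b)
    rw [h2, h1, hσ0]
    show _ = arith M L ((localGaloisToGlobal ℓ σ).restrictNormal L) (cLL M hle (β0 b))
    rw [arith_cLL]
    rfl
  gal1 := fun L _ _ hle σ b => by
    letI := algAKL (padicPlace ℓ) hle
    have h1 := isStdIso_ι1_one_tmul (hstd L hle) b
    have h2 := isStdIso_ι1_one_tmul (hstd L hle) ((H.S σ).σ1 b)
    rw [h2, h1, hσ1]
    show _ = arith M L ((localGaloisToGlobal ℓ σ).restrictNormal L) (cLL M hle (β1 b))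
    rw [arith_cLL]
    rfl

end Family

end Fermat.Agent.T1.ChartIsoFam90
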