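/-
Programme T1A (S19), brick G9-H1 JMODEL (helper25): universe bookkeeping.

The hub group `PicX c0 L` of the GEO layer lives in `Type 1`, whereas the ALG layer
(`AlgIface47.DiscGroupData`, `Flat44.FunOrder`, ...) wants its ambient group in `Type 0`.
For a family `p : ι → G` of elements of a commutative group `G : Type v` indexed by a small type
`ι : Type u`, the subgroup generated by the family has a model in `Type u`:

* `Model p : Type u` := `(ι →₀ ℤ) ⧸ ker (lift p)`, an additive commutative group;
* `modelEquiv p : Model p ≃+ Additive ↥(Subgroup.closure (Set.range p))`;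
* `gen p i : Model p`, the class of the `i`-th generator, `modelEquiv p (gen p i) = p i`;
* `actModel p act hact g : Model p →+ Model p`, the transport of an action
  `act : Γ → G →* G` preserving the closure, with `coe_modelEquiv_actModel`,
  `actModel_one`, `actModel_mul`;
* `exists_small_model`, `exists_small_model_action`: the existential forms.

Mathlib only.
-/
import Mathlib

set_option autoImplicit false
set_option maxHeartbeats 400000

namespace Fermat.Agent.T1.JModel25

universe u v w

section Model

variable {G : Type v} [CommGroup G] {ι : Type u} (p : ι → G)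

/-- The additive lift `(ι →₀ ℤ) →+ Additive G`, `single i n ↦ (p i) ^ n`. -/
noncomputable def lift : (ι →₀ ℤ) →+ Additive G :=
  Finsupp.liftAddHom (fun i => zmultiplesHom (Additive G) (Additive.ofMul (p i)))

@[simp] theorem lift_single (i : ι) (n : ℤ) :
    lift p (Finsupp.single i n) = n • Additive.ofMul (p i) := by
  simp [lift]

theorem lift_single_one (i : ι) : lift p (Finsupp.single i 1) = Additive.ofMul (p i) := by
  simp

/-- The range of the lift is the (additive version of the) subgroup generated by the family. -/
theorem range_lift :
    (lift p).range = Subgroup.toAddSubgroup (Subgroup.closure (Set.range p)) := by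
  apply le_antisymm
  · rintro _ ⟨f, rfl⟩
    induction f using Finsupp.induction_linear with
    | zero => simp
    | add f g hf hg => rw [map_add]; exact AddSubgroup.add_mem _ hf hg
    | single i n =>
      rw [lift_single]
      refine AddSubgroup.zsmul_mem _ ?_ n
      change p i ∈ Subgroup.closure (Set.range p)
      exact Subgroup.subset_closure ⟨i, rfl⟩
  · intro x hx
    have hx' : Additive.toMul x ∈ Subgroup.closure (Set.range p) := hx
    have key : ∀ y ∈ Subgroup.closure (Set.range p), Additive.ofMul y ∈ (lift p).range := by
      intro y hy
      induction hy using Subgroup.closure_induction with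
      | mem y hy =>
        obtain ⟨i, rfl⟩ := hy
        exact ⟨Finsupp.single i 1, lift_single_one p i⟩
      | one => exact (lift p).range.zero_mem
      | mul a b _ _ ha hb => exact (lift p).range.add_mem ha hb
      | inv a _ ha => exact (lift p).range.neg_mem ha
    exact key _ hx'

/-- **The small model** of the subgroup generated by the family `p`: a type in the universe of the
index type. -/
def Model : Type u := (ι →₀ ℤ) ⧸ (lift p).ker

noncomputable instance : AddCommGroup (Model p) :=
  inferInstanceAs (AddCommGroup ((ι →₀ ℤ) ⧸ (lift p).ker))

/-- `↥(toAddSubgroup H) ≃+ Additive ↥H`. -/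
def toAddSubgroupEquiv (H : Subgroup G) : ↥(Subgroup.toAddSubgroup H) ≃+ Additive ↥H where
  toFun x := Additive.ofMul ⟨Additive.toMul x.1, x.2⟩
  invFun y := ⟨Additive.ofMul ((Additive.toMul y : ↥H) : G), (Additive.toMul y).2⟩
  left_inv _ := rfl
  right_inv _ := rfl
  map_add' _ _ := rfl

@[simp] theorem coe_toAddSubgroupEquiv (H : Subgroup G) (x : ↥(Subgroup.toAddSubgroup H)) :
    ((Additive.toMul (toAddSubgroupEquiv H x) : ↥H) : G) = Additive.toMul (x : Additive G) := rfl

/-- **The comparison isomorphism** between the small model and the subgroup generated by `p`. -/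
noncomputable def modelEquiv : Model p ≃+ Additive ↥(Subgroup.closure (Set.range p)) :=
  ((QuotientAddGroup.quotientKerEquivRange (lift p)).trans
    (AddEquiv.addSubgroupCongr (range_lift p))).trans
    (toAddSubgroupEquiv (Subgroup.closure (Set.range p)))

/-- the class of a formal `ℤ`-combination of generators. -/
noncomputable def mk : (ι →₀ ℤ) →+ Model p := QuotientAddGroup.mk' (lift p).ker

theorem mk_surjective : Function.Surjective (mk p) := QuotientAddGroup.mk'_surjective _

/-- value of the comparison isomorphism on the class of a formal combination. -/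
theorem coe_modelEquiv_mk (f : ι →₀ ℤ) :
    ((Additive.toMul (modelEquiv p (mk p f)) : ↥(Subgroup.closure (Set.range p))) : G) =
      Additive.toMul (lift p f) := rfl

/-- the `i`-th generator of the small model. -/
noncomputable def gen (i : ι) : Model p := mk p (Finsupp.single i 1)

@[simp] theorem coe_modelEquiv_gen (i : ι) :
    ((Additive.toMul (modelEquiv p (gen p i)) : ↥(Subgroup.closure (Set.range p))) : G) = p i := by
  rw [gen, coe_modelEquiv_mk, lift_single_one]; rfl

theorem modelEquiv_gen (i : ι) :
    modelEquiv p (gen p i) =
      Additive.ofMul (⟨p i, Subgroup.subset_closure ⟨i, rfl⟩⟩ :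
        ↥(Subgroup.closure (Set.range p))) := by
  apply Additive.toMul.injective
  apply Subtype.ext
  simp

/-- the generators generate the small model. -/
theorem closure_range_gen : AddSubgroup.closure (Set.range (gen p)) = ⊤ := by
  rw [eq_top_iff]
  intro x _
  obtain ⟨f, rfl⟩ := mk_surjective p x
  induction f using Finsupp.induction_linear with
  | zero => rw [map_zero]; exact AddSubgroup.zero_mem _
  | add f g hf hg => rw [map_add]; exact AddSubgroup.add_mem _ (hf trivial) (hg trivial)
  | single i n =>
    have : Finsupp.single i n = n • Finsupp.single i (1 : ℤ) := by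
      rw [Finsupp.smul_single, smul_eq_mul, mul_one]
    rw [this, map_zsmul]
    exact AddSubgroup.zsmul_mem _ (AddSubgroup.subset_closure (Set.mem_range_self i)) n

/-- the map `Model p → G` (multiplicative notation on the target). -/
noncomputable def val (x : Model p) : G :=
  ((Additive.toMul (modelEquiv p x) : ↥(Subgroup.closure (Set.range p))) : G)

theorem val_mem (x : Model p) : val p x ∈ Subgroup.closure (Set.range p) :=
  (Additive.toMul (modelEquiv p x)).2

@[simp] theorem val_zero : val p 0 = 1 := by
  simp [val]

@[simp] theorem val_add (x y : Model p) : val p (x + y) = val p x * val p y := by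
  simp [val]

@[simp] theorem val_neg (x : Model p) : val p (-x) = (val p x)⁻¹ := by
  simp [val]

@[simp] theorem val_gen (i : ι) : val p (gen p i) = p i := coe_modelEquiv_gen p i

theorem val_injective : Function.Injective (val p) := by
  intro x y h
  apply (modelEquiv p).injective
  apply Additive.toMul.injective
  exact Subtype.ext h

theorem exists_val_eq {y : G} (hy : y ∈ Subgroup.closure (Set.range p)) :
    ∃ x : Model p, val p x = y := by
  refine ⟨(modelEquiv p).symm (Additive.ofMul ⟨y, hy⟩), ?_⟩
  simp [val]

theorem val_nsmul (n : ℕ) (x : Model p) : val p (n • x) = val p x ^ n := by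
  induction n with
  | zero => simp
  | succ n ih => rw [succ_nsmul, val_add, ih, pow_succ]

/-- the small model is finite as soon as the generated subgroup is. -/
theorem finite_model (h : Finite ↥(Subgroup.closure (Set.range p))) : Finite (Model p) :=
  Finite.of_injective (fun x => (Additive.toMul (modelEquiv p x) :
    ↥(Subgroup.closure (Set.range p)))) (fun _ _ hxy =>
      (modelEquiv p).injective (Additive.toMul.injective hxy))

/-- **Existence of a small model** (the existential form requested by G9). -/
theorem exists_small_model :
    ∃ (J : Type u) (_ : AddCommGroup J)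
      (_ : J ≃+ Additive ↥(Subgroup.closure (Set.range p))), True :=
  ⟨Model p, inferInstance, modelEquiv p, trivial⟩

end Model

section Action

variable {G : Type v} [CommGroup G] {ι : Type u} (p : ι → G) {Γ : Type w}

/-- An endomorphism of `G` mapping every generator into the generated subgroup preserves the
generated subgroup. -/
theorem map_mem_closure_of_gen (φ : G →* G)
    (hφ : ∀ i, φ (p i) ∈ Subgroup.closure (Set.range p)) :
    ∀ x ∈ Subgroup.closure (Set.range p), φ x ∈ Subgroup.closure (Set.range p) := by
  intro x hx
  induction hx using Subgroup.closure_induction with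
  | mem y hy => obtain ⟨i, rfl⟩ := hy; exact hφ i
  | one => rw [map_one]; exact Subgroup.one_mem _
  | mul a b _ _ ha hb => rw [map_mul]; exact Subgroup.mul_mem _ ha hb
  | inv a _ ha => rw [map_inv]; exact Subgroup.inv_mem _ ha

/-- the restriction of an endomorphism preserving the generated subgroup. -/
def restrictHom (φ : G →* G)
    (hφ : ∀ x ∈ Subgroup.closure (Set.range p), φ x ∈ Subgroup.closure (Set.range p)) :
    ↥(Subgroup.closure (Set.range p)) →* ↥(Subgroup.closure (Set.range p)) :=
  (φ.comp (Subgroup.subtype _)).codRestrict _ (fun x => hφ x x.2)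

/-- **Transport of an endomorphism** to the small model. -/
noncomputable def mapModel (φ : G →* G)
    (hφ : ∀ x ∈ Subgroup.closure (Set.range p), φ x ∈ Subgroup.closure (Set.range p)) :
    Model p →+ Model p :=
  ((modelEquiv p).symm.toAddMonoidHom.comp
    (MonoidHom.toAdditive (restrictHom p φ hφ))).comp (modelEquiv p).toAddMonoidHom

theorem modelEquiv_mapModel (φ : G →* G)
    (hφ : ∀ x ∈ Subgroup.closure (Set.range p), φ x ∈ Subgroup.closure (Set.range p))
    (x : Model p) :
    modelEquiv p (mapModel p φ hφ x) =
      Additive.ofMul (restrictHom p φ hφ (Additive.toMul (modelEquiv p x))) := by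
  simp [mapModel]

@[simp] theorem val_mapModel (φ : G →* G)
    (hφ : ∀ x ∈ Subgroup.closure (Set.range p), φ x ∈ Subgroup.closure (Set.range p))
    (x : Model p) : val p (mapModel p φ hφ x) = φ (val p x) := by
  unfold val
  rw [modelEquiv_mapModel]
  rfl

theorem mapModel_id
    (h : ∀ x ∈ Subgroup.closure (Set.range p),
      MonoidHom.id G x ∈ Subgroup.closure (Set.range p) := fun _ hx => hx) :
    mapModel p (MonoidHom.id G) h = AddMonoidHom.id _ := by
  ext x
  apply val_injective p
  simp

theorem mapModel_comp (φ ψ : G →* G)
    (hφ : ∀ x ∈ Subgroup.closure (Set.range p), φ x ∈ Subgroup.closure (Set.range p))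
    (hψ : ∀ x ∈ Subgroup.closure (Set.range p), ψ x ∈ Subgroup.closure (Set.range p))
    (h : ∀ x ∈ Subgroup.closure (Set.range p),
      (φ.comp ψ) x ∈ Subgroup.closure (Set.range p) := fun x hx => hφ _ (hψ x hx)) :
    mapModel p (φ.comp ψ) h = (mapModel p φ hφ).comp (mapModel p ψ hψ) := by
  ext x
  apply val_injective p
  simp

/-- **Transport of an action** `act : Γ → G →* G` preserving the generated subgroup to the small
model. -/
noncomputable def actModel (act : Γ → G →* G)
    (hact : ∀ g, ∀ x ∈ Subgroup.closure (Set.range p),
      act g x ∈ Subgroup.closure (Set.range p)) (g : Γ) : Model p →+ Model p :=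
  mapModel p (act g) (hact g)

/-- equivariance of the comparison isomorphism: `e (act' g x) = act g (e x)`. -/
@[simp] theorem val_actModel (act : Γ → G →* G)
    (hact : ∀ g, ∀ x ∈ Subgroup.closure (Set.range p),
      act g x ∈ Subgroup.closure (Set.range p)) (g : Γ) (x : Model p) :
    val p (actModel p act hact g x) = act g (val p x) :=
  val_mapModel p _ _ x

/-- the same, spelled out through `modelEquiv`. -/
theorem coe_modelEquiv_actModel (act : Γ → G →* G)
    (hact : ∀ g, ∀ x ∈ Subgroup.closure (Set.range p),
      act g x ∈ Subgroup.closure (Set.range p)) (g : Γ) (x : Model p) :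
    ((Additive.toMul (modelEquiv p (actModel p act hact g x)) :
        ↥(Subgroup.closure (Set.range p))) : G) =
      act g ((Additive.toMul (modelEquiv p x) : ↥(Subgroup.closure (Set.range p))) : G) :=
  val_actModel p act hact g x

theorem actModel_one [One Γ] (act : Γ → G →* G)
    (hact : ∀ g, ∀ x ∈ Subgroup.closure (Set.range p),
      act g x ∈ Subgroup.closure (Set.range p))
    (h1 : ∀ x ∈ Subgroup.closure (Set.range p), act 1 x = x) :
    actModel p act hact 1 = AddMonoidHom.id _ := by
  ext x
  apply val_injective p
  simp [h1 _ (val_mem p x)]

theorem actModel_mul [Mul Γ] (act : Γ → G →* G)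
    (hact : ∀ g, ∀ x ∈ Subgroup.closure (Set.range p),
      act g x ∈ Subgroup.closure (Set.range p))
    (hmul : ∀ g h, ∀ x ∈ Subgroup.closure (Set.range p), act (g * h) x = act g (act h x))
    (g h : Γ) :
    actModel p act hact (g * h) = (actModel p act hact g).comp (actModel p act hact h) := by
  ext x
  apply val_injective p
  simp [hmul g h _ (val_mem p x)]

theorem actModel_one_apply [One Γ] (act : Γ → G →* G)
    (hact : ∀ g, ∀ x ∈ Subgroup.closure (Set.range p),
      act g x ∈ Subgroup.closure (Set.range p))
    (h1 : ∀ x ∈ Subgroup.closure (Set.range p), act 1 x = x) (x : Model p) :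
    actModel p act hact 1 x = x := by
  rw [actModel_one p act hact h1]; rfl

theorem actModel_mul_apply [Mul Γ] (act : Γ → G →* G)
    (hact : ∀ g, ∀ x ∈ Subgroup.closure (Set.range p),
      act g x ∈ Subgroup.closure (Set.range p))
    (hmul : ∀ g h, ∀ x ∈ Subgroup.closure (Set.range p), act (g * h) x = act g (act h x))
    (g h : Γ) (x : Model p) :
    actModel p act hact (g * h) x = actModel p act hact g (actModel p act hact h x) := by
  rw [actModel_mul p act hact hmul]; rfl

/-- **Existence of a small model with transported action** (existential form). -/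
theorem exists_small_model_action [Monoid Γ] (act : Γ → G →* G)
    (hact : ∀ g, ∀ x ∈ Subgroup.closure (Set.range p),
      act g x ∈ Subgroup.closure (Set.range p))
    (h1 : ∀ x ∈ Subgroup.closure (Set.range p), act 1 x = x)
    (hmul : ∀ g h, ∀ x ∈ Subgroup.closure (Set.range p), act (g * h) x = act g (act h x)) :
    ∃ (J : Type u) (_ : AddCommGroup J)
      (e : J ≃+ Additive ↥(Subgroup.closure (Set.range p))) (act' : Γ → J →+ J),
      (∀ g x, ((Additive.toMul (e (act' g x)) : ↥(Subgroup.closure (Set.range p))) : G) =
        act g ((Additive.toMul (e x) : ↥(Subgroup.closure (Set.range p))) : G)) ∧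
      (∀ x, act' 1 x = x) ∧ (∀ g h x, act' (g * h) x = act' g (act' h x)) :=
  ⟨Model p, inferInstance, modelEquiv p, actModel p act hact,
    coe_modelEquiv_actModel p act hact, actModel_one_apply p act hact h1,
    actModel_mul_apply p act hact hmul⟩

end Action

end Fermat.Agent.T1.JModel25
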