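import Mathlib
import Fermat.Agent.T1.GalAct44
import Fermat.Agent.T1.JModel25

/-!
# T1A (S19), assembly layer G9, brick G9-H4 HUB-GAL: the Galois fields of the hub data  (helper44)

`HubGal c0 O L G J` bundles exactly the Galois fields of `Assembly41.HubData`
(`S, fO, fO_local, fO_semi, fL, fL_semi, fOL, φ, φ_inj, act, act_one, act_mul, φ_act`, same names and
shapes, with a general group `G` instead of `Gp ℓ`), so that `HubData` can be filled by
`{ HG with ... }` or field by field.

Constructors, from `H : GalAct44.ChartAction c0 G`, compatible semilinear actions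
`RO : SemiAction H O`, `RL : SemiAction H L` (`hc : RL.f g ∘ algebraMap = algebraMap ∘ RO.f g`):

* `HubGal.ofFamily H RO RL hc p hp` : for a family `p : ι → PicX c0 L` (`ι : Type`) whose generated
  subgroup is stable under the action, `J := JModel25.Model p` (helper25's small model),
  `φ x = ofMul (JModel25.val p x)`, `act g = JModel25.actModel p (actPic H RL) _ g`;
* `ptIndex`, `ptFamily` : the family of ALL point classes of `X_L`
  (`closure_range_ptFamily : closure (range ptFamily) = (pointClasses c0).PicPt L`), and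
  `HubGal.ofPoints H RO RL hc : HubGal c0 O L G (JModel25.Model (ptFamily c0 L))`, with
  `ofPoints_φ_gen0/1` computing `φ` on the generators and `ofPoints_act_gen0/1` the action;
* `embOfFamily`, `embOfPoints d hd_add hd_mem : Mod →+ J` : the embedding induced by an
  additive-multiplicative map `d : Mod → Pic X_L` with values in `PicPt L`
  (`ofPoints_φ_emb`, `embOfPoints_injective`, `embOfPoints_equiv` = `HubData.emb/emb_inj/emb_equiv`);
* `exists_hubGal` : the existential one-theorem form.
-/

set_option autoImplicit false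
set_option linter.unusedSectionVars false

noncomputable section

open TensorProduct

namespace Fermat.Agent.T1.HubGal44

open Fermat.Agent.Jac Fermat.Agent.T1.RedIface75 Fermat.Agent.T1.PtLine75
open Fermat.Agent.T1.GalAct44 Fermat.Agent.T1

variable {W B0 B1 B01 : Type} [CommRing W] [CommRing B0] [CommRing B1] [CommRing B01]
  [Algebra W B0] [Algebra W B1] [Algebra W B01] [Algebra B0 B01] [Algebra B1 B01]
  [IsScalarTower W B0 B01] [IsScalarTower W B1 B01]

/-- The Galois fields of `Assembly41.HubData` (general group `G`). -/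
structure HubGal (c0 : TwoChart W B0 B1 B01) (O L : Type) [CommRing O] [Algebra W O]
    [CommRing L] [Algebra W L] [Algebra O L] (G : Type) [Group G] (J : Type)
    [AddCommGroup J] where
  S : G → ChartAut c0
  fO : G → O →+* O
  fO_local : ∀ σ, IsLocalHom (fO σ)
  fO_semi : ∀ σ (w : W) (a : O), fO σ (w • a) = (S σ).σW w • fO σ a
  fL : G → L →+* L
  fL_semi : ∀ σ (w : W) (a : L), fL σ (w • a) = (S σ).σW w • fL σ a
  fOL : ∀ σ (a : O), fL σ (algebraMap O L a) = algebraMap O L (fO σ a)
  φ : J →+ Additive (PicX c0 L)
  φ_inj : Function.Injective φ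
  act : G → J →+ J
  act_one : ∀ x, act 1 x = x
  act_mul : ∀ σ τ x, act (σ * τ) x = act σ (act τ x)
  φ_act : ∀ σ x, Additive.toMul (φ (act σ x)) =
    PicX.mapSemi (S σ) (fL σ) (fL_semi σ) (Additive.toMul (φ x))

variable {c0 : TwoChart W B0 B1 B01} {O L : Type} [CommRing O] [Algebra W O]
  [CommRing L] [Algebra W L] [Algebra O L] {G : Type} [Group G]
  (H : ChartAction c0 G) (RO : SemiAction H O) (RL : SemiAction H L)
  (hc : ∀ (g : G) (a : O), RL.f g (algebraMap O L a) = algebraMap O L (RO.f g a))

section Family

variable {ι : Type} (p : ι → PicX c0 L)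
  (hp : ∀ g i, actPic H RL g (p i) ∈ Subgroup.closure (Set.range p))

include hp in
/-- The generated subgroup is stable under the action. -/
theorem actPic_mem_closure (g : G) :
    ∀ x ∈ Subgroup.closure (Set.range p), actPic H RL g x ∈ Subgroup.closure (Set.range p) :=
  JModel25.map_mem_closure_of_gen p (actPic H RL g) (hp g)

/-- `φ` of the small model: `x ↦ ofMul (val x)`. -/
def modelφ : JModel25.Model p →+ Additive (PicX c0 L) where
  toFun x := Additive.ofMul (JModel25.val p x)
  map_zero' := by simp
  map_add' _ _ := by simp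

@[simp] theorem toMul_modelφ (x : JModel25.Model p) :
    Additive.toMul (modelφ p x) = JModel25.val p x := rfl

theorem modelφ_injective : Function.Injective (modelφ p) := fun _ _ h =>
  JModel25.val_injective p (Additive.ofMul.injective h)

/-- **The Galois fields of the hub data for the subgroup generated by a stable family.** -/
def HubGal.ofFamily : HubGal c0 O L G (JModel25.Model p) where
  S := H.S
  fO := RO.f
  fO_local := RO.isLocalHom_f
  fO_semi := RO.semi
  fL := RL.f
  fL_semi := RL.semi
  fOL := hc
  φ := modelφ p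
  φ_inj := modelφ_injective p
  act := JModel25.actModel p (actPic H RL) (actPic_mem_closure H RL p hp)
  act_one := JModel25.actModel_one_apply p (actPic H RL) (actPic_mem_closure H RL p hp)
    (fun x _ => actPic_one_apply H RL x)
  act_mul := JModel25.actModel_mul_apply p (actPic H RL) (actPic_mem_closure H RL p hp)
    (fun g h x _ => actPic_mul_apply H RL g h x)
  φ_act := fun σ x => JModel25.val_actModel p (actPic H RL) (actPic_mem_closure H RL p hp) σ x

@[simp] theorem ofFamily_φ_gen (i : ι) :
    Additive.toMul ((HubGal.ofFamily H RO RL hc p hp).φ (JModel25.gen p i)) = p i :=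
  JModel25.val_gen p i

theorem ofFamily_toMul_φ (x : JModel25.Model p) :
    Additive.toMul ((HubGal.ofFamily H RO RL hc p hp).φ x) = JModel25.val p x := rfl

theorem ofFamily_act (σ : G) (x : JModel25.Model p) :
    (HubGal.ofFamily H RO RL hc p hp).act σ x =
      JModel25.actModel p (actPic H RL) (actPic_mem_closure H RL p hp) σ x := rfl

/-- Every element of the generated subgroup is in the image of `φ`. -/
theorem ofFamily_exists_φ_eq {y : PicX c0 L} (hy : y ∈ Subgroup.closure (Set.range p)) :
    ∃ x : JModel25.Model p, Additive.toMul ((HubGal.ofFamily H RO RL hc p hp).φ x) = y :=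
  JModel25.exists_val_eq p hy

/-! #### The embedding of a module mapping to the generated subgroup -/

section Emb

variable {Mod : Type} [AddCommGroup Mod] (d : Mod → PicX c0 L)
  (hd_add : ∀ x y, d (x + y) = d x * d y)
  (hd_mem : ∀ y, d y ∈ Subgroup.closure (Set.range p))

/-- The lift of `d y` to the small model. -/
def liftFamily (y : Mod) : JModel25.Model p :=
  (JModel25.modelEquiv p).symm (Additive.ofMul ⟨d y, hd_mem y⟩)

@[simp] theorem val_liftFamily (y : Mod) : JModel25.val p (liftFamily p d hd_mem y) = d y := by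
  simp [JModel25.val, liftFamily]

include hd_add in
theorem liftFamily_add (x y : Mod) :
    liftFamily p d hd_mem (x + y) = liftFamily p d hd_mem x + liftFamily p d hd_mem y := by
  apply JModel25.val_injective p
  rw [JModel25.val_add, val_liftFamily, val_liftFamily, val_liftFamily, hd_add]

include hd_add in
theorem liftFamily_zero : liftFamily p d hd_mem 0 = 0 := by
  have h := liftFamily_add p d hd_add hd_mem 0 0
  rw [add_zero] at h
  exact left_eq_add.mp h

/-- **The embedding `emb : Mod →+ J`** induced by an additive-multiplicative map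
`d : Mod → Pic X_L` with values in the generated subgroup. -/
def embOfFamily : Mod →+ JModel25.Model p where
  toFun := liftFamily p d hd_mem
  map_zero' := liftFamily_zero p d hd_add hd_mem
  map_add' := liftFamily_add p d hd_add hd_mem

@[simp] theorem val_embOfFamily (y : Mod) :
    JModel25.val p (embOfFamily p d hd_add hd_mem y) = d y := val_liftFamily p d hd_mem y

theorem ofFamily_φ_emb (y : Mod) :
    Additive.toMul ((HubGal.ofFamily H RO RL hc p hp).φ (embOfFamily p d hd_add hd_mem y)) = d y :=
  val_embOfFamily p d hd_add hd_mem y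

theorem embOfFamily_injective (hinj : Function.Injective d) :
    Function.Injective (embOfFamily p d hd_add hd_mem) := fun x y h => by
  apply hinj
  rw [← val_embOfFamily p d hd_add hd_mem x, ← val_embOfFamily p d hd_add hd_mem y, h]

/-- Equivariance of the embedding. -/
theorem embOfFamily_equiv (actM : G → Mod → Mod)
    (hequiv : ∀ σ y, d (actM σ y) = actPic H RL σ (d y)) (σ : G) (y : Mod) :
    embOfFamily p d hd_add hd_mem (actM σ y) =
      (HubGal.ofFamily H RO RL hc p hp).act σ (embOfFamily p d hd_add hd_mem y) := by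
  apply JModel25.val_injective p
  rw [val_embOfFamily, hequiv, ofFamily_act, JModel25.val_actModel, val_embOfFamily]

end Emb

end Family

/-! ### The family of all point classes -/

section Points

/-- The index type of the point classes of `X_L`: points of chart 0 or of chart 1 with invertible
ideal. -/
def ptIndex (_c0 : TwoChart W B0 B1 B01) (L : Type) [CommRing L] [Algebra W L] : Type :=
  {q : B0 →ₐ[W] L // Module.Invertible (L ⊗[W] B0) (ptIdeal q)} ⊕
    {q : B1 →ₐ[W] L // Module.Invertible (L ⊗[W] B1) (ptIdeal q)}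

variable (c0) (L)

/-- The family of all point classes. -/
def ptFamily : ptIndex c0 L → PicX c0 L
  | Sum.inl q => ptClass0 c0 q.1 q.2
  | Sum.inr q => ptClass1 c0 q.1 q.2

theorem range_ptFamily : Set.range (ptFamily c0 L) = {x | IsPtClass c0 L x} := by
  ext x
  constructor
  · rintro ⟨i | i, rfl⟩
    · exact Or.inl ⟨i.1, i.2, rfl⟩
    · exact Or.inr ⟨i.1, i.2, rfl⟩
  · rintro (⟨q, h, rfl⟩ | ⟨q, h, rfl⟩)
    · exact ⟨Sum.inl ⟨q, h⟩, rfl⟩
    · exact ⟨Sum.inr ⟨q, h⟩, rfl⟩

/-- The point classes generate `PicPt L`. -/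
theorem closure_range_ptFamily :
    Subgroup.closure (Set.range (ptFamily c0 L)) = (pointClasses c0).PicPt L := by
  rw [range_ptFamily]
  rfl

variable {c0} {L}

theorem actPic_ptFamily_mem (g : G) (i : ptIndex c0 L) :
    actPic H RL g (ptFamily c0 L i) ∈ Subgroup.closure (Set.range (ptFamily c0 L)) := by
  rw [closure_range_ptFamily]
  refine actPic_mem_picPt H RL g ?_
  rw [← closure_range_ptFamily]
  exact Subgroup.subset_closure ⟨i, rfl⟩

/-- **The Galois fields of the hub data for the subgroup generated by all point classes.** -/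
def HubGal.ofPoints : HubGal c0 O L G (JModel25.Model (ptFamily c0 L)) :=
  HubGal.ofFamily H RO RL hc (ptFamily c0 L) (actPic_ptFamily_mem H RL)

/-- The generator of the small model attached to a point of chart 0. -/
def gen0 (q : B0 →ₐ[W] L) (h : Module.Invertible (L ⊗[W] B0) (ptIdeal q)) :
    JModel25.Model (ptFamily c0 L) :=
  JModel25.gen (ptFamily c0 L) (Sum.inl ⟨q, h⟩)

/-- The generator of the small model attached to a point of chart 1. -/
def gen1 (q : B1 →ₐ[W] L) (h : Module.Invertible (L ⊗[W] B1) (ptIdeal q)) :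
    JModel25.Model (ptFamily c0 L) :=
  JModel25.gen (ptFamily c0 L) (Sum.inr ⟨q, h⟩)

theorem ofPoints_φ_gen0 (q : B0 →ₐ[W] L) (h : Module.Invertible (L ⊗[W] B0) (ptIdeal q)) :
    Additive.toMul ((HubGal.ofPoints H RO RL hc).φ (gen0 q h)) = ptClass0 c0 q h :=
  JModel25.val_gen (ptFamily c0 L) (Sum.inl ⟨q, h⟩)

theorem ofPoints_φ_gen1 (q : B1 →ₐ[W] L) (h : Module.Invertible (L ⊗[W] B1) (ptIdeal q)) :
    Additive.toMul ((HubGal.ofPoints H RO RL hc).φ (gen1 q h)) = ptClass1 c0 q h :=
  JModel25.val_gen (ptFamily c0 L) (Sum.inr ⟨q, h⟩)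

/-- The action on the generator of a point of chart 0 is the generator of the image point. -/
theorem ofPoints_act_gen0 (σ : G) (q : B0 →ₐ[W] L)
    (h : Module.Invertible (L ⊗[W] B0) (ptIdeal q)) :
    (HubGal.ofPoints H RO RL hc).act σ (gen0 q h) =
      gen0 (twistPt0 H RL σ q) (invertible_twistPt0 H RL σ q h) := by
  apply (HubGal.ofPoints H RO RL hc).φ_inj
  apply Additive.toMul.injective
  rw [(HubGal.ofPoints H RO RL hc).φ_act, ofPoints_φ_gen0, ofPoints_φ_gen0]
  exact actPic_ptClass0 H RL σ q h _

/-- The action on the generator of a point of chart 1 is the generator of the image point. -/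
theorem ofPoints_act_gen1 (σ : G) (q : B1 →ₐ[W] L)
    (h : Module.Invertible (L ⊗[W] B1) (ptIdeal q)) :
    (HubGal.ofPoints H RO RL hc).act σ (gen1 q h) =
      gen1 (twistPt1 H RL σ q) (invertible_twistPt1 H RL σ q h) := by
  apply (HubGal.ofPoints H RO RL hc).φ_inj
  apply Additive.toMul.injective
  rw [(HubGal.ofPoints H RO RL hc).φ_act, ofPoints_φ_gen1, ofPoints_φ_gen1]
  exact actPic_ptClass1 H RL σ q h _

/-- Every element of `PicPt L` is in the image of `φ`. -/
theorem ofPoints_exists_φ_eq {y : PicX c0 L} (hy : y ∈ (pointClasses c0).PicPt L) :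
    ∃ x : JModel25.Model (ptFamily c0 L),
      Additive.toMul ((HubGal.ofPoints H RO RL hc).φ x) = y := by
  rw [← closure_range_ptFamily] at hy
  exact JModel25.exists_val_eq _ hy

/-- The image of `φ` lies in `PicPt L`. -/
theorem ofPoints_φ_mem (x : JModel25.Model (ptFamily c0 L)) :
    Additive.toMul ((HubGal.ofPoints H RO RL hc).φ x) ∈ (pointClasses c0).PicPt L := by
  rw [← closure_range_ptFamily]
  exact JModel25.val_mem _ x

/-! #### The embedding of a module mapping to `PicPt L` -/

section EmbPoints

variable {Mod : Type} [AddCommGroup Mod] (d : Mod → PicX c0 L)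
  (hd_add : ∀ x y, d (x + y) = d x * d y)
  (hd_mem : ∀ y, d y ∈ (pointClasses c0).PicPt L)

include hd_mem in
theorem mem_closure_of_mem_picPt (y : Mod) :
    d y ∈ Subgroup.closure (Set.range (ptFamily c0 L)) := by
  rw [closure_range_ptFamily]
  exact hd_mem y

/-- **`HubData.emb`** for the point-class model. -/
def embOfPoints : Mod →+ JModel25.Model (ptFamily c0 L) :=
  embOfFamily (ptFamily c0 L) d hd_add (mem_closure_of_mem_picPt d hd_mem)

/-- `toMul (φ (emb y)) = d y`. -/
theorem ofPoints_φ_emb (y : Mod) :
    Additive.toMul ((HubGal.ofPoints H RO RL hc).φ (embOfPoints d hd_add hd_mem y)) = d y :=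
  val_embOfFamily (ptFamily c0 L) d hd_add (mem_closure_of_mem_picPt d hd_mem) y

/-- **`HubData.emb_inj`.** -/
theorem embOfPoints_injective (hinj : Function.Injective d) :
    Function.Injective (embOfPoints d hd_add hd_mem) :=
  embOfFamily_injective (ptFamily c0 L) d hd_add (mem_closure_of_mem_picPt d hd_mem) hinj

/-- **`HubData.emb_equiv`.** -/
theorem embOfPoints_equiv (actM : G → Mod → Mod)
    (hequiv : ∀ σ y, d (actM σ y) = actPic H RL σ (d y)) (σ : G) (y : Mod) :
    embOfPoints d hd_add hd_mem (actM σ y) =
      (HubGal.ofPoints H RO RL hc).act σ (embOfPoints d hd_add hd_mem y) :=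
  embOfFamily_equiv H RO RL hc (ptFamily c0 L) (actPic_ptFamily_mem H RL) d hd_add
    (mem_closure_of_mem_picPt d hd_mem) actM hequiv σ y

end EmbPoints

end Points

/-- **G9-H4, existential form.** -/
theorem exists_hubGal
    {W B0 B1 B01 : Type} [CommRing W] [CommRing B0] [CommRing B1] [CommRing B01]
    [Algebra W B0] [Algebra W B1] [Algebra W B01] [Algebra B0 B01] [Algebra B1 B01]
    [IsScalarTower W B0 B01] [IsScalarTower W B1 B01]
    {c0 : TwoChart W B0 B1 B01} {O L : Type} [CommRing O] [Algebra W O]
    [CommRing L] [Algebra W L] [Algebra O L] {G : Type} [Group G]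
    (H : ChartAction c0 G) (RO : SemiAction H O) (RL : SemiAction H L)
    (hc : ∀ (g : G) (a : O), RL.f g (algebraMap O L a) = algebraMap O L (RO.f g a)) :
    ∃ (J : Type) (_ : AddCommGroup J) (φ : J →+ Additive (PicX c0 L)) (act : G → J →+ J),
      Function.Injective φ ∧
      (∀ y : PicX c0 L, y ∈ (pointClasses c0).PicPt L ↔ ∃ x : J, Additive.toMul (φ x) = y) ∧
      (∀ x, act 1 x = x) ∧ (∀ σ τ x, act (σ * τ) x = act σ (act τ x)) ∧
      ∀ σ x, Additive.toMul (φ (act σ x)) =
        PicX.mapSemi (H.S σ) (RL.f σ) (RL.semi σ) (Additive.toMul (φ x)) :=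
  ⟨JModel25.Model (ptFamily c0 L), inferInstance, (HubGal.ofPoints H RO RL hc).φ,
    (HubGal.ofPoints H RO RL hc).act, (HubGal.ofPoints H RO RL hc).φ_inj,
    fun _ => ⟨fun hy => ofPoints_exists_φ_eq H RO RL hc hy,
      fun ⟨x, hx⟩ => hx ▸ ofPoints_φ_mem H RO RL hc x⟩,
    (HubGal.ofPoints H RO RL hc).act_one, (HubGal.ofPoints H RO RL hc).act_mul,
    (HubGal.ofPoints H RO RL hc).φ_act⟩

end Fermat.Agent.T1.HubGal44
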