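/-
Programme T1a (S19), brick G9-TOP (helper48): **the top wiring of S19**.

Everything on the algebra side is closed on main:
`Trunc46.truncToExact` (truncated ⇒ exact data), `Alc47.alc` (exact data ⇒ local function order),
`Glue44.glue` (local ⇒ global function order), `Flat44` (function order ⇒ finite flat model ⇒ frozen
S19 shape), `Level62` (auxiliary level ⇒ all levels).  This file composes them, together with the
finiteness of `J₀(M)[n]` (`ES.KUM.FiniteTorsion15`) and the open stabilisers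
(`ES.GAL.OpenStab12.hasLevel_pic0`), for `ι = padicEmbedding ℓ`, `res = localGaloisToGlobal ℓ`.

So **S19 is reduced to ONE existential**: for every `N`, `ℓ ∤ N`, `k`, with `M = auxLevel ℓ N`, local
analytic group data for the `G_ℓ`-module `J₀(M)[ℓ^k]` in any of the three forms

* `s19_of_disc`     : `AlgIface47.DiscGroupData`        (exact),
* `s19_of_trunc`    : `TruncIface47.DiscGroupDataTrunc` (truncated),
* `s19_of_modCoord` : `Assembly41.ModCoordData`         (arithmetic, in `ℚ̄`; `TruncOfModCoord` as a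
  hypothesis), and `s19_of_modCoordData` : the same, unconditional (`Lift9.truncOfModCoord`).
-/
import Mathlib
import Fermat.Agent.T1.Alc47
import Fermat.Agent.T1.Trunc46
import Fermat.Agent.T1.Glue44.Main
import Fermat.Agent.T1.Level62.Level
import Fermat.Agent.Flat44.S19Target
import Fermat.Agent.ES.GAL.OpenStab12
import Fermat.Agent.ES.KUM.FiniteTorsion15
import Fermat.Agent.T1.Assembly41.ModCoord
import Fermat.Agent.T1.Lift9

set_option autoImplicit false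

noncomputable section

namespace Fermat.Agent.T1.Top48

open Fermat.Agent.TW.B5.Iface Fermat.Agent.Flat44 Fermat.Agent.T1.AlgIface47
  Fermat.Agent.T1.TruncIface47 Fermat.Agent.T1.Assembly41 ModularCurve
  Fermat.Agent.RED.Interface4

/-- The `G_ℓ`-module `J₀(M)[n]`, with `G_ℓ` acting through `localGaloisToGlobal ℓ`. -/
abbrev locAct (ℓ : ℕ) [Fact ℓ.Prime] (M : ℕ) (n : ℤ) :
    Gp ℓ → ↥(Submodule.torsionBy ℤ (JZero M) n) → ↥(Submodule.torsionBy ℤ (JZero M) n) :=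
  fun σ => torsionAct M n (localGaloisToGlobal ℓ σ)

/-- `J₀(M)[n]` is finite, in the `Submodule.torsionBy` form. -/
theorem finite_torsionBy (M : ℕ) [NeZero M] (n : ℕ) [NeZero n] :
    Finite ↥(Submodule.torsionBy ℤ (JZero M) (n : ℤ)) := by
  have h := Fermat.Agent.ES.KUM.FiniteTorsion15.finite_setOf_nsmul_eq_zero M n
  have h2 : ((Submodule.torsionBy ℤ (JZero M) (n : ℤ) : Submodule ℤ (JZero M)) : Set (JZero M))
      = {y : JZero M | n • y = 0} := by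
    ext y
    simp only [SetLike.mem_coe, Submodule.mem_torsionBy_iff, Set.mem_ofPred_eq, natCast_zsmul]
  exact (h2 ▸ h).to_subtype

/-- **Local ⇒ global for `J₀(M)[n]`.**  A local function order for the `G_ℓ`-module `J₀(M)[n]` gives a
finite flat model over `ℤ_(ℓ)` of the `G_ℚ`-module `J₀(M)[n]`. -/
theorem hasFlatModel_of_local (ℓ : ℕ) [Fact ℓ.Prime] (M : ℕ) [NeZero M] (n : ℕ) [NeZero n]
    (h : Nonempty (LocalFunOrder ℓ ↥(Submodule.torsionBy ℤ (JZero M) (n : ℤ)) (locAct ℓ M (n : ℤ)))) :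
    HasFlatModel ℓ ↥(Submodule.torsionBy ℤ (JZero M) (n : ℤ)) (torsionAct M (n : ℤ)) := by
  have := finite_torsionBy M n
  have hglue := Fermat.Agent.T1.Glue44.glue ℓ (padicEmbedding ℓ : Flat44.Qb →+* Kbar ℓ)
    (fun σ => localGaloisToGlobal ℓ σ)
    (fun σ x => padicEmbedding_localGaloisToGlobal ℓ σ x)
    ↥(Submodule.torsionBy ℤ (JZero M) (n : ℤ)) (torsionAct M (n : ℤ))
    (fun x => Subtype.ext (one_smul _ _))
    (fun σ τ x => Subtype.ext (mul_smul σ τ (x : JZero M)))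
    (fun σ x y => Subtype.ext (smul_add σ (x : JZero M) (y : JZero M)))
    (fun x => by
      obtain ⟨L, hL, H⟩ := Fermat.Agent.ES.GAL.OpenStab12.hasLevel_pic0 (N := M) (x : JZero M)
      exact ⟨L, hL, fun σ hσ => Subtype.ext (H σ hσ)⟩)
    h
  exact hglue.some.hasFlatModel

/-- **S19 from exact local analytic group data** at the auxiliary levels. -/
theorem s19_of_disc
    (h : ∀ (N : ℕ) [NeZero N] (ℓ : ℕ) [Fact ℓ.Prime], ¬ ℓ ∣ N → ∀ k : ℕ,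
      ∃ (J : Type) (_ : AddCommGroup J),
        Nonempty (DiscGroupData ℓ J ↥(Submodule.torsionBy ℤ (JZero (auxLevel ℓ N)) ((ℓ : ℤ) ^ k))
          (locAct ℓ (auxLevel ℓ N) ((ℓ : ℤ) ^ k))))
    (p : ℕ) [NeZero p] (ℓ : ℕ) [Fact ℓ.Prime] (hℓp : ¬ ℓ ∣ p) (k : ℕ) :
    ∃ (H : Type) (_ : CommRing H) (_ : HopfAlgebra (GaloisRep.ratLocalizedAt ℓ) H),
      Module.Finite (GaloisRep.ratLocalizedAt ℓ) H ∧ Module.Flat (GaloisRep.ratLocalizedAt ℓ) H ∧
      Coalgebra.IsCocomm (GaloisRep.ratLocalizedAt ℓ) H ∧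
      ∃ e : WithConv (H →ₐ[GaloisRep.ratLocalizedAt ℓ] AlgebraicClosure ℚ) ≃
          ↥(Submodule.torsionBy ℤ (JZero p) ((ℓ : ℤ) ^ k)),
        (∀ f g, e (f * g) = e f + e g) ∧
        ∀ (σ : AlgebraicClosure ℚ ≃ₐ[ℚ] AlgebraicClosure ℚ)
          (f g : WithConv (H →ₐ[GaloisRep.ratLocalizedAt ℓ] AlgebraicClosure ℚ)),
          (∀ h : H, g h = σ (f h)) → ((e g : JZero p)) = σ • (e f : JZero p) := by
  refine s19_of_flatTarget (Fermat.Agent.T1.Level62.s19FlatTarget_of_auxLevel ?_) p ℓ hℓp k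
  intro N _ ℓ' _ hℓN k'
  obtain ⟨J, iJ, ⟨D⟩⟩ := h N ℓ' hℓN k'
  have : NeZero (auxLevel ℓ' N) := ⟨by
    unfold auxLevel
    split_ifs
    · exact Nat.lcm_ne_zero (NeZero.ne N) (by norm_num)
    · exact Nat.lcm_ne_zero (NeZero.ne N) (by norm_num)⟩
  have : NeZero (ℓ' ^ k') := ⟨pow_ne_zero _ (Fact.out : ℓ'.Prime).ne_zero⟩
  have hcast : ((ℓ' : ℤ) ^ k') = ((ℓ' ^ k' : ℕ) : ℤ) := by push_cast; rfl
  have : Finite ↥(Submodule.torsionBy ℤ (JZero (auxLevel ℓ' N)) ((ℓ' : ℤ) ^ k')) := by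
    rw [hcast]
    exact finite_torsionBy _ _
  have hloc := Fermat.Agent.T1.Alc47.alc ℓ' J
    ↥(Submodule.torsionBy ℤ (JZero (auxLevel ℓ' N)) ((ℓ' : ℤ) ^ k'))
    (locAct ℓ' (auxLevel ℓ' N) ((ℓ' : ℤ) ^ k')) D
  rw [hcast] at hloc ⊢
  exact hasFlatModel_of_local ℓ' (auxLevel ℓ' N) (ℓ' ^ k') hloc

/-- **S19 from truncated local analytic group data** at the auxiliary levels. -/
theorem s19_of_trunc
    (h : ∀ (N : ℕ) [NeZero N] (ℓ : ℕ) [Fact ℓ.Prime], ¬ ℓ ∣ N → ∀ k : ℕ,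
      ∃ (J : Type) (_ : AddCommGroup J),
        Nonempty (DiscGroupDataTrunc ℓ J
          ↥(Submodule.torsionBy ℤ (JZero (auxLevel ℓ N)) ((ℓ : ℤ) ^ k))
          (locAct ℓ (auxLevel ℓ N) ((ℓ : ℤ) ^ k))))
    (p : ℕ) [NeZero p] (ℓ : ℕ) [Fact ℓ.Prime] (hℓp : ¬ ℓ ∣ p) (k : ℕ) :
    ∃ (H : Type) (_ : CommRing H) (_ : HopfAlgebra (GaloisRep.ratLocalizedAt ℓ) H),
      Module.Finite (GaloisRep.ratLocalizedAt ℓ) H ∧ Module.Flat (GaloisRep.ratLocalizedAt ℓ) H ∧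
      Coalgebra.IsCocomm (GaloisRep.ratLocalizedAt ℓ) H ∧
      ∃ e : WithConv (H →ₐ[GaloisRep.ratLocalizedAt ℓ] AlgebraicClosure ℚ) ≃
          ↥(Submodule.torsionBy ℤ (JZero p) ((ℓ : ℤ) ^ k)),
        (∀ f g, e (f * g) = e f + e g) ∧
        ∀ (σ : AlgebraicClosure ℚ ≃ₐ[ℚ] AlgebraicClosure ℚ)
          (f g : WithConv (H →ₐ[GaloisRep.ratLocalizedAt ℓ] AlgebraicClosure ℚ)),
          (∀ h : H, g h = σ (f h)) → ((e g : JZero p)) = σ • (e f : JZero p) := by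
  refine s19_of_disc (fun N _ ℓ' _ hℓN k' => ?_) p ℓ hℓp k
  obtain ⟨J, iJ, ⟨D⟩⟩ := h N ℓ' hℓN k'
  exact ⟨J, iJ, Fermat.Agent.T1.Trunc46.truncToExact ℓ' J _ _ D⟩

/-- **S19 from arithmetic local analytic group data** (in `ℚ̄`) at the auxiliary levels, given the
lifting brick `TruncOfModCoord` (G9-T). -/
theorem s19_of_modCoord
    (hlift : ∀ (ℓ : ℕ) [Fact ℓ.Prime], TruncOfModCoord ℓ)
    (h : ∀ (N : ℕ) [NeZero N] (ℓ : ℕ) [Fact ℓ.Prime], ¬ ℓ ∣ N → ∀ k : ℕ,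
      ∃ (J : Type) (_ : AddCommGroup J),
        Nonempty (ModCoordData ℓ J
          ↥(Submodule.torsionBy ℤ (JZero (auxLevel ℓ N)) ((ℓ : ℤ) ^ k))
          (locAct ℓ (auxLevel ℓ N) ((ℓ : ℤ) ^ k))))
    (p : ℕ) [NeZero p] (ℓ : ℕ) [Fact ℓ.Prime] (hℓp : ¬ ℓ ∣ p) (k : ℕ) :
    ∃ (H : Type) (_ : CommRing H) (_ : HopfAlgebra (GaloisRep.ratLocalizedAt ℓ) H),
      Module.Finite (GaloisRep.ratLocalizedAt ℓ) H ∧ Module.Flat (GaloisRep.ratLocalizedAt ℓ) H ∧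
      Coalgebra.IsCocomm (GaloisRep.ratLocalizedAt ℓ) H ∧
      ∃ e : WithConv (H →ₐ[GaloisRep.ratLocalizedAt ℓ] AlgebraicClosure ℚ) ≃
          ↥(Submodule.torsionBy ℤ (JZero p) ((ℓ : ℤ) ^ k)),
        (∀ f g, e (f * g) = e f + e g) ∧
        ∀ (σ : AlgebraicClosure ℚ ≃ₐ[ℚ] AlgebraicClosure ℚ)
          (f g : WithConv (H →ₐ[GaloisRep.ratLocalizedAt ℓ] AlgebraicClosure ℚ)),
          (∀ h : H, g h = σ (f h)) → ((e g : JZero p)) = σ • (e f : JZero p) := by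
  refine s19_of_trunc (fun N _ ℓ' _ hℓN k' => ?_) p ℓ hℓp k
  obtain ⟨J, iJ, ⟨D⟩⟩ := h N ℓ' hℓN k'
  exact ⟨J, iJ, hlift ℓ' J _ _ D⟩

/-- **S19 from arithmetic local analytic group data** at the auxiliary levels, unconditional form
(`Lift9.truncOfModCoord` plugged in).  This is the consumer top of S19: `Fermat/Agent/S19.lean` is
`Top48.s19_of_modCoordData (the geometric existential) p ℓ hℓp k`. -/
theorem s19_of_modCoordData
    (h : ∀ (N : ℕ) [NeZero N] (ℓ : ℕ) [Fact ℓ.Prime], ¬ ℓ ∣ N → ∀ k : ℕ,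
      ∃ (J : Type) (_ : AddCommGroup J),
        Nonempty (ModCoordData ℓ J
          ↥(Submodule.torsionBy ℤ (JZero (auxLevel ℓ N)) ((ℓ : ℤ) ^ k))
          (locAct ℓ (auxLevel ℓ N) ((ℓ : ℤ) ^ k))))
    (p : ℕ) [NeZero p] (ℓ : ℕ) [Fact ℓ.Prime] (hℓp : ¬ ℓ ∣ p) (k : ℕ) :
    ∃ (H : Type) (_ : CommRing H) (_ : HopfAlgebra (GaloisRep.ratLocalizedAt ℓ) H),
      Module.Finite (GaloisRep.ratLocalizedAt ℓ) H ∧ Module.Flat (GaloisRep.ratLocalizedAt ℓ) H ∧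
      Coalgebra.IsCocomm (GaloisRep.ratLocalizedAt ℓ) H ∧
      ∃ e : WithConv (H →ₐ[GaloisRep.ratLocalizedAt ℓ] AlgebraicClosure ℚ) ≃
          ↥(Submodule.torsionBy ℤ (JZero p) ((ℓ : ℤ) ^ k)),
        (∀ f g, e (f * g) = e f + e g) ∧
        ∀ (σ : AlgebraicClosure ℚ ≃ₐ[ℚ] AlgebraicClosure ℚ)
          (f g : WithConv (H →ₐ[GaloisRep.ratLocalizedAt ℓ] AlgebraicClosure ℚ)),
          (∀ h : H, g h = σ (f h)) → ((e g : JZero p)) = σ • (e f : JZero p) :=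
  s19_of_modCoord (fun ℓ' _ => Fermat.Agent.T1.Lift9.truncOfModCoord ℓ') h p ℓ hℓp k

end Fermat.Agent.T1.Top48
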