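/-
Fermat/Agent/T1/HubNorms70.lean  (helper70, programme T1A, brick 559 `G9-C2 NORMS`)

The ARITHMETIC fields of `Assembly41.HubData` (`Assembly41/HubToMod.lean`) for the concrete rings
`O = A ∩ L`, `A = padicPlace ℓ`, `L ⊂ ℚ̄` a number field, `jL = HubInst98.jL L`,
`W = A ∩ K1`, `K1 = ℚ(ζ_M) ≤ L`:

* `jL_int`, `exists_e` (`e`, `e_pos`, `mem_pow`, `div_pow`), `mem_max`, `field`, `W_mu`.
-/
import Mathlib
import Fermat.Agent.T1.LocModel46.NumField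
import Fermat.Agent.T1.HubInst98.Incl
import Fermat.Agent.T1.HubInst98.Cyclo
import Fermat.Agent.T1.AlgIface47

set_option autoImplicit false

noncomputable section

namespace Fermat.Agent.T1.HubNorms70

open Fermat.Agent.TW.B5.Iface Fermat.Agent.TW.B5.LG83W
open Fermat.Agent.RED.Interface4 Fermat.Agent.RED.DESC.NumberFieldDVR27
open Fermat.Agent.T1.LocModel46 Fermat.Agent.T1.HubInst98

variable (ℓ : ℕ) [Fact ℓ.Prime] (L : IntermediateField ℚ Qbar)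

/-- `algebraMap O L` followed by `jL` is the double coercion. -/
theorem jL_algebraMap (x : AK (padicPlace ℓ) L) :
    jL L (algebraMap (AK (padicPlace ℓ) L) L x) = ((x : L) : Qbar) := rfl

/-- (`jL_int`) -/
theorem jL_int (x : AK (padicPlace ℓ) L) :
    ‖padicEmbedding ℓ (jL L (algebraMap (AK (padicPlace ℓ) L) L x))‖ ≤ 1 :=
  norm_iota_AK_le_one ℓ L x

/-- (`mem_max`) -/
theorem mem_max (x : AK (padicPlace ℓ) L) :
    x ∈ IsLocalRing.maximalIdeal (AK (padicPlace ℓ) L) ↔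
      ‖padicEmbedding ℓ (jL L (algebraMap (AK (padicPlace ℓ) L) L x))‖ < 1 :=
  mem_maximalIdeal_AK_iff ℓ L x

/-- (`field`) -/
theorem field [FiniteDimensional ℚ L] :
    ∃ E : IntermediateField ℚ_[ℓ] (Kbar ℓ), FiniteDimensional ℚ_[ℓ] E ∧
      ∀ x : L, padicEmbedding ℓ (jL L x) ∈ E :=
  exists_finite_field ℓ L

/-- (`e`, `e_pos`, `mem_pow`, `div_pow`) -/
theorem exists_e [FiniteDimensional ℚ L] :
    ∃ e : ℕ, 1 ≤ e ∧
      (∀ (x : AK (padicPlace ℓ) L) (n : ℕ),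
        x ∈ IsLocalRing.maximalIdeal (AK (padicPlace ℓ) L) ^ (e * n) ↔
          ‖padicEmbedding ℓ (jL L (algebraMap (AK (padicPlace ℓ) L) L x))‖ ≤
            ‖((ℓ : ℕ) : Kbar ℓ)‖ ^ n) ∧
      (∀ (x : AK (padicPlace ℓ) L) (n : ℕ),
        x ∈ IsLocalRing.maximalIdeal (AK (padicPlace ℓ) L) ^ (e * n) →
          ∃ z : AK (padicPlace ℓ) L, x = ((ℓ : ℕ) : AK (padicPlace ℓ) L) ^ n * z) := by
  obtain ⟨e, he1, he⟩ := exists_ramificationIdx ℓ L
  refine ⟨e, he1, fun x n => mem_maximalIdeal_pow_iff ℓ L he x n, fun x n hx => ?_⟩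
  rw [← span_pow_eq ℓ L he n, Ideal.mem_span_singleton'] at hx
  obtain ⟨z, hz⟩ := hx
  exact ⟨z, by rw [← hz, mul_comm]⟩

/-- The ramification index of `A ∩ L` over `ℓ` (a choice of `e` in `exists_e`). -/
def ramIdx [FiniteDimensional ℚ L] : ℕ := (exists_e ℓ L).choose

theorem ramIdx_pos [FiniteDimensional ℚ L] : 1 ≤ ramIdx ℓ L := (exists_e ℓ L).choose_spec.1

/-- (`mem_pow`) -/
theorem mem_pow [FiniteDimensional ℚ L] (x : AK (padicPlace ℓ) L) (n : ℕ) :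
    x ∈ IsLocalRing.maximalIdeal (AK (padicPlace ℓ) L) ^ (ramIdx ℓ L * n) ↔
      ‖padicEmbedding ℓ (jL L (algebraMap (AK (padicPlace ℓ) L) L x))‖ ≤
        ‖((ℓ : ℕ) : Kbar ℓ)‖ ^ n :=
  (exists_e ℓ L).choose_spec.2.1 x n

/-- (`div_pow`) -/
theorem div_pow [FiniteDimensional ℚ L] (x : AK (padicPlace ℓ) L) (n : ℕ)
    (hx : x ∈ IsLocalRing.maximalIdeal (AK (padicPlace ℓ) L) ^ (ramIdx ℓ L * n)) :
    ∃ z : AK (padicPlace ℓ) L, x = ((ℓ : ℕ) : AK (padicPlace ℓ) L) ^ n * z :=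
  (exists_e ℓ L).choose_spec.2.2 x n hx

/-- (`W_mu`), general form: `K ≤ L` generated by `m`-th roots of unity. -/
theorem W_mu_of_adjoin {K : IntermediateField ℚ Qbar} (h : K ≤ L) {m : ℕ} {S : Set Qbar}
    (hS : ∀ ζ ∈ S, ζ ^ m = 1) (hK : K ≤ IntermediateField.adjoin ℚ S)
    (w : AK (padicPlace ℓ) K) :
    letI := algAKL (padicPlace ℓ) h
    padicEmbedding ℓ (jL L (algebraMap (AK (padicPlace ℓ) K) L w)) ∈
      intSubring ℓ (muField ℓ m) := by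
  let _ := algAKL (padicPlace ℓ) h
  have h1 : jL L (algebraMap (AK (padicPlace ℓ) K) L w) = ((w : K) : Qbar) := rfl
  rw [h1]
  exact iota_mem_intSubring_muField ℓ hS (hK (w : K).2) ((mem_AK_iff _ _ _).1 w.2)

/-- (`W_mu`) for `W = A ∩ K1 M`, `K1 M = ℚ(ζ_M) ≤ L`. -/
theorem W_mu (M : ℕ) (h : K1 M ≤ L) (w : AK (padicPlace ℓ) (K1 M)) :
    letI := algAKL (padicPlace ℓ) h
    padicEmbedding ℓ (jL L (algebraMap (AK (padicPlace ℓ) (K1 M)) L w)) ∈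
      intSubring ℓ (muField ℓ M) := by
  refine W_mu_of_adjoin ℓ L h (m := M) (S := {Fermat.Agent.X0.zetaK M}) ?_ (le_of_eq rfl) w
  intro ζ hζ
  rw [Set.mem_singleton_iff.1 hζ]
  by_cases hM : M = 0
  · rw [hM, pow_zero]
  · have : NeZero M := ⟨hM⟩
    exact (Fermat.Agent.X0.isPrimitiveRoot_zetaK M).pow_eq_one

end Fermat.Agent.T1.HubNorms70
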