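/-
Fermat/Agent/T1/HubNorms70Final.lean  (helper70, programme T1A, brick 559 `G9-C2 NORMS`)

The Props `NormsAt ℓ L` and `WMu ℓ M` of `Assembly41/FinalIface.lean`, VERBATIM, from `HubNorms70`.
-/
import Mathlib
import Fermat.Agent.T1.HubNorms70
import Fermat.Agent.T1.Assembly41.FinalIface

set_option autoImplicit false

noncomputable section

namespace Fermat.Agent.T1.HubNorms70

open Fermat.Agent.TW.B5.Iface Fermat.Agent.TW.B5.LG83W
open Fermat.Agent.RED.Interface4 Fermat.Agent.RED.DESC.NumberFieldDVR27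
open Fermat.Agent.T1.LocModel46 Fermat.Agent.T1.HubInst98

variable (ℓ : ℕ) [Fact ℓ.Prime]

/-- **`NormsAt`** for every number field `L ⊂ ℚ̄`. -/
theorem normsAt (L : IntermediateField ℚ Qbar) [FiniteDimensional ℚ L] :
    Fermat.Agent.T1.Assembly41.NormsAt ℓ L :=
  ⟨ramIdx ℓ L, ramIdx_pos ℓ L, mem_pow ℓ L, div_pow ℓ L, mem_max ℓ L, field ℓ L⟩

/-- **`WMu`**: the constants `W = A ∩ ℚ(ζ_M)` embed into the integers of `ℚ_ℓ(μ_M)`. -/
theorem wMu (M : ℕ) [NeZero M] : Fermat.Agent.T1.Assembly41.WMu ℓ M := by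
  intro w
  have h1 : jL (K1 M) (algebraMap (Fermat.Agent.T1.Assembly41.Wr ℓ M) ↥(K1 M) w) =
      ((w : K1 M) : Qbar) := rfl
  rw [h1]
  refine iota_mem_intSubring_muField ℓ (m := M) (S := {Fermat.Agent.X0.zetaK M}) ?_
    (w : K1 M).2 ((mem_AK_iff _ _ _).1 w.2)
  intro ζ hζ
  rw [Set.mem_singleton_iff.1 hζ]
  exact (Fermat.Agent.X0.isPrimitiveRoot_zetaK M).pow_eq_one

end Fermat.Agent.T1.HubNorms70
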