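import Mathlib
import Fermat.Agent.T1.RedIface75

/-!
# T1A (S19), REDUCTION layer: the extension map `Pic_pt X_L → Pic X_O`  (helper75)

From the two halves of brick R-c (`ExtInjective`, `ExtSurjective`) we build, for a DVR `O` over `W`
with fraction field `L` and a family of point classes `P`:

* `mapPt : P.PicPt O →* P.PicPt L` (restriction of `PicX.map c0 O L`), bijective;
* `extendEquiv : P.PicPt L ≃* P.PicPt O`, `extend : P.PicPt L →* PicX c0 O` with
  `map_extend`, `extend_map`, `extend_unique`;
* `redL : P.PicPt L →* PicX c0 κ(O)`, `J1L = ker redL`, `extend_mem_J1`;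
* `extend_mapSemi` : equivariance of `extend` under semilinear base change, given the commuting
  square `PicX.map ∘ mapSemi = mapSemi ∘ PicX.map`.
-/

set_option autoImplicit false
set_option linter.unusedSectionVars false

open TensorProduct

namespace Fermat.Agent.T1.ExtPack75

open Fermat.Agent.Jac Fermat.Agent.Jac.JGroup85Pic Fermat.Agent.T1.RedIface75

universe u

variable {W B0 B1 B01 : Type u} [CommRing W] [CommRing B0] [CommRing B1] [CommRing B01]
  [Algebra W B0] [Algebra W B1] [Algebra W B01] [Algebra B0 B01] [Algebra B1 B01]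
  [IsScalarTower W B0 B01] [IsScalarTower W B1 B01]
  (c0 : TwoChart W B0 B1 B01) (P : PointClasses c0)
  (O : Type u) [CommRing O] [IsDomain O] [IsDiscreteValuationRing O] [Algebra W O]
  (L : Type u) [Field L] [Algebra W L] [Algebra O L] [IsScalarTower W O L] [IsFractionRing O L]

/-- The restriction of `PicX.map c0 O L` to the subgroups generated by point classes. -/
noncomputable def mapPt : P.PicPt O →* P.PicPt L :=
  MonoidHom.codRestrict ((PicX.map c0 O L).comp (P.PicPt O).subtype) (P.PicPt L)
    (fun x => P.map_mem O L x.1 x.2)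

@[simp]
theorem mapPt_coe (x : P.PicPt O) : ((mapPt c0 P O L x : P.PicPt L) : PicX c0 L) =
    PicX.map c0 O L x.1 := rfl

variable {c0 P O L}

theorem mapPt_injective (hinj : ExtInjective c0 O L) : Function.Injective (mapPt c0 P O L) := by
  intro x y hxy
  apply Subtype.ext
  apply hinj
  exact congrArg Subtype.val hxy

theorem mapPt_surjective (hsurj : ExtSurjective c0 O L P) :
    Function.Surjective (mapPt c0 P O L) := by
  intro y
  obtain ⟨x, hx, hxy⟩ := hsurj y.1 y.2
  exact ⟨⟨x, hx⟩, Subtype.ext hxy⟩

/-- **The extension isomorphism** `Pic_pt X_L ≃ Pic_pt X_O`. -/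
noncomputable def extendEquiv (hinj : ExtInjective c0 O L) (hsurj : ExtSurjective c0 O L P) :
    P.PicPt L ≃* P.PicPt O :=
  (MulEquiv.ofBijective (mapPt c0 P O L) ⟨mapPt_injective hinj, mapPt_surjective hsurj⟩).symm

/-- **The extension map** `Pic_pt X_L → Pic X_O`. -/
noncomputable def extend (hinj : ExtInjective c0 O L) (hsurj : ExtSurjective c0 O L P) :
    P.PicPt L →* PicX c0 O :=
  (P.PicPt O).subtype.comp (extendEquiv hinj hsurj).toMonoidHom

theorem extend_mem (hinj : ExtInjective c0 O L) (hsurj : ExtSurjective c0 O L P)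
    (y : P.PicPt L) : extend hinj hsurj y ∈ P.PicPt O :=
  ((extendEquiv hinj hsurj) y).2

@[simp]
theorem map_extend (hinj : ExtInjective c0 O L) (hsurj : ExtSurjective c0 O L P)
    (y : P.PicPt L) : PicX.map c0 O L (extend hinj hsurj y) = y.1 := by
  have h := (MulEquiv.ofBijective (mapPt c0 P O L)
    ⟨mapPt_injective hinj, mapPt_surjective hsurj⟩).apply_symm_apply y
  exact congrArg Subtype.val h

/-- Uniqueness of the extension (no membership in `PicPt O` needed). -/
theorem extend_unique (hinj : ExtInjective c0 O L) (hsurj : ExtSurjective c0 O L P)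
    (y : P.PicPt L) (x : PicX c0 O) (hx : PicX.map c0 O L x = y.1) :
    x = extend hinj hsurj y :=
  hinj (hx.trans (map_extend hinj hsurj y).symm)

theorem extend_map (hinj : ExtInjective c0 O L) (hsurj : ExtSurjective c0 O L P)
    (x : PicX c0 O) (hx : x ∈ P.PicPt O) :
    extend hinj hsurj ⟨PicX.map c0 O L x, P.map_mem O L x hx⟩ = x :=
  (extend_unique hinj hsurj _ x rfl).symm

/-- The reduction map on the `L`-level. -/
noncomputable def redL (hinj : ExtInjective c0 O L) (hsurj : ExtSurjective c0 O L P) :
    P.PicPt L →* PicX c0 (IsLocalRing.ResidueField O) :=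
  (red c0 O).comp (extend hinj hsurj)

/-- `J̃1(L)`: the classes of `Pic_pt X_L` whose extension has trivial special fibre. -/
noncomputable def J1L (hinj : ExtInjective c0 O L) (hsurj : ExtSurjective c0 O L P) :
    Subgroup (P.PicPt L) :=
  (redL hinj hsurj).ker

theorem mem_J1L_iff (hinj : ExtInjective c0 O L) (hsurj : ExtSurjective c0 O L P)
    (y : P.PicPt L) : y ∈ J1L hinj hsurj ↔ extend hinj hsurj y ∈ J1 c0 O :=
  Iff.rfl

theorem extend_mem_J1 (hinj : ExtInjective c0 O L) (hsurj : ExtSurjective c0 O L P)
    (y : P.PicPt L) (hy : y ∈ J1L hinj hsurj) : extend hinj hsurj y ∈ J1 c0 O :=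
  hy

/-- The extension map restricted to `J̃1`. -/
noncomputable def extendJ1 (hinj : ExtInjective c0 O L) (hsurj : ExtSurjective c0 O L P) :
    J1L (P := P) hinj hsurj →* J1 c0 O :=
  MonoidHom.codRestrict ((extend hinj hsurj).comp (J1L hinj hsurj).subtype) (J1 c0 O)
    (fun y => y.2)

theorem extendJ1_injective (hinj : ExtInjective c0 O L) (hsurj : ExtSurjective c0 O L P) :
    Function.Injective (extendJ1 (P := P) hinj hsurj) := by
  intro y y' h
  have h1 : extend hinj hsurj y.1 = extend hinj hsurj y'.1 :=
    congrArg (fun z : J1 c0 O => (z : PicX c0 O)) h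
  have h2 := congrArg (PicX.map c0 O L) h1
  rw [map_extend, map_extend] at h2
  exact Subtype.ext (Subtype.ext h2)

/-! ### Equivariance -/

section Semi

variable (S : ChartAut c0) (f : O →+* O) (hf : ∀ (w : W) (a : O), f (w • a) = S.σW w • f a)
  (fL : L →+* L) (hfL : ∀ (w : W) (a : L), fL (w • a) = S.σW w • fL a)

/-- **Equivariance of the extension map**: if semilinear base change commutes with `O → L`
(the mixed square, `hsq`) and preserves the point subgroup of `Pic X_L` (`hmem`), then
`extend (σ y) = σ (extend y)`. -/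
theorem extend_mapSemi (hinj : ExtInjective c0 O L) (hsurj : ExtSurjective c0 O L P)
    (hsq : ∀ x : PicX c0 O, PicX.map c0 O L (PicX.mapSemi S f hf x) =
      PicX.mapSemi S fL hfL (PicX.map c0 O L x))
    (y : P.PicPt L) (hmem : PicX.mapSemi S fL hfL y.1 ∈ P.PicPt L) :
    extend hinj hsurj ⟨PicX.mapSemi S fL hfL y.1, hmem⟩ =
      PicX.mapSemi S f hf (extend hinj hsurj y) := by
  symm
  apply extend_unique
  rw [hsq, map_extend]

end Semi

end Fermat.Agent.T1.ExtPack75
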