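import Mathlib
import Fermat.Agent.T1.ExtPack75
import Fermat.Agent.T1.Red20.CoordSemi

/-!
# T1A (S19), REDUCTION layer: the coordinates on the `L`-level  (helper75)

Assembly of bricks R-c (EXT, `ExtPack75`) and R-d/R-e/R-f (COORD, helper20's `Red20.CoordFun`,
`Red20.CoordSemi`): for a DVR `O` over `W` with fraction field `L`, the subgroup
`J1L ≤ P.PicPt L ≤ Pic X_L` of point-generated classes whose extension to `X_O` has trivial special
fibre carries coordinate functions

  `coordL n : J1L → (Fin g → O / 𝔪^n)`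

with values in `𝔪/𝔪^n` (`coordL_mem`), additive through any group law `F` (`coordL_mul`,
`coordL_mul_poly`, `coordL_inv`, `coordL_one`), compatible in `n` (`coordL_compat`), jointly
injective (`coordL_inj`), and equivariant under semilinear automorphisms (`J1L_mapSemi_mem`,
`coordL_semi`).  This is the hub-level form of the fields `c_*`, `add_law`, `neg_law` of
`Assembly41.ModCoordData`.
-/

set_option autoImplicit false
set_option linter.unusedSectionVars false

open TensorProduct

namespace Fermat.Agent.T1.RedFinal75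

open Fermat.Agent.Jac Fermat.Agent.Jac.JGroup85Pic Fermat.Agent.T1.RedIface75
open Fermat.Agent.T1.ExtPack75 Fermat.Agent.T1.Red20.CoordFun Fermat.Agent.T1.Red20.CoordMap
open Fermat.Agent.T1.Red20.CoordSemi Fermat.Agent.T1.Red20.BcSquare

universe u

variable {W B0 B1 B01 : Type u} [CommRing W] [CommRing B0] [CommRing B1] [CommRing B01]
  [Algebra W B0] [Algebra W B1] [Algebra W B01] [Algebra B0 B01] [Algebra B1 B01]
  [IsScalarTower W B0 B01] [IsScalarTower W B1 B01]
  {c0 : TwoChart W B0 B1 B01} {P : PointClasses c0}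
  {O : Type u} [CommRing O] [IsDomain O] [IsDiscreteValuationRing O] [Algebra W O]
  {L : Type u} [Field L] [Algebra W L] [Algebra O L] [IsScalarTower W O L] [IsFractionRing O L]
  (hinj : ExtInjective c0 O L) (hsurj : ExtSurjective c0 O L P)
  {g : ℕ} {b : Fin g → B01} (hEU : CoordExistsUnique c0 O b)

/-- **The coordinates of level `n` on `J̃1(L)`.** -/
noncomputable def coordL (n : ℕ) (y : J1L (P := P) hinj hsurj) : Fin g → RedIface75.Trunc O n :=
  coord hEU n (extendJ1 hinj hsurj y)

theorem coordL_mem (n : ℕ) (y : J1L (P := P) hinj hsurj) (i : Fin g) :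
    coordL hinj hsurj hEU n y i ∈ mT O n :=
  coord_mem hEU n _ i

theorem coordL_one (n : ℕ) : coordL hinj hsurj hEU n (1 : J1L (P := P) hinj hsurj) = 0 := by
  unfold coordL
  rw [map_one]
  exact coord_one hEU n

/-- **Additivity.** -/
theorem coordL_mul {n : ℕ}
    {F : (Fin g → RedIface75.Trunc O n) → (Fin g → RedIface75.Trunc O n) →
      (Fin g → RedIface75.Trunc O n)}
    (hF : GroupLawAt b c0 O n F) (y y' : J1L (P := P) hinj hsurj) :
    coordL hinj hsurj hEU n (y * y') =
      F (coordL hinj hsurj hEU n y) (coordL hinj hsurj hEU n y') := by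
  unfold coordL
  rw [map_mul]
  exact coord_mul hEU hF _ _

/-- **Additivity, polynomial form.** -/
theorem coordL_mul_poly {n : ℕ} {F : Fin g → MvPolynomial (Fin g ⊕ Fin g) W}
    (hF : GroupLawAt b c0 O n (polyLaw F)) (y y' : J1L (P := P) hinj hsurj) (i : Fin g) :
    coordL hinj hsurj hEU n (y * y') i =
      MvPolynomial.aeval (Sum.elim (coordL hinj hsurj hEU n y) (coordL hinj hsurj hEU n y'))
        (F i) :=
  congrFun (coordL_mul hinj hsurj hEU hF y y') i

/-- The coordinates of the inverse. -/
theorem coordL_inv {n : ℕ} {N : (Fin g → RedIface75.Trunc O n) → (Fin g → RedIface75.Trunc O n)}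
    (hN : InvLawAt b c0 O n N) (y : J1L (P := P) hinj hsurj) :
    coordL hinj hsurj hEU n y⁻¹ = N (coordL hinj hsurj hEU n y) := by
  unfold coordL
  rw [map_inv]
  exact coord_inv hEU hN _

/-- **Compatibility in the level.** -/
theorem coordL_compat {m n : ℕ} (h : m ≤ n) (y : J1L (P := P) hinj hsurj) :
    coordL hinj hsurj hEU m y = fun i => truncMap O h (coordL hinj hsurj hEU n y i) :=
  coord_compat hEU h _

/-- **Injectivity**: the coordinates of all levels determine the class. -/
theorem coordL_inj (hInj : CoordInjective c0 O) {y y' : J1L (P := P) hinj hsurj}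
    (h : ∀ n, coordL hinj hsurj hEU n y = coordL hinj hsurj hEU n y') : y = y' :=
  extendJ1_injective hinj hsurj (coord_inj hEU hInj h)

/-! ### Equivariance -/

section Semi

variable (S : ChartAut c0) (f : O →+* O) [IsLocalHom f]
  (hf : ∀ (w : W) (a : O), f (w • a) = S.σW w • f a)
  (fL : L →+* L) (hfL : ∀ (w : W) (a : L), fL (w • a) = S.σW w • fL a)
  (hcomp : ∀ a : O, fL (algebraMap O L a) = algebraMap O L (f a))

include hcomp in
/-- The mixed square `O → L` against `(S, f)`, `(S, fL)`. -/
theorem map_mapSemi_OL (x : PicX c0 O) :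
    PicX.map c0 O L (PicX.mapSemi S f hf x) = PicX.mapSemi S fL hfL (PicX.map c0 O L x) :=
  PicX.map_mapSemi_sq S f hf fL hfL (RingHom.ext hcomp) x

include hf hcomp in
/-- `J̃1(L)` is stable under the semilinear action. -/
theorem J1L_mapSemi_mem (y : P.PicPt L) (hy : y ∈ J1L hinj hsurj)
    (hmem : PicX.mapSemi S fL hfL y.1 ∈ P.PicPt L) :
    (⟨PicX.mapSemi S fL hfL y.1, hmem⟩ : P.PicPt L) ∈ J1L hinj hsurj := by
  rw [mem_J1L_iff, extend_mapSemi S f hf fL hfL hinj hsurj
    (map_mapSemi_OL S f hf fL hfL hcomp) y hmem]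
  exact mapSemi_mem_J1 S f hf ((mem_J1L_iff hinj hsurj y).1 hy)

include hf hcomp in
/-- **Equivariance of the coordinates**: `coordL n (σ y) = σ (coordL n y)` when the `b i` are
fixed by `S.σ01`. -/
theorem coordL_semi (hb : ∀ i, S.σ01 (b i) = b i) (n : ℕ) (y : J1L (P := P) hinj hsurj)
    (hmem : PicX.mapSemi S fL hfL y.1.1 ∈ P.PicPt L) :
    coordL hinj hsurj hEU n
        ⟨⟨PicX.mapSemi S fL hfL y.1.1, hmem⟩,
          J1L_mapSemi_mem hinj hsurj S f hf fL hfL hcomp y.1 y.2 hmem⟩ =
      fun i => truncFun f n (coordL hinj hsurj hEU n y i) := by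
  unfold coordL
  rw [← coord_semi (S := S) (f := f) (hf := hf) hb hEU hEU n (extendJ1 hinj hsurj y)]
  congr 1
  apply Subtype.ext
  exact extend_mapSemi S f hf fL hfL hinj hsurj (map_mapSemi_OL S f hf fL hfL hcomp) y.1 hmem

end Semi

end Fermat.Agent.T1.RedFinal75
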