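import Mathlib
import Fermat.Agent.T1.RedFinal75

/-!
# T1A (S19), REDUCTION layer: representatives of the coordinates in `O`  (helper75)

`O` a DVR over `W`, `ℓ : O` with `(ℓ) = 𝔪^e`, `e ≥ 1` (in the application `ℓ` is the residue
characteristic and `e` the ramification index).  We choose representatives

  `crep n y i : O`   of   `coordL (e * n) y i ∈ O / 𝔪^(e n) = O / ℓ^n O`   (`crep 0 := 0`)

and restate all the laws of `RedFinal75` as congruences modulo `ℓ^n O` -- literally the fields
`c_small`, `c_compat`, `c_equiv`, `add_law`, `c_inj` of `Assembly41.ModCoordData` before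
embedding `O` into `ℚ̄`.
-/

set_option autoImplicit false
set_option linter.unusedSectionVars false

open TensorProduct

namespace Fermat.Agent.T1.RedRep75

open Fermat.Agent.Jac Fermat.Agent.Jac.JGroup85Pic Fermat.Agent.T1.RedIface75
open Fermat.Agent.T1.ExtPack75 Fermat.Agent.T1.Red20.CoordFun Fermat.Agent.T1.Red20.CoordMap
open Fermat.Agent.T1.RedFinal75

universe u

/-! ### Representatives modulo `𝔪^N` -/

section Rep

variable (O : Type u) [CommRing O] [IsDomain O] [IsDiscreteValuationRing O]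

/-- A representative in `O` of a class modulo `𝔪^N`. -/
noncomputable def repT (N : ℕ) (x : RedIface75.Trunc O N) : O :=
  Function.surjInv (Ideal.Quotient.mk_surjective (I := (IsLocalRing.maximalIdeal O) ^ N)) x

@[simp]
theorem mk_repT (N : ℕ) (x : RedIface75.Trunc O N) :
    Ideal.Quotient.mk ((IsLocalRing.maximalIdeal O) ^ N) (repT O N x) = x :=
  Function.surjInv_eq _ x

variable {O}

theorem sub_mem_pow_of_mk_eq {N : ℕ} {a b : O}
    (h : Ideal.Quotient.mk ((IsLocalRing.maximalIdeal O) ^ N) a =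
      Ideal.Quotient.mk ((IsLocalRing.maximalIdeal O) ^ N) b) :
    a - b ∈ (IsLocalRing.maximalIdeal O) ^ N :=
  Ideal.Quotient.eq.1 h

theorem repT_mem_maximalIdeal {N : ℕ} (hN : 1 ≤ N) {x : RedIface75.Trunc O N} (hx : x ∈ mT O N) :
    repT O N x ∈ IsLocalRing.maximalIdeal O := by
  obtain ⟨y, hy, hyx⟩ := (Ideal.mem_map_iff_of_surjective _ Ideal.Quotient.mk_surjective).1 hx
  have h1 : repT O N x - y ∈ (IsLocalRing.maximalIdeal O) ^ N :=
    sub_mem_pow_of_mk_eq ((mk_repT O N x).trans hyx.symm)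
  have h2 : repT O N x - y ∈ IsLocalRing.maximalIdeal O :=
    Ideal.pow_le_self (Nat.one_le_iff_ne_zero.1 hN) h1
  have h3 : repT O N x = (repT O N x - y) + y := by ring
  rw [h3]
  exact Ideal.add_mem _ h2 hy

/-- `(ℓ^n) = 𝔪^(e n)` when `(ℓ) = 𝔪^e`. -/
theorem span_pow_eq {ℓ : O} {e : ℕ} (hℓ : Ideal.span {ℓ} = (IsLocalRing.maximalIdeal O) ^ e)
    (n : ℕ) : Ideal.span {ℓ ^ n} = (IsLocalRing.maximalIdeal O) ^ (e * n) := by
  rw [← Ideal.span_singleton_pow, hℓ, ← pow_mul]

end Rep

/-! ### Representatives of the coordinates -/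

section Coord

variable {W B0 B1 B01 : Type u} [CommRing W] [CommRing B0] [CommRing B1] [CommRing B01]
  [Algebra W B0] [Algebra W B1] [Algebra W B01] [Algebra B0 B01] [Algebra B1 B01]
  [IsScalarTower W B0 B01] [IsScalarTower W B1 B01]
  {c0 : TwoChart W B0 B1 B01} {P : PointClasses c0}
  {O : Type u} [CommRing O] [IsDomain O] [IsDiscreteValuationRing O] [Algebra W O]
  {L : Type u} [Field L] [Algebra W L] [Algebra O L] [IsScalarTower W O L] [IsFractionRing O L]
  (hinj : ExtInjective c0 O L) (hsurj : ExtSurjective c0 O L P)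
  {g : ℕ} {b : Fin g → B01} (hEU : CoordExistsUnique c0 O b)
  (ℓ : O) (e : ℕ) (he : 1 ≤ e) (hℓ : Ideal.span {ℓ} = (IsLocalRing.maximalIdeal O) ^ e)

/-- **Representatives of the coordinates modulo `ℓ^n`** (`0` for `n = 0`). -/
noncomputable def crep (n : ℕ) (y : J1L (P := P) hinj hsurj) (i : Fin g) : O :=
  if n = 0 then 0 else repT O (e * n) (coordL hinj hsurj hEU (e * n) y i)

theorem crep_zero (y : J1L (P := P) hinj hsurj) (i : Fin g) :
    crep hinj hsurj hEU e 0 y i = 0 := if_pos rfl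

theorem crep_of_pos {n : ℕ} (hn : n ≠ 0) (y : J1L (P := P) hinj hsurj) (i : Fin g) :
    crep hinj hsurj hEU e n y i = repT O (e * n) (coordL hinj hsurj hEU (e * n) y i) :=
  if_neg hn

/-- The class of the representative modulo `𝔪^(e n)` is the coordinate. -/
theorem mk_crep (n : ℕ) (y : J1L (P := P) hinj hsurj) (i : Fin g) :
    Ideal.Quotient.mk ((IsLocalRing.maximalIdeal O) ^ (e * n)) (crep hinj hsurj hEU e n y i) =
      coordL hinj hsurj hEU (e * n) y i := by
  by_cases hn : n = 0
  · subst hn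
    have hsub : Subsingleton (O ⧸ (IsLocalRing.maximalIdeal O) ^ (e * 0)) :=
      Ideal.Quotient.subsingleton_iff.2 (by rw [mul_zero, pow_zero, Ideal.one_eq_top])
    exact Subsingleton.elim _ _
  · rw [crep_of_pos hinj hsurj hEU e hn, mk_repT]

include he in
/-- **`c_small`**: the representatives lie in the maximal ideal. -/
theorem crep_mem_maximalIdeal (n : ℕ) (y : J1L (P := P) hinj hsurj) (i : Fin g) :
    crep hinj hsurj hEU e n y i ∈ IsLocalRing.maximalIdeal O := by
  by_cases hn : n = 0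
  · subst hn
    rw [crep_zero]
    exact Ideal.zero_mem _
  · rw [crep_of_pos hinj hsurj hEU e hn]
    refine repT_mem_maximalIdeal ?_ (coordL_mem hinj hsurj hEU _ y i)
    exact Nat.one_le_iff_ne_zero.2 (Nat.mul_ne_zero (Nat.one_le_iff_ne_zero.1 he) hn)

include hℓ in
/-- **`c_compat`**: `crep (n+1) ≡ crep n` modulo `ℓ^n`. -/
theorem crep_compat (n : ℕ) (y : J1L (P := P) hinj hsurj) (i : Fin g) :
    crep hinj hsurj hEU e (n + 1) y i - crep hinj hsurj hEU e n y i ∈ Ideal.span {ℓ ^ n} := by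
  rw [span_pow_eq hℓ]
  apply sub_mem_pow_of_mk_eq
  have hle : e * n ≤ e * (n + 1) := Nat.mul_le_mul_left e (Nat.le_succ n)
  have h := congrFun (coordL_compat hinj hsurj hEU hle y) i
  rw [mk_crep, h, ← mk_crep hinj hsurj hEU e (n + 1) y i, truncMap_mk]

include hℓ in
/-- **`add_law`**: the representatives of a product are given by the polynomials `F`, modulo
`ℓ^n`. -/
theorem crep_mul (n : ℕ) {F : Fin g → MvPolynomial (Fin g ⊕ Fin g) W}
    (hF : GroupLawAt b c0 O (e * n) (polyLaw F)) (y y' : J1L (P := P) hinj hsurj) (i : Fin g) :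
    crep hinj hsurj hEU e n (y * y') i -
        MvPolynomial.aeval (Sum.elim (crep hinj hsurj hEU e n y) (crep hinj hsurj hEU e n y'))
          (F i) ∈ Ideal.span {ℓ ^ n} := by
  rw [span_pow_eq hℓ]
  apply sub_mem_pow_of_mk_eq
  rw [mk_crep, coordL_mul_poly hinj hsurj hEU hF y y' i]
  -- push `mk` through `aeval`
  have hcomp : (Ideal.Quotient.mk ((IsLocalRing.maximalIdeal O) ^ (e * n))) ∘
      (Sum.elim (crep hinj hsurj hEU e n y) (crep hinj hsurj hEU e n y')) =
      Sum.elim (coordL hinj hsurj hEU (e * n) y) (coordL hinj hsurj hEU (e * n) y') := by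
    funext j
    rcases j with j | j
    · exact mk_crep hinj hsurj hEU e n y j
    · exact mk_crep hinj hsurj hEU e n y' j
  rw [← hcomp]
  exact (MvPolynomial.comp_aeval_apply
    (Sum.elim (crep hinj hsurj hEU e n y) (crep hinj hsurj hEU e n y'))
    (Ideal.Quotient.mkₐ W ((IsLocalRing.maximalIdeal O) ^ (e * n))) (F i)).symm

include he hℓ in
/-- **`c_inj`**: classes whose representatives are congruent modulo `ℓ^n` for all `n` are
equal. -/
theorem crep_inj (hInj : CoordInjective c0 O) {y y' : J1L (P := P) hinj hsurj}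
    (h : ∀ n i, crep hinj hsurj hEU e n y i - crep hinj hsurj hEU e n y' i ∈
      Ideal.span {ℓ ^ n}) : y = y' := by
  apply coordL_inj hinj hsurj hEU hInj
  intro N
  have hle : N ≤ e * N := Nat.le_mul_of_pos_left N he
  have hN : coordL hinj hsurj hEU (e * N) y = coordL hinj hsurj hEU (e * N) y' := by
    funext i
    have h1 := h N i
    rw [span_pow_eq hℓ] at h1
    rw [← mk_crep hinj hsurj hEU e N y i, ← mk_crep hinj hsurj hEU e N y' i]
    exact Ideal.Quotient.eq.2 h1
  rw [coordL_compat hinj hsurj hEU hle y, coordL_compat hinj hsurj hEU hle y', hN]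

section Semi

variable (S : ChartAut c0) (f : O →+* O) [IsLocalHom f]
  (hf : ∀ (w : W) (a : O), f (w • a) = S.σW w • f a)
  (fL : L →+* L) (hfL : ∀ (w : W) (a : L), fL (w • a) = S.σW w • fL a)
  (hcomp : ∀ a : O, fL (algebraMap O L a) = algebraMap O L (f a))

include hℓ in
/-- **`c_equiv`**: the representatives of `σ y` are `σ` of the representatives of `y`, modulo
`ℓ^n`. -/
theorem crep_semi (hb : ∀ i, S.σ01 (b i) = b i) (n : ℕ) (y : J1L (P := P) hinj hsurj)
    (hmem : PicX.mapSemi S fL hfL y.1.1 ∈ P.PicPt L) (i : Fin g) :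
    crep hinj hsurj hEU e n
        ⟨⟨PicX.mapSemi S fL hfL y.1.1, hmem⟩,
          J1L_mapSemi_mem hinj hsurj S f hf fL hfL hcomp y.1 y.2 hmem⟩ i -
      f (crep hinj hsurj hEU e n y i) ∈ Ideal.span {ℓ ^ n} := by
  rw [span_pow_eq hℓ]
  apply sub_mem_pow_of_mk_eq
  have h := congrFun (coordL_semi hinj hsurj hEU S f hf fL hfL hcomp hb (e * n) y hmem) i
  rw [mk_crep, h, ← mk_crep hinj hsurj hEU e n y i, truncFun_mk]

end Semi

end Coord

end Fermat.Agent.T1.RedRep75
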