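import Mathlib
import Fermat.Agent.T1.RedRep75
import Fermat.Agent.T1.Red68.ExtInjModel
import Fermat.Agent.T1.Ext23.Surj
import Fermat.Agent.T1.Red11.CoordEU
import Fermat.Agent.T1.CoordInj23.OfCechData

/-!
# T1A (S19), REDUCTION layer: master statement  (helper75)

All bricks R-a..R-f of the REDUCTION layer assembled.  `RedInputs c0 g O L` bundles the
MODEL-side hypotheses (outputs of G1 MODEL-COH, G2 MODEL-BC / G2-X MODEL-FACTS, G5a COH):

* `hfp`   : `c0.FiniteProjOverLine`                       (helper60 `Coh60.ModelLine`)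
* `D`, `hρ0`, `hρ1` : the Čech datum of the `W`-model      (helper30 G1, helper70 `CechData`)
* `π`, `hπ`, `hg`  : uniformiser of `O`, `PiGood` of the hub rings over `O`  (helper62/helper85)
* `hint0/1` : the charts are integral over `W[t]`, `W[s]`  (helper62 `Chart.isIntegral_adjoin_*`)
* `hinv0/1` : ideals of `O`-points are invertible          (helper62 `Hub.hub_invertible_ptIdeal*`,
  from `PtInv75.invertible_ker_of_smooth`)

and the four Props of `RedIface75` follow: `extInjective` (helper68), `extSurjective` (helper23),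
`coordExistsUnique` (helper11 + helper70), `coordInjective` (helper23).  The rest of the file
re-exports `ExtPack75`/`RedFinal75`/`RedRep75` for these inputs:  `J = PicPt L`, `J1`, `coord`,
`rep` with the laws in the form of `Assembly41.ModCoordData`.
-/

set_option autoImplicit false
set_option linter.unusedSectionVars false

open TensorProduct

namespace Fermat.Agent.T1.RedMaster75

open Fermat.Agent.Jac Fermat.Agent.Jac.JGroup85Pic Fermat.Agent.Jac.BaseChange75
open Fermat.Agent.T1.RedIface75 Fermat.Agent.T1.PtLine75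
open Fermat.Agent.T1.ExtPack75 Fermat.Agent.T1.Red20.CoordFun Fermat.Agent.T1.Red20.CoordMap
open Fermat.Agent.T1.RedFinal75 Fermat.Agent.T1.RedRep75
open Fermat.Agent.T1.CechFormal70
open scoped Fermat.Agent.Jac.BaseChange75

universe u

variable {W B0 B1 B01 : Type u} [CommRing W] [CommRing B0] [CommRing B1] [CommRing B01]
  [Algebra W B0] [Algebra W B1] [Algebra W B01] [Algebra B0 B01] [Algebra B1 B01]
  [IsScalarTower W B0 B01] [IsScalarTower W B1 B01]

/-- The MODEL-side inputs of the REDUCTION layer, for one DVR `O` over `W` with fraction field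
`L`. -/
structure RedInputs (c0 : TwoChart W B0 B1 B01) (g : ℕ)
    (O : Type u) [CommRing O] [IsDomain O] [IsDiscreteValuationRing O] [Algebra W O]
    (L : Type u) [Field L] [Algebra W L] [Algebra O L] [IsScalarTower W O L]
    [IsFractionRing O L] where
  hfp : c0.FiniteProjOverLine
  D : CechData W B0 B1 B01 g
  hρ0 : ∀ x, D.ρ0 x = algebraMap B0 B01 x
  hρ1 : ∀ x, D.ρ1 x = algebraMap B1 B01 x
  π : O
  hπ : Irreducible π
  hg : Red68.PiGood (c0.baseChange O) π
  hint0 : ∀ b : B0, IsIntegral (Algebra.adjoin W {c0.t}) b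
  hint1 : ∀ b : B1, IsIntegral (Algebra.adjoin W {c0.s}) b
  hinv0 : ∀ qO : B0 →ₐ[W] O, Module.Invertible (O ⊗[W] B0) (ptIdeal qO)
  hinv1 : ∀ qO : B1 →ₐ[W] O, Module.Invertible (O ⊗[W] B1) (ptIdeal qO)

namespace RedInputs

variable {c0 : TwoChart W B0 B1 B01} {g : ℕ}
  {O : Type u} [CommRing O] [IsDomain O] [IsDiscreteValuationRing O] [Algebra W O]
  {L : Type u} [Field L] [Algebra W L] [Algebra O L] [IsScalarTower W O L] [IsFractionRing O L]

/-- Brick R-c, half 1 (helper68). -/
theorem extInjective (I : RedInputs c0 g O L) : ExtInjective c0 O L :=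
  Red68.extInjective_of_cechData c0 I.D I.hρ0 I.hρ1 O L I.hπ I.hg

/-- Brick R-c, half 2 (helper23). -/
theorem extSurjective (I : RedInputs c0 g O L) : ExtSurjective c0 O L (pointClasses c0) :=
  Ext23.extSurjective c0 O L I.hint0 I.hint1 I.hinv0 I.hinv1

/-- Brick R-d (helper11, helper70). -/
theorem coordExistsUnique (I : RedInputs c0 g O L) : CoordExistsUnique c0 O I.D.b :=
  Red11.coordExistsUnique c0 I.D I.hρ0 I.hρ1 O

/-- Brick R-e (helper23). -/
theorem coordInjective (I : RedInputs c0 g O L) : CoordInjective c0 O :=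
  CoordInj23.coordInjective_of_cechData c0 I.hfp I.D I.hρ0 I.hρ1 O

/-- The ambient group: classes on `X_L` generated by `L`-points. -/
noncomputable abbrev J (_I : RedInputs c0 g O L) : Subgroup (PicX c0 L) := (pointClasses c0).PicPt L

/-- The extension map `J → Pic X_O`. -/
noncomputable def ext (I : RedInputs c0 g O L) : I.J →* PicX c0 O := extend I.extInjective I.extSurjective

/-- The kernel of reduction. -/
noncomputable def J1 (I : RedInputs c0 g O L) : Subgroup I.J := J1L I.extInjective I.extSurjective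

/-- The coordinates of level `n`. -/
noncomputable def coord (I : RedInputs c0 g O L) (n : ℕ) (y : I.J1) : Fin g → RedIface75.Trunc O n :=
  coordL I.extInjective I.extSurjective I.coordExistsUnique n y

/-- Representatives of the coordinates modulo `ℓ^n`, where `(ℓ) = 𝔪^e`. -/
noncomputable def rep (I : RedInputs c0 g O L) (e n : ℕ) (y : I.J1) (i : Fin g) : O :=
  crep I.extInjective I.extSurjective I.coordExistsUnique e n y i

theorem map_ext (I : RedInputs c0 g O L) (y : I.J) : PicX.map c0 O L (I.ext y) = y.1 :=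
  map_extend I.extInjective I.extSurjective y

theorem ext_mem (I : RedInputs c0 g O L) (y : I.J) : I.ext y ∈ (pointClasses c0).PicPt O :=
  extend_mem I.extInjective I.extSurjective y

theorem mem_J1_iff (I : RedInputs c0 g O L) (y : I.J) : y ∈ I.J1 ↔ red c0 O (I.ext y) = 1 := Iff.rfl

theorem rep_mem_maximalIdeal (I : RedInputs c0 g O L) {e : ℕ} (he : 1 ≤ e) (n : ℕ) (y : I.J1) (i : Fin g) :
    I.rep e n y i ∈ IsLocalRing.maximalIdeal O :=
  crep_mem_maximalIdeal I.extInjective I.extSurjective I.coordExistsUnique e he n y i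

theorem rep_compat (I : RedInputs c0 g O L) {ℓ : O} {e : ℕ} (hℓ : Ideal.span {ℓ} = (IsLocalRing.maximalIdeal O) ^ e)
    (n : ℕ) (y : I.J1) (i : Fin g) :
    I.rep e (n + 1) y i - I.rep e n y i ∈ Ideal.span {ℓ ^ n} :=
  crep_compat I.extInjective I.extSurjective I.coordExistsUnique ℓ e hℓ n y i

theorem rep_mul (I : RedInputs c0 g O L) {ℓ : O} {e : ℕ} (hℓ : Ideal.span {ℓ} = (IsLocalRing.maximalIdeal O) ^ e)
    (n : ℕ) {F : Fin g → MvPolynomial (Fin g ⊕ Fin g) W}
    (hF : GroupLawAt I.D.b c0 O (e * n) (polyLaw F)) (y y' : I.J1) (i : Fin g) :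
    I.rep e n (y * y') i -
        MvPolynomial.aeval (Sum.elim (I.rep e n y) (I.rep e n y')) (F i) ∈ Ideal.span {ℓ ^ n} :=
  crep_mul I.extInjective I.extSurjective I.coordExistsUnique ℓ e hℓ n hF y y' i

theorem rep_inj (I : RedInputs c0 g O L) {ℓ : O} {e : ℕ} (he : 1 ≤ e)
    (hℓ : Ideal.span {ℓ} = (IsLocalRing.maximalIdeal O) ^ e) {y y' : I.J1}
    (h : ∀ n i, I.rep e n y i - I.rep e n y' i ∈ Ideal.span {ℓ ^ n}) : y = y' :=
  crep_inj I.extInjective I.extSurjective I.coordExistsUnique ℓ e he hℓ I.coordInjective h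

section Semi

variable (I : RedInputs c0 g O L) (S : ChartAut c0) (f : O →+* O) [IsLocalHom f]
  (hf : ∀ (w : W) (a : O), f (w • a) = S.σW w • f a)
  (fL : L →+* L) (hfL : ∀ (w : W) (a : L), fL (w • a) = S.σW w • fL a)
  (hcomp : ∀ a : O, fL (algebraMap O L a) = algebraMap O L (f a))

include hf hcomp in
theorem J1_mapSemi_mem (y : I.J) (hy : y ∈ I.J1) (hmem : PicX.mapSemi S fL hfL y.1 ∈ I.J) :
    (⟨PicX.mapSemi S fL hfL y.1, hmem⟩ : I.J) ∈ I.J1 :=
  J1L_mapSemi_mem I.extInjective I.extSurjective S f hf fL hfL hcomp y hy hmem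

include hf hcomp in
theorem rep_semi {ℓ : O} {e : ℕ} (hℓ : Ideal.span {ℓ} = (IsLocalRing.maximalIdeal O) ^ e)
    (hb : ∀ i, S.σ01 (I.D.b i) = I.D.b i) (n : ℕ) (y : I.J1)
    (hmem : PicX.mapSemi S fL hfL y.1.1 ∈ I.J) (i : Fin g) :
    I.rep e n ⟨⟨PicX.mapSemi S fL hfL y.1.1, hmem⟩,
        I.J1_mapSemi_mem S f hf fL hfL hcomp y.1 y.2 hmem⟩ i - f (I.rep e n y i) ∈
      Ideal.span {ℓ ^ n} :=
  crep_semi I.extInjective I.extSurjective I.coordExistsUnique ℓ e hℓ S f hf fL hfL hcomp hb n y
    hmem i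

end Semi

end RedInputs

end Fermat.Agent.T1.RedMaster75
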