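/-
T1A (S19), assembly layer G9, brick G9-H5 HUB-RED (helper76): pure WIRING of landed bricks.

For a two-chart model `M : RED.CORE.CoreIface24.TwoChartModel W K F π t B0 B1 Ov` (`W` a discrete
valuation ring with uniformiser `π`, `K = Frac W`) and the chart system
`c0 := Coh60.modelChart M : TwoChart W ↥B0 ↥B1 ↥(B0 ⊔ B1)` this file produces the MODEL-side inputs
`RedMaster75.RedInputs c0 g O L` of the REDUCTION layer, hence the four statements of
`RedIface75` (`CoordExistsUnique`, `CoordInjective`, `ExtInjective`, `ExtSurjective`), for a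
basis `b` of `H¹` which is INVARIANT under a finite group `Γ` of chart automorphisms.

Hypotheses, in three independent packages:

* `ModelHyp K π t B1 Ov` (level `W`, exports of G0 beyond `TwoChartModel`): `htrans`, `fin1`
  (for `Coh60.modelChart_finiteProjOverLine`), `hKF`, `hκ` (for `ModelCoh30.cechDataOf`);
* `GalHyp H R0` (the finite group `Γ` acting by `H : GalAct44.ChartAction c0 Γ`, `R0 = W^Γ` the
  decomposition ring, a PID): `inj`, `fix`, `inv`, `unr` (for `InvBasis25.exists_invariant_basis`);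
* `HubFacts c0 O L` (level `O`, exports of G2 / G2-X): a uniformiser `πO` of `O` with
  `Red68.PiGood (c0.baseChange O) πO`, and invertibility of the ideals of `O`-points of the two
  charts.  `hubFacts_of_equivs` derives it from a model over `L` and base change isomorphisms
  `O ⊗[W] ↥B_j ≃ₐ[O] ↥B_j'` (`ModelFacts62.Hub`), `hubFacts_of_bcData` from a
  `ModelBC51.Abstract.BCData` (`ModelFacts62.Wired`).

Main results: `exists_invariant_cechData`, `redInputs`, `hubRed` (all at once), `hubRed_bcData`.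
-/
import Mathlib
import Fermat.Agent.T1.RedMaster75
import Fermat.Agent.T1.Coh60.ModelLine
import Fermat.Agent.T1.ModelCoh30.Cech
import Fermat.Agent.T1.ModelFacts62.Wired
import Fermat.Agent.T1.InvBasis25.Main
import Fermat.Agent.T1.GalAct44

set_option autoImplicit false
set_option linter.unusedSectionVars false
set_option linter.style.haveILetI false

open TensorProduct Polynomial

namespace Fermat.Agent.T1.HubRed76

open Fermat.Agent.Jac Fermat.Agent.RED.CORE.CoreIface24 Fermat.Agent.T1.ModelCoh30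
  Fermat.Agent.T1.RedIface75 Fermat.Agent.T1.PtLine75 Fermat.Agent.T1.CechFormal70
  Fermat.Agent.T1.RedMaster75 Fermat.Agent.T1.GalAct44 Fermat.Agent.T1.Coh60
open scoped Fermat.Agent.Jac.BaseChange75

universe u v w

attribute [local instance] Coh60.algebra0 Coh60.algebra1 Coh60.isScalarTower0
  Coh60.isScalarTower1

variable {W K F : Type u} [CommRing W] [Field K] [Field F] [Algebra W K] [Algebra K F]
  [Algebra W F] [IsScalarTower W K F]
variable {π : W} {t : F} {B0 B1 : Subalgebra W F} {Ov : ValuationSubring F}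

/-! ### Level `W` -/

variable (K π t B1 Ov) in
/-- The exports of G0 (MODEL) beyond `TwoChartModel` that the REDUCTION layer consumes at the
level of `W`. -/
structure ModelHyp : Prop where
  /-- `t mod π` is transcendental over `W/π` -/
  htrans : ∀ p : W[X], (∃ c ∈ Ov, aeval t p = algebraMap W F π * c) → (C π : W[X]) ∣ p
  /-- `B1` is a finite `W[t⁻¹]`-module (explicit generators) -/
  fin1 : ∃ (r : ℕ) (e : Fin r → F), (∀ i, e i ∈ B1) ∧
    ∀ x ∈ B1, ∃ P : Fin r → W[X], x = ∑ i, aeval t⁻¹ (P i) * e i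
  /-- `K` is algebraically closed in `F` -/
  hKF : ∀ y : F, IsAlgebraic K y → ∃ c : K, algebraMap K F c = y
  /-- `W/π` is algebraically closed in the residue field of `Ov` -/
  hκ : ResAlgClosed π Ov

/-- The chart system of the model: `Coh60.modelChart M`, with the type fully elaborated (the
instances `Coh60.algebra0/1`, `Coh60.isScalarTower0/1` are local instances of this file). -/
noncomputable abbrev mc (M : TwoChartModel W K F π t B0 B1 Ov) : TwoChart W ↥B0 ↥B1 ↥(B0 ⊔ B1) :=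
  modelChart M

section LevelW

variable (M : TwoChartModel W K F π t B0 B1 Ov) (hM : ModelHyp K π t B1 Ov)

include hM in
/-- (e) the model chart is finite projective over the line. -/
theorem finiteProjOverLine : (mc M).FiniteProjOverLine :=
  modelChart_finiteProjOverLine M hM.htrans hM.fin1

/-- (INT_0) for the model chart. -/
theorem hint0 (b : ↥B0) : IsIntegral (Algebra.adjoin W {(mc M).t}) b :=
  ModelFacts62.isIntegral_adjoin_tSub0 M b

/-- (INT_1) for the model chart. -/
theorem hint1 (b : ↥B1) : IsIntegral (Algebra.adjoin W {(mc M).s}) b :=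
  ModelFacts62.isIntegral_adjoin_tSub1 M b

/-- The restriction maps of `cechDataOf` are the algebra maps of the model chart. -/
theorem cechDataOf_ρ0 {g : ℕ} (b : Fin g → ↥(B0 ⊔ B1))
    (hspan : ∀ y : ↥(B0 ⊔ B1), ∃ (c : Fin g → W) (x0 : ↥B0) (x1 : ↥B1),
      y = ∑ i, c i • b i + ρ0 B0 B1 x0 + ρ1 B0 B1 x1)
    (hind : ∀ (c : Fin g → W) (x0 : ↥B0) (x1 : ↥B1),
      ∑ i, c i • b i + ρ0 B0 B1 x0 + ρ1 B0 B1 x1 = 0 → ∀ i, c i = 0) (x : ↥B0) :
    (cechDataOf M hM.hKF b hspan hind).ρ0 x = algebraMap ↥B0 ↥(B0 ⊔ B1) x := rfl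

theorem cechDataOf_ρ1 {g : ℕ} (b : Fin g → ↥(B0 ⊔ B1))
    (hspan : ∀ y : ↥(B0 ⊔ B1), ∃ (c : Fin g → W) (x0 : ↥B0) (x1 : ↥B1),
      y = ∑ i, c i • b i + ρ0 B0 B1 x0 + ρ1 B0 B1 x1)
    (hind : ∀ (c : Fin g → W) (x0 : ↥B0) (x1 : ↥B1),
      ∑ i, c i • b i + ρ0 B0 B1 x0 + ρ1 B0 B1 x1 = 0 → ∀ i, c i = 0) (x : ↥B1) :
    (cechDataOf M hM.hKF b hspan hind).ρ1 x = algebraMap ↥B1 ↥(B0 ⊔ B1) x := rfl

end LevelW

/-! ### The Galois-invariant basis of `H¹` -/

section Galois

variable (M : TwoChartModel W K F π t B0 B1 Ov)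
variable {Γ : Type v} [Group Γ] (H : ChartAction (mc M :) Γ)
variable (R0 : Type w) [CommRing R0] [Algebra R0 W]

/-- Hypotheses on the finite group `Γ` of chart automorphisms (`Γ` = the decomposition group of the
place, acting faithfully on `W`): `R0 = W^Γ` (the decomposition ring) and the inertia is trivial. -/
structure GalHyp : Prop where
  inj : Function.Injective (algebraMap R0 W)
  fix : ∀ (γ : Γ) (r : R0), (H.S γ).σW (algebraMap R0 W r) = algebraMap R0 W r
  inv : ∀ x : W, (∀ γ : Γ, (H.S γ).σW x = x) → ∃ r : R0, algebraMap R0 W r = x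
  unr : ∀ γ : Γ, γ ≠ 1 → ∃ y : W, IsUnit (y - (H.S γ).σW y)

/-- The action of `Γ` on `W` given by a chart action. -/
@[reducible] def actW : MulSemiringAction Γ W where
  smul γ x := (H.S γ).σW x
  one_smul x := by
    show (H.S 1).σW x = x
    rw [H.oneW]; rfl
  mul_smul γ γ' x := by
    show (H.S (γ * γ')).σW x = (H.S γ).σW ((H.S γ').σW x)
    rw [H.mulW]; rfl
  smul_zero γ := map_zero (H.S γ).σW
  smul_add γ := map_add (H.S γ).σW
  smul_one γ := map_one (H.S γ).σW
  smul_mul γ := map_mul (H.S γ).σW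

/-- The action of `Γ` on the overlap chart given by a chart action. -/
@[reducible] def actB : DistribMulAction Γ ↥(B0 ⊔ B1) where
  smul γ x := (H.S γ).σ01 x
  one_smul x := by
    show (H.S 1).σ01 x = x
    rw [H.one01]; rfl
  mul_smul γ γ' x := by
    show (H.S (γ * γ')).σ01 x = (H.S γ).σ01 ((H.S γ').σ01 x)
    rw [H.mul01]; rfl
  smul_zero γ := map_zero (H.S γ).σ01
  smul_add γ := map_add (H.S γ).σ01

variable (B0 B1) in
/-- The boundaries `B0 + B1` inside the overlap chart. -/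
def bdrySub : Submodule W ↥(B0 ⊔ B1) :=
  LinearMap.range (ρ0 B0 B1).toLinearMap ⊔ LinearMap.range (ρ1 B0 B1).toLinearMap

theorem mem_bdrySub {y : ↥(B0 ⊔ B1)} :
    y ∈ bdrySub B0 B1 ↔ ∃ (x0 : ↥B0) (x1 : ↥B1), ρ0 B0 B1 x0 + ρ1 B0 B1 x1 = y := by
  unfold bdrySub
  rw [Submodule.mem_sup]
  constructor
  · rintro ⟨_, ⟨x0, rfl⟩, _, ⟨x1, rfl⟩, h⟩
    exact ⟨x0, x1, h⟩
  · rintro ⟨x0, x1, h⟩
    exact ⟨_, ⟨x0, rfl⟩, _, ⟨x1, rfl⟩, h⟩

/-- **The invariant basis** (G1' INV-BASIS applied to the model): representatives in the overlap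
chart of a `W`-basis of `H¹ = B01/(B0 + B1)`, fixed by every chart automorphism of the family, in
the literal shape of the `span`/`indep` fields of `CechFormal70.CechData`. -/
theorem exists_invariant_basis [Finite Γ] [IsDomain R0] [IsPrincipalIdealRing R0]
    (hκ : ResAlgClosed π Ov) (hG : GalHyp M H R0) :
    ∃ (g : ℕ) (b : Fin g → ↥(B0 ⊔ B1)),
      (∀ (γ : Γ) (i : Fin g), (H.S γ).σ01 (b i) = b i) ∧
      (∀ y : ↥(B0 ⊔ B1), ∃ (c : Fin g → W) (x0 : ↥B0) (x1 : ↥B1),
        y = ∑ i, c i • b i + ρ0 B0 B1 x0 + ρ1 B0 B1 x1) ∧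
      (∀ (c : Fin g → W) (x0 : ↥B0) (x1 : ↥B1),
        ∑ i, c i • b i + ρ0 B0 B1 x0 + ρ1 B0 B1 x1 = 0 → ∀ i, c i = 0) := by
  haveI : IsDomain W := isDomain M
  letI : MulSemiringAction Γ W := actW M H
  letI : DistribMulAction Γ ↥(B0 ⊔ B1) := actB M H
  haveI : SMulCommClass Γ R0 W := ⟨fun γ r x => by
    show (H.S γ).σW (r • x) = r • (H.S γ).σW x
    rw [Algebra.smul_def, map_mul, hG.fix, ← Algebra.smul_def]⟩
  haveI : Algebra.IsInvariant R0 W Γ := ⟨fun x hx => hG.inv x hx⟩
  have hsemi : ∀ (γ : Γ) (r : W) (x : ↥(B0 ⊔ B1)), γ • (r • x) = (γ • r) • (γ • x) :=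
    fun γ r x => (H.S γ).semi01 r x
  have hC : ∀ (γ : Γ), ∀ c ∈ bdrySub B0 B1, γ • c ∈ bdrySub B0 B1 := by
    intro γ c hc
    obtain ⟨x0, x1, rfl⟩ := mem_bdrySub.1 hc
    rw [mem_bdrySub]
    refine ⟨(H.S γ).σ0 x0, (H.S γ).σ1 x1, ?_⟩
    show _ = (H.S γ).σ01 (ρ0 B0 B1 x0 + ρ1 B0 B1 x1)
    rw [map_add]
    exact (congrArg₂ (· + ·) ((H.S γ).comm0 x0) ((H.S γ).comm1 x1)).symm
  have hspan0 : ∀ y : ↥(B0 ⊔ B1), ∃ c : Fin (genus M hκ) → W,
      y - ∑ i, c i • h1Basis M hκ i ∈ bdrySub B0 B1 := by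
    intro y
    obtain ⟨c, x0, x1, hy⟩ := h1Basis_span M hκ y
    refine ⟨c, mem_bdrySub.2 ⟨x0, x1, ?_⟩⟩
    rw [hy]; abel
  have hind0 : ∀ c : Fin (genus M hκ) → W,
      ∑ i, c i • h1Basis M hκ i ∈ bdrySub B0 B1 → c = 0 := by
    intro c hc
    obtain ⟨x0, x1, hx⟩ := mem_bdrySub.1 hc
    funext i
    refine h1Basis_indep M hκ c (-x0) (-x1) ?_ i
    rw [← hx, map_neg, map_neg]; abel
  obtain ⟨b', hinv, hspan', hind'⟩ := InvBasis25.exists_invariant_basis (R := R0) hG.inj hG.unr
    hsemi (bdrySub B0 B1) hC (h1Basis M hκ) hspan0 hind0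
  refine ⟨genus M hκ, b', hinv, fun y => ?_, fun c x0 x1 h => ?_⟩
  · obtain ⟨c, hc⟩ := hspan' y
    obtain ⟨x0, x1, hx⟩ := mem_bdrySub.1 hc
    refine ⟨c, x0, x1, ?_⟩
    rw [add_assoc, hx]; abel
  · have h1 : ∑ i, c i • b' i ∈ bdrySub B0 B1 := by
      rw [mem_bdrySub]
      refine ⟨-x0, -x1, ?_⟩
      rw [map_neg, map_neg]
      linear_combination (-1 : ↥(B0 ⊔ B1)) * h
    intro i
    rw [hind' c h1]; rfl

end Galois

/-! ### Level `O`: the hub facts -/

section HubFacts

variable {A C0 C1 C01 : Type u} [CommRing A] [CommRing C0] [CommRing C1] [CommRing C01]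
  [Algebra A C0] [Algebra A C1] [Algebra A C01] [Algebra C0 C01] [Algebra C1 C01]
  [IsScalarTower A C0 C01] [IsScalarTower A C1 C01]

/-- The exports of G2 (MODEL-BC) / G2-X (MODEL-FACTS) that the REDUCTION layer consumes at the
level of a discrete valuation ring `O` over the base `A` of a chart system `c0`: the hub rings are
`O ⊗[A] C_j`. -/
structure HubFacts (c0 : TwoChart A C0 C1 C01) (O : Type u) [CommRing O] [Algebra A O] :
    Prop where
  /-- a uniformiser of `O` whose fibre on the hub is good -/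
  exists_pi : ∃ πO : O, Irreducible πO ∧ Red68.PiGood (c0.baseChange O) πO
  /-- the ideal of every `O`-point of the hub chart `0` is invertible -/
  hinv0 : ∀ qO : C0 →ₐ[A] O, Module.Invertible (O ⊗[A] C0) (ptIdeal qO)
  /-- the ideal of every `O`-point of the hub chart `1` is invertible -/
  hinv1 : ∀ qO : C1 →ₐ[A] O, Module.Invertible (O ⊗[A] C1) (ptIdeal qO)

end HubFacts

section LevelO

variable (M : TwoChartModel W K F π t B0 B1 Ov)
variable {O L F' : Type u} [CommRing O] [Field L] [Field F'] [Algebra O L] [Algebra L F']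
  [Algebra O F'] [IsScalarTower O L F'] [Algebra W O]
  {π' : O} {t' : F'} {B0' B1' : Subalgebra O F'} {Ov' : ValuationSubring F'}

/-- `HubFacts` from a two-chart model over `L` and base change isomorphisms of the three charts
(helper62's `ModelFacts62.Hub`; the isomorphisms are helper51's G2). -/
theorem hubFacts_of_equivs (hL : TwoChartModel O L F' π' t' B0' B1' Ov')
    (e0 : (O ⊗[W] ↥B0) ≃ₐ[O] ↥B0') (e1 : (O ⊗[W] ↥B1) ≃ₐ[O] ↥B1')
    (e01 : (O ⊗[W] ↥(B0 ⊔ B1)) ≃ₐ[O] ↥(B0' ⊔ B1'))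
    (he0 : ((e0 ((1 : O) ⊗ₜ[W] (⟨t, M.t_mem⟩ : ↥B0)) : ↥B0') : F') = t')
    (he1 : ((e1 ((1 : O) ⊗ₜ[W] (⟨t⁻¹, M.tinv_mem⟩ : ↥B1)) : ↥B1') : F') = t'⁻¹)
    (ht' : ∀ a : L, algebraMap L F' a ≠ t') : HubFacts (mc M :) O where
  exists_pi := ⟨π', pi_irreducible hL,
    { reg0 := ModelFacts62.hub_pi_regular hL B0' hL.le_Ov0 e0
      reg1 := ModelFacts62.hub_pi_regular hL B1' hL.le_Ov1 e1
      reg01 := ModelFacts62.hub_pi_regular hL (B0' ⊔ B1') (sup_le_Ov hL) e01
      prime0 := ModelFacts62.hub_prime_pi0 hL e0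
      prime1 := ModelFacts62.hub_prime_pi1 hL e1
      notUnit01 := ModelFacts62.hub_pi_not_isUnit01 hL e01 }⟩
  hinv0 := fun q => ModelFacts62.hub_invertible_ptIdeal0 hL e0 _ he0 ht' q
  hinv1 := fun q => ModelFacts62.hub_invertible_ptIdeal1 hL e1 _ he1 ht' q

open Fermat.Agent.T1.ModelBC51.Abstract in
/-- `HubFacts` from base change data between the model over `K` and a model over `L`
(helper51's `ModelBC51` + helper62's `ModelFacts62.Wired`). -/
theorem hubFacts_of_bcData [CharZero K] (D : BCData K L π π' Ov Ov')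
    (halg : ∀ r : W, algebraMap W O r = D.iR r)
    (hL : TwoChartModel O L F' π' (D.iF t) B0' B1' Ov')
    (ht' : ∀ a : L, algebraMap L F' a ≠ D.iF t) : HubFacts (mc M :) O where
  exists_pi := ⟨π', pi_irreducible hL,
    { reg0 := ModelFacts62.Wired.pi_regular0 D halg M hL
      reg1 := ModelFacts62.Wired.pi_regular1 D halg M hL
      reg01 := ModelFacts62.Wired.pi_regular01 D halg M hL
      prime0 := ModelFacts62.Wired.prime_pi_hub0 D halg M hL
      prime1 := ModelFacts62.Wired.prime_pi_hub1 D halg M hL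
      notUnit01 := ModelFacts62.Wired.pi_not_isUnit_hub01 D halg M hL }⟩
  hinv0 := fun q => ModelFacts62.Wired.invertible_ptIdeal0 D halg M hL ht' q
  hinv1 := fun q => ModelFacts62.Wired.invertible_ptIdeal1 D halg M hL ht' q

end LevelO

/-! ### The inputs of the REDUCTION layer -/

section Main

variable (M : TwoChartModel W K F π t B0 B1 Ov) (hM : ModelHyp K π t B1 Ov)

/-- **The MODEL-side inputs of the REDUCTION layer** for the model chart, a prescribed family `b`
of representatives of a basis of `H¹`, and a discrete valuation ring `O` over `W` with the hub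
facts. -/
noncomputable def redInputs {g : ℕ} (b : Fin g → ↥(B0 ⊔ B1))
    (hspan : ∀ y : ↥(B0 ⊔ B1), ∃ (c : Fin g → W) (x0 : ↥B0) (x1 : ↥B1),
      y = ∑ i, c i • b i + ρ0 B0 B1 x0 + ρ1 B0 B1 x1)
    (hind : ∀ (c : Fin g → W) (x0 : ↥B0) (x1 : ↥B1),
      ∑ i, c i • b i + ρ0 B0 B1 x0 + ρ1 B0 B1 x1 = 0 → ∀ i, c i = 0)
    (O : Type u) [CommRing O] [IsDomain O] [IsDiscreteValuationRing O] [Algebra W O]
    (L : Type u) [Field L] [Algebra W L] [Algebra O L] [IsScalarTower W O L] [IsFractionRing O L]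
    (hO : HubFacts (mc M :) O) : RedInputs (mc M :) g O L where
  hfp := finiteProjOverLine M hM
  D := cechDataOf M hM.hKF b hspan hind
  hρ0 := fun _ => rfl
  hρ1 := fun _ => rfl
  π := hO.exists_pi.choose
  hπ := hO.exists_pi.choose_spec.1
  hg := hO.exists_pi.choose_spec.2
  hint0 := hint0 M
  hint1 := hint1 M
  hinv0 := hO.hinv0
  hinv1 := hO.hinv1

@[simp] theorem redInputs_b {g : ℕ} (b : Fin g → ↥(B0 ⊔ B1))
    (hspan : ∀ y : ↥(B0 ⊔ B1), ∃ (c : Fin g → W) (x0 : ↥B0) (x1 : ↥B1),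
      y = ∑ i, c i • b i + ρ0 B0 B1 x0 + ρ1 B0 B1 x1)
    (hind : ∀ (c : Fin g → W) (x0 : ↥B0) (x1 : ↥B1),
      ∑ i, c i • b i + ρ0 B0 B1 x0 + ρ1 B0 B1 x1 = 0 → ∀ i, c i = 0)
    (O : Type u) [CommRing O] [IsDomain O] [IsDiscreteValuationRing O] [Algebra W O]
    (L : Type u) [Field L] [Algebra W L] [Algebra O L] [IsScalarTower W O L] [IsFractionRing O L]
    (hO : HubFacts (mc M :) O) :
    (redInputs M hM b hspan hind O L hO).D.b = b := rfl

include hM in
/-- The four statements of `RedIface75` for the model chart and a basis `b` of `H¹`. -/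
theorem red_of_basis {g : ℕ} (b : Fin g → ↥(B0 ⊔ B1))
    (hspan : ∀ y : ↥(B0 ⊔ B1), ∃ (c : Fin g → W) (x0 : ↥B0) (x1 : ↥B1),
      y = ∑ i, c i • b i + ρ0 B0 B1 x0 + ρ1 B0 B1 x1)
    (hind : ∀ (c : Fin g → W) (x0 : ↥B0) (x1 : ↥B1),
      ∑ i, c i • b i + ρ0 B0 B1 x0 + ρ1 B0 B1 x1 = 0 → ∀ i, c i = 0)
    (O : Type u) [CommRing O] [IsDomain O] [IsDiscreteValuationRing O] [Algebra W O]
    (L : Type u) [Field L] [Algebra W L] [Algebra O L] [IsScalarTower W O L] [IsFractionRing O L]
    (hO : HubFacts (mc M :) O) :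
    CoordExistsUnique (mc M :) O b ∧ CoordInjective (mc M :) O ∧
      ExtInjective (mc M :) O L ∧
      ExtSurjective (mc M :) O L (pointClasses (mc M :)) :=
  ⟨(redInputs M hM b hspan hind O L hO).coordExistsUnique,
    (redInputs M hM b hspan hind O L hO).coordInjective,
    (redInputs M hM b hspan hind O L hO).extInjective,
    (redInputs M hM b hspan hind O L hO).extSurjective⟩

variable {Γ : Type v} [Group Γ] [Finite Γ] (H : ChartAction (mc M :) Γ)
  (R0 : Type w) [CommRing R0] [IsDomain R0] [IsPrincipalIdealRing R0] [Algebra R0 W]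
  (hG : GalHyp M H R0)

include hM hG in
/-- **G9-H5 HUB-RED.**  For the chart system `c0 = modelChart M` of a two-chart model with the
`W`-level hypotheses `hM` and a finite group `Γ` of chart automorphisms with `W^Γ = R0` and trivial
inertia: there are `g` and `b : Fin g → B01`, FIXED by every `(H.S γ).σ01`, such that for every
discrete valuation ring `O` over `W` with fraction field `L` and the hub facts, there are
`RedInputs c0 g O L` with `D.b = b`; in particular the four statements `CoordExistsUnique`,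
`CoordInjective`, `ExtInjective`, `ExtSurjective` hold (the fields `hb`, `hEU`, `hInj`, `hExt` of
`Assembly41.HubData`). -/
theorem hubRed :
    ∃ (g : ℕ) (b : Fin g → ↥(B0 ⊔ B1)),
      (∀ (γ : Γ) (i : Fin g), (H.S γ).σ01 (b i) = b i) ∧
      ∀ (O : Type u) [CommRing O] [IsDomain O] [IsDiscreteValuationRing O] [Algebra W O]
        (L : Type u) [Field L] [Algebra W L] [Algebra O L] [IsScalarTower W O L]
        [IsFractionRing O L], HubFacts (mc M :) O →
        (∃ I : RedInputs (mc M :) g O L, I.D.b = b) ∧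
        CoordExistsUnique (mc M :) O b ∧ CoordInjective (mc M :) O ∧
        ExtInjective (mc M :) O L ∧
        ExtSurjective (mc M :) O L (pointClasses (mc M :)) := by
  obtain ⟨g, b, hb, hspan, hind⟩ := exists_invariant_basis M H R0 hM.hκ hG
  refine ⟨g, b, hb, fun O _ _ _ _ L _ _ _ _ _ hO => ⟨⟨redInputs M hM b hspan hind O L hO, rfl⟩, ?_⟩⟩
  exact red_of_basis M hM b hspan hind O L hO

include hM in
/-- Variant of `hubRed` without a group action: the basis `h1Basis M hκ` of `ModelCoh30`. -/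
theorem hubRed_h1Basis
    (O : Type u) [CommRing O] [IsDomain O] [IsDiscreteValuationRing O] [Algebra W O]
    (L : Type u) [Field L] [Algebra W L] [Algebra O L] [IsScalarTower W O L] [IsFractionRing O L]
    (hO : HubFacts (mc M :) O) :
    CoordExistsUnique (mc M :) O (h1Basis M hM.hκ) ∧ CoordInjective (mc M :) O ∧
      ExtInjective (mc M :) O L ∧
      ExtSurjective (mc M :) O L (pointClasses (mc M :)) :=
  red_of_basis M hM (h1Basis M hM.hκ) (h1Basis_span M hM.hκ) (h1Basis_indep M hM.hκ) O L hO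

end Main

end Fermat.Agent.T1.HubRed76
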