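import Mathlib
import Fermat.Agent.T1.PtLine75
import Fermat.Agent.T1.CentresClass47
import Fermat.Agent.T1.Unram47

/-!
# T1A (S19), REDUCTION layer: the CENTRES field of `Assembly41.HubData`  (helper75)

Setting of `Assembly41.HubData`: `c0 : TwoChart W B0 B1 B01`, `O` a DVR over `W` with fraction field
`L`, a family `S σ : ChartAut c0`, `fO σ : O →+* O`, `fL σ : L →+* L` (`σ ∈ G_ℓ = Gp ℓ`) with
`fL σ` semilinear over `(S σ).σW` and `fL σ ∘ (O → L) = (O → L) ∘ fO σ`.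

* `HasCentre0 ℓ S fO q`, `HasCentre1 ℓ S fO q` : the `O`-point `q` of a chart has a CENTRE: an
  `O`-point `q'` of the same chart, congruent to `q` modulo the maximal ideal, and fixed
  (`q' ∘ (S σ).σ_j = fO σ ∘ q'`) by every `σ` fixing pointwise a finite unramified extension `E` of
  `ℚ_ℓ` (this is the conclusion of helper92's `Centres92.ToLocal.exists_centre_local` /
  helper94's `Centres94.ModelCentres.exists_centre0/1` once the centre has values in `O`; there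
  `(S σ).σ_j = id` for `σ` fixing `ℚ_ℓ(μ_{m₀})`);
* `IsCentred ℓ c0 O L S fL fL_semi z` : the class `z ∈ Pic X_L` is congruent modulo the image of
  `J̃1(O)` to a class of `PicPt L` fixed by `PicX.mapSemi (S σ) (fL σ)` for all `σ` fixing some
  `ℚ_ℓ(μ_m)`, `ℓ ∤ m`;   it is a SUBGROUP property (`isCentred_one/mul/inv/closure`);
* `isCentred_ptClass0/1` : the generic fibre of an `O`-point having a centre is centred
  (uses helper47's `CentresClass47.red_ptClass0_eq` and `PtLine75.mapSemi_ptClass0`);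
* `CentredPts` : the set of these classes;
* **`centres`** : the field `centres` of `Assembly41.HubData`, verbatim, for every small model
  `φ : J →+ Additive (PicX c0 L)` (injective, range `⊇ PicPt L`, `φ ∘ act σ = mapSemi ∘ φ`) and every
  `emb : M →+ J` whose classes lie in the subgroup generated by `CentredPts`.
-/

set_option autoImplicit false
set_option linter.unusedSectionVars false

open TensorProduct

namespace Fermat.Agent.T1.CentresFinal75

open Fermat.Agent.Jac Fermat.Agent.T1.RedIface75 Fermat.Agent.T1.PtLine75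
open Fermat.Agent.TW.B5.Iface Fermat.Agent.TW.B5.LG83W Fermat.Agent.TW.B5.LG83X
open Fermat.Agent.T1.Unram47

universe u

variable (ℓ : ℕ) [Fact ℓ.Prime]
variable {W B0 B1 B01 : Type u} [CommRing W] [CommRing B0] [CommRing B1] [CommRing B01]
  [Algebra W B0] [Algebra W B1] [Algebra W B01] [Algebra B0 B01] [Algebra B1 B01]
  [IsScalarTower W B0 B01] [IsScalarTower W B1 B01]
  (c0 : TwoChart W B0 B1 B01)
  (O L : Type u) [CommRing O] [IsDomain O] [IsDiscreteValuationRing O] [Algebra W O]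
  [Field L] [Algebra W L] [Algebra O L] [IsScalarTower W O L] [IsFractionRing O L]

/-! ### Pointwise centres -/

section Defs

variable {c0} {O}
variable (S : Gp ℓ → ChartAut c0) (fO : Gp ℓ → O →+* O)

/-- The `O`-point `q` of chart 0 has a centre. -/
def HasCentre0 (q : B0 →ₐ[W] O) : Prop :=
  ∃ q' : B0 →ₐ[W] O, (∀ b, q' b - q b ∈ IsLocalRing.maximalIdeal O) ∧
    ∃ E : IntermediateField ℚ_[ℓ] (Kbar ℓ), FiniteDimensional ℚ_[ℓ] E ∧ IsUnramifiedField ℓ E ∧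
      ∀ σ : Gp ℓ, (∀ e ∈ E, σ e = e) → ∀ b, q' ((S σ).σ0 b) = fO σ (q' b)

/-- The `O`-point `q` of chart 1 has a centre. -/
def HasCentre1 (q : B1 →ₐ[W] O) : Prop :=
  ∃ q' : B1 →ₐ[W] O, (∀ b, q' b - q b ∈ IsLocalRing.maximalIdeal O) ∧
    ∃ E : IntermediateField ℚ_[ℓ] (Kbar ℓ), FiniteDimensional ℚ_[ℓ] E ∧ IsUnramifiedField ℓ E ∧
      ∀ σ : Gp ℓ, (∀ e ∈ E, σ e = e) → ∀ b, q' ((S σ).σ1 b) = fO σ (q' b)

end Defs

/-! ### Centred classes form a subgroup -/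

section Class

variable (S : Gp ℓ → ChartAut c0) (fL : Gp ℓ → L →+* L)
  (fL_semi : ∀ σ (w : W) (a : L), fL σ (w • a) = (S σ).σW w • fL σ a)

/-- The class `z ∈ Pic X_L` has a class-level centre. -/
def IsCentred (z : PicX c0 L) : Prop :=
  ∃ x ∈ (pointClasses c0).PicPt L,
    (∃ w ∈ J1 c0 O, PicX.map c0 O L w = z * x⁻¹) ∧
    ∃ m : ℕ, ¬ ℓ ∣ m ∧ ∀ σ : Gp ℓ, (∀ e ∈ muField ℓ m, σ e = e) →
      PicX.mapSemi (S σ) (fL σ) (fL_semi σ) x = x

variable {ℓ c0 O L S fL fL_semi}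

theorem isCentred_one : IsCentred ℓ c0 O L S fL fL_semi 1 := by
  have hp : ℓ.Prime := Fact.out
  refine ⟨1, Subgroup.one_mem _, ⟨1, Subgroup.one_mem _, ?_⟩, 1,
    fun h => hp.one_lt.ne' (Nat.dvd_one.1 h), fun σ _ => map_one _⟩
  rw [map_one, inv_one, mul_one]

theorem IsCentred.mul {z₁ z₂ : PicX c0 L} (h₁ : IsCentred ℓ c0 O L S fL fL_semi z₁)
    (h₂ : IsCentred ℓ c0 O L S fL fL_semi z₂) : IsCentred ℓ c0 O L S fL fL_semi (z₁ * z₂) := by
  have hp : ℓ.Prime := Fact.out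
  obtain ⟨x₁, hx₁, ⟨w₁, hw₁, hwz₁⟩, m₁, hm₁, hf₁⟩ := h₁
  obtain ⟨x₂, hx₂, ⟨w₂, hw₂, hwz₂⟩, m₂, hm₂, hf₂⟩ := h₂
  refine ⟨x₁ * x₂, Subgroup.mul_mem _ hx₁ hx₂, ⟨w₁ * w₂, Subgroup.mul_mem _ hw₁ hw₂, ?_⟩,
    m₁ * m₂, ?_, fun σ hσ => ?_⟩
  · rw [map_mul, hwz₁, hwz₂, mul_inv]
    exact mul_mul_mul_comm _ _ _ _
  · intro h
    rcases (Nat.Prime.dvd_mul hp).1 h with h | h
    · exact hm₁ h
    · exact hm₂ h
  · rw [map_mul,
      hf₁ σ (fun e he => hσ e (muField_le_of_dvd ℓ (dvd_mul_right m₁ m₂) he)),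
      hf₂ σ (fun e he => hσ e (muField_le_of_dvd ℓ (dvd_mul_left m₂ m₁) he))]

theorem IsCentred.inv {z : PicX c0 L} (h : IsCentred ℓ c0 O L S fL fL_semi z) :
    IsCentred ℓ c0 O L S fL fL_semi z⁻¹ := by
  obtain ⟨x, hx, ⟨w, hw, hwz⟩, m, hm, hf⟩ := h
  refine ⟨x⁻¹, Subgroup.inv_mem _ hx, ⟨w⁻¹, Subgroup.inv_mem _ hw, ?_⟩, m, hm, fun σ hσ => ?_⟩
  · rw [map_inv, hwz, mul_inv]
  · rw [map_inv, hf σ hσ]

/-- The centred classes form a subgroup. -/
theorem isCentred_of_mem_closure {T : Set (PicX c0 L)}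
    (hT : ∀ z ∈ T, IsCentred ℓ c0 O L S fL fL_semi z) {z : PicX c0 L}
    (hz : z ∈ Subgroup.closure T) : IsCentred ℓ c0 O L S fL fL_semi z := by
  induction hz using Subgroup.closure_induction with
  | mem z hz => exact hT z hz
  | one => exact isCentred_one
  | mul z₁ z₂ _ _ ih₁ ih₂ => exact ih₁.mul ih₂
  | inv z _ ih => exact ih.inv

end Class

/-! ### Points having a centre give centred classes -/

section Points

variable (S : Gp ℓ → ChartAut c0) (fO : Gp ℓ → O →+* O) (fL : Gp ℓ → L →+* L)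
  (fL_semi : ∀ σ (w : W) (a : L), fL σ (w • a) = (S σ).σW w • fL σ a)
  (fOL : ∀ σ (a : O), fL σ (algebraMap O L a) = algebraMap O L (fO σ a))
  (hb0 : ∀ σ, Function.Bijective (semiTensor (S σ).σW (fL σ) (S σ).σ0 (fL_semi σ) (S σ).semi0))
  (hb1 : ∀ σ, Function.Bijective (semiTensor (S σ).σW (fL σ) (S σ).σ1 (fL_semi σ) (S σ).semi1))
  (hσ0 : ∀ σ, Function.Surjective (S σ).σ0) (hσ1 : ∀ σ, Function.Surjective (S σ).σ1)

include fOL hb0 hb1 hσ0 in
/-- The generic fibre of an `O`-point of chart 0 having a centre is centred. -/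
theorem isCentred_ptClass0
    (hinv0 : ∀ q : B0 →ₐ[W] O, Module.Invertible (O ⊗[W] B0) (ptIdeal q))
    (q : B0 →ₐ[W] O) (hc : HasCentre0 ℓ S fO q)
    (hL : Module.Invertible (L ⊗[W] B0) (ptIdeal (ptComp L q))) :
    IsCentred ℓ c0 O L S fL fL_semi (ptClass0 c0 (ptComp L q) hL) := by
  obtain ⟨q', hcong, E, hfd, hur, hfix⟩ := hc
  obtain ⟨m, hm, hEm⟩ := unramLeMu ℓ E hfd hur
  have hL' : Module.Invertible (L ⊗[W] B0) (ptIdeal (ptComp L q')) :=
    invertible_ptIdeal_ptComp0 c0 L q' (hinv0 q')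
  refine ⟨ptClass0 c0 (ptComp L q') hL', ptClass0_mem_picPt c0 _ hL',
    ⟨ptClass0 c0 q (hinv0 q) * (ptClass0 c0 q' (hinv0 q'))⁻¹, ?_, ?_⟩, m, hm, fun σ hσ => ?_⟩
  · show red c0 O _ = 1
    unfold red
    rw [map_mul, map_inv, CentresClass47.red_ptClass0_eq c0 O q q' (hinv0 q) (hinv0 q')
      (fun b => ?_), mul_inv_cancel]
    have h := hcong b
    rw [← Ideal.Quotient.eq] at h
    exact h.symm
  · rw [map_mul, map_inv, map_ptClass0 c0 L q (hinv0 q) hL, map_ptClass0 c0 L q' (hinv0 q') hL']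
  · refine mapSemi_ptClass0 (S σ) (fL σ) (fL_semi σ) (hb0 σ) (hb1 σ) (hσ0 σ) _ _ (fun b => ?_)
      hL' hL'
    rw [ptComp_apply, ptComp_apply, fOL, hfix σ (fun e he => hσ e (hEm he)) b]

include fOL hb0 hb1 hσ1 in
/-- The generic fibre of an `O`-point of chart 1 having a centre is centred. -/
theorem isCentred_ptClass1
    (hinv1 : ∀ q : B1 →ₐ[W] O, Module.Invertible (O ⊗[W] B1) (ptIdeal q))
    (q : B1 →ₐ[W] O) (hc : HasCentre1 ℓ S fO q)
    (hL : Module.Invertible (L ⊗[W] B1) (ptIdeal (ptComp L q))) :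
    IsCentred ℓ c0 O L S fL fL_semi (ptClass1 c0 (ptComp L q) hL) := by
  obtain ⟨q', hcong, E, hfd, hur, hfix⟩ := hc
  obtain ⟨m, hm, hEm⟩ := unramLeMu ℓ E hfd hur
  have hL' : Module.Invertible (L ⊗[W] B1) (ptIdeal (ptComp L q')) :=
    invertible_ptIdeal_ptComp1 c0 L q' (hinv1 q')
  refine ⟨ptClass1 c0 (ptComp L q') hL', ptClass1_mem_picPt c0 _ hL',
    ⟨ptClass1 c0 q (hinv1 q) * (ptClass1 c0 q' (hinv1 q'))⁻¹, ?_, ?_⟩, m, hm, fun σ hσ => ?_⟩
  · show red c0 O _ = 1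
    unfold red
    rw [map_mul, map_inv, CentresClass47.red_ptClass1_eq c0 O q q' (hinv1 q) (hinv1 q')
      (fun b => ?_), mul_inv_cancel]
    have h := hcong b
    rw [← Ideal.Quotient.eq] at h
    exact h.symm
  · rw [map_mul, map_inv, map_ptClass1 c0 L q (hinv1 q) hL, map_ptClass1 c0 L q' (hinv1 q') hL']
  · refine mapSemi_ptClass1 (S σ) (fL σ) (fL_semi σ) (hb0 σ) (hb1 σ) (hσ1 σ) _ _ (fun b => ?_)
      hL' hL'
    rw [ptComp_apply, ptComp_apply, fOL, hfix σ (fun e he => hσ e (hEm he)) b]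

/-- The generic fibres of the `O`-points having a centre. -/
def CentredPts : Set (PicX c0 L) :=
  {z | (∃ (q : B0 →ₐ[W] O) (h : Module.Invertible (L ⊗[W] B0) (ptIdeal (ptComp L q))),
          HasCentre0 ℓ S fO q ∧ z = ptClass0 c0 (ptComp L q) h) ∨
       (∃ (q : B1 →ₐ[W] O) (h : Module.Invertible (L ⊗[W] B1) (ptIdeal (ptComp L q))),
          HasCentre1 ℓ S fO q ∧ z = ptClass1 c0 (ptComp L q) h)}

include fOL hb0 hb1 hσ0 hσ1 in
/-- **Class-level centres on the generic fibre.** -/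
theorem isCentred_of_mem_closure_centredPts
    (hinv0 : ∀ q : B0 →ₐ[W] O, Module.Invertible (O ⊗[W] B0) (ptIdeal q))
    (hinv1 : ∀ q : B1 →ₐ[W] O, Module.Invertible (O ⊗[W] B1) (ptIdeal q))
    {z : PicX c0 L} (hz : z ∈ Subgroup.closure (CentredPts ℓ c0 O L S fO)) :
    IsCentred ℓ c0 O L S fL fL_semi z := by
  refine isCentred_of_mem_closure (fun z hz => ?_) hz
  rcases hz with ⟨q, h, hc, rfl⟩ | ⟨q, h, hc, rfl⟩
  · exact isCentred_ptClass0 ℓ c0 O L S fO fL fL_semi fOL hb0 hb1 hσ0 hinv0 q hc h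
  · exact isCentred_ptClass1 ℓ c0 O L S fO fL fL_semi fOL hb0 hb1 hσ1 hinv1 q hc h

end Points

/-! ### The field `centres` of `Assembly41.HubData` -/

section Final

variable (S : Gp ℓ → ChartAut c0) (fO : Gp ℓ → O →+* O) (fL : Gp ℓ → L →+* L)
  (fL_semi : ∀ σ (w : W) (a : L), fL σ (w • a) = (S σ).σW w • fL σ a)
  (fOL : ∀ σ (a : O), fL σ (algebraMap O L a) = algebraMap O L (fO σ a))
  (hb0 : ∀ σ, Function.Bijective (semiTensor (S σ).σW (fL σ) (S σ).σ0 (fL_semi σ) (S σ).semi0))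
  (hb1 : ∀ σ, Function.Bijective (semiTensor (S σ).σW (fL σ) (S σ).σ1 (fL_semi σ) (S σ).semi1))
  (hσ0 : ∀ σ, Function.Surjective (S σ).σ0) (hσ1 : ∀ σ, Function.Surjective (S σ).σ1)
  (hinv0 : ∀ q : B0 →ₐ[W] O, Module.Invertible (O ⊗[W] B0) (ptIdeal q))
  (hinv1 : ∀ q : B1 →ₐ[W] O, Module.Invertible (O ⊗[W] B1) (ptIdeal q))
  {J M : Type*} [AddCommGroup J] [AddCommGroup M]
  (φ : J →+ Additive (PicX c0 L)) (φ_inj : Function.Injective φ)
  (φ_range : ∀ z ∈ (pointClasses c0).PicPt L, ∃ x : J, Additive.toMul (φ x) = z)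
  (act : Gp ℓ → J →+ J)
  (φ_act : ∀ σ x, Additive.toMul (φ (act σ x)) =
    PicX.mapSemi (S σ) (fL σ) (fL_semi σ) (Additive.toMul (φ x)))
  (emb : M →+ J)

include fOL hb0 hb1 hσ0 hσ1 hinv0 hinv1 φ_inj φ_range φ_act in
/-- **The field `centres` of `Assembly41.HubData`** from pointwise centres: if the class of
`emb y` lies in the subgroup generated by the generic fibres of the `O`-points having a centre, then
`emb y` is congruent modulo the kernel of reduction to an element of `J` fixed by an open subgroup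
of inertia type. -/
theorem centres
    (hM : ∀ y : M, Additive.toMul (φ (emb y)) ∈ Subgroup.closure (CentredPts ℓ c0 O L S fO)) :
    ∀ y : M, ∃ x : J,
      (∃ z ∈ J1 c0 O, PicX.map c0 O L z = Additive.toMul (φ (emb y - x))) ∧
      ∃ E : IntermediateField ℚ_[ℓ] (Kbar ℓ), FiniteDimensional ℚ_[ℓ] E ∧ IsUnramifiedField ℓ E ∧
        ∀ σ : Gp ℓ, (∀ e ∈ E, σ e = e) → act σ x = x := by
  intro y
  obtain ⟨x', hx', ⟨w, hw, hwz⟩, m, hm, hfix⟩ :=
    isCentred_of_mem_closure_centredPts ℓ c0 O L S fO fL fL_semi fOL hb0 hb1 hσ0 hσ1 hinv0 hinv1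
      (hM y)
  obtain ⟨x, hx⟩ := φ_range x' hx'
  refine ⟨x, ⟨w, hw, ?_⟩, muField ℓ m, finiteDimensional_muField ℓ (ne_zero_of_not_dvd ℓ hm),
    isUnramifiedField_muField ℓ hm, fun σ hσ => ?_⟩
  · rw [hwz, map_sub, ← hx]
    rfl
  · apply φ_inj
    apply Additive.toMul.injective
    rw [φ_act, hx, hfix σ hσ]

end Final

end Fermat.Agent.T1.CentresFinal75
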