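import Mathlib
import Fermat.Agent.T1.CentresFinal75
import Fermat.Agent.T1.GalAct44
import Fermat.Agent.T1.Ext23.Surj

/-!
# T1A (S19), REDUCTION layer: bridges around `CentresFinal75.centres`  (helper75)

* `centres_of_action` : `CentresFinal75.centres` in the vocabulary of helper44's `GalAct44`
  (`H : ChartAction c0 (Gp ℓ)`, `RO : SemiAction H O`, `RL : SemiAction H L`): the bijectivity /
  surjectivity hypotheses are automatic.
* `forall_mem_range_of_adjoin` : a `W`-algebra map `B → Ω` sending a generating set of `B` into the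
  range of `j : L →+* Ω` has all its values in the range of `j`.
* `exists_centre_point` (generic chart), `hasCentre0_of_local`, `hasCentre1_of_local` : from the
  OUTPUT of helper92's `Centres92.ToLocal.exists_centre_local` (a centre `q'Ω : B →ₐ[W] Ω` in the big
  field `Ω = ℚ̄`: integral, congruent to `q`, fixed by `res σ` for `σ` fixing `ℚ_ℓ(μ_m)`) to
  `CentresFinal75.HasCentre0/1` over `O = A ∩ L`, provided the values of `q'Ω` lie in `L`.
  Hypotheses in the shape of the fields of `Assembly41.HubData` (`jL`, `mem_max`, `jL_fL`, `fOL`).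
-/

set_option autoImplicit false
set_option linter.unusedSectionVars false
set_option linter.style.haveILetI false

open TensorProduct

namespace Fermat.Agent.T1.CentresBridge75

open Fermat.Agent.Jac Fermat.Agent.T1.RedIface75 Fermat.Agent.T1.PtLine75
open Fermat.Agent.TW.B5.Iface Fermat.Agent.TW.B5.LG83W Fermat.Agent.TW.B5.LG83X
open Fermat.Agent.T1.Unram47 Fermat.Agent.T1.CentresFinal75 Fermat.Agent.T1.GalAct44

universe u

variable (ℓ : ℕ) [Fact ℓ.Prime]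
variable {W B0 B1 B01 : Type u} [CommRing W] [CommRing B0] [CommRing B1] [CommRing B01]
  [Algebra W B0] [Algebra W B1] [Algebra W B01] [Algebra B0 B01] [Algebra B1 B01]
  [IsScalarTower W B0 B01] [IsScalarTower W B1 B01]
  (c0 : TwoChart W B0 B1 B01)
  (O L : Type u) [CommRing O] [IsDomain O] [IsDiscreteValuationRing O] [Algebra W O]
  [Field L] [Algebra W L] [Algebra O L] [IsScalarTower W O L] [IsFractionRing O L]

/-! ### (1) `GalAct44` vocabulary -/

section Action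

variable (H : ChartAction c0 (Gp ℓ)) (RO : SemiAction H O) (RL : SemiAction H L)
  (hc : ∀ (σ : Gp ℓ) (a : O), RL.f σ (algebraMap O L a) = algebraMap O L (RO.f σ a))
  (hinv0 : ∀ q : B0 →ₐ[W] O, Module.Invertible (O ⊗[W] B0) (ptIdeal q))
  (hinv1 : ∀ q : B1 →ₐ[W] O, Module.Invertible (O ⊗[W] B1) (ptIdeal q))
  {J M : Type*} [AddCommGroup J] [AddCommGroup M]
  (φ : J →+ Additive (PicX c0 L)) (φ_inj : Function.Injective φ)
  (φ_range : ∀ z ∈ (pointClasses c0).PicPt L, ∃ x : J, Additive.toMul (φ x) = z)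
  (act : Gp ℓ → J →+ J)
  (φ_act : ∀ σ x, Additive.toMul (φ (act σ x)) = actPic H RL σ (Additive.toMul (φ x)))
  (emb : M →+ J)

include hc hinv0 hinv1 φ_inj φ_range φ_act in
/-- `CentresFinal75.centres` for a `GalAct44` action. -/
theorem centres_of_action
    (hM : ∀ y : M, Additive.toMul (φ (emb y)) ∈
      Subgroup.closure (CentredPts ℓ c0 O L H.S RO.f)) :
    ∀ y : M, ∃ x : J,
      (∃ z ∈ J1 c0 O, PicX.map c0 O L z = Additive.toMul (φ (emb y - x))) ∧
      ∃ E : IntermediateField ℚ_[ℓ] (Kbar ℓ), FiniteDimensional ℚ_[ℓ] E ∧ IsUnramifiedField ℓ E ∧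
        ∀ σ : Gp ℓ, (∀ e ∈ E, σ e = e) → act σ x = x :=
  centres ℓ c0 O L H.S RO.f RL.f RL.semi hc (fun σ => RL.semiTensor0_bijective σ)
    (fun σ => RL.semiTensor1_bijective σ) (fun σ => H.σ0_surjective σ)
    (fun σ => H.σ1_surjective σ) hinv0 hinv1 φ φ_inj φ_range act φ_act emb hM

end Action

/-! ### (2) From centres in the big field to centres over `O` -/

section Bridge

variable {ℓ} {O L}
variable {Ω : Type u} [Field Ω] [Algebra W Ω]
  (j : L →+* Ω) (hjW : ∀ w : W, j (algebraMap W L w) = algebraMap W Ω w)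

include hjW in
/-- A `W`-algebra map `B → Ω` sending a generating set of `B` into the range of `j` has all its
values in the range of `j`. -/
theorem forall_mem_range_of_adjoin {B : Type u} [CommRing B] [Algebra W B] (T : Set B)
    (hT : Algebra.adjoin W T = ⊤) (q : B →ₐ[W] Ω) (hq : ∀ b ∈ T, q b ∈ Set.range j) :
    ∀ b, q b ∈ Set.range j := by
  intro b
  have hb : b ∈ Algebra.adjoin W T := by rw [hT]; exact Algebra.mem_top
  induction hb using Algebra.adjoin_induction with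
  | mem x hx => exact hq x hx
  | algebraMap w => exact ⟨algebraMap W L w, by rw [hjW, AlgHom.commutes]⟩
  | add x y _ _ hx hy =>
    obtain ⟨a, ha⟩ := hx
    obtain ⟨a', ha'⟩ := hy
    exact ⟨a + a', by rw [map_add, map_add, ha, ha']⟩
  | mul x y _ _ hx hy =>
    obtain ⟨a, ha⟩ := hx
    obtain ⟨a', ha'⟩ := hy
    exact ⟨a * a', by rw [map_mul, map_mul, ha, ha']⟩

variable (ι : Ω →+* Kbar ℓ) (res : Gp ℓ → Ω → Ω)
  (fO : Gp ℓ → O →+* O) (fL : Gp ℓ → L →+* L)
  (fOL : ∀ σ (a : O), fL σ (algebraMap O L a) = algebraMap O L (fO σ a))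
  (mem_max : ∀ x : O, x ∈ IsLocalRing.maximalIdeal O ↔ ‖ι (j (algebraMap O L x))‖ < 1)
  (hOA : ∀ x : L, ‖ι (j x)‖ ≤ 1 → x ∈ Set.range (algebraMap O L))
  (j_fL : ∀ σ (x : L), j (fL σ x) = res σ (j x))

include hjW fOL mem_max hOA j_fL in
/-- **Bridge, generic chart**: a centre in the big field with values in `L` is a centre over `O`.
`τ σ` is the action of `σ` on the chart (`(S σ).σ0` or `(S σ).σ1`), trivial for `σ` fixing
`ℚ_ℓ(μ_{m₀})`. -/
theorem exists_centre_point {B : Type u} [CommRing B] [Algebra W B] (τ : Gp ℓ → B → B)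
    (m₀ : ℕ) (hτ : ∀ σ : Gp ℓ, (∀ e ∈ muField ℓ m₀, σ e = e) → ∀ b, τ σ b = b)
    (q : B →ₐ[W] O) (q'Ω : B →ₐ[W] Ω)
    (hint : ∀ b, ‖ι (q'Ω b)‖ ≤ 1)
    (hcong : ∀ b, ‖ι (q'Ω b) - ι (j (algebraMap O L (q b)))‖ < 1)
    (hval : ∀ b, q'Ω b ∈ Set.range j)
    (m : ℕ) (hm : ¬ ℓ ∣ m) (hm₀ : m₀ ∣ m)
    (hfix : ∀ σ : Gp ℓ, (∀ e ∈ muField ℓ m, σ e = e) → ∀ b, res σ (q'Ω b) = q'Ω b) :
    ∃ q' : B →ₐ[W] O, (∀ b, q' b - q b ∈ IsLocalRing.maximalIdeal O) ∧
      ∃ E : IntermediateField ℚ_[ℓ] (Kbar ℓ), FiniteDimensional ℚ_[ℓ] E ∧ IsUnramifiedField ℓ E ∧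
        ∀ σ : Gp ℓ, (∀ e ∈ E, σ e = e) → ∀ b, q' (τ σ b) = fO σ (q' b) := by
  have hjinj : Function.Injective j := j.injective
  have hOLinj : Function.Injective (algebraMap O L) := IsFractionRing.injective O L
  -- the centre as an `L`-point
  letI : Algebra L Ω := j.toAlgebra
  haveI : IsScalarTower W L Ω := IsScalarTower.of_algebraMap_eq (fun w => (hjW w).symm)
  obtain ⟨q'L, hq'L⟩ := Ext23.exists_algHom_of_forall_mem_range (W := W) (O := L) (L := Ω)
    hjinj q'Ω hval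
  have hq'L' : ∀ b, j (q'L b) = q'Ω b := hq'L
  -- the centre as an `O`-point
  obtain ⟨q', hq'⟩ := Ext23.exists_algHom_of_forall_mem_range (W := W) (O := O) (L := L)
    hOLinj q'L (fun b => hOA _ (by rw [hq'L']; exact hint b))
  refine ⟨q', fun b => ?_, muField ℓ m, finiteDimensional_muField ℓ (ne_zero_of_not_dvd ℓ hm),
    isUnramifiedField_muField ℓ hm, fun σ hσ b => ?_⟩
  · rw [mem_max, map_sub, map_sub, map_sub, hq', hq'L']
    exact hcong b
  · rw [hτ σ (fun e he => hσ e (muField_le_of_dvd ℓ hm₀ he)) b]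
    apply hOLinj
    rw [← fOL, hq']
    apply hjinj
    rw [j_fL, hq'L', hfix σ hσ b]

variable {c0}
variable (S : Gp ℓ → ChartAut c0)

include hjW fOL mem_max hOA j_fL in
/-- **Bridge, chart 0**: the output of `Centres92.ToLocal.exists_centre_local` for the point
`j ∘ q`, with values in `L`, gives `CentresFinal75.HasCentre0`. -/
theorem hasCentre0_of_local (m₀ : ℕ)
    (hS0 : ∀ σ : Gp ℓ, (∀ e ∈ muField ℓ m₀, σ e = e) → ∀ b, (S σ).σ0 b = b)
    (q : B0 →ₐ[W] O) (q'Ω : B0 →ₐ[W] Ω)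
    (hint : ∀ b, ‖ι (q'Ω b)‖ ≤ 1)
    (hcong : ∀ b, ‖ι (q'Ω b) - ι (j (algebraMap O L (q b)))‖ < 1)
    (hval : ∀ b, q'Ω b ∈ Set.range j)
    (m : ℕ) (hm : ¬ ℓ ∣ m) (hm₀ : m₀ ∣ m)
    (hfix : ∀ σ : Gp ℓ, (∀ e ∈ muField ℓ m, σ e = e) → ∀ b, res σ (q'Ω b) = q'Ω b) :
    HasCentre0 ℓ S fO q :=
  exists_centre_point j hjW ι res fO fL fOL mem_max hOA j_fL (fun σ b => (S σ).σ0 b) m₀ hS0 q q'Ω
    hint hcong hval m hm hm₀ hfix

include hjW fOL mem_max hOA j_fL in
/-- **Bridge, chart 1.** -/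
theorem hasCentre1_of_local (m₀ : ℕ)
    (hS1 : ∀ σ : Gp ℓ, (∀ e ∈ muField ℓ m₀, σ e = e) → ∀ b, (S σ).σ1 b = b)
    (q : B1 →ₐ[W] O) (q'Ω : B1 →ₐ[W] Ω)
    (hint : ∀ b, ‖ι (q'Ω b)‖ ≤ 1)
    (hcong : ∀ b, ‖ι (q'Ω b) - ι (j (algebraMap O L (q b)))‖ < 1)
    (hval : ∀ b, q'Ω b ∈ Set.range j)
    (m : ℕ) (hm : ¬ ℓ ∣ m) (hm₀ : m₀ ∣ m)
    (hfix : ∀ σ : Gp ℓ, (∀ e ∈ muField ℓ m, σ e = e) → ∀ b, res σ (q'Ω b) = q'Ω b) :
    HasCentre1 ℓ S fO q :=
  exists_centre_point j hjW ι res fO fL fOL mem_max hOA j_fL (fun σ b => (S σ).σ1 b) m₀ hS1 q q'Ω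
    hint hcong hval m hm hm₀ hfix

end Bridge

end Fermat.Agent.T1.CentresBridge75
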