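import Mathlib
import Fermat.Agent.T1.CentresBridge75
import Fermat.Agent.T1.Ext23.InvL

/-!
# T1A (S19), brick G9-H7 CENTRES-FINAL, abstract tower step  (helper75)

Fixed tower `W → L₁ → L`, `O` a DVR over `W` with fraction field `L`, big field `Ω ⊇ L` with
`ι : Ω →+* K̄`.  An `L₁`-point `q₁` of a chart whose values are integral, together with a centre
`q'Ω : B_j →ₐ[W] Ω` of the `Ω`-point `j ∘ q₁` (output of `Centres92.ToLocal.exists_centre_local`)
whose values lie in `L`, gives a class-level centre over `L`: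
`CentresFinal75.IsCentred … (PicX.map c0 L₁ L (ptClass_j c0 q₁ h₁))`.

* `isCentred_map_ptClass0`, `isCentred_map_ptClass1` : the two charts;
* `exists_integral_rep0/1` : every point class over `L₁ = Frac O₁` is the class of an integral
  point of chart 0 or of chart 1 (`q t ∈ O₁` resp. `q s ∈ O₁`).
-/

set_option autoImplicit false
set_option linter.unusedSectionVars false
set_option linter.style.haveILetI false

open TensorProduct

namespace Fermat.Agent.T1.CentresTower75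

open Fermat.Agent.Jac Fermat.Agent.T1.RedIface75 Fermat.Agent.T1.PtLine75
open Fermat.Agent.TW.B5.Iface Fermat.Agent.TW.B5.LG83W Fermat.Agent.TW.B5.LG83X
open Fermat.Agent.T1.Unram47 Fermat.Agent.T1.CentresFinal75 Fermat.Agent.T1.CentresBridge75

universe u

variable (ℓ : ℕ) [Fact ℓ.Prime]
variable {W B0 B1 B01 : Type u} [CommRing W] [CommRing B0] [CommRing B1] [CommRing B01]
  [Algebra W B0] [Algebra W B1] [Algebra W B01] [Algebra B0 B01] [Algebra B1 B01]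
  [IsScalarTower W B0 B01] [IsScalarTower W B1 B01]
  (c0 : TwoChart W B0 B1 B01)

/-! ### Integral representatives of point classes -/

section Integral

variable (O L : Type u) [CommRing O] [IsDomain O] [IsDiscreteValuationRing O] [Algebra W O]
  [Field L] [Algebra W L] [Algebra O L] [IsScalarTower W O L] [IsFractionRing O L]

/-- A point class of chart 0 over `L = Frac O` is the class of a point of chart 0 with `q t ∈ O`
or of a point of chart 1 with `q s ∈ O`. -/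
theorem exists_integral_rep0 (q : B0 →ₐ[W] L)
    (h : Module.Invertible (L ⊗[W] B0) (ptIdeal q)) :
    (q c0.t ∈ Set.range (algebraMap O L)) ∨
    ∃ (q1 : B1 →ₐ[W] L) (h1 : Module.Invertible (L ⊗[W] B1) (ptIdeal q1)),
      q1 c0.s ∈ Set.range (algebraMap O L) ∧ ptClass0 c0 q h = ptClass1 c0 q1 h1 := by
  by_cases ht : q c0.t ∈ Set.range (algebraMap O L)
  · exact Or.inl ht
  · right
    obtain ⟨q01, hq, hs⟩ := Ext23.exists_overlap_of_not_mem0 c0 O L q ht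
    subst hq
    have h1 := invertible_ptRes1_of_ptRes0 c0 q01 h
    exact ⟨ptRes1 q01, h1, hs, ptClass0_eq_ptClass1 c0 q01 h h1⟩

/-- A point class of chart 1 over `L = Frac O` is the class of a point of chart 1 with `q s ∈ O`
or of a point of chart 0 with `q t ∈ O`. -/
theorem exists_integral_rep1 (q : B1 →ₐ[W] L)
    (h : Module.Invertible (L ⊗[W] B1) (ptIdeal q)) :
    (q c0.s ∈ Set.range (algebraMap O L)) ∨
    ∃ (q0 : B0 →ₐ[W] L) (h0 : Module.Invertible (L ⊗[W] B0) (ptIdeal q0)),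
      q0 c0.t ∈ Set.range (algebraMap O L) ∧ ptClass1 c0 q h = ptClass0 c0 q0 h0 := by
  by_cases hs : q c0.s ∈ Set.range (algebraMap O L)
  · exact Or.inl hs
  · right
    obtain ⟨q01, hq, ht⟩ := Ext23.exists_overlap_of_not_mem1 c0 O L q hs
    subst hq
    have h0 := invertible_ptRes0_of_ptRes1 c0 q01 h
    exact ⟨ptRes0 q01, h0, ht, (ptClass0_eq_ptClass1 c0 q01 h0 h).symm⟩

end Integral

/-! ### The tower step -/

section Tower

variable (L₁ O L : Type u) [Field L₁] [Algebra W L₁]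
  [CommRing O] [IsDomain O] [IsDiscreteValuationRing O] [Algebra W O]
  [Field L] [Algebra W L] [Algebra O L] [IsScalarTower W O L] [IsFractionRing O L]
  [Algebra L₁ L] [IsScalarTower W L₁ L]
  {Ω : Type u} [Field Ω] [Algebra W Ω]
  (j : L →+* Ω) (hjW : ∀ w : W, j (algebraMap W L w) = algebraMap W Ω w)
  (ι : Ω →+* Kbar ℓ) (res : Gp ℓ → Ω → Ω)
  (S : Gp ℓ → ChartAut c0) (fO : Gp ℓ → O →+* O) (fL : Gp ℓ → L →+* L)
  (fL_semi : ∀ σ (w : W) (a : L), fL σ (w • a) = (S σ).σW w • fL σ a)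
  (fOL : ∀ σ (a : O), fL σ (algebraMap O L a) = algebraMap O L (fO σ a))
  (mem_max : ∀ x : O, x ∈ IsLocalRing.maximalIdeal O ↔ ‖ι (j (algebraMap O L x))‖ < 1)
  (hOA : ∀ x : L, ‖ι (j x)‖ ≤ 1 → x ∈ Set.range (algebraMap O L))
  (j_fL : ∀ σ (x : L), j (fL σ x) = res σ (j x))
  (hb0 : ∀ σ, Function.Bijective (semiTensor (S σ).σW (fL σ) (S σ).σ0 (fL_semi σ) (S σ).semi0))
  (hb1 : ∀ σ, Function.Bijective (semiTensor (S σ).σW (fL σ) (S σ).σ1 (fL_semi σ) (S σ).semi1))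

include hjW fOL mem_max hOA j_fL hb0 hb1 in
/-- **Tower step, chart 0.** -/
theorem isCentred_map_ptClass0 (hσ0 : ∀ σ, Function.Surjective (S σ).σ0)
    (hinv0 : ∀ q : B0 →ₐ[W] O, Module.Invertible (O ⊗[W] B0) (ptIdeal q))
    (m₀ : ℕ) (hS0 : ∀ σ : Gp ℓ, (∀ e ∈ muField ℓ m₀, σ e = e) → ∀ b, (S σ).σ0 b = b)
    (q₁ : B0 →ₐ[W] L₁) (h₁ : Module.Invertible (L₁ ⊗[W] B0) (ptIdeal q₁))
    (q'Ω : B0 →ₐ[W] Ω)
    (hq₁ : ∀ b, ‖ι (j (algebraMap L₁ L (q₁ b)))‖ ≤ 1)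
    (hint : ∀ b, ‖ι (q'Ω b)‖ ≤ 1)
    (hcong : ∀ b, ‖ι (q'Ω b) - ι (j (algebraMap L₁ L (q₁ b)))‖ < 1)
    (hval : ∀ b, q'Ω b ∈ Set.range j)
    (m : ℕ) (hm : ¬ ℓ ∣ m) (hm₀ : m₀ ∣ m)
    (hfix : ∀ σ : Gp ℓ, (∀ e ∈ muField ℓ m, σ e = e) → ∀ b, res σ (q'Ω b) = q'Ω b) :
    IsCentred ℓ c0 O L S fL fL_semi (PicX.map c0 L₁ L (ptClass0 c0 q₁ h₁)) := by
  have hOLinj : Function.Injective (algebraMap O L) := IsFractionRing.injective O L
  obtain ⟨qO, hqO⟩ := Ext23.exists_algHom_of_forall_mem_range (W := W) (O := O) (L := L)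
    hOLinj (ptComp L q₁) (fun b => hOA _ (hq₁ b))
  have hqO' : ∀ b, algebraMap O L (qO b) = algebraMap L₁ L (q₁ b) := hqO
  have hL : Module.Invertible (L ⊗[W] B0) (ptIdeal (ptComp L q₁)) :=
    invertible_ptIdeal_ptComp0 c0 L q₁ h₁
  have hqq : ptComp L qO = ptComp L q₁ := AlgHom.ext (fun b => hqO b)
  have hLO : Module.Invertible (L ⊗[W] B0) (ptIdeal (ptComp L qO)) := by rw [hqq]; exact hL
  have hc : HasCentre0 ℓ S fO qO :=
    hasCentre0_of_local j hjW ι res fO fL fOL mem_max hOA j_fL S m₀ hS0 qO q'Ω hint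
      (fun b => by rw [hqO']; exact hcong b) hval m hm hm₀ hfix
  have key := isCentred_ptClass0 ℓ c0 O L S fO fL fL_semi fOL hb0 hb1 hσ0 hinv0 qO hc hLO
  rw [map_ptClass0 c0 L q₁ h₁ hL, ← CentresClass47.ptClass0_congr c0 hqq hLO hL]
  exact key

include hjW fOL mem_max hOA j_fL hb0 hb1 in
/-- **Tower step, chart 1.** -/
theorem isCentred_map_ptClass1 (hσ1 : ∀ σ, Function.Surjective (S σ).σ1)
    (hinv1 : ∀ q : B1 →ₐ[W] O, Module.Invertible (O ⊗[W] B1) (ptIdeal q))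
    (m₀ : ℕ) (hS1 : ∀ σ : Gp ℓ, (∀ e ∈ muField ℓ m₀, σ e = e) → ∀ b, (S σ).σ1 b = b)
    (q₁ : B1 →ₐ[W] L₁) (h₁ : Module.Invertible (L₁ ⊗[W] B1) (ptIdeal q₁))
    (q'Ω : B1 →ₐ[W] Ω)
    (hq₁ : ∀ b, ‖ι (j (algebraMap L₁ L (q₁ b)))‖ ≤ 1)
    (hint : ∀ b, ‖ι (q'Ω b)‖ ≤ 1)
    (hcong : ∀ b, ‖ι (q'Ω b) - ι (j (algebraMap L₁ L (q₁ b)))‖ < 1)
    (hval : ∀ b, q'Ω b ∈ Set.range j)
    (m : ℕ) (hm : ¬ ℓ ∣ m) (hm₀ : m₀ ∣ m)
    (hfix : ∀ σ : Gp ℓ, (∀ e ∈ muField ℓ m, σ e = e) → ∀ b, res σ (q'Ω b) = q'Ω b) :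
    IsCentred ℓ c0 O L S fL fL_semi (PicX.map c0 L₁ L (ptClass1 c0 q₁ h₁)) := by
  have hOLinj : Function.Injective (algebraMap O L) := IsFractionRing.injective O L
  obtain ⟨qO, hqO⟩ := Ext23.exists_algHom_of_forall_mem_range (W := W) (O := O) (L := L)
    hOLinj (ptComp L q₁) (fun b => hOA _ (hq₁ b))
  have hqO' : ∀ b, algebraMap O L (qO b) = algebraMap L₁ L (q₁ b) := hqO
  have hL : Module.Invertible (L ⊗[W] B1) (ptIdeal (ptComp L q₁)) :=
    invertible_ptIdeal_ptComp1 c0 L q₁ h₁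
  have hqq : ptComp L qO = ptComp L q₁ := AlgHom.ext (fun b => hqO b)
  have hLO : Module.Invertible (L ⊗[W] B1) (ptIdeal (ptComp L qO)) := by rw [hqq]; exact hL
  have hc : HasCentre1 ℓ S fO qO :=
    hasCentre1_of_local j hjW ι res fO fL fOL mem_max hOA j_fL S m₀ hS1 qO q'Ω hint
      (fun b => by rw [hqO']; exact hcong b) hval m hm hm₀ hfix
  have key := isCentred_ptClass1 ℓ c0 O L S fO fL fL_semi fOL hb0 hb1 hσ1 hinv1 qO hc hLO
  rw [map_ptClass1 c0 L q₁ h₁ hL, ← CentresClass47.ptClass1_congr c0 hqq hLO hL]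
  exact key

end Tower

end Fermat.Agent.T1.CentresTower75
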