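import Mathlib
import Fermat.Agent.T1.Assembly41.FinalIface
import Fermat.Agent.T1.CentresTower75
import Fermat.Agent.T1.Centres92.ToLocal
import Fermat.Agent.Lib.FrobeniusExists

/-!
# T1A (S19), brick G9-H7: the Prop `Assembly41.CentresFinal`  (helper75)

`centresFinal : CentresInputs ℓ M c0 H hW m₀ → CentresFinal ℓ M c0 H hW`.

`CentresInputs` lists the explicit hypotheses on the chart system `c0` over `W = A ∩ ℚ(ζ_M)` and
on the action `H`: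

* `hS0`, `hS1` : `σ` fixing `ℚ_ℓ(μ_{m₀})` acts trivially on the charts `B0`, `B1`
  (`hS_of_trivial`: enough that `σW = id ⟹ σ_j = id` and `ι(W) ⊆ ℚ_ℓ(μ_{m₀})`);
* `hint0`, `hint1` : the charts are integral over `W[t]`, `W[s]` (as in `Ext23.extSurjective`);
* `hfg0`, `hfg1` : the charts are finitely generated `W`-algebras;
* `hinv0`, `hinv1` : over every `O_L`, the ideals of `O_L`-points are invertible;
* `hcen0`, `hcen1` : `QbarCentres` = pointwise centres over `ℚ̄`, VERBATIM the conclusion of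
  helper92's `Centres92.OfModel92.exists_centre_local0/1` with `Ω = ℚ̄`, `ι = padicEmbedding ℓ`,
  `res = localGaloisToGlobal ℓ`.

Proof: every point class over `L₁` is the class of an integral point of chart 0 or 1; its centre
over `ℚ̄` has values in a finite extension `L₀` (`B_j` is finitely generated); for every finite normal
`L ⊇ L₁ L₀` the tower step `CentresTower75.isCentred_map_ptClass0/1` applies; centred classes form a
subgroup (`CentresFinal75`), finitely many `L₀` have a finite compositum, and `L` := normal closure.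
-/

set_option autoImplicit false
set_option linter.unusedSectionVars false
set_option linter.style.haveILetI false

noncomputable section

open TensorProduct

namespace Fermat.Agent.T1.CentresProp75

open Fermat.Agent Fermat.Agent.Jac Fermat.Agent.T1.RedIface75 Fermat.Agent.TW.B5.Iface
open Fermat.Agent.T1.AlgIface47 Fermat.Agent.T1.HubInst98 Fermat.Agent.T1.GalAct44
open Fermat.Agent.RED.Interface4 Fermat.Agent.T1.Assembly41 Fermat.Agent.T1.PtLine75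
open Fermat.Agent.TW.B5.LG83W Fermat.Agent.TW.B5.LG83X
open Fermat.Agent.T1.CentresFinal75 Fermat.Agent.T1.CentresTower75

variable (ℓ : ℕ) [Fact ℓ.Prime]

/-! ### The rings `O_L = A ∩ L` -/

/-- `ι ∘ jL : L →+* K̄`. -/
def iotaL (L : IntermediateField ℚ Qbar) : ↥L →+* Kbar ℓ :=
  ((padicEmbedding ℓ : Qbar →ₐ[ℚ] Kbar ℓ) : Qbar →+* Kbar ℓ).comp (jL L)

theorem mem_max_OL (L : IntermediateField ℚ Qbar) (x : OL ℓ L) :
    x ∈ IsLocalRing.maximalIdeal (OL ℓ L) ↔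
      ‖padicEmbedding ℓ (jL L (algebraMap (OL ℓ L) ↥L x))‖ < 1 := by
  rw [ValuationSubring.valuation_lt_one_iff]
  exact Centres92.ToLocal.valuation_lt_one_iff_norm (ι := iotaL ℓ L)
    (A := AK (padicPlace ℓ) L) (fun y => (norm_iota_jL_le_one_iff ℓ y).symm) (x : ↥L)

theorem mem_range_OL (L : IntermediateField ℚ Qbar) (x : ↥L)
    (hx : ‖padicEmbedding ℓ (jL L x)‖ ≤ 1) : x ∈ Set.range (algebraMap (OL ℓ L) ↥L) :=
  ⟨⟨x, (norm_iota_jL_le_one_iff ℓ x).mp hx⟩, rfl⟩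

theorem normal_Qbar : Normal ℚ Qbar := Fermat.Agent.Lib.FrobeniusExists.isGalois_Qbar.to_normal

variable (M : ℕ) [NeZero M]

/-! ### Pointwise centres over `ℚ̄` -/

/-- Pointwise centres over `ℚ̄` for the chart `B`: the conclusion of
`Centres92.OfModel92.exists_centre_local0/1`. -/
def QbarCentres (B : Type) [CommRing B] [Algebra (Wr ℓ M) B] (m₀ : ℕ) : Prop :=
  ∀ q : B →ₐ[Wr ℓ M] Qbar, (∀ b, ‖padicEmbedding ℓ (q b)‖ ≤ 1) →
    ∃ q' : B →ₐ[Wr ℓ M] Qbar, (∀ b, ‖padicEmbedding ℓ (q' b)‖ ≤ 1) ∧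
      (∀ b, ‖padicEmbedding ℓ (q' b) - padicEmbedding ℓ (q b)‖ < 1) ∧
      ∃ m : ℕ, ¬ ℓ ∣ m ∧ m₀ ∣ m ∧ (∀ b, padicEmbedding ℓ (q' b) ∈ muField ℓ m) ∧
        ∀ σ : Gp ℓ, (∀ e ∈ muField ℓ m, σ e = e) → ∀ b, localGaloisToGlobal ℓ σ (q' b) = q' b

section Hub

variable {B0 B1 B01 : Type} [CommRing B0] [CommRing B1] [CommRing B01]
  [Algebra (Wr ℓ M) B0] [Algebra (Wr ℓ M) B1] [Algebra (Wr ℓ M) B01] [Algebra B0 B01]
  [Algebra B1 B01] [IsScalarTower (Wr ℓ M) B0 B01] [IsScalarTower (Wr ℓ M) B1 B01]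
  (c0 : TwoChart (Wr ℓ M) B0 B1 B01) (H : ChartAction c0 (Gp ℓ))

/-- The explicit hypotheses of `centresFinal`. -/
structure CentresInputs (m₀ : ℕ) : Prop where
  hS0 : ∀ σ : Gp ℓ, (∀ e ∈ muField ℓ m₀, σ e = e) → ∀ b, (H.S σ).σ0 b = b
  hS1 : ∀ σ : Gp ℓ, (∀ e ∈ muField ℓ m₀, σ e = e) → ∀ b, (H.S σ).σ1 b = b
  hint0 : ∀ b : B0, IsIntegral (Algebra.adjoin (Wr ℓ M) {c0.t}) b
  hint1 : ∀ b : B1, IsIntegral (Algebra.adjoin (Wr ℓ M) {c0.s}) b
  hfg0 : Algebra.FiniteType (Wr ℓ M) B0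
  hfg1 : Algebra.FiniteType (Wr ℓ M) B1
  hinv0 : ∀ (L : IntermediateField ℚ Qbar) [FiniteDimensional ℚ L] (hle : K1 M ≤ L),
    letI := algAK (padicPlace ℓ) hle
    ∀ q : B0 →ₐ[Wr ℓ M] OL ℓ L, Module.Invertible (OL ℓ L ⊗[Wr ℓ M] B0) (ptIdeal q)
  hinv1 : ∀ (L : IntermediateField ℚ Qbar) [FiniteDimensional ℚ L] (hle : K1 M ≤ L),
    letI := algAK (padicPlace ℓ) hle
    ∀ q : B1 →ₐ[Wr ℓ M] OL ℓ L, Module.Invertible (OL ℓ L ⊗[Wr ℓ M] B1) (ptIdeal q)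
  hcen0 : QbarCentres ℓ M B0 m₀
  hcen1 : QbarCentres ℓ M B1 m₀

variable {ℓ M c0 H}

/-- `σ` fixing `ℚ_ℓ(μ_{m₀}) ⊇ ι(W)` acts trivially on `W`. -/
theorem sigmaW_eq_self (hW : WCompat ℓ M c0 H) {m₀ : ℕ}
    (hWmu : ∀ w : Wr ℓ M, padicEmbedding ℓ (jL (K1 M) (algebraMap (Wr ℓ M) ↥(K1 M) w)) ∈
      muField ℓ m₀)
    (σ : Gp ℓ) (hσ : ∀ e ∈ muField ℓ m₀, σ e = e) (w : Wr ℓ M) : (H.S σ).σW w = w := by
  have hinj : Function.Injective (padicEmbedding ℓ) := (padicEmbedding ℓ).toRingHom.injective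
  rw [hW σ w]
  apply Subtype.ext
  apply jL_injective
  apply hinj
  rw [coe_resO, iota_jL_resL]
  exact hσ _ (hWmu w)

/-- The hypotheses `hS0`, `hS1` from: "`σW = id ⟹ σ_j = id`" and `ι(W) ⊆ ℚ_ℓ(μ_{m₀})`. -/
theorem hS_of_trivial (hW : WCompat ℓ M c0 H) {m₀ : ℕ}
    (hWmu : ∀ w : Wr ℓ M, padicEmbedding ℓ (jL (K1 M) (algebraMap (Wr ℓ M) ↥(K1 M) w)) ∈
      muField ℓ m₀)
    (h0 : ∀ σ : Gp ℓ, (∀ w, (H.S σ).σW w = w) → ∀ b, (H.S σ).σ0 b = b)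
    (h1 : ∀ σ : Gp ℓ, (∀ w, (H.S σ).σW w = w) → ∀ b, (H.S σ).σ1 b = b) :
    (∀ σ : Gp ℓ, (∀ e ∈ muField ℓ m₀, σ e = e) → ∀ b, (H.S σ).σ0 b = b) ∧
    (∀ σ : Gp ℓ, (∀ e ∈ muField ℓ m₀, σ e = e) → ∀ b, (H.S σ).σ1 b = b) :=
  ⟨fun σ hσ => h0 σ (sigmaW_eq_self hW hWmu σ hσ), fun σ hσ => h1 σ (sigmaW_eq_self hW hWmu σ hσ)⟩

/-! ### Classes over `L₁` centred over every big enough `L` -/

variable (hW : WCompat ℓ M c0 H)

/-- The class `z` over `L₁` is centred over `L ⊇ L₁`. -/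
def CenOver {L₁ : IntermediateField ℚ Qbar} (hle₁ : K1 M ≤ L₁)
    (z : letI := algAKL (padicPlace ℓ) hle₁; PicX c0 ↥L₁)
    (L : IntermediateField ℚ Qbar) [FiniteDimensional ℚ L] [Normal ℚ L] (hL : L₁ ≤ L) : Prop :=
  letI := algAKL (padicPlace ℓ) hle₁
  letI := algAK (padicPlace ℓ) (hle₁.trans hL)
  letI := algAKL (padicPlace ℓ) (hle₁.trans hL)
  haveI := isScalarTower_AK (padicPlace ℓ) (hle₁.trans hL)
  haveI := isDVR_OL ℓ L
  letI := algKL hL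
  haveI := isScalarTower_W_L_L ℓ M hle₁ hL
  IsCentred ℓ c0 (OL ℓ L) ↥L H.S (semiL hW L (hle₁.trans hL)).f
    (semiL hW L (hle₁.trans hL)).semi (PicX.map c0 ↥L₁ ↥L z)

/-- The class `z` over `L₁` is centred over every finite normal `L ⊇ L₁ L₀`. -/
def GoodOver {L₁ : IntermediateField ℚ Qbar} (hle₁ : K1 M ≤ L₁)
    (z : letI := algAKL (padicPlace ℓ) hle₁; PicX c0 ↥L₁) : Prop :=
  ∃ L₀ : IntermediateField ℚ Qbar, FiniteDimensional ℚ L₀ ∧
    ∀ (L : IntermediateField ℚ Qbar) [FiniteDimensional ℚ L] [Normal ℚ L] (hL : L₁ ≤ L),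
      L₀ ≤ L → CenOver hW hle₁ z L hL

section Group

variable {L₁ : IntermediateField ℚ Qbar} (hle₁ : K1 M ≤ L₁)

theorem goodOver_one :
    letI := algAKL (padicPlace ℓ) hle₁
    GoodOver hW hle₁ (1 : PicX c0 ↥L₁) := by
  refine ⟨⊥, inferInstance, fun L _ _ hL _ => ?_⟩
  letI := algAKL (padicPlace ℓ) hle₁
  letI := algAK (padicPlace ℓ) (hle₁.trans hL)
  letI := algAKL (padicPlace ℓ) (hle₁.trans hL)
  haveI := isScalarTower_AK (padicPlace ℓ) (hle₁.trans hL)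
  haveI := isDVR_OL ℓ L
  letI := algKL hL
  haveI := isScalarTower_W_L_L ℓ M hle₁ hL
  unfold CenOver
  rw [map_one]
  exact isCentred_one

theorem GoodOver.mul :
    letI := algAKL (padicPlace ℓ) hle₁
    ∀ {z₁ z₂ : PicX c0 ↥L₁}, GoodOver hW hle₁ z₁ → GoodOver hW hle₁ z₂ →
      GoodOver hW hle₁ (z₁ * z₂) := by
  intro z₁ z₂ h₁ h₂
  obtain ⟨L₀, hfd, h⟩ := h₁
  obtain ⟨L₀', hfd', h'⟩ := h₂
  haveI := hfd
  haveI := hfd'
  refine ⟨L₀ ⊔ L₀', IntermediateField.finiteDimensional_sup L₀ L₀', fun L _ _ hL hle => ?_⟩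
  have hc := h L hL (le_sup_left.trans hle)
  have hc' := h' L hL (le_sup_right.trans hle)
  letI := algAKL (padicPlace ℓ) hle₁
  letI := algAK (padicPlace ℓ) (hle₁.trans hL)
  letI := algAKL (padicPlace ℓ) (hle₁.trans hL)
  haveI := isScalarTower_AK (padicPlace ℓ) (hle₁.trans hL)
  haveI := isDVR_OL ℓ L
  letI := algKL hL
  haveI := isScalarTower_W_L_L ℓ M hle₁ hL
  unfold CenOver at hc hc' ⊢
  rw [map_mul]
  exact hc.mul hc'

theorem GoodOver.inv :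
    letI := algAKL (padicPlace ℓ) hle₁
    ∀ {z : PicX c0 ↥L₁}, GoodOver hW hle₁ z → GoodOver hW hle₁ z⁻¹ := by
  intro z h₁
  obtain ⟨L₀, hfd, h⟩ := h₁
  refine ⟨L₀, hfd, fun L _ _ hL hle => ?_⟩
  have hc := h L hL hle
  letI := algAKL (padicPlace ℓ) hle₁
  letI := algAK (padicPlace ℓ) (hle₁.trans hL)
  letI := algAKL (padicPlace ℓ) (hle₁.trans hL)
  haveI := isScalarTower_AK (padicPlace ℓ) (hle₁.trans hL)
  haveI := isDVR_OL ℓ L
  letI := algKL hL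
  haveI := isScalarTower_W_L_L ℓ M hle₁ hL
  unfold CenOver at hc ⊢
  rw [map_inv]
  exact hc.inv

end Group


end Hub

end Fermat.Agent.T1.CentresProp75
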