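import Mathlib
import Fermat.Agent.T1.CentresProp75

/-!
# T1A (S19), brick G9-H7: the Prop `Assembly41.CentresFinal`, main part  (helper75)

See `CentresProp75.lean` for the hypotheses `CentresInputs`.  Here:
`goodOver_ptClass0/1_of_integral`, `goodOver_of_mem_picPt`, and the final theorem
`centresFinal : CentresInputs ℓ M c0 H m₀ → CentresFinal ℓ M c0 H hW`.
-/

set_option autoImplicit false
set_option linter.unusedSectionVars false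
set_option linter.style.haveILetI false

noncomputable section

open TensorProduct

namespace Fermat.Agent.T1.CentresProp75

open Fermat.Agent Fermat.Agent.Jac Fermat.Agent.T1.RedIface75 Fermat.Agent.TW.B5.Iface
open Fermat.Agent.T1.AlgIface47 Fermat.Agent.T1.HubInst98 Fermat.Agent.T1.GalAct44
open Fermat.Agent.RED.Interface4 Fermat.Agent.T1.Assembly41 Fermat.Agent.T1.PtLine75
open Fermat.Agent.TW.B5.LG83W Fermat.Agent.TW.B5.LG83X
open Fermat.Agent.T1.CentresFinal75 Fermat.Agent.T1.CentresTower75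

variable {ℓ : ℕ} [Fact ℓ.Prime] {M : ℕ} [NeZero M]
variable {B0 B1 B01 : Type} [CommRing B0] [CommRing B1] [CommRing B01]
  [Algebra (Wr ℓ M) B0] [Algebra (Wr ℓ M) B1] [Algebra (Wr ℓ M) B01] [Algebra B0 B01]
  [Algebra B1 B01] [IsScalarTower (Wr ℓ M) B0 B01] [IsScalarTower (Wr ℓ M) B1 B01]
  {c0 : TwoChart (Wr ℓ M) B0 B1 B01} {H : ChartAction c0 (Gp ℓ)}
  (hW : WCompat ℓ M c0 H)

/-! ### Integral points -/

section Points

variable {m₀ : ℕ} (I : CentresInputs ℓ M c0 H m₀)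
  {L₁ : IntermediateField ℚ Qbar} [FiniteDimensional ℚ L₁] [Normal ℚ L₁] (hle₁ : K1 M ≤ L₁)

/-- The values of a `ℚ̄`-point lie in `L` as soon as the values on generators do. -/
theorem forall_mem_range_jL {B : Type} [CommRing B] [Algebra (Wr ℓ M) B]
    (T : Finset B) (hT : Algebra.adjoin (Wr ℓ M) (T : Set B) = ⊤) (q : B →ₐ[Wr ℓ M] Qbar)
    (L : IntermediateField ℚ Qbar) (hle : K1 M ≤ L)
    (hq : IntermediateField.adjoin ℚ ((fun b => q b) '' (T : Set B)) ≤ L) :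
    ∀ b, q b ∈ Set.range (jL L) := by
  letI := algAKL (padicPlace ℓ) hle
  have hjW : ∀ w : Wr ℓ M, jL L (algebraMap (Wr ℓ M) ↥L w) = algebraMap (Wr ℓ M) Qbar w :=
    fun w => rfl
  refine CentresBridge75.forall_mem_range_of_adjoin (W := Wr ℓ M) (L := ↥L) (Ω := Qbar)
    (jL L) hjW (T : Set B) hT q (fun b hb => ?_)
  have hb' : q b ∈ L := hq (IntermediateField.subset_adjoin ℚ _ ⟨b, hb, rfl⟩)
  exact ⟨⟨q b, hb'⟩, rfl⟩

theorem finiteDimensional_adjoin_image {B : Type} (T : Finset B) (f : B → Qbar) :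
    FiniteDimensional ℚ (IntermediateField.adjoin ℚ (f '' (T : Set B))) := by
  haveI : Finite (f '' (T : Set B)) := (T.finite_toSet.image _).to_subtype
  exact IntermediateField.finiteDimensional_adjoin (fun x _ => Algebra.IsIntegral.isIntegral x)

include I in
theorem cenOver_ptClass0 (L : IntermediateField ℚ Qbar) [FiniteDimensional ℚ L] [Normal ℚ L]
    (hL : L₁ ≤ L) :
    letI := algAKL (padicPlace ℓ) hle₁
    ∀ (q₁ : B0 →ₐ[Wr ℓ M] ↥L₁) (h₁ : Module.Invertible (↥L₁ ⊗[Wr ℓ M] B0) (ptIdeal q₁))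
      (q'Ω : B0 →ₐ[Wr ℓ M] Qbar),
      (∀ b, ‖padicEmbedding ℓ (jL L₁ (q₁ b))‖ ≤ 1) →
      (∀ b, ‖padicEmbedding ℓ (q'Ω b)‖ ≤ 1) →
      (∀ b, ‖padicEmbedding ℓ (q'Ω b) - padicEmbedding ℓ (jL L₁ (q₁ b))‖ < 1) →
      (∀ b, q'Ω b ∈ Set.range (jL L)) →
      ∀ (m : ℕ), ¬ ℓ ∣ m → m₀ ∣ m →
      (∀ σ : Gp ℓ, (∀ e ∈ muField ℓ m, σ e = e) → ∀ b, localGaloisToGlobal ℓ σ (q'Ω b) = q'Ω b) →
      CenOver hW hle₁ (ptClass0 c0 q₁ h₁) L hL := by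
  letI := algAKL (padicPlace ℓ) hle₁
  intro q₁ h₁ q'Ω hq₁ hint hcong hval m hm hm₀ hfix
  letI := algAK (padicPlace ℓ) (hle₁.trans hL)
  letI := algAKL (padicPlace ℓ) (hle₁.trans hL)
  haveI := isScalarTower_AK (padicPlace ℓ) (hle₁.trans hL)
  haveI := isDVR_OL ℓ L
  letI := algKL hL
  haveI := isScalarTower_W_L_L ℓ M hle₁ hL
  unfold CenOver
  have hjW : ∀ w : Wr ℓ M, jL L (algebraMap (Wr ℓ M) ↥L w) = algebraMap (Wr ℓ M) Qbar w :=
    fun w => rfl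
  have fOL : ∀ (σ : Gp ℓ) (a : OL ℓ L),
      (semiL hW L (hle₁.trans hL)).f σ (algebraMap (OL ℓ L) ↥L a) =
        algebraMap (OL ℓ L) ↥L ((semiO hW L (hle₁.trans hL)).f σ a) := fun σ a => rfl
  have j_fL : ∀ (σ : Gp ℓ) (x : ↥L), jL L ((semiL hW L (hle₁.trans hL)).f σ x) =
      (fun (σ : Gp ℓ) (x : Qbar) => localGaloisToGlobal ℓ σ x) σ (jL L x) :=
    fun σ x => jL_resL L _ x
  exact isCentred_map_ptClass0 (W := Wr ℓ M) ℓ c0 ↥L₁ (OL ℓ L) ↥L (Ω := Qbar) (jL L) hjW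
    ((padicEmbedding ℓ : Qbar →ₐ[ℚ] Kbar ℓ) : Qbar →+* Kbar ℓ)
    (fun (σ : Gp ℓ) (x : Qbar) => localGaloisToGlobal ℓ σ x) H.S
    (semiO hW L (hle₁.trans hL)).f
    (semiL hW L (hle₁.trans hL)).f (semiL hW L (hle₁.trans hL)).semi fOL
    (mem_max_OL ℓ L) (mem_range_OL ℓ L) j_fL
    (fun σ => (semiL hW L (hle₁.trans hL)).semiTensor0_bijective σ)
    (fun σ => (semiL hW L (hle₁.trans hL)).semiTensor1_bijective σ)
    (fun σ => H.σ0_surjective σ) (I.hinv0 L (hle₁.trans hL)) m₀ I.hS0 q₁ h₁ q'Ω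
    hq₁ hint hcong hval m hm hm₀ hfix

include I in
theorem cenOver_ptClass1 (L : IntermediateField ℚ Qbar) [FiniteDimensional ℚ L] [Normal ℚ L]
    (hL : L₁ ≤ L) :
    letI := algAKL (padicPlace ℓ) hle₁
    ∀ (q₁ : B1 →ₐ[Wr ℓ M] ↥L₁) (h₁ : Module.Invertible (↥L₁ ⊗[Wr ℓ M] B1) (ptIdeal q₁))
      (q'Ω : B1 →ₐ[Wr ℓ M] Qbar),
      (∀ b, ‖padicEmbedding ℓ (jL L₁ (q₁ b))‖ ≤ 1) →
      (∀ b, ‖padicEmbedding ℓ (q'Ω b)‖ ≤ 1) →
      (∀ b, ‖padicEmbedding ℓ (q'Ω b) - padicEmbedding ℓ (jL L₁ (q₁ b))‖ < 1) →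
      (∀ b, q'Ω b ∈ Set.range (jL L)) →
      ∀ (m : ℕ), ¬ ℓ ∣ m → m₀ ∣ m →
      (∀ σ : Gp ℓ, (∀ e ∈ muField ℓ m, σ e = e) → ∀ b, localGaloisToGlobal ℓ σ (q'Ω b) = q'Ω b) →
      CenOver hW hle₁ (ptClass1 c0 q₁ h₁) L hL := by
  letI := algAKL (padicPlace ℓ) hle₁
  intro q₁ h₁ q'Ω hq₁ hint hcong hval m hm hm₀ hfix
  letI := algAK (padicPlace ℓ) (hle₁.trans hL)
  letI := algAKL (padicPlace ℓ) (hle₁.trans hL)
  haveI := isScalarTower_AK (padicPlace ℓ) (hle₁.trans hL)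
  haveI := isDVR_OL ℓ L
  letI := algKL hL
  haveI := isScalarTower_W_L_L ℓ M hle₁ hL
  unfold CenOver
  have hjW : ∀ w : Wr ℓ M, jL L (algebraMap (Wr ℓ M) ↥L w) = algebraMap (Wr ℓ M) Qbar w :=
    fun w => rfl
  have fOL : ∀ (σ : Gp ℓ) (a : OL ℓ L),
      (semiL hW L (hle₁.trans hL)).f σ (algebraMap (OL ℓ L) ↥L a) =
        algebraMap (OL ℓ L) ↥L ((semiO hW L (hle₁.trans hL)).f σ a) := fun σ a => rfl
  have j_fL : ∀ (σ : Gp ℓ) (x : ↥L), jL L ((semiL hW L (hle₁.trans hL)).f σ x) =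
      (fun (σ : Gp ℓ) (x : Qbar) => localGaloisToGlobal ℓ σ x) σ (jL L x) :=
    fun σ x => jL_resL L _ x
  exact isCentred_map_ptClass1 (W := Wr ℓ M) ℓ c0 ↥L₁ (OL ℓ L) ↥L (Ω := Qbar) (jL L) hjW
    ((padicEmbedding ℓ : Qbar →ₐ[ℚ] Kbar ℓ) : Qbar →+* Kbar ℓ)
    (fun (σ : Gp ℓ) (x : Qbar) => localGaloisToGlobal ℓ σ x) H.S
    (semiO hW L (hle₁.trans hL)).f
    (semiL hW L (hle₁.trans hL)).f (semiL hW L (hle₁.trans hL)).semi fOL
    (mem_max_OL ℓ L) (mem_range_OL ℓ L) j_fL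
    (fun σ => (semiL hW L (hle₁.trans hL)).semiTensor0_bijective σ)
    (fun σ => (semiL hW L (hle₁.trans hL)).semiTensor1_bijective σ)
    (fun σ => H.σ1_surjective σ) (I.hinv1 L (hle₁.trans hL)) m₀ I.hS1 q₁ h₁ q'Ω
    hq₁ hint hcong hval m hm hm₀ hfix


include I in
/-- An integral `L₁`-point of chart 0 has a class which is centred over every big enough `L`. -/
theorem goodOver_ptClass0_of_integral :
    letI := algAKL (padicPlace ℓ) hle₁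
    ∀ (q₁ : B0 →ₐ[Wr ℓ M] ↥L₁) (h₁ : Module.Invertible (↥L₁ ⊗[Wr ℓ M] B0) (ptIdeal q₁)),
      (∀ b, ‖padicEmbedding ℓ (jL L₁ (q₁ b))‖ ≤ 1) →
      GoodOver hW hle₁ (ptClass0 c0 q₁ h₁) := by
  letI := algAKL (padicPlace ℓ) hle₁
  intro q₁ h₁ hq₁
  haveI : IsScalarTower (Wr ℓ M) ↥L₁ Qbar := IsScalarTower.of_algebraMap_eq' rfl
  let qΩ : B0 →ₐ[Wr ℓ M] Qbar := (IsScalarTower.toAlgHom (Wr ℓ M) ↥L₁ Qbar).comp q₁
  have hqΩ : ∀ b, qΩ b = jL L₁ (q₁ b) := fun b => rfl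
  obtain ⟨q'Ω, hint, hcong, m, hm, hm₀, -, hfix⟩ := I.hcen0 qΩ hq₁
  obtain ⟨T, hT⟩ := I.hfg0.out
  refine ⟨IntermediateField.adjoin ℚ ((fun b => q'Ω b) '' (T : Set B0)),
    finiteDimensional_adjoin_image T _, fun L _ _ hL hL₀ => ?_⟩
  exact cenOver_ptClass0 hW I hle₁ L hL q₁ h₁ q'Ω hq₁ hint hcong
    (forall_mem_range_jL T hT q'Ω L (hle₁.trans hL) hL₀) m hm hm₀ hfix

include I in
/-- An integral `L₁`-point of chart 1 has a class which is centred over every big enough `L`. -/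
theorem goodOver_ptClass1_of_integral :
    letI := algAKL (padicPlace ℓ) hle₁
    ∀ (q₁ : B1 →ₐ[Wr ℓ M] ↥L₁) (h₁ : Module.Invertible (↥L₁ ⊗[Wr ℓ M] B1) (ptIdeal q₁)),
      (∀ b, ‖padicEmbedding ℓ (jL L₁ (q₁ b))‖ ≤ 1) →
      GoodOver hW hle₁ (ptClass1 c0 q₁ h₁) := by
  letI := algAKL (padicPlace ℓ) hle₁
  intro q₁ h₁ hq₁
  haveI : IsScalarTower (Wr ℓ M) ↥L₁ Qbar := IsScalarTower.of_algebraMap_eq' rfl
  let qΩ : B1 →ₐ[Wr ℓ M] Qbar := (IsScalarTower.toAlgHom (Wr ℓ M) ↥L₁ Qbar).comp q₁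
  have hqΩ : ∀ b, qΩ b = jL L₁ (q₁ b) := fun b => rfl
  obtain ⟨q'Ω, hint, hcong, m, hm, hm₀, -, hfix⟩ := I.hcen1 qΩ hq₁
  obtain ⟨T, hT⟩ := I.hfg1.out
  refine ⟨IntermediateField.adjoin ℚ ((fun b => q'Ω b) '' (T : Set B1)),
    finiteDimensional_adjoin_image T _, fun L _ _ hL hL₀ => ?_⟩
  exact cenOver_ptClass1 hW I hle₁ L hL q₁ h₁ q'Ω hq₁ hint hcong
    (forall_mem_range_jL T hT q'Ω L (hle₁.trans hL) hL₀) m hm hm₀ hfix


include I in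
/-- Every point class over `L₁` is centred over every big enough `L`. -/
theorem goodOver_of_isPtClass :
    letI := algAKL (padicPlace ℓ) hle₁
    ∀ z : PicX c0 ↥L₁, IsPtClass c0 ↥L₁ z → GoodOver hW hle₁ z := by
  letI := algAKL (padicPlace ℓ) hle₁
  letI := algAK (padicPlace ℓ) hle₁
  haveI := isScalarTower_AK (padicPlace ℓ) hle₁
  haveI := isDVR_OL ℓ L₁
  have hi0 : ∀ q : B0 →ₐ[Wr ℓ M] ↥L₁, q c0.t ∈ Set.range (algebraMap (OL ℓ L₁) ↥L₁) →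
      ∀ b, ‖padicEmbedding ℓ (jL L₁ (q b))‖ ≤ 1 := by
    intro q ht b
    obtain ⟨qO, hqO⟩ := Ext23.exists_factor_of_integral (O := OL ℓ L₁) c0.t I.hint0 q ht
    rw [← hqO b]
    exact (norm_iota_jL_le_one_iff ℓ _).mpr (qO b).2
  have hi1 : ∀ q : B1 →ₐ[Wr ℓ M] ↥L₁, q c0.s ∈ Set.range (algebraMap (OL ℓ L₁) ↥L₁) →
      ∀ b, ‖padicEmbedding ℓ (jL L₁ (q b))‖ ≤ 1 := by
    intro q hs b
    obtain ⟨qO, hqO⟩ := Ext23.exists_factor_of_integral (O := OL ℓ L₁) c0.s I.hint1 q hs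
    rw [← hqO b]
    exact (norm_iota_jL_le_one_iff ℓ _).mpr (qO b).2
  rintro z (⟨q, h, rfl⟩ | ⟨q, h, rfl⟩)
  · rcases exists_integral_rep0 c0 (OL ℓ L₁) ↥L₁ q h with ht | ⟨q1, h1, hs, heq⟩
    · exact goodOver_ptClass0_of_integral hW I hle₁ q h (hi0 q ht)
    · rw [heq]
      exact goodOver_ptClass1_of_integral hW I hle₁ q1 h1 (hi1 q1 hs)
  · rcases exists_integral_rep1 c0 (OL ℓ L₁) ↥L₁ q h with hs | ⟨q0, h0, ht, heq⟩
    · exact goodOver_ptClass1_of_integral hW I hle₁ q h (hi1 q hs)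
    · rw [heq]
      exact goodOver_ptClass0_of_integral hW I hle₁ q0 h0 (hi0 q0 ht)

include I in
/-- Every class generated by `L₁`-points is centred over every big enough `L`. -/
theorem goodOver_of_mem_picPt :
    letI := algAKL (padicPlace ℓ) hle₁
    ∀ z : PicX c0 ↥L₁, z ∈ (pointClasses c0).PicPt ↥L₁ → GoodOver hW hle₁ z := by
  letI := algAKL (padicPlace ℓ) hle₁
  have key : ∀ z ∈ Subgroup.closure {x | IsPtClass c0 ↥L₁ x}, GoodOver hW hle₁ z := by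
    intro z hz'
    induction hz' using Subgroup.closure_induction with
    | mem x hx => exact goodOver_of_isPtClass hW I hle₁ x hx
    | one => exact goodOver_one hW hle₁
    | mul x y _ _ hx hy => exact GoodOver.mul hW hle₁ hx hy
    | inv x _ hx => exact GoodOver.inv hW hle₁ hx
  intro z hz
  exact key z hz

end Points


/-! ### The final theorem -/

/-- **Brick G9-H7 (CENTRES-FINAL).** -/
theorem centresFinal {m₀ : ℕ} (I : CentresInputs ℓ M c0 H m₀) : CentresFinal ℓ M c0 H hW := by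
  intro L₁ _ _ hle₁ Iidx _ z hz
  have hgood := fun i => goodOver_of_mem_picPt hW I hle₁ (z i) (hz i)
  choose L₀ hfd hcen using hgood
  haveI : ∀ i, FiniteDimensional ℚ (L₀ i) := hfd
  haveI : FiniteDimensional ℚ ↥(⨆ i, L₀ i) := IntermediateField.finiteDimensional_iSup_of_finite
  haveI : FiniteDimensional ℚ ↥(L₁ ⊔ ⨆ i, L₀ i) := IntermediateField.finiteDimensional_sup _ _
  have hfdL : FiniteDimensional ℚ
      (IntermediateField.normalClosure ℚ ↥(L₁ ⊔ ⨆ i, L₀ i) Qbar) :=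
    normalClosure.is_finiteDimensional ℚ ↥(L₁ ⊔ ⨆ i, L₀ i) Qbar
  have hnL : Normal ℚ (IntermediateField.normalClosure ℚ ↥(L₁ ⊔ ⨆ i, L₀ i) Qbar) := by
    haveI := normal_Qbar
    exact normalClosure.normal ℚ ↥(L₁ ⊔ ⨆ i, L₀ i) Qbar
  have hLc : L₁ ⊔ ⨆ i, L₀ i ≤ IntermediateField.normalClosure ℚ ↥(L₁ ⊔ ⨆ i, L₀ i) Qbar :=
    IntermediateField.le_normalClosure _
  have hL : L₁ ≤ IntermediateField.normalClosure ℚ ↥(L₁ ⊔ ⨆ i, L₀ i) Qbar :=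
    le_sup_left.trans hLc
  refine ⟨IntermediateField.normalClosure ℚ ↥(L₁ ⊔ ⨆ i, L₀ i) Qbar, hfdL, hnL, hL, fun i => ?_⟩
  have hc := @hcen i _ hfdL hnL hL ((le_iSup L₀ i).trans (le_sup_right.trans hLc))
  unfold CenOver at hc
  obtain ⟨x, hx, hw, m, hm, hfix⟩ := hc
  exact ⟨x, hx, hw, muField ℓ m, finiteDimensional_muField ℓ (ne_zero_of_not_dvd ℓ hm),
    isUnramifiedField_muField ℓ hm, hfix⟩

end Fermat.Agent.T1.CentresProp75
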