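import Mathlib
import Fermat.Agent.T1.CentresPropMain75
import Fermat.Agent.T1.Centres92.OfModel92
import Fermat.Agent.T1.HubRed76

/-!
# T1A (S19), brick G9-H7: `CentresInputs` for the chart system of a two-chart model  (helper75)

`Mod : TwoChartModel (Wr ℓ M) ↥(K1 M) F π t B0 B1 Ov` a smooth two-chart model over
`W = A ∩ ℚ(ζ_M)` (brick G0), `c0 := HubRed76.mc Mod = Coh60.modelChart Mod`, `H` an action of `G_ℓ`
on `c0` with `WCompat`.

* `qbarCentres0_of_model`, `qbarCentres1_of_model` : `CentresProp75.QbarCentres` for the two charts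
  (helper92's `OfModel92.exists_centre_local0/1` at `Ω = ℚ̄`);
* `centresInputs_of_model` : `CentresInputs ℓ M (mc Mod :) H M` from `HubRed76.HubFacts` at every
  `O_L` (invertibility of point ideals) and "`σW = id ⟹ σ_j = id`" for the action;
* `centresFinal_of_model` : `Assembly41.CentresFinal ℓ M (mc Mod :) H hW`.
-/

set_option autoImplicit false
set_option linter.unusedSectionVars false
set_option linter.style.haveILetI false

noncomputable section

open TensorProduct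

namespace Fermat.Agent.T1.CentresInst75

open Fermat.Agent Fermat.Agent.Jac Fermat.Agent.T1.RedIface75 Fermat.Agent.TW.B5.Iface
open Fermat.Agent.T1.AlgIface47 Fermat.Agent.T1.HubInst98 Fermat.Agent.T1.GalAct44
open Fermat.Agent.RED.Interface4 Fermat.Agent.T1.Assembly41 Fermat.Agent.T1.PtLine75
open Fermat.Agent.TW.B5.LG83W Fermat.Agent.TW.B5.LG83X
open Fermat.Agent.T1.CentresProp75 Fermat.Agent.RED.CORE.CoreIface24 Fermat.Agent.T1.HubRed76

attribute [local instance] Coh60.algebra0 Coh60.algebra1 Coh60.isScalarTower0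
  Coh60.isScalarTower1

variable (ℓ : ℕ) [Fact ℓ.Prime] (M : ℕ) [NeZero M]

/-! ### `ℚ̄` over `W` -/

theorem injective_algebraMap_Wr_Qbar : Function.Injective (algebraMap (Wr ℓ M) Qbar) := by
  intro x y hxy
  apply Subtype.ext
  apply Subtype.ext
  exact hxy

theorem isAlgebraic_Wr_Qbar : Algebra.IsAlgebraic (Wr ℓ M) Qbar := by
  refine ⟨fun x => ?_⟩
  have hx : IsAlgebraic ℤ x := Fermat.Agent.Lib.FrobeniusExists.isAlgebraic_int_Qbar x
  obtain ⟨p, hp0, hp⟩ := hx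
  refine ⟨p.map (algebraMap ℤ (Wr ℓ M)), ?_, ?_⟩
  · intro h0
    apply hp0
    have hinj : Function.Injective (algebraMap ℤ (Wr ℓ M)) := by
      intro a b hab
      have h1 := congrArg (algebraMap (Wr ℓ M) Qbar) hab
      rw [← IsScalarTower.algebraMap_apply, ← IsScalarTower.algebraMap_apply] at h1
      exact (algebraMap ℤ Qbar).injective_int h1
    exact Polynomial.map_injective _ hinj (by rw [h0, Polynomial.map_zero])
  · rw [Polynomial.aeval_map_algebraMap]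
    exact hp

theorem norm_algebraMap_Wr_le_one (w : Wr ℓ M) :
    ‖padicEmbedding ℓ (algebraMap (Wr ℓ M) Qbar w)‖ ≤ 1 :=
  (norm_iota_jL_le_one_iff ℓ (w : ↥(K1 M))).mpr w.2

theorem norm_algebraMap_Wr_lt_one {π : Wr ℓ M} (hπ : Irreducible π) :
    ‖padicEmbedding ℓ (algebraMap (Wr ℓ M) Qbar π)‖ < 1 := by
  have h1 : π ∈ IsLocalRing.maximalIdeal (Wr ℓ M) :=
    (IsLocalRing.mem_maximalIdeal π).mpr hπ.not_isUnit
  exact (mem_max_OL ℓ (K1 M) π).mp h1


/-! ### Pointwise centres over `ℚ̄` for a two-chart model -/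

section Model

variable {ℓ M}
variable {F : Type} [Field F] [Algebra ↥(K1 M) F] [Algebra (Wr ℓ M) F]
  [IsScalarTower (Wr ℓ M) ↥(K1 M) F]
  {π : Wr ℓ M} {t : F} {B0 B1 : Subalgebra (Wr ℓ M) F} {Ov : ValuationSubring F}
  (Mod : TwoChartModel (Wr ℓ M) ↥(K1 M) F π t B0 B1 Ov)

/-- `ι(W) ⊆ ℚ_ℓ(μ_M)` from `WMu`. -/
theorem wmu_mem (hMu : WMu ℓ M) (w : Wr ℓ M) :
    padicEmbedding ℓ (algebraMap (Wr ℓ M) Qbar w) ∈ muField ℓ M :=
  (hMu w).1

theorem finite_quot_pi (hπ : Irreducible π) :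
    Finite (Wr ℓ M ⧸ (Ideal.span {π} : Ideal (Wr ℓ M))) := by
  haveI : FiniteDimensional ℚ ↥(K1 M) := inferInstance
  have h1 : Finite (IsLocalRing.ResidueField (Wr ℓ M)) :=
    Fermat.Agent.T1.LocModel46.finite_residueField ℓ (K1 M)
  haveI := Fermat.Agent.T1.LocModel46.isDVR_AK ℓ (K1 M)
  rw [← hπ.maximalIdeal_eq]
  exact h1

include Mod in
/-- **Pointwise centres over `ℚ̄`, chart 0.** -/
theorem qbarCentres0_of_model (hπ : Irreducible π) (htr : Transcendental ↥(K1 M) t)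
    (hℓM : ¬ ℓ ∣ M) (hMu : WMu ℓ M) : QbarCentres ℓ M ↥B0 M := by
  intro q hq
  haveI := finite_quot_pi (ℓ := ℓ) (M := M) hπ
  haveI := isAlgebraic_Wr_Qbar ℓ M
  exact Centres92.OfModel92.exists_centre_local0 ℓ Mod htr (Ω := Qbar)
    (injective_algebraMap_Wr_Qbar ℓ M)
    ((padicEmbedding ℓ : Qbar →ₐ[ℚ] Kbar ℓ) : Qbar →+* Kbar ℓ)
    (fun σ => (localGaloisToGlobal ℓ σ).toRingEquiv)
    (fun σ x => padicEmbedding_localGaloisToGlobal ℓ σ x)
    (norm_algebraMap_Wr_le_one ℓ M) (norm_algebraMap_Wr_lt_one ℓ M hπ) M hℓM (wmu_mem hMu) q hq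

include Mod in
/-- **Pointwise centres over `ℚ̄`, chart 1.** -/
theorem qbarCentres1_of_model (hπ : Irreducible π) (htr : Transcendental ↥(K1 M) t)
    [FiniteDimensional ↥(IntermediateField.adjoin ↥(K1 M) {t}) F]
    (hℓM : ¬ ℓ ∣ M) (hMu : WMu ℓ M) : QbarCentres ℓ M ↥B1 M := by
  intro q hq
  haveI := finite_quot_pi (ℓ := ℓ) (M := M) hπ
  haveI := isAlgebraic_Wr_Qbar ℓ M
  exact Centres92.OfModel92.exists_centre_local1 ℓ Mod htr (Ω := Qbar)
    (injective_algebraMap_Wr_Qbar ℓ M)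
    ((padicEmbedding ℓ : Qbar →ₐ[ℚ] Kbar ℓ) : Qbar →+* Kbar ℓ)
    (fun σ => (localGaloisToGlobal ℓ σ).toRingEquiv)
    (fun σ x => padicEmbedding_localGaloisToGlobal ℓ σ x)
    (norm_algebraMap_Wr_le_one ℓ M) (norm_algebraMap_Wr_lt_one ℓ M hπ) M hℓM (wmu_mem hMu) q hq

end Model


/-! ### `CentresInputs` and `CentresFinal` for the chart system of the model -/

section Inputs

variable {ℓ M}
variable {F : Type} [Field F] [Algebra ↥(K1 M) F] [Algebra (Wr ℓ M) F]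
  [IsScalarTower (Wr ℓ M) ↥(K1 M) F]
  {π : Wr ℓ M} {t : F} {B0 B1 : Subalgebra (Wr ℓ M) F} {Ov : ValuationSubring F}
  (Mod : TwoChartModel (Wr ℓ M) ↥(K1 M) F π t B0 B1 Ov)
  (H : ChartAction (mc Mod :) (Gp ℓ)) (hW : WCompat ℓ M (mc Mod :) H)

include hW in
/-- **`CentresInputs` for the chart system of a two-chart model over `W = A ∩ ℚ(ζ_M)`.** -/
theorem centresInputs_of_model (hπ : Irreducible π) (htr : Transcendental ↥(K1 M) t)
    [FiniteDimensional ↥(IntermediateField.adjoin ↥(K1 M) {t}) F]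
    (hℓM : ¬ ℓ ∣ M) (hMu : WMu ℓ M)
    (h0 : ∀ σ : Gp ℓ, (∀ w, (H.S σ).σW w = w) → ∀ b, (H.S σ).σ0 b = b)
    (h1 : ∀ σ : Gp ℓ, (∀ w, (H.S σ).σW w = w) → ∀ b, (H.S σ).σ1 b = b)
    (hFacts : ∀ (L : IntermediateField ℚ Qbar) [FiniteDimensional ℚ L] (hle : K1 M ≤ L),
      letI := algAK (padicPlace ℓ) hle
      HubFacts (mc Mod :) (OL ℓ L)) :
    CentresInputs ℓ M (mc Mod :) H M where
  hS0 := (hS_of_trivial hW (fun w => (hMu w).1) h0 h1).1
  hS1 := (hS_of_trivial hW (fun w => (hMu w).1) h0 h1).2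
  hint0 := HubRed76.hint0 Mod
  hint1 := HubRed76.hint1 Mod
  hfg0 := Centres94.OfModel.finiteType0 Mod
  hfg1 := Centres92.OfModel92.finiteType1 Mod htr
  hinv0 := fun L _ hle => by
    letI := algAK (padicPlace ℓ) hle
    exact (hFacts L hle).hinv0
  hinv1 := fun L _ hle => by
    letI := algAK (padicPlace ℓ) hle
    exact (hFacts L hle).hinv1
  hcen0 := qbarCentres0_of_model Mod hπ htr hℓM hMu
  hcen1 := qbarCentres1_of_model Mod hπ htr hℓM hMu

/-- **Brick G9-H7 for the chart system of a two-chart model**: `Assembly41.CentresFinal`. -/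
theorem centresFinal_of_model (hπ : Irreducible π) (htr : Transcendental ↥(K1 M) t)
    [FiniteDimensional ↥(IntermediateField.adjoin ↥(K1 M) {t}) F]
    (hℓM : ¬ ℓ ∣ M) (hMu : WMu ℓ M)
    (h0 : ∀ σ : Gp ℓ, (∀ w, (H.S σ).σW w = w) → ∀ b, (H.S σ).σ0 b = b)
    (h1 : ∀ σ : Gp ℓ, (∀ w, (H.S σ).σW w = w) → ∀ b, (H.S σ).σ1 b = b)
    (hFacts : ∀ (L : IntermediateField ℚ Qbar) [FiniteDimensional ℚ L] (hle : K1 M ≤ L),
      letI := algAK (padicPlace ℓ) hle
      HubFacts (mc Mod :) (OL ℓ L)) :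
    CentresFinal ℓ M (mc Mod :) H hW :=
  centresFinal hW (centresInputs_of_model Mod H hW hπ htr hℓM hMu h0 h1 hFacts)

end Inputs


/-! ### Variant with the hypothesis `h2` of `Assembly41.HubProvider` -/

section H2

variable {ℓ M}

/-- `ι(ℚ(ζ_M)) ⊆ ℚ_ℓ(μ_M)` from `WMu` (`ℚ(ζ_M) = Frac W`). -/
theorem iota_K1_mem_muField (hMu : WMu ℓ M) (x : ↥(K1 M)) :
    padicEmbedding ℓ (jL (K1 M) x) ∈ muField ℓ M := by
  obtain ⟨a, b, hb, rfl⟩ := IsFractionRing.div_surjective (A := Wr ℓ M) x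
  have ha' : padicEmbedding ℓ (jL (K1 M) (algebraMap (Wr ℓ M) ↥(K1 M) a)) ∈ muField ℓ M :=
    (hMu a).1
  have hb' : padicEmbedding ℓ (jL (K1 M) (algebraMap (Wr ℓ M) ↥(K1 M) b)) ∈ muField ℓ M :=
    (hMu b).1
  rw [map_div₀, map_div₀]
  exact div_mem ha' hb'

/-- `σ` fixing `ℚ_ℓ(μ_M)` pointwise: its restriction to `ℚ̄` fixes `ℚ(ζ_M)` pointwise. -/
theorem res_fixes_K1 (hMu : WMu ℓ M) (σ : Gp ℓ) (hσ : ∀ e ∈ muField ℓ M, σ e = e) :
    ∀ x ∈ K1 M, localGaloisToGlobal ℓ σ x = x := by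
  intro x hx
  have hinj : Function.Injective (padicEmbedding ℓ) := (padicEmbedding ℓ).toRingHom.injective
  apply hinj
  rw [padicEmbedding_localGaloisToGlobal]
  exact hσ _ (iota_K1_mem_muField hMu ⟨x, hx⟩)

variable {F : Type} [Field F] [Algebra ↥(K1 M) F] [Algebra (Wr ℓ M) F]
  [IsScalarTower (Wr ℓ M) ↥(K1 M) F]
  {π : Wr ℓ M} {t : F} {B0 B1 : Subalgebra (Wr ℓ M) F} {Ov : ValuationSubring F}
  (Mod : TwoChartModel (Wr ℓ M) ↥(K1 M) F π t B0 B1 Ov)
  (H : ChartAction (mc Mod :) (Gp ℓ)) (hW : WCompat ℓ M (mc Mod :) H)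

/-- `σ01 = id` forces `σ0 = id` and `σ1 = id` (the charts inject into the overlap). -/
theorem sigma_eq_of_sigma01 (σ : Gp ℓ) (h : (H.S σ).σ01 = RingHom.id ↥(B0 ⊔ B1)) :
    (∀ b, (H.S σ).σ0 b = b) ∧ (∀ b, (H.S σ).σ1 b = b) := by
  constructor
  · intro b
    have h1 := (H.S σ).comm0 b
    rw [h, RingHom.id_apply] at h1
    have h2 : ((algebraMap ↥B0 ↥(B0 ⊔ B1) b : ↥(B0 ⊔ B1)) : F) =
        ((algebraMap ↥B0 ↥(B0 ⊔ B1) ((H.S σ).σ0 b) : ↥(B0 ⊔ B1)) : F) := congrArg Subtype.val h1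
    exact Subtype.ext h2.symm
  · intro b
    have h1 := (H.S σ).comm1 b
    rw [h, RingHom.id_apply] at h1
    have h2 : ((algebraMap ↥B1 ↥(B0 ⊔ B1) b : ↥(B0 ⊔ B1)) : F) =
        ((algebraMap ↥B1 ↥(B0 ⊔ B1) ((H.S σ).σ1 b) : ↥(B0 ⊔ B1)) : F) := congrArg Subtype.val h1
    exact Subtype.ext h2.symm

/-- **Brick G9-H7 in the shape of `Assembly41.HubProvider`**: `CentresFinal` for the chart system
of a two-chart model, from `h2` (`σ` fixing `ℚ(ζ_M)` acts trivially on the overlap chart) and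
`hFacts`. -/
theorem centresFinal_of_model_h2 (hπ : Irreducible π) (htr : Transcendental ↥(K1 M) t)
    [FiniteDimensional ↥(IntermediateField.adjoin ↥(K1 M) {t}) F]
    (hℓM : ¬ ℓ ∣ M) (hMu : WMu ℓ M)
    (h2 : ∀ σ : Gp ℓ, (∀ x ∈ K1 M, localGaloisToGlobal ℓ σ x = x) →
      (H.S σ).σ01 = RingHom.id ↥(B0 ⊔ B1))
    (hFacts : ∀ (L : IntermediateField ℚ Qbar) [FiniteDimensional ℚ L] (hle : K1 M ≤ L),
      letI := algAK (padicPlace ℓ) hle
      HubFacts (mc Mod :) (OL ℓ L)) :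
    CentresFinal ℓ M (mc Mod :) H hW :=
  centresFinal hW
    { hS0 := fun σ hσ => (sigma_eq_of_sigma01 Mod H σ (h2 σ (res_fixes_K1 hMu σ hσ))).1
      hS1 := fun σ hσ => (sigma_eq_of_sigma01 Mod H σ (h2 σ (res_fixes_K1 hMu σ hσ))).2
      hint0 := HubRed76.hint0 Mod
      hint1 := HubRed76.hint1 Mod
      hfg0 := Centres94.OfModel.finiteType0 Mod
      hfg1 := Centres92.OfModel92.finiteType1 Mod htr
      hinv0 := fun L _ hle => by
        letI := algAK (padicPlace ℓ) hle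
        exact (hFacts L hle).hinv0
      hinv1 := fun L _ hle => by
        letI := algAK (padicPlace ℓ) hle
        exact (hFacts L hle).hinv1
      hcen0 := qbarCentres0_of_model Mod hπ htr hℓM hMu
      hcen1 := qbarCentres1_of_model Mod hπ htr hℓM hMu }

end H2

end Fermat.Agent.T1.CentresInst75
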