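import Mathlib
import Fermat.Agent.T1.Top48
import Fermat.Agent.T1.Assembly41.Top

/-!
# T1A: the intrinsic target `Flat44.S19FlatTarget` from the geometric existential  (helper47)

`Top48.s19_of_modCoordData` concludes the frozen S19 shape; the S32 wiring (`Flat83/S32Main.isFlatAt_of_s19`)
consumes the intrinsic form `Flat44.S19FlatTarget`.  Same chain (Lift9 → Trunc46 → Alc47 → Glue44 → Level62),
intrinsic conclusion.
-/

set_option autoImplicit false
set_option linter.style.haveILetI false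

noncomputable section

namespace Fermat.Agent.T1.FlatTarget47

open Fermat.Agent.TW.B5.Iface Fermat.Agent.Flat44 Fermat.Agent.T1.AlgIface47
  Fermat.Agent.T1.TruncIface47 Fermat.Agent.T1.Assembly41 ModularCurve
  Fermat.Agent.RED.Interface4 Fermat.Agent.T1.Top48

/-- **`S19FlatTarget` from arithmetic local analytic group data** at the auxiliary levels. -/
theorem s19FlatTarget_of_modCoordData
    (h : ∀ (N : ℕ) [NeZero N] (ℓ : ℕ) [Fact ℓ.Prime], ¬ ℓ ∣ N → ∀ k : ℕ,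
      ∃ (J : Type) (_ : AddCommGroup J),
        Nonempty (ModCoordData ℓ J
          ↥(Submodule.torsionBy ℤ (JZero (auxLevel ℓ N)) ((ℓ : ℤ) ^ k))
          (locAct ℓ (auxLevel ℓ N) ((ℓ : ℤ) ^ k)))) :
    S19FlatTarget := by
  refine Fermat.Agent.T1.Level62.s19FlatTarget_of_auxLevel ?_
  intro N _ ℓ' _ hℓN k'
  obtain ⟨J, iJ, ⟨D0⟩⟩ := h N ℓ' hℓN k'
  obtain ⟨D1⟩ := Fermat.Agent.T1.Lift9.truncOfModCoord ℓ' J _ _ D0
  obtain ⟨D⟩ := Fermat.Agent.T1.Trunc46.truncToExact ℓ' J _ _ D1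
  have : NeZero (auxLevel ℓ' N) := ⟨by
    unfold auxLevel
    split_ifs
    · exact Nat.lcm_ne_zero (NeZero.ne N) (by norm_num)
    · exact Nat.lcm_ne_zero (NeZero.ne N) (by norm_num)⟩
  have : NeZero (ℓ' ^ k') := ⟨pow_ne_zero _ (Fact.out : ℓ'.Prime).ne_zero⟩
  have hcast : ((ℓ' : ℤ) ^ k') = ((ℓ' ^ k' : ℕ) : ℤ) := by push_cast; rfl
  have : Finite ↥(Submodule.torsionBy ℤ (JZero (auxLevel ℓ' N)) ((ℓ' : ℤ) ^ k')) := by
    rw [hcast]
    exact finite_torsionBy _ _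
  have hloc := Fermat.Agent.T1.Alc47.alc ℓ' J
    ↥(Submodule.torsionBy ℤ (JZero (auxLevel ℓ' N)) ((ℓ' : ℤ) ^ k'))
    (locAct ℓ' (auxLevel ℓ' N) ((ℓ' : ℤ) ^ k')) D
  rw [hcast] at hloc ⊢
  exact hasFlatModel_of_local ℓ' (auxLevel ℓ' N) (ℓ' ^ k') hloc

/-- **`S19FlatTarget` from hub packages at the auxiliary levels** (the intrinsic twin of
`Assembly41.s19_of_packages`; input of `Flat83.S32Main.isFlatAt_of_s19`). -/
theorem s19FlatTarget_of_packages
    (hP : ∀ (N : ℕ) [NeZero N] (ℓ : ℕ) [Fact ℓ.Prime], ¬ ℓ ∣ N →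
      ∃ _ : NeZero (auxLevel ℓ N), Nonempty (HubPackage ℓ (auxLevel ℓ N))) :
    S19FlatTarget := by
  refine s19FlatTarget_of_modCoordData (fun N _ ℓ' _ hℓN k' => ?_)
  obtain ⟨hne, ⟨P⟩⟩ := hP N ℓ' hℓN
  exact modCoordData_of_package ℓ' (auxLevel ℓ' N)
    (Fermat.Agent.RED.Interface4.not_dvd_auxLevel Fact.out hℓN) P k'

end Fermat.Agent.T1.FlatTarget47
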