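import Mathlib
import Fermat.Agent.T1.RedIface75
import Fermat.Agent.Jac.LineOps39.Tensor

/-!
# T1A (S19), REDUCTION layer, brick R-a: Čech lines  (helper75)

For a two-chart ring `(A, R0, R1, R01)` and a unit `u` of `R01`, `RedIface75.cechLine u` is the line
two-chart module which is trivial on both charts and glued by `u`.

* `cechTensorIso`, `cechOneIso` : `cechLine u ⊗ cechLine v ≅ cechLine (u * v)`, `cechLine 1 ≅ O`;
* `cechClassHom c : R01ˣ →* LinePic c` : the class map is a group homomorphism;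
* `cechLine_iso_iff` : `cechLine u ≅ cechLine v ↔ ∃ a : R0ˣ, b : R1ˣ, a|₀₁ * u = v * b|₀₁`;
  `cechClass_eq_one_iff`;

Still to come (separate file, brick R-a part 2): `exists_iso_cechLine` (a two-chart module whose
chart modules are free of rank one is a Čech line) and `bc_cechClass` (base change along a cube of
rings maps `cechClass u` to `cechClass (image of u)`).
-/

set_option autoImplicit false

open TensorProduct

namespace Fermat.Agent.T1.CechLine75

open Fermat.Agent.Jac Fermat.Agent.Jac.JSmooth85Alg Fermat.Agent.Jac.JGroup85Pic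
open Fermat.Agent.Jac.LineOps39 Fermat.Agent.T1.RedIface75

universe u

section Basic

variable {A R0 R1 R01 : Type u} [CommRing A] [CommRing R0] [CommRing R1] [CommRing R01]
  [Algebra A R0] [Algebra A R1] [Algebra A R01] [Algebra R0 R01] [Algebra R1 R01]
  [IsScalarTower A R0 R01] [IsScalarTower A R1 R01]

@[simp] theorem cechLine_r0 (u : R01ˣ) (x : R0) :
    (cechLine (A := A) (R0 := R0) (R1 := R1) u).r0 x = algebraMap R0 R01 x := rfl

@[simp] theorem cechLine_r1 (u : R01ˣ) (x : R1) :
    (cechLine (A := A) (R0 := R0) (R1 := R1) u).r1 x = (u : R01) * algebraMap R1 R01 x := rfl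

theorem cechTensor_comm0 (u v : R01ˣ)
    (x : (tensor (cechLine (A := A) (R0 := R0) (R1 := R1) u) (cechLine v)).N0) :
    TensorProduct.lid R01 R01 ((tensor (cechLine u) (cechLine v)).r0 x) =
      algebraMap R0 R01 (TensorProduct.lid R0 R0 x) := by
  have h : ((TensorProduct.lid R01 R01).toLinearMap.restrictScalars R0).comp
      (tensor (cechLine (A := A) (R0 := R0) (R1 := R1) u) (cechLine v)).r0 =
      (Algebra.linearMap R0 R01).comp (TensorProduct.lid R0 R0).toLinearMap := by
    refine TensorProduct.ext' fun x y => ?_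
    show TensorProduct.lid R01 R01 ((tensor (cechLine u) (cechLine v)).r0 (x ⊗ₜ[R0] y)) = _
    rw [tensor_r0_tmul]
    show TensorProduct.lid R01 R01 (algebraMap R0 R01 x ⊗ₜ[R01] algebraMap R0 R01 y) =
      algebraMap R0 R01 (TensorProduct.lid R0 R0 (x ⊗ₜ[R0] y))
    simp
  exact LinearMap.congr_fun h x

theorem cechTensor_comm1 (u v : R01ˣ)
    (x : (tensor (cechLine (A := A) (R0 := R0) (R1 := R1) u) (cechLine v)).N1) :
    TensorProduct.lid R01 R01 ((tensor (cechLine u) (cechLine v)).r1 x) =
      ((u * v : R01ˣ) : R01) * algebraMap R1 R01 (TensorProduct.lid R1 R1 x) := by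
  have h : ((TensorProduct.lid R01 R01).toLinearMap.restrictScalars R1).comp
      (tensor (cechLine (A := A) (R0 := R0) (R1 := R1) u) (cechLine v)).r1 =
      (cechLine (A := A) (R0 := R0) (R1 := R1) (u * v)).r1.comp
        (TensorProduct.lid R1 R1).toLinearMap := by
    refine TensorProduct.ext' fun x y => ?_
    show TensorProduct.lid R01 R01 ((tensor (cechLine u) (cechLine v)).r1 (x ⊗ₜ[R1] y)) = _
    rw [tensor_r1_tmul]
    show TensorProduct.lid R01 R01 (((u : R01) * algebraMap R1 R01 x) ⊗ₜ[R01]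
        ((v : R01) * algebraMap R1 R01 y)) =
      ((u * v : R01ˣ) : R01) * algebraMap R1 R01 (TensorProduct.lid R1 R1 (x ⊗ₜ[R1] y))
    simp only [TensorProduct.lid_tmul, smul_eq_mul, map_mul, Units.val_mul]
    ring
  exact LinearMap.congr_fun h x

/-- `cechLine u ⊗ cechLine v ≅ cechLine (u * v)`. -/
noncomputable def cechTensorIso (u v : R01ˣ) :
    QC2.Iso (tensor (cechLine (A := A) (R0 := R0) (R1 := R1) u) (cechLine v))
      (cechLine (u * v)) where
  e0 := TensorProduct.lid R0 R0
  e1 := TensorProduct.lid R1 R1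
  e01 := TensorProduct.lid R01 R01
  comm0 := cechTensor_comm0 u v
  comm1 := cechTensor_comm1 u v

/-- `cechLine 1 ≅ O`. -/
noncomputable def cechOneIso :
    QC2.Iso (cechLine (A := A) (R0 := R0) (R1 := R1) (1 : R01ˣ)) QC2.unit where
  e0 := LinearEquiv.refl R0 R0
  e1 := LinearEquiv.refl R1 R1
  e01 := LinearEquiv.refl R01 R01
  comm0 := fun x => rfl
  comm1 := fun x => by
    show (1 : R01) * algebraMap R1 R01 x = algebraMap R1 R01 x
    rw [one_mul]

variable (c : TwoChart A R0 R1 R01)

/-- **The class map of Čech lines is a group homomorphism.** -/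
noncomputable def cechClassHom : R01ˣ →* LinePic c where
  toFun := cechClass c
  map_one' := LinePic.mk_eq_mk _ _ cechOneIso
  map_mul' := fun u v => by
    show cechClass c (u * v) = cechClass c u * cechClass c v
    unfold cechClass
    rw [LinePic.mk_mul_mk]
    exact (LinePic.mk_eq_mk _ _ (cechTensorIso u v)).symm

@[simp] theorem cechClassHom_apply (u : R01ˣ) : cechClassHom c u = cechClass c u := rfl

/-- A linear automorphism of a commutative ring (as a module over itself) is multiplication by a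
unit. -/
theorem exists_unit_mul {R : Type u} [CommRing R] (f : R ≃ₗ[R] R) :
    ∃ a : Rˣ, (a : R) = f 1 ∧ ∀ x, f x = x * a := by
  have h : ∀ x : R, f x = x * f 1 := fun x => by
    have := f.map_smul x (1 : R)
    rw [smul_eq_mul, mul_one] at this
    rw [this, smul_eq_mul]
  have h' : ∀ x : R, f.symm x = x * f.symm 1 := fun x => by
    have := f.symm.map_smul x (1 : R)
    rw [smul_eq_mul, mul_one] at this
    rw [this, smul_eq_mul]
  have ha : f 1 * f.symm 1 = 1 := by
    have := f.apply_symm_apply (1 : R)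
    rw [h (f.symm 1)] at this
    rw [mul_comm]; exact this
  exact ⟨⟨f 1, f.symm 1, ha, by rw [mul_comm]; exact ha⟩, rfl, h⟩

/-- **Isomorphism criterion for Čech lines.** -/
theorem cechLine_iso_iff (u v : R01ˣ) :
    Nonempty (QC2.Iso (cechLine (A := A) (R0 := R0) (R1 := R1) u) (cechLine v)) ↔
      ∃ (a : R0ˣ) (b : R1ˣ), algebraMap R0 R01 a * u = v * algebraMap R1 R01 b := by
  constructor
  · rintro ⟨e⟩
    let f0 : R0 ≃ₗ[R0] R0 := e.e0
    let f1 : R1 ≃ₗ[R1] R1 := e.e1
    let f01 : R01 ≃ₗ[R01] R01 := e.e01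
    obtain ⟨a, ha1, ha⟩ := exists_unit_mul f0
    obtain ⟨b, hb1, hb⟩ := exists_unit_mul f1
    obtain ⟨d, hd1, hd⟩ := exists_unit_mul f01
    refine ⟨a, b, ?_⟩
    have c0 : f01 (algebraMap R0 R01 1) = algebraMap R0 R01 (f0 1) := e.comm0 (1 : R0)
    have c1 : f01 ((u : R01) * algebraMap R1 R01 1) = (v : R01) * algebraMap R1 R01 (f1 1) :=
      e.comm1 (1 : R1)
    rw [map_one, hd, one_mul, ← ha1] at c0
    rw [map_one, mul_one, hd, c0, ← hb1] at c1
    rw [mul_comm]; exact c1
  · rintro ⟨a, b, hab⟩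
    refine ⟨{ e0 := unitMulEquiv a
              e1 := unitMulEquiv b
              e01 := unitMulEquiv (Units.map (algebraMap R0 R01).toMonoidHom a)
              comm0 := fun (x : R0) => ?_
              comm1 := fun (x : R1) => ?_ }⟩
    · show algebraMap R0 R01 a * algebraMap R0 R01 x = algebraMap R0 R01 ((a : R0) * x)
      rw [map_mul]
    · show algebraMap R0 R01 a * ((u : R01) * algebraMap R1 R01 x) =
        (v : R01) * algebraMap R1 R01 ((b : R1) * x)
      rw [← mul_assoc, hab, map_mul, mul_assoc]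

variable {c} in
/-- The class of a Čech line is trivial iff the unit is a quotient of units of the charts. -/
theorem cechClass_eq_one_iff (u : R01ˣ) :
    cechClass c u = 1 ↔
      ∃ (a : R0ˣ) (b : R1ˣ), (u : R01) * algebraMap R1 R01 b = algebraMap R0 R01 a := by
  rw [← (cechClassHom c).map_one, cechClassHom_apply]
  unfold cechClass
  rw [LinePic.mk_eq_mk_iff, cechLine_iso_iff]
  constructor
  · rintro ⟨a, b, h⟩
    refine ⟨a⁻¹, b⁻¹, ?_⟩
    have ha : algebraMap R0 R01 (a⁻¹ : R0ˣ) * algebraMap R0 R01 a = 1 := by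
      rw [← map_mul, Units.inv_mul, map_one]
    have hb : algebraMap R1 R01 b * algebraMap R1 R01 (b⁻¹ : R1ˣ) = 1 := by
      rw [← map_mul, Units.mul_inv, map_one]
    rw [Units.val_one, one_mul] at h
    calc (u : R01) * algebraMap R1 R01 (b⁻¹ : R1ˣ)
        = algebraMap R0 R01 (a⁻¹ : R0ˣ) * (algebraMap R0 R01 a * u) *
            algebraMap R1 R01 (b⁻¹ : R1ˣ) := by rw [← mul_assoc, ha, one_mul]
      _ = algebraMap R0 R01 (a⁻¹ : R0ˣ) := by rw [h, mul_assoc, hb, mul_one]
  · rintro ⟨a, b, h⟩
    refine ⟨a⁻¹, b⁻¹, ?_⟩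
    have ha : algebraMap R0 R01 (a⁻¹ : R0ˣ) * algebraMap R0 R01 a = 1 := by
      rw [← map_mul, Units.inv_mul, map_one]
    have hb : algebraMap R1 R01 b * algebraMap R1 R01 (b⁻¹ : R1ˣ) = 1 := by
      rw [← map_mul, Units.mul_inv, map_one]
    rw [Units.val_one, one_mul]
    calc algebraMap R0 R01 (a⁻¹ : R0ˣ) * (u : R01)
        = algebraMap R0 R01 (a⁻¹ : R0ˣ) * ((u : R01) * algebraMap R1 R01 b) *
            algebraMap R1 R01 (b⁻¹ : R1ˣ) := by
          rw [mul_assoc, mul_assoc, hb, mul_one]
      _ = algebraMap R1 R01 (b⁻¹ : R1ˣ) := by rw [h, ha, one_mul]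

end Basic

end Fermat.Agent.T1.CechLine75
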