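import Mathlib
import Fermat.Agent.Jac.LineOps39.PatchInvertible

/-!
# T1A (S19), REDUCTION layer: the ideal of a section of a smooth relative curve is invertible
(helper75)

`O` a discrete valuation ring with uniformiser `π` (given in the elementwise form of
`RED.CORE.CoreIface24.TwoChartModel.dvrR`), `C` a noetherian domain which is an `O`-algebra (a chart
of the model over `O`), `q : C →ₐ[O] O` an `O`-point, `P = ker q ≠ 0`.  If the maximal ideal
`𝔫 = q⁻¹(π)` of `C` is generated, locally, by `π` and one more element `s`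
(`TwoChartModel.smooth_j`), then `P` is an invertible `C`-module:
`invertible_ker_of_smooth`.

Proof.  `x := s - q s ∈ P`, and `(π, s) = (π, x)`.  For `y ∈ P` the local equation
`d y = π u + x v` (`d ∉ 𝔫`) forces `u ∈ P`, so `P_𝔫 = x C_𝔫 + π P_𝔫` and Nakayama gives
`P_𝔫 = x C_𝔫`.  As `P` is finitely generated, `d P ⊆ (x)` for one `d ∉ 𝔫`; `d` is invertible
modulo `P` (because `q d` is a unit of `O`), and `P C[1/d] = x C[1/d]` is free of rank one.
-/

set_option autoImplicit false

namespace Fermat.Agent.T1.PtInv75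

open Fermat.Agent.Jac.LineOps39

universe u

/-- A principal ideal of a domain generated by a nonzero element is an invertible module. -/
theorem invertible_span_singleton {R : Type u} [CommRing R] [IsDomain R] (x : R) (hx : x ≠ 0) :
    Module.Invertible R (Ideal.span {x} : Ideal R) :=
  Module.Invertible.congr (LinearEquiv.toSpanNonzeroSingleton R R x hx)

section Main

variable {O C : Type u} [CommRing O] [IsDomain O] [CommRing C] [IsDomain C] [IsNoetherianRing C]
  [Algebra O C]

omit [IsDomain C] [IsNoetherianRing C] in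
/-- The local equation: for `y ∈ ker q`, `d y = π u + x v` with `d ∉ 𝔫`, `u ∈ ker q`. -/
theorem exists_local_eq (π : O) (hπ0 : π ≠ 0)
    (hdvr : ∀ r : O, r ≠ 0 → ∃ (k : ℕ) (v : Oˣ), r = π ^ k * v)
    (q : C →ₐ[O] O) (𝔫 : Ideal C) (h𝔫 : ∀ c, c ∈ 𝔫 ↔ ¬ IsUnit (q c)) (s : C) (hs : s ∈ 𝔫)
    (hsm : ∀ y ∈ 𝔫, ∃ d : C, d ∉ 𝔫 ∧ d * y ∈ Ideal.span {algebraMap O C π, s})
    (y : C) (hy : q y = 0) :
    ∃ d : C, d ∉ 𝔫 ∧ ∃ u : C, q u = 0 ∧ ∃ v : C,
      d * y = algebraMap O C π * u + (s - algebraMap O C (q s)) * v := by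
  have hy𝔫 : y ∈ 𝔫 := by
    rw [h𝔫, hy]; exact not_isUnit_zero
  obtain ⟨d, hd, hdy⟩ := hsm y hy𝔫
  obtain ⟨a, b, hab⟩ := Ideal.mem_span_pair.1 hdy
  -- `q s = π * a'`
  have hqs : ∃ a' : O, q s = π * a' := by
    by_cases h0 : q s = 0
    · exact ⟨0, by rw [h0, mul_zero]⟩
    · obtain ⟨k, v, hkv⟩ := hdvr (q s) h0
      rcases Nat.eq_zero_or_pos k with hk | hk
      · exfalso
        have : IsUnit (q s) := by rw [hkv, hk, pow_zero, one_mul]; exact v.isUnit
        exact ((h𝔫 s).1 hs) this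
      · obtain ⟨k', rfl⟩ := Nat.exists_eq_succ_of_ne_zero hk.ne'
        exact ⟨π ^ k' * v, by rw [hkv, pow_succ]; ring⟩
  obtain ⟨a', ha'⟩ := hqs
  refine ⟨d, hd, a + b * algebraMap O C a', ?_, b, ?_⟩
  · -- apply `q` to the equation
    have h1 : q (d * y) = π * q (a + b * algebraMap O C a') := by
      rw [← hab, map_add, map_mul, map_mul, AlgHom.commutes, Algebra.algebraMap_self,
        RingHom.id_apply, ha', map_add, map_mul, AlgHom.commutes, Algebra.algebraMap_self,
        RingHom.id_apply]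
      ring
    rw [map_mul, hy, mul_zero] at h1
    exact (mul_eq_zero.1 h1.symm).resolve_left hπ0
  · rw [← hab, ha', map_mul]
    ring

/-- The maximal ideal `q⁻¹(π)` of `C`. -/
def ptMax (π : O) (q : C →ₐ[O] O) : Ideal C := (Ideal.span {π}).comap q.toRingHom

omit [IsDomain C] [IsNoetherianRing C] in
omit [IsDomain O] in
theorem mem_ptMax_iff (π : O) (hdvr : ∀ r : O, r ≠ 0 → ∃ (k : ℕ) (v : Oˣ), r = π ^ k * v)
    (hπnu : ¬ IsUnit π) (q : C →ₐ[O] O) (c : C) : c ∈ ptMax π q ↔ ¬ IsUnit (q c) := by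
  show q c ∈ Ideal.span {π} ↔ _
  rw [Ideal.mem_span_singleton]
  constructor
  · rintro ⟨w, hw⟩ hu
    rw [hw] at hu
    exact hπnu (isUnit_of_mul_isUnit_left hu)
  · intro hu
    by_cases h0 : q c = 0
    · rw [h0]; exact dvd_zero _
    · obtain ⟨k, v, hkv⟩ := hdvr (q c) h0
      rcases Nat.eq_zero_or_pos k with hk | hk
      · exfalso
        apply hu
        rw [hkv, hk, pow_zero, one_mul]; exact v.isUnit
      · obtain ⟨k', rfl⟩ := Nat.exists_eq_succ_of_ne_zero hk.ne'
        exact ⟨π ^ k' * v, by rw [hkv, pow_succ]; ring⟩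

omit [IsDomain C] [IsNoetherianRing C] in
theorem ptMax_isMaximal (π : O) (hdvr : ∀ r : O, r ≠ 0 → ∃ (k : ℕ) (v : Oˣ), r = π ^ k * v)
    (hπnu : ¬ IsUnit π) (q : C →ₐ[O] O) : (ptMax π q).IsMaximal := by
  rw [Ideal.isMaximal_iff]
  refine ⟨fun h1 => ?_, fun J c hle hcn hcJ => ?_⟩
  · rw [mem_ptMax_iff π hdvr hπnu q, map_one] at h1
    exact h1 isUnit_one
  · -- `q c` is a unit `w⁻¹`; `1 - w c ∈ ptMax ⊆ J`
    rw [mem_ptMax_iff π hdvr hπnu q, not_not] at hcn
    obtain ⟨w, hw⟩ := hcn
    have hmem : 1 - algebraMap O C (↑w⁻¹ : O) * c ∈ ptMax π q := by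
      rw [mem_ptMax_iff π hdvr hπnu q, map_sub, map_one, map_mul, AlgHom.commutes,
        Algebra.algebraMap_self, RingHom.id_apply, ← hw, Units.inv_mul, sub_self]
      exact not_isUnit_zero
    have h1 : (1 : C) = (1 - algebraMap O C (↑w⁻¹ : O) * c) + algebraMap O C (↑w⁻¹ : O) * c := by
      ring
    rw [h1]
    exact J.add_mem (hle hmem) (J.mul_mem_left _ hcJ)

/-- **Local principality**: one element `d ∉ 𝔫` multiplies the whole kernel of `q` into the
principal ideal `(x)`, `x = s - q s`. -/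
theorem exists_mul_ker_le_span (π : O) (hπ0 : π ≠ 0)
    (hdvr : ∀ r : O, r ≠ 0 → ∃ (k : ℕ) (v : Oˣ), r = π ^ k * v) (hπnu : ¬ IsUnit π)
    (q : C →ₐ[O] O) (s : C) (hs : s ∈ ptMax π q)
    (hsm : ∀ y ∈ ptMax π q, ∃ d : C, d ∉ ptMax π q ∧
      d * y ∈ Ideal.span {algebraMap O C π, s}) :
    ∃ d : C, d ∉ ptMax π q ∧ ∀ y : C, q y = 0 →
      d * y ∈ Ideal.span {s - algebraMap O C (q s)} := by
  classical
  set 𝔫 : Ideal C := ptMax π q with h𝔫def
  have hmax : 𝔫.IsMaximal := ptMax_isMaximal π hdvr hπnu q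
  have : 𝔫.IsPrime := hmax.isPrime
  set x : C := s - algebraMap O C (q s) with hx
  let R := Localization.AtPrime 𝔫
  let P : Ideal C := RingHom.ker q.toRingHom
  have hPmem : ∀ y : C, y ∈ P ↔ q y = 0 := fun y => RingHom.mem_ker
  have hπ𝔫 : algebraMap O C π ∈ 𝔫 := by
    rw [h𝔫def, mem_ptMax_iff π hdvr hπnu q, AlgHom.commutes, Algebra.algebraMap_self,
      RingHom.id_apply]
    exact hπnu
  -- the Nakayama inequality
  have hle : P.map (algebraMap C R) ≤ Ideal.span {algebraMap C R x} ⊔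
      Ideal.span {algebraMap C R (algebraMap O C π)} • P.map (algebraMap C R) := by
    rw [Ideal.map_le_iff_le_comap]
    intro y hy
    obtain ⟨d, hd, u, hu, v, hduv⟩ := exists_local_eq π hπ0 hdvr q 𝔫
      (mem_ptMax_iff π hdvr hπnu q) s hs hsm y ((hPmem y).1 hy)
    have hdunit : IsUnit (algebraMap C R d) :=
      IsLocalization.map_units R (⟨d, hd⟩ : 𝔫.primeCompl)
    obtain ⟨e, he⟩ := hdunit
    have hy' : algebraMap C R y = (↑e⁻¹ : R) * algebraMap C R (d * y) := by
      rw [map_mul, ← he, ← mul_assoc, Units.inv_mul, one_mul]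
    rw [Ideal.mem_comap, hy', hduv, map_add, map_mul, map_mul, mul_add]
    refine Submodule.add_mem_sup ?_ ?_ |> fun h => by rw [add_comm]; exact h
    · exact Ideal.mul_mem_left _ _ (Ideal.mul_mem_right _ _ (Ideal.subset_span rfl))
    · have h1 : algebraMap C R (algebraMap O C π) * algebraMap C R u ∈
          Ideal.span {algebraMap C R (algebraMap O C π)} • P.map (algebraMap C R) := by
        rw [smul_eq_mul]
        exact Ideal.mul_mem_mul (Ideal.subset_span rfl)
          (Ideal.mem_map_of_mem _ ((hPmem u).2 hu))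
      exact Ideal.mul_mem_left _ _ h1
  have hnoeth : IsNoetherianRing R := IsLocalization.isNoetherianRing 𝔫.primeCompl R inferInstance
  have hjac : Ideal.span {algebraMap C R (algebraMap O C π)} ≤ Ideal.jacobson (⊥ : Ideal R) := by
    rw [IsLocalRing.jacobson_eq_maximalIdeal ⊥ bot_ne_top, Ideal.span_le,
      Set.singleton_subset_iff]
    exact (IsLocalization.AtPrime.to_map_mem_maximal_iff R 𝔫 _).2 hπ𝔫
  have hnak : P.map (algebraMap C R) ≤ Ideal.span {algebraMap C R x} :=
    Submodule.le_of_le_smul_of_le_jacobson_bot (IsNoetherian.noetherian _) hjac hle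
  -- elementwise
  have hinj : Function.Injective (algebraMap C R) :=
    IsLocalization.injective R (Ideal.primeCompl_le_nonZeroDivisors 𝔫)
  have hloc : ∀ y : C, y ∈ P → ∃ m : C, m ∉ 𝔫 ∧ m * y ∈ Ideal.span {x} := by
    intro y hy
    have h1 := hnak (Ideal.mem_map_of_mem _ hy)
    obtain ⟨r, hr⟩ := Ideal.mem_span_singleton'.1 h1
    obtain ⟨c, m, rfl⟩ := IsLocalization.exists_mk'_eq 𝔫.primeCompl r
    refine ⟨m.1, m.2, ?_⟩
    rw [Ideal.mem_span_singleton']
    refine ⟨c, hinj ?_⟩
    have h2 : algebraMap C R m.1 * IsLocalization.mk' R c m = algebraMap C R c := by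
      rw [mul_comm]; exact IsLocalization.mk'_spec R c m
    rw [map_mul, map_mul, ← h2, mul_assoc, hr]
  choose! mfun hmfun1 hmfun2 using hloc
  obtain ⟨T, hT⟩ := (IsNoetherian.noetherian P : P.FG)
  refine ⟨∏ y ∈ T, mfun y, ?_, ?_⟩
  · intro hmem
    obtain ⟨y, hyT, hy⟩ := Ideal.IsPrime.prod_mem_iff.1 hmem
    have hyP : y ∈ P := by rw [← hT]; exact Submodule.subset_span hyT
    exact hmfun1 y hyP hy
  · have hall : ∀ y ∈ Submodule.span C (T : Set C), (∏ y ∈ T, mfun y) * y ∈ Ideal.span {x} := by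
      intro y hyP
      induction hyP using Submodule.span_induction with
      | mem z hz =>
        have hzP : z ∈ P := by rw [← hT]; exact Submodule.subset_span hz
        rw [← Finset.mul_prod_erase T mfun hz, mul_right_comm]
        exact Ideal.mul_mem_right _ _ (hmfun2 z hzP)
      | zero => rw [mul_zero]; exact Ideal.zero_mem _
      | add z w _ _ hz hw => rw [mul_add]; exact Ideal.add_mem _ hz hw
      | smul a z _ hz =>
        rw [smul_eq_mul, mul_left_comm]
        exact Ideal.mul_mem_left _ _ hz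
    intro y hy
    exact hall y (by rw [hT]; exact (hPmem y).2 hy)

/-- **The ideal of a section of a smooth relative curve over a DVR is an invertible module.**
The hypothesis `hsm` is literally `RED.CORE.CoreIface24.TwoChartModel.smooth0/1` for the chart
`C`. -/
theorem invertible_ker_of_smooth (π : O) (hπ0 : π ≠ 0)
    (hdvr : ∀ r : O, r ≠ 0 → ∃ (k : ℕ) (v : Oˣ), r = π ^ k * v) (hπnu : ¬ IsUnit π)
    (q : C →ₐ[O] O) (hker : RingHom.ker q.toRingHom ≠ ⊥)
    (hsm : ∀ x : Ideal C, x.IsMaximal → algebraMap O C π ∈ x →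
      ∃ s ∈ x, ∀ y ∈ x, ∃ d : C, d ∉ x ∧ d * y ∈ Ideal.span {algebraMap O C π, s}) :
    Module.Invertible C (RingHom.ker q.toRingHom) := by
  have hmax : (ptMax π q).IsMaximal := ptMax_isMaximal π hdvr hπnu q
  have hπ𝔫 : algebraMap O C π ∈ ptMax π q := by
    rw [mem_ptMax_iff π hdvr hπnu q, AlgHom.commutes, Algebra.algebraMap_self, RingHom.id_apply]
    exact hπnu
  obtain ⟨s, hs, hs'⟩ := hsm (ptMax π q) hmax hπ𝔫
  obtain ⟨d, hd, hdP⟩ := exists_mul_ker_le_span π hπ0 hdvr hπnu q s hs hs'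
  set x : C := s - algebraMap O C (q s) with hx
  set P : Ideal C := RingHom.ker q.toRingHom with hP
  have hPmem : ∀ y : C, y ∈ P ↔ q y = 0 := fun y => RingHom.mem_ker
  have hxP : x ∈ P := by
    rw [hPmem, hx, map_sub, AlgHom.commutes, Algebra.algebraMap_self, RingHom.id_apply, sub_self]
  have hd0 : d ≠ 0 := by
    rintro rfl
    exact hd (Ideal.zero_mem _)
  have hx0 : x ≠ 0 := by
    intro h0
    obtain ⟨y, hyP, hy0⟩ := Submodule.exists_mem_ne_zero_of_ne_bot hker
    have h1 := hdP y ((hPmem y).1 hyP)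
    rw [h0, Ideal.span_singleton_eq_bot.2 rfl, Ideal.mem_bot] at h1
    exact (mul_ne_zero hd0 hy0) h1
  -- `d` is invertible modulo `P`
  have hqd : IsUnit (q d) := by
    by_contra h
    exact hd ((mem_ptMax_iff π hdvr hπnu q d).2 h)
  obtain ⟨w, hw⟩ := hqd
  have ht : algebraMap O C (↑w⁻¹ : O) * d - 1 ∈ P := by
    rw [hPmem, map_sub, map_mul, AlgHom.commutes, Algebra.algebraMap_self, RingHom.id_apply,
      map_one, ← hw, Units.inv_mul, sub_self]
  refine ideal_invertible_of_away d (R' := Localization.Away d) P ?_ _ ht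
  -- on `D(d)` the ideal is principal
  have hle : Submonoid.powers d ≤ nonZeroDivisors C :=
    powers_le_nonZeroDivisors_of_noZeroDivisors hd0
  have hdom : IsDomain (Localization.Away d) :=
    IsLocalization.isDomain_localization hle
  have hinj : Function.Injective (algebraMap C (Localization.Away d)) :=
    IsLocalization.injective _ hle
  have hmap : P.map (algebraMap C (Localization.Away d)) =
      Ideal.span {algebraMap C (Localization.Away d) x} := by
    apply le_antisymm
    · rw [Ideal.map_le_iff_le_comap]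
      intro y hy
      obtain ⟨c, hc⟩ := Ideal.mem_span_singleton'.1 (hdP y ((hPmem y).1 hy))
      have hdunit : IsUnit (algebraMap C (Localization.Away d) d) :=
        IsLocalization.Away.algebraMap_isUnit d
      obtain ⟨e, he⟩ := hdunit
      have hy' : algebraMap C (Localization.Away d) y =
          (↑e⁻¹ : Localization.Away d) * algebraMap C (Localization.Away d) (d * y) := by
        rw [map_mul, ← he, ← mul_assoc, Units.inv_mul, one_mul]
      rw [Ideal.mem_comap, hy', ← hc, map_mul, ← mul_assoc]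
      exact Ideal.mul_mem_left _ _ (Ideal.subset_span rfl)
    · rw [Ideal.span_le, Set.singleton_subset_iff]
      exact Ideal.mem_map_of_mem _ hxP
  rw [hmap]
  exact invertible_span_singleton _ (fun h => hx0 (hinj (h.trans (map_zero _).symm)))

end Main

end Fermat.Agent.T1.PtInv75
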