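import Mathlib
import Fermat.Agent.T1.PtInv75
import Fermat.Agent.T1.PtLine75

/-!
# T1A (S19), REDUCTION layer: invertibility of the ideal of an `O`-point of a chart of the model
(helper75)

Specialisation of `PtInv75.invertible_ker_of_smooth` to `C = O ⊗[W] B`, `q : B →ₐ[W] O`:
the hypothesis `Module.Invertible (O ⊗[W] B) (ptIdeal q)` of `PtLine75.ptClass0/1` holds as soon as
`O ⊗[W] B` is a noetherian domain with the `smooth_j` property (G2 MODEL-BC (iii)) and the ideal of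
the point is nonzero.
-/

set_option autoImplicit false

open TensorProduct

namespace Fermat.Agent.T1.PtInvLine75

open Fermat.Agent.T1.PtLine75 Fermat.Agent.T1.PtInv75

universe u

variable {W O B : Type u} [CommRing W] [CommRing O] [IsDomain O] [CommRing B] [Algebra W O]
  [Algebra W B] [IsDomain (O ⊗[W] B)] [IsNoetherianRing (O ⊗[W] B)]

/-- The ideal of an `O`-point of a chart with the `smooth_j` property is an invertible module. -/
theorem invertible_ptIdeal_of_smooth (π : O) (hπ0 : π ≠ 0)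
    (hdvr : ∀ r : O, r ≠ 0 → ∃ (k : ℕ) (v : Oˣ), r = π ^ k * v) (hπnu : ¬ IsUnit π)
    (q : B →ₐ[W] O) (hker : ptIdeal q ≠ ⊥)
    (hsm : ∀ x : Ideal (O ⊗[W] B), x.IsMaximal → algebraMap O (O ⊗[W] B) π ∈ x →
      ∃ s ∈ x, ∀ y ∈ x, ∃ d : O ⊗[W] B, d ∉ x ∧
        d * y ∈ Ideal.span {algebraMap O (O ⊗[W] B) π, s}) :
    Module.Invertible (O ⊗[W] B) (ptIdeal q) :=
  invertible_ker_of_smooth π hπ0 hdvr hπnu (ptEval q) hker hsm

/-- The ideal of a point is nonzero as soon as some `1 ⊗ b - q b ⊗ 1` is nonzero. -/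
theorem ptIdeal_ne_bot {A : Type u} [CommRing A] [Algebra W A] (q : B →ₐ[W] A) (b : B)
    (hb : (1 : A) ⊗ₜ[W] b - q b ⊗ₜ[W] (1 : B) ≠ 0) : ptIdeal q ≠ ⊥ := fun h =>
  hb ((Submodule.eq_bot_iff _).1 h _ (sub_mem_ptIdeal q b))

end Fermat.Agent.T1.PtInvLine75
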