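/-
Programme T1b (row 38 / S40, S33), brick H1U45 (helper45): the `H¹(I, 1 + 𝔪_{K̄})` FACT of the
design report 693 (3c) / 734 (B) ("Hilbert 90 on one-units", the replacement of Raynaud's theorem
in the ordinary half of S40).

Local model = B5's (`TW/B5/Iface.lean`): `K̄ = Kbar p = PadicAlgCl p` with its norm (`‖p‖ = p⁻¹`),
`G_p = Gp p`, inertia = `Iface.IsInertial`.

For `α ∈ K̄ˣ` the following are equivalent:
  (a) the cocycle `τ ↦ τ α / α` on inertia is the coboundary of a one-unit: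
      `∃ ω, ‖ω - 1‖ < 1 ∧ ∀ τ inertial, τ α / α = τ ω / ω`;
  (b) `‖α‖ ∈ p^ℤ`.
In Kummer form (`α ^ p = a`): the class of `a` in `H¹(I, 1 + 𝔪)` is trivial iff `p ∣ v(a)`,
`v(a) ∈ ℤ` ("peu ramifié").  Note that for (b) ⇒ (a) NO hypothesis that `a` is fixed by inertia is
needed: every `α` with `‖α‖ = p ^ k` is `p ^ (-k) · (root of unity of order prime to p) · (one-unit)`.

Main statements:
* `norm_sub_one_lt_of_pow`   : `‖β‖ ≤ 1`, `‖β ^ p - 1‖ < 1` ⇒ `‖β - 1‖ < 1`;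
* `exists_root_mul_oneUnit`  : `‖u‖ = 1` ⇒ `u = c · ω`, `c ^ m = 1`, `p ∤ m`, `‖ω - 1‖ < 1`;
* `exists_fixed_mul_oneUnit` : `‖α‖ = p ^ k` ⇒ `α = c · ω`, `c` fixed by inertia, `‖ω - 1‖ < 1`;
* `exists_oneUnit_coboundary`: (b) ⇒ (a);
* `norm_eq_zpow_of_coboundary`: (a) ⇒ (b);
* `coboundary_iff`           : (a) ⇔ (b);
* `kummer_coboundary_of_dvd`, `kummer_dvd_of_coboundary`, `kummer_coboundary_iff` : Kummer forms;
* `exists_oneUnit_of_muP_cocycle` : the form consumed by the ordinary half (PEU): if `τ α = ζ ^ c τ · α`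
  on inertia and `‖α‖ ∈ p^ℤ` then `∃ ω` one-unit with `τ ω / ω = ζ ^ c τ`;
* `kummer_oneUnit_of_norm_p` : `y ^ p = a`, `‖a‖ = ‖p‖ ^ (p m)` ⇒ `∃ ω` one-unit, `τ ω / ω = τ y / y`.
-/
import Mathlib
import Fermat.Agent.TW.B5.LG83X

set_option autoImplicit false
set_option linter.unusedSectionVars false

namespace Fermat.Agent.T1.H1U45

open Fermat.Agent.TW.B5 Fermat.Agent.TW.B5.Iface Fermat.Agent.TW.B5.IfaceLG

variable (p : ℕ) [hp : Fact p.Prime]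

/-! ### Norm bookkeeping -/

theorem one_lt_p : (1 : ℝ) < p := by exact_mod_cast hp.out.one_lt

theorem p_pos : (0 : ℝ) < p := by exact_mod_cast hp.out.pos

/-- `‖(p : K̄) ^ k‖ = p ^ (-k)` for integer exponents. -/
theorem norm_p_zpow (k : ℤ) : ‖(p : Kbar p) ^ k‖ = (p : ℝ) ^ (-k) := by
  rw [norm_zpow, LG83U.norm_p, inv_zpow', ]

/-- The ultrametric inequality for differences. -/
theorem norm_sub_le_max (x y : Kbar p) : ‖x - y‖ ≤ max ‖x‖ ‖y‖ := by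
  have := PadicAlgCl.isNonarchimedean p x (-y)
  rwa [norm_neg, ← sub_eq_add_neg] at this

/-- A one-unit has norm `1`. -/
theorem norm_eq_one_of_oneUnit {ω : Kbar p} (h : ‖ω - 1‖ < 1) : ‖ω‖ = 1 := by
  have h1 : ω = (ω - 1) + 1 := by ring
  have hne : ‖ω - 1‖ ≠ ‖(1 : Kbar p)‖ := by rw [norm_one]; exact h.ne
  have := IsUltrametricDist.norm_add_eq_max_of_norm_ne_norm hne
  rw [← h1, norm_one, max_eq_right h.le] at this
  exact this

/-- One-units are stable under inverses. -/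
theorem oneUnit_inv {ω : Kbar p} (h : ‖ω - 1‖ < 1) : ‖ω⁻¹ - 1‖ < 1 := by
  have hω := norm_eq_one_of_oneUnit p h
  have h0 : ω ≠ 0 := by
    intro h0; rw [h0, norm_zero] at hω; exact zero_ne_one hω
  have e : ω⁻¹ - 1 = -(ω - 1) * ω⁻¹ := by field_simp; ring
  rw [e, norm_mul, norm_neg, norm_inv, hω, inv_one, mul_one]
  exact h

/-- One-units are stable under products. -/
theorem oneUnit_mul {ω ω' : Kbar p} (h : ‖ω - 1‖ < 1) (h' : ‖ω' - 1‖ < 1) : ‖ω * ω' - 1‖ < 1 := by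
  have hω := norm_eq_one_of_oneUnit p h
  have e : ω * ω' - 1 = ω * (ω' - 1) + (ω - 1) := by ring
  rw [e]
  refine lt_of_le_of_lt (PadicAlgCl.isNonarchimedean p _ _) (max_lt ?_ h)
  rw [norm_mul, hω, one_mul]
  exact h'

/-- **Frobenius is injective on the residue field**: an integral `β` with `β ^ p ≡ 1` is `≡ 1`. -/
theorem norm_sub_one_lt_of_pow {β : Kbar p} (hβ : ‖β‖ ≤ 1) (h : ‖β ^ p - 1‖ < 1) :
    ‖β - 1‖ < 1 := by
  set w := β - 1 with hw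
  have hw1 : ‖w‖ ≤ 1 := by
    have := norm_sub_le_max p β 1
    rw [norm_one] at this
    exact this.trans (max_le hβ le_rfl)
  by_contra hlt
  have hw1' : ‖w‖ = 1 := le_antisymm hw1 (not_lt.mp hlt)
  obtain ⟨r, hr⟩ := exists_add_pow_prime_eq hp.out
    (⟨w, ⟨IntermediateField.mem_top, hw1⟩⟩ : intSubring p ⊤)
    (⟨1, ⟨IntermediateField.mem_top, by simp⟩⟩ : intSubring p ⊤)
  have hr' := congrArg (Subtype.val : intSubring p ⊤ → Kbar p) hr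
  simp only [Subring.coe_add, Subring.coe_pow, Subring.coe_mul, Subring.coe_natCast] at hr'
  have hrn : ‖(r : Kbar p)‖ ≤ 1 := r.2.2
  have hw2 : w + 1 = β := by rw [hw]; ring
  rw [hw2, one_pow, mul_one] at hr'
  -- `β ^ p - 1 = w ^ p + p * w * r`
  have h3 : w ^ p = (β ^ p - 1) - (p : Kbar p) * w * (r : Kbar p) := by
    linear_combination -hr'
  have h4 : ‖(p : Kbar p) * w * (r : Kbar p)‖ < 1 := by
    rw [norm_mul, norm_mul, hw1', mul_one]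
    calc ‖(p : Kbar p)‖ * ‖(r : Kbar p)‖ ≤ ‖(p : Kbar p)‖ * 1 :=
          mul_le_mul_of_nonneg_left hrn (norm_nonneg _)
      _ < 1 := by rw [mul_one]; exact LG83T.norm_p_lt_one p
  have h5 : ‖w ^ p‖ < 1 := by
    rw [h3]
    exact lt_of_le_of_lt (norm_sub_le_max p _ _) (max_lt h h4)
  rw [norm_pow, hw1', one_pow] at h5
  exact lt_irrefl _ h5

/-! ### Units = roots of unity of order prime to `p` times one-units -/

/-- Every `u` of norm one is `c · ω` with `c` a root of unity of order prime to `p` and `ω` a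
one-unit.  (Teichmüller representatives at the finite level `ℚ_p(u)`.) -/
theorem exists_root_mul_oneUnit {u : Kbar p} (hu : ‖u‖ = 1) :
    ∃ (m : ℕ) (c ω : Kbar p), ¬ p ∣ m ∧ c ^ m = 1 ∧ ‖ω - 1‖ < 1 ∧ u = c * ω := by
  have hfd := LG83B.finiteDimensional_adjoin_singleton p u
  obtain ⟨m, hm, hT⟩ := LG83B.exists_teichmuller p (IntermediateField.adjoin ℚ_[p] {u})
  obtain ⟨c, -, hc, huc⟩ := hT u (IntermediateField.mem_adjoin_simple_self ℚ_[p] u) hu.le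
  have hm0 : m ≠ 0 := fun h => hm (h ▸ dvd_zero p)
  have hc1 : c ^ m = 1 := by
    rcases hc with rfl | hc
    · exfalso
      rw [sub_zero, hu] at huc
      exact lt_irrefl _ huc
    · exact hc
  have hcn : ‖c‖ = 1 := by
    have h2 : ‖c‖ ^ m = 1 := by rw [← norm_pow, hc1, norm_one]
    exact (pow_eq_one_iff_of_nonneg (norm_nonneg _) hm0).1 h2
  have hc0 : c ≠ 0 := by
    intro h0; rw [h0, norm_zero] at hcn; exact zero_ne_one hcn
  refine ⟨m, c, u / c, hm, hc1, ?_, by field_simp⟩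
  have e : u / c - 1 = (u - c) / c := by field_simp
  rw [e, norm_div, hcn, div_one]
  exact huc

/-- Roots of unity of order prime to `p` have `p`-th roots among themselves. -/
theorem exists_pow_p_eq_of_root {m : ℕ} (hm : ¬ p ∣ m) {c : Kbar p} (hc : c ^ m = 1) :
    ∃ c₀ : Kbar p, c₀ ^ m = 1 ∧ c₀ ^ p = c := by
  have hcop : Nat.Coprime p m := (Nat.Prime.coprime_iff_not_dvd hp.out).2 hm
  rcases Nat.lt_or_ge 1 m with hm1 | hm1
  · obtain ⟨n, -, hn⟩ := Nat.exists_mul_mod_eq_one_of_coprime hcop hm1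
    have hmod : n * p ≡ 1 [MOD m] := by
      rw [Nat.ModEq, mul_comm, hn, Nat.mod_eq_of_lt hm1]
    refine ⟨c ^ n, ?_, ?_⟩
    · rw [← pow_mul, mul_comm, pow_mul, hc, one_pow]
    · rw [← pow_mul, pow_eq_pow_of_modEq hmod hc, pow_one]
  · have hm0 : m ≠ 0 := fun h => hm (h ▸ dvd_zero p)
    have : m = 1 := by omega
    subst this
    rw [pow_one] at hc
    exact ⟨1, one_pow _, by rw [one_pow, hc]⟩

/-- General form: if `‖α‖ = ‖b‖`, `b ≠ 0`, then `α = b · c · ω` with `c` a root of unity of order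
prime to `p` and `ω` a one-unit. -/
theorem exists_mul_oneUnit_of_norm_eq {α b : Kbar p} (hb : b ≠ 0) (h : ‖α‖ = ‖b‖) :
    ∃ (m : ℕ) (c ω : Kbar p), ¬ p ∣ m ∧ c ^ m = 1 ∧ ‖ω - 1‖ < 1 ∧ α = b * c * ω := by
  have hbn : ‖b‖ ≠ 0 := norm_ne_zero_iff.2 hb
  have hun : ‖α / b‖ = 1 := by rw [norm_div, h, div_self hbn]
  obtain ⟨m, c, ω, hm, hc, hω, huc⟩ := exists_root_mul_oneUnit p hun
  refine ⟨m, c, ω, hm, hc, hω, ?_⟩
  rw [mul_assoc, ← huc]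
  field_simp

/-- Every `α` with `‖α‖ = p ^ k` is `c · ω` with `c` fixed by inertia and `ω` a one-unit. -/
theorem exists_fixed_mul_oneUnit {α : Kbar p} {k : ℤ} (hk : ‖α‖ = (p : ℝ) ^ k) :
    ∃ c ω : Kbar p, c ≠ 0 ∧ (∀ τ : Gp p, IsInertial p τ → τ c = c) ∧ ‖ω - 1‖ < 1 ∧ α = c * ω := by
  have hp0 : (p : Kbar p) ≠ 0 := LG83U.p_ne_zero p
  have hb : (p : Kbar p) ^ (-k) ≠ 0 := zpow_ne_zero _ hp0
  have hbn : ‖α‖ = ‖(p : Kbar p) ^ (-k)‖ := by rw [norm_p_zpow, neg_neg, hk]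
  obtain ⟨m, c, ω, hm, hc, hω, hα⟩ := exists_mul_oneUnit_of_norm_eq p hb hbn
  have hm0 : m ≠ 0 := fun h => hm (h ▸ dvd_zero p)
  have hc0 : c ≠ 0 := by
    intro h0
    rw [h0, zero_pow hm0] at hc
    exact zero_ne_one hc
  refine ⟨(p : Kbar p) ^ (-k) * c, ω, mul_ne_zero hb hc0, ?_, hω, hα⟩
  intro τ hτ
  rw [map_mul, LG83B.inertial_fixes_root p hτ hm hc, map_zpow₀, map_natCast]

/-! ### The `H¹(I, 1 + 𝔪)` fact -/

/-- **(b) ⇒ (a).**  If `‖α‖ ∈ p^ℤ` then the inertial cocycle `τ ↦ τ α / α` is the coboundary of a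
one-unit. -/
theorem exists_oneUnit_coboundary {α : Kbar p} {k : ℤ} (hk : ‖α‖ = (p : ℝ) ^ k) :
    ∃ ω : Kbar p, ‖ω - 1‖ < 1 ∧ ∀ τ : Gp p, IsInertial p τ → τ α / α = τ ω / ω := by
  obtain ⟨c, ω, hc0, hc, hω, rfl⟩ := exists_fixed_mul_oneUnit p hk
  refine ⟨ω, hω, fun τ hτ => ?_⟩
  rw [map_mul, hc τ hτ, mul_div_mul_left _ _ hc0]

/-- **(a) ⇒ (b).**  If the inertial cocycle `τ ↦ τ α / α` is the coboundary of a one-unit then
`‖α‖ ∈ p^ℤ`. -/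
theorem norm_eq_zpow_of_coboundary {α ω : Kbar p} (hα : α ≠ 0) (hω : ‖ω - 1‖ < 1)
    (h : ∀ τ : Gp p, IsInertial p τ → τ α / α = τ ω / ω) : ∃ k : ℤ, ‖α‖ = (p : ℝ) ^ k := by
  have hωn := norm_eq_one_of_oneUnit p hω
  have hω0 : ω ≠ 0 := by
    intro h0; rw [h0, norm_zero] at hωn; exact zero_ne_one hωn
  have hfix : ∀ τ : Gp p, IsInertial p τ → τ (α / ω) = α / ω := by
    intro τ hτ
    have h1 := h τ hτ
    have hτω : τ ω ≠ 0 := (map_ne_zero τ).2 hω0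
    rw [map_div₀, div_eq_div_iff hτω hω0]
    rw [div_eq_div_iff hα hω0] at h1
    linear_combination h1
  obtain ⟨K₁, -, hur, hmem⟩ := (LG83X.toolkit p).inertiaFixedUnram (α / ω) hfix
  obtain ⟨n, hn⟩ := hur (α / ω) hmem (div_ne_zero hα hω0)
  exact ⟨n, by rw [← hn, norm_div, hωn, div_one]⟩

/-- **The `H¹(I, 1 + 𝔪_{K̄})` fact**: for `α ≠ 0`, the inertial cocycle `τ ↦ τ α / α` is the
coboundary of a one-unit iff `‖α‖ ∈ p^ℤ`. -/
theorem coboundary_iff {α : Kbar p} (hα : α ≠ 0) :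
    (∃ ω : Kbar p, ‖ω - 1‖ < 1 ∧ ∀ τ : Gp p, IsInertial p τ → τ α / α = τ ω / ω) ↔
      ∃ k : ℤ, ‖α‖ = (p : ℝ) ^ k :=
  ⟨fun ⟨_, hω, h⟩ => norm_eq_zpow_of_coboundary p hα hω h,
    fun ⟨_, hk⟩ => exists_oneUnit_coboundary p hk⟩

/-! ### Kummer forms -/

/-- `‖α ^ p‖ = p ^ (p k)` iff `‖α‖ = p ^ k`. -/
theorem norm_pow_p_eq_iff {α : Kbar p} {k : ℤ} :
    ‖α ^ p‖ = (p : ℝ) ^ ((p : ℤ) * k) ↔ ‖α‖ = (p : ℝ) ^ k := by
  have e : (p : ℝ) ^ ((p : ℤ) * k) = ((p : ℝ) ^ k) ^ p := by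
    rw [mul_comm, zpow_mul, zpow_natCast]
  rw [norm_pow, e]
  exact pow_left_inj₀ (norm_nonneg _) (zpow_nonneg (p_pos p).le _) hp.out.ne_zero

/-- **Peu ramifié ⇒ coboundary.**  If `α ^ p = a` and `p ∣ v(a)` (`‖a‖ = p ^ (p k)`), the Kummer
cocycle of `a` on inertia is the coboundary of a one-unit. -/
theorem kummer_coboundary_of_dvd {a α : Kbar p} (hα : α ^ p = a) {k : ℤ}
    (hk : ‖a‖ = (p : ℝ) ^ ((p : ℤ) * k)) :
    ∃ ω : Kbar p, ‖ω - 1‖ < 1 ∧ ∀ τ : Gp p, IsInertial p τ → τ α / α = τ ω / ω :=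
  exists_oneUnit_coboundary p ((norm_pow_p_eq_iff p).1 (by rw [hα]; exact hk))

/-- **Coboundary ⇒ peu ramifié.** -/
theorem kummer_dvd_of_coboundary {a α ω : Kbar p} (ha : a ≠ 0) (hα : α ^ p = a)
    (hω : ‖ω - 1‖ < 1) (h : ∀ τ : Gp p, IsInertial p τ → τ α / α = τ ω / ω) :
    ∃ k : ℤ, ‖a‖ = (p : ℝ) ^ ((p : ℤ) * k) := by
  have hα0 : α ≠ 0 := by
    intro h0
    rw [h0, zero_pow hp.out.ne_zero] at hα
    exact ha hα.symm
  obtain ⟨k, hk⟩ := norm_eq_zpow_of_coboundary p hα0 hω h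
  exact ⟨k, by rw [← hα]; exact (norm_pow_p_eq_iff p).2 hk⟩

/-- The Kummer form of the `H¹(I, 1 + 𝔪_{K̄})` fact. -/
theorem kummer_coboundary_iff {a α : Kbar p} (ha : a ≠ 0) (hα : α ^ p = a) :
    (∃ ω : Kbar p, ‖ω - 1‖ < 1 ∧ ∀ τ : Gp p, IsInertial p τ → τ α / α = τ ω / ω) ↔
      ∃ k : ℤ, ‖a‖ = (p : ℝ) ^ ((p : ℤ) * k) :=
  ⟨fun ⟨_, hω, h⟩ => kummer_dvd_of_coboundary p ha hα hω h,
    fun ⟨_, hk⟩ => kummer_coboundary_of_dvd p hα hk⟩

/-! ### The form consumed by the ordinary half (PEU) -/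

/-- `μ_p ⊆ 1 + 𝔪`. -/
theorem norm_muP_sub_one_lt {ζ : Kbar p} (hζ : ζ ^ p = 1) : ‖ζ - 1‖ < 1 := by
  have hζn : ‖ζ‖ = 1 := by
    have h1 : ‖ζ‖ ^ p = 1 := by rw [← norm_pow, hζ, norm_one]
    exact (pow_eq_one_iff_of_nonneg (norm_nonneg _) hp.out.ne_zero).mp h1
  exact norm_sub_one_lt_of_pow p hζn.le (by rw [hζ, sub_self, norm_zero]; exact zero_lt_one)

/-- **(PEU).**  If inertia acts on `α` through `μ_p` (`τ α = ζ ^ c τ · α`) and `‖α‖ ∈ p^ℤ`, then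
there is a one-unit `ω` on which inertia acts by the same cocycle. -/
theorem exists_oneUnit_of_muP_cocycle {α ζ : Kbar p} {k : ℤ} (hk : ‖α‖ = (p : ℝ) ^ k)
    (c : Gp p → ℕ) (h : ∀ τ : Gp p, IsInertial p τ → τ α = ζ ^ c τ * α) :
    ∃ ω : Kbar p, ‖ω - 1‖ < 1 ∧ ∀ τ : Gp p, IsInertial p τ → τ ω = ζ ^ c τ * ω := by
  have hα0 : α ≠ 0 := by
    intro h0
    rw [h0, norm_zero] at hk
    exact (zpow_pos (p_pos p) k).ne hk
  obtain ⟨ω, hω, hcob⟩ := exists_oneUnit_coboundary p hk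
  have hω0 : ω ≠ 0 := by
    intro h0
    have := norm_eq_one_of_oneUnit p hω
    rw [h0, norm_zero] at this
    exact zero_ne_one this
  refine ⟨ω, hω, fun τ hτ => ?_⟩
  have h1 := hcob τ hτ
  rw [h τ hτ, mul_div_assoc, div_self hα0, mul_one] at h1
  rw [h1, div_mul_cancel₀ _ hω0]

/-- Integer-exponent variant of (PEU). -/
theorem exists_oneUnit_of_muP_cocycle_zpow {α ζ : Kbar p} {k : ℤ} (hk : ‖α‖ = (p : ℝ) ^ k)
    (c : Gp p → ℤ) (h : ∀ τ : Gp p, IsInertial p τ → τ α = ζ ^ c τ * α) :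
    ∃ ω : Kbar p, ‖ω - 1‖ < 1 ∧ ∀ τ : Gp p, IsInertial p τ → τ ω = ζ ^ c τ * ω := by
  have hα0 : α ≠ 0 := by
    intro h0
    rw [h0, norm_zero] at hk
    exact (zpow_pos (p_pos p) k).ne hk
  obtain ⟨ω, hω, hcob⟩ := exists_oneUnit_coboundary p hk
  have hω0 : ω ≠ 0 := by
    intro h0
    have := norm_eq_one_of_oneUnit p hω
    rw [h0, norm_zero] at this
    exact zero_ne_one this
  refine ⟨ω, hω, fun τ hτ => ?_⟩
  have h1 := hcob τ hτ
  rw [h τ hτ, mul_div_assoc, div_self hα0, mul_one] at h1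
  rw [h1, div_mul_cancel₀ _ hω0]

/-- The exact form requested by ELOC63 (helper63, msg 4504): `y ^ p = a`, `‖a‖ = ‖p‖ ^ (p · m)` for
some `m : ℤ` ⇒ `∃ ω` one-unit with `τ ω / ω = τ y / y` on inertia.  (The hypothesis that `a` is
inertia-fixed is not needed.) -/
theorem kummer_oneUnit_of_norm_p {a y : Kbar p} (hy : y ^ p = a) {m : ℤ}
    (hm : ‖a‖ = ‖(p : Kbar p)‖ ^ ((p : ℤ) * m)) :
    ∃ ω : Kbar p, ‖ω - 1‖ < 1 ∧ ∀ τ : Gp p, IsInertial p τ → τ ω / ω = τ y / y := by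
  have hk : ‖a‖ = (p : ℝ) ^ ((p : ℤ) * (-m)) := by
    rw [hm, LG83U.norm_p, inv_zpow', mul_neg]
  obtain ⟨ω, hω, h⟩ := kummer_coboundary_of_dvd p hy hk
  exact ⟨ω, hω, fun τ hτ => (h τ hτ).symm⟩

/-- Natural-number exponent variant (`a` integral). -/
theorem kummer_oneUnit_of_norm_p_nat {a y : Kbar p} (hy : y ^ p = a) {m : ℕ}
    (hm : ‖a‖ = ‖(p : Kbar p)‖ ^ (p * m)) :
    ∃ ω : Kbar p, ‖ω - 1‖ < 1 ∧ ∀ τ : Gp p, IsInertial p τ → τ ω / ω = τ y / y := by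
  refine kummer_oneUnit_of_norm_p p hy (m := (m : ℤ)) ?_
  rw [hm, ← zpow_natCast]
  push_cast
  rfl

end Fermat.Agent.T1.H1U45
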