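/-
Fermat/Agent/T1/CechGroupLaw40.lean  (helper40)

Programme T1A (S19), brick G3c: the group law polynomials of the Čech formal group
(Theorem 3 of helper70's CechFormal).  Part A: the universal truncated pair
`(W[T, T'] / (T, T')^N, (T, T'))`.
-/
import Mathlib
import Fermat.Agent.T1.CechFormal70.BaseChange
import Fermat.Agent.T1.CechFormal70.Bijective
import Fermat.Agent.T1.CechFormal70.Functorial

set_option autoImplicit false

open MvPolynomial

universe u v

noncomputable section

namespace Fermat.Agent.T1.CechGroupLaw40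

/-! ### The universal truncated polynomial ring -/

section Univ

variable (σ : Type v) (W : Type u) [CommRing W] (N : ℕ)

/-- The truncated polynomial ring `W[X_s : s ∈ σ] / (X)^N`. -/
def Univ : Type (max u v) := MvPolynomial σ W ⧸ (idealOfVars σ W) ^ N

instance : CommRing (Univ σ W N) :=
  inferInstanceAs (CommRing (MvPolynomial σ W ⧸ (idealOfVars σ W) ^ N))

instance : Algebra W (Univ σ W N) :=
  inferInstanceAs (Algebra W (MvPolynomial σ W ⧸ (idealOfVars σ W) ^ N))

/-- The projection `W[X] → W[X]/(X)^N`. -/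
def univMk : MvPolynomial σ W →ₐ[W] Univ σ W N :=
  Ideal.Quotient.mkₐ W ((idealOfVars σ W) ^ N)

theorem univMk_eq_zero_iff (p : MvPolynomial σ W) :
    univMk σ W N p = 0 ↔ p ∈ (idealOfVars σ W) ^ N :=
  Ideal.Quotient.eq_zero_iff_mem

theorem univMk_eq_iff (p q : MvPolynomial σ W) :
    univMk σ W N p = univMk σ W N q ↔ p - q ∈ (idealOfVars σ W) ^ N :=
  Ideal.Quotient.eq

/-- The ideal `(X)` of the truncated polynomial ring. -/
def univIdeal : Ideal (Univ σ W N) := (idealOfVars σ W).map (univMk σ W N)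

theorem univMk_surjective : Function.Surjective (univMk σ W N) :=
  Ideal.Quotient.mkₐ_surjective W _

theorem univIdeal_pow : univIdeal σ W N ^ N = ⊥ := by
  unfold univIdeal
  rw [← Ideal.map_pow, eq_bot_iff]
  rintro x hx
  obtain ⟨p, hp, rfl⟩ := (Ideal.mem_map_iff_of_surjective _ (univMk_surjective σ W N)).mp hx
  rw [Ideal.mem_bot]
  exact (univMk_eq_zero_iff σ W N p).mpr hp

theorem isNilpotent_univIdeal : IsNilpotent (univIdeal σ W N) := ⟨N, univIdeal_pow σ W N⟩

/-- An ideal with `m ^ N = 0` is nilpotent. -/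
theorem nil {R : Type*} [CommRing R] {m : Ideal R} {N : ℕ} (hN : m ^ N = ⊥) : IsNilpotent m :=
  ⟨N, hN⟩

variable {σ W N}

/-- The class of a variable, as an element of the ideal `(X)`. -/
def univVar (s : σ) : univIdeal σ W N :=
  ⟨univMk σ W N (X s), Ideal.mem_map_of_mem _ (Ideal.subset_span ⟨s, rfl⟩)⟩

@[simp] theorem coe_univVar (s : σ) : ((univVar s : univIdeal σ W N) : Univ σ W N) =
    univMk σ W N (X s) := rfl

/-- Every element of `(X) ⊆ W[X]/(X)^N` is the class of a polynomial without constant term. -/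
theorem exists_lift (c : univIdeal σ W N) :
    ∃ p : MvPolynomial σ W, p ∈ idealOfVars σ W ∧ univMk σ W N p = c :=
  (Ideal.mem_map_iff_of_surjective _ (univMk_surjective σ W N)).mp c.2

theorem constantCoeff_eq_zero_of_mem {p : MvPolynomial σ W} (hp : p ∈ idealOfVars σ W) :
    constantCoeff p = 0 := by
  have h := (mem_pow_idealOfVars_iff' 1 p).mp (by simpa using hp) 0 (by simp)
  simpa [constantCoeff_eq] using h

/-! ### Evaluation at a tuple of elements of an ideal `m` with `m ^ N = 0` -/

variable {R : Type*} [CommRing R] [Algebra W R] {m : Ideal R}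

theorem aeval_mem_of_mem (a : σ → m) {p : MvPolynomial σ W} (hp : p ∈ idealOfVars σ W) :
    aeval (fun s => (a s : R)) p ∈ m := by
  have h : (idealOfVars σ W).map (aeval (R := W) fun s => (a s : R)) ≤ m := by
    rw [Ideal.map_span, Ideal.span_le]
    rintro _ ⟨_, ⟨s, rfl⟩, rfl⟩
    simp
  exact h (Ideal.mem_map_of_mem _ hp)

theorem aeval_eq_zero_of_mem_pow (hN : m ^ N = ⊥) (a : σ → m) {p : MvPolynomial σ W}
    (hp : p ∈ idealOfVars σ W ^ N) : aeval (fun s => (a s : R)) p = 0 := by
  have h : (idealOfVars σ W).map (aeval (R := W) fun s => (a s : R)) ≤ m := by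
    rw [Ideal.map_span, Ideal.span_le]
    rintro _ ⟨_, ⟨s, rfl⟩, rfl⟩
    simp
  have h2 : aeval (fun s => (a s : R)) p ∈ m ^ N := by
    have := Ideal.mem_map_of_mem (aeval (R := W) fun s => (a s : R)) hp
    rw [Ideal.map_pow] at this
    exact Ideal.pow_right_mono h N this
  rw [hN] at h2
  exact (Ideal.mem_bot).mp h2

/-- The evaluation homomorphism `W[X]/(X)^N → R`, `X_s ↦ a_s`, for `a_s ∈ m`, `m ^ N = 0`. -/
def univHom (hN : m ^ N = ⊥) (a : σ → m) : Univ σ W N →ₐ[W] R :=
  Ideal.Quotient.liftₐ ((idealOfVars σ W) ^ N) (aeval fun s => (a s : R))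
    fun _ hp => aeval_eq_zero_of_mem_pow hN a hp

@[simp] theorem univHom_mk (hN : m ^ N = ⊥) (a : σ → m) (p : MvPolynomial σ W) :
    univHom hN a (univMk σ W N p) = aeval (fun s => (a s : R)) p := by
  rfl

@[simp] theorem univHom_var (hN : m ^ N = ⊥) (a : σ → m) (s : σ) :
    univHom hN a ((univVar s : univIdeal σ W N) : Univ σ W N) = a s := by
  rw [coe_univVar, univHom_mk, aeval_X]

theorem univIdeal_le_comap (hN : m ^ N = ⊥) (a : σ → m) :
    univIdeal σ W N ≤ m.comap ((univHom hN a : Univ σ W N →ₐ[W] R) : Univ σ W N →+* R) := by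
  unfold univIdeal
  rw [Ideal.map_le_iff_le_comap]
  intro p hp
  rw [Ideal.mem_comap, Ideal.mem_comap]
  change univHom hN a (univMk σ W N p) ∈ m
  rw [univHom_mk]
  exact aeval_mem_of_mem a hp

/-- The evaluation homomorphism as a ring homomorphism. -/
def univRingHom (hN : m ^ N = ⊥) (a : σ → m) : Univ σ W N →+* R :=
  ((univHom hN a : Univ σ W N →ₐ[W] R) : Univ σ W N →+* R)

@[simp] theorem univRingHom_mk (hN : m ^ N = ⊥) (a : σ → m) (p : MvPolynomial σ W) :
    univRingHom hN a (univMk σ W N p) = aeval (fun s => (a s : R)) p := rfl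

@[simp] theorem univRingHom_var (hN : m ^ N = ⊥) (a : σ → m) (s : σ) :
    univRingHom hN a ((univVar s : univIdeal σ W N) : Univ σ W N) = a s :=
  univHom_var hN a s

theorem univIdeal_le_comap' (hN : m ^ N = ⊥) (a : σ → m) :
    univIdeal σ W N ≤ m.comap (univRingHom hN a) :=
  univIdeal_le_comap hN a

end Univ

/-! ### Transfer of identities along a push-forward of `Ĵ` -/

section Transfer

open Fermat.Agent.T1.CechFormal70

variable {RN T0N T1N T01N R T0 T1 T01 : Type*} [CommRing RN] [CommRing T0N] [CommRing T1N]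
  [CommRing T01N] [Algebra RN T0N] [Algebra RN T1N] [Algebra RN T01N] [CommRing R] [CommRing T0]
  [CommRing T1] [CommRing T01] [Algebra R T0] [Algebra R T1] [Algebra R T01] {g : ℕ}
  (PN : Pkg RN T0N T1N T01N g) (P : Pkg R T0 T1 T01 g) {mN : Ideal RN} {m : Ideal R}
  (hmN : IsNilpotent mN) (hm : IsNilpotent m) (f : RN →+* R) (hf : mN ≤ m.comap f)

/-- Push a tuple of elements of `mN` forward along `f`. -/
def pushTuple (a : Fin g → mN) : Fin g → m := fun i => ⟨f (a i), hf (a i).2⟩

@[simp] theorem coe_pushTuple (a : Fin g → mN) (i : Fin g) :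
    ((pushTuple f hf a i : m) : R) = f (a i) := rfl

variable (J : PN.Jhat mN →* P.Jhat m)
  (hJ : ∀ a : Fin g → mN, J (PN.phi hmN a) = P.phi hm (pushTuple f hf a))

include hJ in
theorem transfer_mul (a a' c : Fin g → mN)
    (h : PN.phi hmN a * PN.phi hmN a' = PN.phi hmN c) :
    P.phi hm (pushTuple f hf a) * P.phi hm (pushTuple f hf a') = P.phi hm (pushTuple f hf c) := by
  rw [← hJ, ← hJ, ← hJ, ← map_mul, h]

include hJ in
theorem transfer_inv (a c : Fin g → mN) (h : (PN.phi hmN a)⁻¹ = PN.phi hmN c) :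
    (P.phi hm (pushTuple f hf a))⁻¹ = P.phi hm (pushTuple f hf c) := by
  rw [← hJ, ← hJ, ← map_inv, h]

end Transfer

/-! ### The group law polynomials -/

section GroupLaw

open Fermat.Agent.T1.CechFormal70

variable {W : Type u} {B0 B1 B01 : Type*} [CommRing W] [CommRing B0] [CommRing B1] [CommRing B01]
  [Algebra W B0] [Algebra W B1] [Algebra W B01] {g : ℕ} (D : CechData W B0 B1 B01 g) (N : ℕ)

/-- The first universal tuple `T` in `W[T, T']/(T, T')^N`. -/
def Tl : Fin g → univIdeal (Fin g ⊕ Fin g) W N := fun i => univVar (Sum.inl i)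

/-- The second universal tuple `T'` in `W[T, T']/(T, T')^N`. -/
def Tr : Fin g → univIdeal (Fin g ⊕ Fin g) W N := fun i => univVar (Sum.inr i)

/-- The coordinates of `φ(T) φ(T')` over the universal pair. -/
def addCoord : Fin g → univIdeal (Fin g ⊕ Fin g) W N :=
  (D.pkg (Univ (Fin g ⊕ Fin g) W N)).coord (isNilpotent_univIdeal _ W N)
    ((D.pkg _).phi (isNilpotent_univIdeal _ W N) (Tl N) *
      (D.pkg _).phi (isNilpotent_univIdeal _ W N) (Tr N))

theorem univ_phi_mul :
    (D.pkg (Univ (Fin g ⊕ Fin g) W N)).phi (isNilpotent_univIdeal _ W N) (Tl N) *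
      (D.pkg _).phi (isNilpotent_univIdeal _ W N) (Tr N) =
    (D.pkg _).phi (isNilpotent_univIdeal _ W N) (addCoord D N) :=
  ((D.pkg _).phi_coord (isNilpotent_univIdeal _ W N) _).symm

/-- **The addition polynomials** `F_N` of the Čech formal group, truncated at order `N`. -/
def F (i : Fin g) : MvPolynomial (Fin g ⊕ Fin g) W := Classical.choose (exists_lift (addCoord D N i))

theorem F_mem (i : Fin g) : F D N i ∈ idealOfVars (Fin g ⊕ Fin g) W :=
  (Classical.choose_spec (exists_lift (addCoord D N i))).1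

theorem univMk_F (i : Fin g) : univMk (Fin g ⊕ Fin g) W N (F D N i) = addCoord D N i :=
  (Classical.choose_spec (exists_lift (addCoord D N i))).2

theorem constantCoeff_F (i : Fin g) : constantCoeff (F D N i) = 0 :=
  constantCoeff_eq_zero_of_mem (F_mem D N i)

/-- The universal tuple `T` in `W[T]/(T)^N`. -/
def Tu : Fin g → univIdeal (Fin g) W N := fun i => univVar i

/-- The coordinates of `φ(T)⁻¹` over the universal pair. -/
def invCoord : Fin g → univIdeal (Fin g) W N :=
  (D.pkg (Univ (Fin g) W N)).coord (isNilpotent_univIdeal _ W N)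
    ((D.pkg _).phi (isNilpotent_univIdeal _ W N) (Tu N))⁻¹

theorem univ_phi_inv :
    ((D.pkg (Univ (Fin g) W N)).phi (isNilpotent_univIdeal _ W N) (Tu N))⁻¹ =
    (D.pkg _).phi (isNilpotent_univIdeal _ W N) (invCoord D N) :=
  ((D.pkg _).phi_coord (isNilpotent_univIdeal _ W N) _).symm

/-- **The inverse polynomials** of the Čech formal group, truncated at order `N`. -/
def inv (i : Fin g) : MvPolynomial (Fin g) W := Classical.choose (exists_lift (invCoord D N i))

theorem inv_mem (i : Fin g) : inv D N i ∈ idealOfVars (Fin g) W :=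
  (Classical.choose_spec (exists_lift (invCoord D N i))).1

theorem univMk_inv (i : Fin g) : univMk (Fin g) W N (inv D N i) = invCoord D N i :=
  (Classical.choose_spec (exists_lift (invCoord D N i))).2

theorem constantCoeff_inv (i : Fin g) : constantCoeff (inv D N i) = 0 :=
  constantCoeff_eq_zero_of_mem (inv_mem D N i)

/-! #### The identities over an arbitrary pair `(R, m)`, `m ^ N = 0`, given a push-forward -/

variable {R : Type*} [CommRing R] [Algebra W R] {m : Ideal R} (hN : m ^ N = ⊥)

/-- The tuple `F_N(a, a')`. -/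
def addTuple (a a' : Fin g → m) : Fin g → m := fun i =>
  ⟨aeval (Sum.elim (fun j => (a j : R)) (fun j => (a' j : R))) (F D N i), by
    have h := aeval_mem_of_mem (Sum.elim a a') (F_mem D N i)
    have e : (fun s => ((Sum.elim a a' s : m) : R)) =
        Sum.elim (fun j => (a j : R)) (fun j => (a' j : R)) := by
      funext s; cases s <;> rfl
    rwa [e] at h⟩

/-- The tuple `inv_N(a)`. -/
def invTuple (a : Fin g → m) : Fin g → m := fun i =>
  ⟨aeval (fun j => (a j : R)) (inv D N i), aeval_mem_of_mem a (inv_mem D N i)⟩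

theorem phi_mul_of_push (a a' : Fin g → m)
    (J : (D.pkg (Univ (Fin g ⊕ Fin g) W N)).Jhat (univIdeal _ W N) →* (D.pkg R).Jhat m)
    (hJ : ∀ c : Fin g → univIdeal (Fin g ⊕ Fin g) W N,
      J ((D.pkg _).phi (isNilpotent_univIdeal _ W N) c) =
        (D.pkg R).phi (nil hN) (pushTuple (univRingHom (W := W) hN (Sum.elim a a'))
          (univIdeal_le_comap' hN (Sum.elim a a')) c)) :
    (D.pkg R).phi (nil hN) a * (D.pkg R).phi (nil hN) a' =
      (D.pkg R).phi (nil hN) (addTuple D N a a') := by
  have h := transfer_mul (D.pkg _) (D.pkg R) (isNilpotent_univIdeal _ W N) (nil hN)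
    (univRingHom (W := W) hN (Sum.elim a a')) (univIdeal_le_comap' hN (Sum.elim a a')) J hJ
    (Tl N) (Tr N) (addCoord D N) (univ_phi_mul D N)
  have e1 : pushTuple (univRingHom (W := W) hN (Sum.elim a a'))
      (univIdeal_le_comap' hN (Sum.elim a a')) (Tl N) = a := by
    funext i
    apply Subtype.ext
    change univRingHom hN (Sum.elim a a')
      ((univVar (Sum.inl i) : univIdeal (Fin g ⊕ Fin g) W N) : Univ (Fin g ⊕ Fin g) W N) = _
    rw [univRingHom_var]
    rfl
  have e2 : pushTuple (univRingHom (W := W) hN (Sum.elim a a'))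
      (univIdeal_le_comap' hN (Sum.elim a a')) (Tr N) = a' := by
    funext i
    apply Subtype.ext
    change univRingHom hN (Sum.elim a a')
      ((univVar (Sum.inr i) : univIdeal (Fin g ⊕ Fin g) W N) : Univ (Fin g ⊕ Fin g) W N) = _
    rw [univRingHom_var]
    rfl
  have e3 : pushTuple (univRingHom (W := W) hN (Sum.elim a a'))
      (univIdeal_le_comap' hN (Sum.elim a a')) (addCoord D N) = addTuple D N a a' := by
    funext i
    apply Subtype.ext
    change univRingHom hN (Sum.elim a a') ((addCoord D N i : univIdeal _ W N) : Univ _ W N) = _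
    rw [← univMk_F, univRingHom_mk]
    change _ = aeval (Sum.elim (fun j => (a j : R)) (fun j => (a' j : R))) (F D N i)
    have e : (fun s => ((Sum.elim a a' s : m) : R)) =
        Sum.elim (fun j => (a j : R)) (fun j => (a' j : R)) := by
      funext s; cases s <;> rfl
    rw [e]
  rw [e1, e2, e3] at h
  exact h

theorem phi_inv_of_push (a : Fin g → m)
    (J : (D.pkg (Univ (Fin g) W N)).Jhat (univIdeal _ W N) →* (D.pkg R).Jhat m)
    (hJ : ∀ c : Fin g → univIdeal (Fin g) W N,
      J ((D.pkg _).phi (isNilpotent_univIdeal _ W N) c) =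
        (D.pkg R).phi (nil hN) (pushTuple (univRingHom (W := W) hN a) (univIdeal_le_comap' hN a) c)) :
    ((D.pkg R).phi (nil hN) a)⁻¹ = (D.pkg R).phi (nil hN) (invTuple D N a) := by
  have h := transfer_inv (D.pkg _) (D.pkg R) (isNilpotent_univIdeal _ W N) (nil hN)
    (univRingHom (W := W) hN a) (univIdeal_le_comap' hN a) J hJ (Tu N) (invCoord D N)
    (univ_phi_inv D N)
  have e1 : pushTuple (univRingHom (W := W) hN a) (univIdeal_le_comap' hN a) (Tu N) = a := by
    funext i
    apply Subtype.ext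
    change univRingHom hN a ((univVar i : univIdeal _ W N) : Univ _ W N) = _
    rw [univRingHom_var]
  have e3 : pushTuple (univRingHom (W := W) hN a) (univIdeal_le_comap' hN a) (invCoord D N) =
      invTuple D N a := by
    funext i
    apply Subtype.ext
    change univRingHom hN a ((invCoord D N i : univIdeal _ W N) : Univ _ W N) = _
    rw [← univMk_inv, univRingHom_mk]
    rfl
  rw [e1, e3] at h
  exact h

/-! #### Theorem 3 -/

/-- **Theorem 3 (group law).**  For every `W`-algebra `R` and ideal `m` with `m ^ N = 0`: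
`φ(a) φ(a') = φ(F_N(a, a'))`. -/
theorem phi_mul (a a' : Fin g → m) :
    (D.pkg R).phi (nil hN) a * (D.pkg R).phi (nil hN) a' =
      (D.pkg R).phi (nil hN) (addTuple D N a a') :=
  phi_mul_of_push D N hN a a'
    (D.JhatMap (univHom hN (Sum.elim a a')) (univIdeal_le_comap hN (Sum.elim a a')))
    (fun c => D.JhatMap_phi (univHom hN (Sum.elim a a')) (univIdeal_le_comap hN (Sum.elim a a'))
      (isNilpotent_univIdeal _ W N) (nil hN) c)

/-- The inverse: `φ(a)⁻¹ = φ(inv_N(a))`. -/
theorem phi_inv (a : Fin g → m) :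
    ((D.pkg R).phi (nil hN) a)⁻¹ = (D.pkg R).phi (nil hN) (invTuple D N a) :=
  phi_inv_of_push D N hN a (D.JhatMap (univHom hN a) (univIdeal_le_comap hN a))
    (fun c => D.JhatMap_phi (univHom hN a) (univIdeal_le_comap hN a)
      (isNilpotent_univIdeal _ W N) (nil hN) c)

@[simp] theorem coe_addTuple (a a' : Fin g → m) (i : Fin g) :
    ((addTuple D N a a' i : m) : R) =
      aeval (Sum.elim (fun j => (a j : R)) (fun j => (a' j : R))) (F D N i) := rfl

/-- Theorem 3 in terms of the coordinates. -/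
theorem coord_mul (a a' : Fin g → m) :
    (D.pkg R).coord (nil hN) ((D.pkg R).phi (nil hN) a * (D.pkg R).phi (nil hN) a') =
      addTuple D N a a' := by
  rw [phi_mul D N hN, Pkg.coord_phi]

theorem phi_zero (hm : IsNilpotent m) : (D.pkg R).phi hm (0 : Fin g → m) = 1 := by
  unfold Pkg.phi
  have h : (D.pkg R).phiUnit hm (0 : Fin g → m) = 1 := by
    apply Subtype.ext
    apply Units.ext
    rw [Pkg.coe_phiUnit]
    simp [Pkg.phiT]
  rw [h, map_one]

include hN in
/-- `F_N(a, 0) = a`. -/
theorem addTuple_zero_right (a : Fin g → m) : addTuple D N a 0 = a := by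
  apply (D.pkg R).phi_injective (nil hN)
  refine (phi_mul D N hN a 0).symm.trans ?_
  rw [phi_zero]
  exact mul_one ((D.pkg R).phi (nil hN) a)

include hN in
/-- `F_N(0, a) = a`. -/
theorem addTuple_zero_left (a : Fin g → m) : addTuple D N 0 a = a := by
  apply (D.pkg R).phi_injective (nil hN)
  refine (phi_mul D N hN 0 a).symm.trans ?_
  rw [phi_zero]
  exact one_mul ((D.pkg R).phi (nil hN) a)

include hN in
/-- `F_N(a, a') = F_N(a', a)`. -/
theorem addTuple_comm (a a' : Fin g → m) : addTuple D N a a' = addTuple D N a' a := by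
  apply (D.pkg R).phi_injective (nil hN)
  exact (phi_mul D N hN a a').symm.trans
    ((mul_comm ((D.pkg R).phi (nil hN) a) ((D.pkg R).phi (nil hN) a')).trans
      (phi_mul D N hN a' a))

include hN in
/-- `F_N(F_N(a, a'), a'') = F_N(a, F_N(a', a''))`. -/
theorem addTuple_assoc (a a' a'' : Fin g → m) :
    addTuple D N (addTuple D N a a') a'' = addTuple D N a (addTuple D N a' a'') := by
  apply (D.pkg R).phi_injective (nil hN)
  have h1 := phi_mul D N hN (addTuple D N a a') a''
  have h2 := phi_mul D N hN a a'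
  have h3 := phi_mul D N hN a (addTuple D N a' a'')
  have h4 := phi_mul D N hN a' a''
  rw [← h2] at h1
  rw [← h4] at h3
  exact h1.symm.trans ((mul_assoc ((D.pkg R).phi (nil hN) a) ((D.pkg R).phi (nil hN) a')
    ((D.pkg R).phi (nil hN) a'')).trans h3)

/-! #### The sub-ideal form: coordinates in a big nilpotent ideal `m`, arguments in a smaller
ideal `m'` with `m' ^ N = 0` -/

/-- The inclusion of tuples for `m' ≤ m`. -/
def inclTuple {m' : Ideal R} (h : m' ≤ m) (a : Fin g → m') : Fin g → m := fun i => ⟨a i, h (a i).2⟩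

/-- **Theorem 3, sub-ideal form.** -/
theorem phi_mul_of_le (hm : IsNilpotent m) {m' : Ideal R} (h : m' ≤ m) (hN' : m' ^ N = ⊥)
    (a a' : Fin g → m') :
    (D.pkg R).phi hm (inclTuple h a) * (D.pkg R).phi hm (inclTuple h a') =
      (D.pkg R).phi hm (inclTuple h (addTuple D N a a')) := by
  have hle : m' ≤ m.comap (RingHom.id R) := by simpa using h
  have key : ∀ c : Fin g → m', Pkg.JhatMap (PkgHom.id (D.pkg R)) hle
      ((D.pkg R).phi (nil hN') c) = (D.pkg R).phi hm (inclTuple h c) := fun c =>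
    Pkg.JhatMap_phi (PkgHom.id (D.pkg R)) hle (nil hN') hm c
  rw [← key, ← key, ← key, ← map_mul, phi_mul D N hN']

/-! #### Compatibility of the `F_N` -/

/-- `F_{N+1} ≡ F_N` modulo `(T, T')^N`. -/
theorem F_succ_sub_mem (i : Fin g) :
    F D (N + 1) i - F D N i ∈ idealOfVars (Fin g ⊕ Fin g) W ^ N := by
  have hN1 : univIdeal (Fin g ⊕ Fin g) W N ^ (N + 1) = ⊥ := by
    rw [pow_succ, univIdeal_pow]
    exact Ideal.bot_mul _
  have h1 := phi_mul D (N + 1) hN1 (Tl N) (Tr N)
  have h2 := univ_phi_mul D N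
  have h3 : addTuple D (N + 1) (Tl N) (Tr N) = addCoord D N := by
    apply (D.pkg (Univ (Fin g ⊕ Fin g) W N)).phi_injective (isNilpotent_univIdeal _ W N)
    exact h1.symm.trans h2
  have h4 := congrArg (fun c : Fin g → univIdeal (Fin g ⊕ Fin g) W N =>
    ((c i : univIdeal (Fin g ⊕ Fin g) W N) : Univ (Fin g ⊕ Fin g) W N)) h3
  simp only [coe_addTuple] at h4
  rw [← univMk_F] at h4
  have h5 : aeval (Sum.elim (fun j => ((Tl N j : univIdeal (Fin g ⊕ Fin g) W N) : Univ _ W N))
      (fun j => ((Tr N j : univIdeal (Fin g ⊕ Fin g) W N) : Univ _ W N))) (F D (N + 1) i) =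
      univMk (Fin g ⊕ Fin g) W N (F D (N + 1) i) := by
    have e : Sum.elim (fun j => ((Tl N j : univIdeal (Fin g ⊕ Fin g) W N) : Univ _ W N))
        (fun j => ((Tr N j : univIdeal (Fin g ⊕ Fin g) W N) : Univ _ W N)) =
        fun s => univMk (Fin g ⊕ Fin g) W N (X s) := by
      funext s; cases s <;> rfl
    rw [e]
    exact (AlgHom.congr_fun (mkₐ_eq_aeval (idealOfVars (Fin g ⊕ Fin g) W ^ N)) _).symm
  rw [h5] at h4
  exact (univMk_eq_iff _ W N _ _).mp h4

end GroupLaw

end Fermat.Agent.T1.CechGroupLaw40
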