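import Mathlib
import Fermat.Agent.T1.CentresClass47

/-!
# T1A (S19), brick R-h CENTRES-CLASS, part 2 (helper47): semilinear + directed form

Generalisation of `CentresClass47.exists_centre` in two directions, as needed by the hub (`Assembly41.HubData.centres`):

* the automorphisms are SEMILINEAR: `SemiAut c0 A` = a chart automorphism `S : ChartAut c0` with an inverse `S'`
  and a ring automorphism `f` of `A` semilinear over `S.σW` (with inverse `f'`); a point `q` of chart `j` is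
  FIXED by `F` when `q (F.S.σ_j b) = F.f (q b)`;
* the set of automorphisms fixing the centre may depend on the point: `𝓘` is a family of sets of automorphisms,
  directed downwards (`I₁, I₂ ∈ 𝓘 ⇒ ∃ I₃ ∈ 𝓘, I₃ ⊆ I₁ ∩ I₂`; in the application `I_E = {σ | σ fixes E}`,
  `E` finite unramified), a point has a centre if it has one for SOME `I ∈ 𝓘`, and the conclusion produces
  some `I ∈ 𝓘` for every class.

`exists_centre_dir` : every `y` in the subgroup generated by the classes of the points having a centre admits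
`I ∈ 𝓘` and `x ∈ PicPt O` with `red (y * x⁻¹) = 1` and `PicX.mapSemi F.S F.f F.hf x = x` for all `F ∈ I`.
-/

set_option autoImplicit false

open TensorProduct

namespace Fermat.Agent.T1.CentresDir47

open Fermat.Agent.Jac Fermat.Agent.T1.RedIface75 Fermat.Agent.T1.PtLine75 Fermat.Agent.T1.Adapt39
open Fermat.Agent.T1.CentresClass47

universe u

variable {W B0 B1 B01 : Type u} [CommRing W] [CommRing B0] [CommRing B1] [CommRing B01]
  [Algebra W B0] [Algebra W B1] [Algebra W B01] [Algebra B0 B01] [Algebra B1 B01]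
  [IsScalarTower W B0 B01] [IsScalarTower W B1 B01]
  (c0 : TwoChart W B0 B1 B01)

/-- A semilinear automorphism of the pair (chart system, `A`): a chart automorphism `S` with an inverse `S'`
(on the two charts) and a ring automorphism `f` of `A`, semilinear over `S.σW`, with inverse `f'`. -/
structure SemiAut (A : Type u) [CommRing A] [Algebra W A] where
  S : ChartAut c0
  S' : ChartAut c0
  f : A →+* A
  f' : A →+* A
  hf : ∀ (w : W) (a : A), f (w • a) = S.σW w • f a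
  hf' : ∀ (w : W) (a : A), f' (w • a) = S'.σW w • f' a
  left : ∀ a, f' (f a) = a
  right : ∀ a, f (f' a) = a
  left0 : ∀ b, S'.σ0 (S.σ0 b) = b
  right0 : ∀ b, S.σ0 (S'.σ0 b) = b
  left1 : ∀ b, S'.σ1 (S.σ1 b) = b
  right1 : ∀ b, S.σ1 (S'.σ1 b) = b

section Semi

variable {c0} {A : Type u} [CommRing A] [Algebra W A] (F : SemiAut c0 A)

theorem SemiAut.bij0 :
    Function.Bijective (semiTensor F.S.σW F.f F.S.σ0 F.hf F.S.semi0) :=
  semiTensor_bijective F.S.σW F.S'.σW F.f F.f' F.S.σ0 F.S'.σ0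
    F.hf F.S.semi0 F.hf' F.S'.semi0 F.left F.right F.left0 F.right0

theorem SemiAut.bij1 :
    Function.Bijective (semiTensor F.S.σW F.f F.S.σ1 F.hf F.S.semi1) :=
  semiTensor_bijective F.S.σW F.S'.σW F.f F.f' F.S.σ1 F.S'.σ1
    F.hf F.S.semi1 F.hf' F.S'.semi1 F.left F.right F.left1 F.right1

theorem SemiAut.surj0 : Function.Surjective F.S.σ0 := fun b => ⟨F.S'.σ0 b, F.right0 b⟩

theorem SemiAut.surj1 : Function.Surjective F.S.σ1 := fun b => ⟨F.S'.σ1 b, F.right1 b⟩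

/-- The class of a point of chart 0 fixed by `F` (`q ∘ σ0 = f ∘ q`) is fixed by `PicX.mapSemi`. -/
theorem mapSemi_ptClass0_of_fixed (q : B0 →ₐ[W] A)
    (h : Module.Invertible (A ⊗[W] B0) (ptIdeal q)) (hfix : ∀ b, q (F.S.σ0 b) = F.f (q b)) :
    PicX.mapSemi F.S F.f F.hf (ptClass0 c0 q h) = ptClass0 c0 q h :=
  mapSemi_ptClass0 F.S F.f F.hf F.bij0 F.bij1 F.surj0 q q hfix h h

/-- The class of a point of chart 1 fixed by `F` (`q ∘ σ1 = f ∘ q`) is fixed by `PicX.mapSemi`. -/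
theorem mapSemi_ptClass1_of_fixed (q : B1 →ₐ[W] A)
    (h : Module.Invertible (A ⊗[W] B1) (ptIdeal q)) (hfix : ∀ b, q (F.S.σ1 b) = F.f (q b)) :
    PicX.mapSemi F.S F.f F.hf (ptClass1 c0 q h) = ptClass1 c0 q h :=
  mapSemi_ptClass1 F.S F.f F.hf F.bij0 F.bij1 F.surj1 q q hfix h h

end Semi

/-- The `SemiAut` of a `W`-linear automorphism (identity on the chart system). -/
def SemiAut.ofLin {A : Type u} [CommRing A] [Algebra W A] (F : LinAut W A) : SemiAut c0 A where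
  S := chartAutRefl c0
  S' := chartAutRefl c0
  f := F.f
  f' := F.f'
  hf := F.hf
  hf' := F.hf'
  left := F.left
  right := F.right
  left0 _ := rfl
  right0 _ := rfl
  left1 _ := rfl
  right1 _ := rfl

/-! ### Class-level centres, semilinear and directed -/

section Centres

variable (O : Type u) [CommRing O] [IsLocalRing O] [Algebra W O]

/-- The point `q` of chart 0 has a centre for the set `I` of semilinear automorphisms. -/
def HasCentre0 (I : Set (SemiAut c0 O)) (q : B0 →ₐ[W] O) : Prop :=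
  ∃ (q' : B0 →ₐ[W] O) (_ : Module.Invertible (O ⊗[W] B0) (ptIdeal q')),
    (∀ b, IsLocalRing.residue O (q' b) = IsLocalRing.residue O (q b)) ∧
    ∀ F ∈ I, ∀ b, q' ((SemiAut.S F).σ0 b) = SemiAut.f F (q' b)

/-- The point `q` of chart 1 has a centre for the set `I` of semilinear automorphisms. -/
def HasCentre1 (I : Set (SemiAut c0 O)) (q : B1 →ₐ[W] O) : Prop :=
  ∃ (q' : B1 →ₐ[W] O) (_ : Module.Invertible (O ⊗[W] B1) (ptIdeal q')),
    (∀ b, IsLocalRing.residue O (q' b) = IsLocalRing.residue O (q b)) ∧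
    ∀ F ∈ I, ∀ b, q' ((SemiAut.S F).σ1 b) = SemiAut.f F (q' b)

theorem HasCentre0.mono {I I' : Set (SemiAut c0 O)} (hI : I' ⊆ I) {q : B0 →ₐ[W] O}
    (h : HasCentre0 c0 O I q) : HasCentre0 c0 O I' q := by
  obtain ⟨q', h', hred, hfix⟩ := h
  exact ⟨q', h', hred, fun F hF => hfix F (hI hF)⟩

theorem HasCentre1.mono {I I' : Set (SemiAut c0 O)} (hI : I' ⊆ I) {q : B1 →ₐ[W] O}
    (h : HasCentre1 c0 O I q) : HasCentre1 c0 O I' q := by
  obtain ⟨q', h', hred, hfix⟩ := h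
  exact ⟨q', h', hred, fun F hF => hfix F (hI hF)⟩

variable (𝓘 : Set (Set (SemiAut c0 O)))

/-- The classes of the points (with invertible ideal) having a centre for some `I ∈ 𝓘`. -/
def GenD : Set (PicX c0 O) :=
  {x | (∃ (q : B0 →ₐ[W] O) (h : Module.Invertible (O ⊗[W] B0) (ptIdeal q)),
          (∃ I ∈ 𝓘, HasCentre0 c0 O I q) ∧ x = ptClass0 c0 q h) ∨
       (∃ (q : B1 →ₐ[W] O) (h : Module.Invertible (O ⊗[W] B1) (ptIdeal q)),
          (∃ I ∈ 𝓘, HasCentre1 c0 O I q) ∧ x = ptClass1 c0 q h)}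

theorem genD_le_picPt :
    Subgroup.closure (GenD c0 O 𝓘) ≤ (pointClasses c0).PicPt O := by
  rw [Subgroup.closure_le]
  rintro x (⟨q, h, -, rfl⟩ | ⟨q, h, -, rfl⟩)
  · exact ptClass0_mem_picPt c0 q h
  · exact ptClass1_mem_picPt c0 q h

/-- If every point (with invertible ideal) has a centre, the classes of the points having a centre generate
`PicPt O`.  (Hypothesis `hgen`: `PicPt O` is generated by the point classes - true by definition of
`pointClasses`, stated here as a hypothesis to stay independent of its implementation.) -/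
theorem closure_genD_eq_top_of_forall
    (h0 : ∀ (q : B0 →ₐ[W] O), Module.Invertible (O ⊗[W] B0) (ptIdeal q) → ∃ I ∈ 𝓘, HasCentre0 c0 O I q)
    (h1 : ∀ (q : B1 →ₐ[W] O), Module.Invertible (O ⊗[W] B1) (ptIdeal q) → ∃ I ∈ 𝓘, HasCentre1 c0 O I q)
    (hgen : (pointClasses c0).PicPt O ≤ Subgroup.closure
      {x | (∃ (q : B0 →ₐ[W] O) (h : Module.Invertible (O ⊗[W] B0) (ptIdeal q)), x = ptClass0 c0 q h) ∨
           (∃ (q : B1 →ₐ[W] O) (h : Module.Invertible (O ⊗[W] B1) (ptIdeal q)), x = ptClass1 c0 q h)}) :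
    (pointClasses c0).PicPt O ≤ Subgroup.closure (GenD c0 O 𝓘) := by
  refine hgen.trans (Subgroup.closure_mono ?_)
  rintro x (⟨q, h, rfl⟩ | ⟨q, h, rfl⟩)
  · exact Or.inl ⟨q, h, h0 q h, rfl⟩
  · exact Or.inr ⟨q, h, h1 q h, rfl⟩

/-- **Class-level centres, semilinear and directed form**: if `𝓘` is nonempty and directed downwards, every
class generated by points having centres is congruent modulo the kernel of reduction to a class of `PicPt O`
fixed by all `F ∈ I`, for some `I ∈ 𝓘`. -/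
theorem exists_centre_dir (hne : ∃ I, I ∈ 𝓘)
    (hdir : ∀ I₁ ∈ 𝓘, ∀ I₂ ∈ 𝓘, ∃ I₃ ∈ 𝓘, I₃ ⊆ I₁ ∧ I₃ ⊆ I₂)
    (y : PicX c0 O) (hy : y ∈ Subgroup.closure (GenD c0 O 𝓘)) :
    ∃ I ∈ 𝓘, ∃ x ∈ (pointClasses c0).PicPt O,
      PicX.map c0 O (IsLocalRing.ResidueField O) (y * x⁻¹) = 1 ∧
      ∀ F ∈ I, PicX.mapSemi (SemiAut.S F) (SemiAut.f F) (SemiAut.hf F) x = x := by
  induction hy using Subgroup.closure_induction with
  | mem y hy =>
    rcases hy with ⟨q, h, ⟨I, hI, q', h', hred, hfix⟩, rfl⟩ | ⟨q, h, ⟨I, hI, q', h', hred, hfix⟩, rfl⟩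
    · refine ⟨I, hI, ptClass0 c0 q' h', ptClass0_mem_picPt c0 q' h', ?_, fun F hF => ?_⟩
      · rw [map_mul, map_inv, red_ptClass0_eq c0 O q q' h h' (fun b => (hred b).symm),
          mul_inv_cancel]
      · exact mapSemi_ptClass0_of_fixed F q' h' (hfix F hF)
    · refine ⟨I, hI, ptClass1 c0 q' h', ptClass1_mem_picPt c0 q' h', ?_, fun F hF => ?_⟩
      · rw [map_mul, map_inv, red_ptClass1_eq c0 O q q' h h' (fun b => (hred b).symm),
          mul_inv_cancel]
      · exact mapSemi_ptClass1_of_fixed F q' h' (hfix F hF)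
  | one =>
    obtain ⟨I, hI⟩ := hne
    refine ⟨I, hI, 1, Subgroup.one_mem _, ?_, fun F _ => map_one _⟩
    rw [inv_one, mul_one, map_one]
  | mul y₁ y₂ _ _ ih₁ ih₂ =>
    obtain ⟨I₁, hI₁, x₁, hx₁, hr₁, hf₁⟩ := ih₁
    obtain ⟨I₂, hI₂, x₂, hx₂, hr₂, hf₂⟩ := ih₂
    obtain ⟨I₃, hI₃, h31, h32⟩ := hdir I₁ hI₁ I₂ hI₂
    refine ⟨I₃, hI₃, x₁ * x₂, Subgroup.mul_mem _ hx₁ hx₂, ?_, fun F hF => ?_⟩
    · have : y₁ * y₂ * (x₁ * x₂)⁻¹ = (y₁ * x₁⁻¹) * (y₂ * x₂⁻¹) := by
        rw [mul_inv]; exact mul_mul_mul_comm _ _ _ _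
      rw [this, map_mul, hr₁, hr₂, mul_one]
    · rw [map_mul, hf₁ F (h31 hF), hf₂ F (h32 hF)]
  | inv y _ ih =>
    obtain ⟨I, hI, x, hx, hr, hf⟩ := ih
    refine ⟨I, hI, x⁻¹, Subgroup.inv_mem _ hx, ?_, fun F hF => ?_⟩
    · have : y⁻¹ * x⁻¹⁻¹ = (y * x⁻¹)⁻¹ := by
        rw [mul_inv, inv_inv]
      rw [this, map_inv, hr, inv_one]
    · rw [map_inv, hf F hF]

omit [IsLocalRing O] in
/-- `PicPt O` is generated by the point classes (definitional for `PtLine75.pointClasses`). -/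
theorem picPt_le_closure :
    (pointClasses c0).PicPt O ≤ Subgroup.closure
      {x | (∃ (q : B0 →ₐ[W] O) (h : Module.Invertible (O ⊗[W] B0) (ptIdeal q)), x = ptClass0 c0 q h) ∨
           (∃ (q : B1 →ₐ[W] O) (h : Module.Invertible (O ⊗[W] B1) (ptIdeal q)), x = ptClass1 c0 q h)} :=
  le_refl _

/-- **Class-level centres for all of `PicPt O`**: if every point (with invertible ideal) of the two charts has a
centre for some `I ∈ 𝓘` (`𝓘` nonempty, directed downwards), then every class `y ∈ PicPt O` has a class-level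
centre. -/
theorem exists_centre_of_forall (hne : ∃ I, I ∈ 𝓘)
    (hdir : ∀ I₁ ∈ 𝓘, ∀ I₂ ∈ 𝓘, ∃ I₃ ∈ 𝓘, I₃ ⊆ I₁ ∧ I₃ ⊆ I₂)
    (h0 : ∀ (q : B0 →ₐ[W] O), Module.Invertible (O ⊗[W] B0) (ptIdeal q) → ∃ I ∈ 𝓘, HasCentre0 c0 O I q)
    (h1 : ∀ (q : B1 →ₐ[W] O), Module.Invertible (O ⊗[W] B1) (ptIdeal q) → ∃ I ∈ 𝓘, HasCentre1 c0 O I q)
    (y : PicX c0 O) (hy : y ∈ (pointClasses c0).PicPt O) :
    ∃ I ∈ 𝓘, ∃ x ∈ (pointClasses c0).PicPt O,
      PicX.map c0 O (IsLocalRing.ResidueField O) (y * x⁻¹) = 1 ∧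
      ∀ F ∈ I, PicX.mapSemi (SemiAut.S F) (SemiAut.f F) (SemiAut.hf F) x = x :=
  exists_centre_dir c0 O 𝓘 hne hdir y
    (closure_genD_eq_top_of_forall c0 O 𝓘 h0 h1 (picPt_le_closure c0 O) hy)

end Centres

end Fermat.Agent.T1.CentresDir47
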