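import Mathlib
import Fermat.Agent.T1.CentresDir47
import Fermat.Agent.T1.GalAct44
import Fermat.Agent.T1.Unram47

/-!
# T1A (S19), brick R-h CENTRES-CLASS, part 3 (helper47): the Galois form (hub vocabulary)

`H : GalAct44.ChartAction c0 (Gp ℓ)` the action of `G_ℓ = Gal(K̄/ℚ_ℓ)` on the chart system, `RO : SemiAction H O`
the compatible action on the DVR `O`.  The directed family of `CentresDir47` is
`I_m = {σ | σ fixes ℚ_ℓ(μ_m)}`, `ℓ ∤ m`, `m₀ ∣ m`.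

* `HasGalCentre0/1`, `GenG`, `exists_centre_gal_closure(_unram)` : PER-CLASS form (classes generated by the
  points having a Galois centre) - THE FORM TO USE IN THE HUB (`L` is chosen after the centres);
  `hasGalCentre0/1_of_trivial` when the chart action of the `σ` fixing `ℚ_ℓ(μ_{m₀})` is trivial;
* `exists_centre_gal` : if every `O`-point `q` (with invertible ideal) of the two charts has a centre `q'`
  (same reduction, invertible ideal, `q' ∘ (H.S σ).σ_j = RO.f σ ∘ q'` for all `σ` fixing some `ℚ_ℓ(μ_m)`,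
  `ℓ ∤ m`, `m₀ ∣ m`), then every class `y ∈ PicPt O` has a class-level centre:
  `x ∈ PicPt O` with `y * x⁻¹ ∈ J1 c0 O` and `actPic H RO σ x = x` for all `σ` fixing `ℚ_ℓ(μ_m)`
  (some `m`, `ℓ ∤ m`, `m₀ ∣ m`);
* `exists_centre_gal_unram` : the same with the conclusion in the shape of `HubData.centres`
  (`∃ E` finite unramified, `∀ σ` fixing `E`, `actPic H RO σ x = x`);
* `exists_centre_gal_of_trivial` : variant where the chart action of `σ` fixing `ℚ_ℓ(μ_{m₀})` is trivial on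
  `B0`, `B1` (`(H.S σ).σ_j b = b`), so that the pointwise hypothesis is plain fixedness `RO.f σ (q' b) = q' b`
  (the shape of `Centres92.OfModel92.exists_centre_local0/1` after descent to `O`).
-/

set_option autoImplicit false
set_option linter.unusedSectionVars false

open TensorProduct

namespace Fermat.Agent.T1.CentresGal47

open Fermat.Agent.Jac Fermat.Agent.T1.RedIface75 Fermat.Agent.T1.PtLine75 Fermat.Agent.T1.Adapt39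
open Fermat.Agent.T1.CentresClass47 Fermat.Agent.T1.CentresDir47 Fermat.Agent.T1.GalAct44
open Fermat.Agent.TW.B5.Iface Fermat.Agent.TW.B5.LG83W Fermat.Agent.TW.B5.LG83X

variable (ℓ : ℕ) [Fact ℓ.Prime]
variable {W B0 B1 B01 : Type} [CommRing W] [CommRing B0] [CommRing B1] [CommRing B01]
  [Algebra W B0] [Algebra W B1] [Algebra W B01] [Algebra B0 B01] [Algebra B1 B01]
  [IsScalarTower W B0 B01] [IsScalarTower W B1 B01]
  {c0 : TwoChart W B0 B1 B01}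
  (H : ChartAction c0 (Gp ℓ))
  {O : Type} [CommRing O] [IsDomain O] [IsDiscreteValuationRing O] [Algebra W O]
  (RO : SemiAction H O)

/-- The semilinear automorphism of `(chart system, O)` attached to `σ`. -/
noncomputable def semiAutOf (σ : Gp ℓ) : SemiAut c0 O where
  S := H.S σ
  S' := H.S σ⁻¹
  f := RO.f σ
  f' := RO.f σ⁻¹
  hf := RO.semi σ
  hf' := RO.semi σ⁻¹
  left := RO.f_inv_apply σ
  right := RO.f_apply_inv σ
  left0 := H.σ0_inv_apply σ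
  right0 := H.σ0_apply_inv σ
  left1 := H.σ1_inv_apply σ
  right1 := H.σ1_apply_inv σ

/-- The automorphisms attached to the `σ` fixing `ℚ_ℓ(μ_m)`. -/
def IM (m : ℕ) : Set (SemiAut c0 O) :=
  {F | ∃ σ : Gp ℓ, (∀ e ∈ muField ℓ m, σ e = e) ∧ F = semiAutOf ℓ H RO σ}

/-- The directed family `{I_m | ℓ ∤ m, m₀ ∣ m}`. -/
def famM (m₀ : ℕ) : Set (Set (SemiAut c0 O)) :=
  {I | ∃ m : ℕ, ¬ ℓ ∣ m ∧ m₀ ∣ m ∧ I = IM ℓ H RO m}

theorem IM_anti {m m' : ℕ} (h : m ∣ m') : IM ℓ H RO m' ⊆ IM ℓ H RO m := by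
  rintro F ⟨σ, hσ, rfl⟩
  exact ⟨σ, fun e he => hσ e (muField_le_of_dvd ℓ h he), rfl⟩

theorem famM_nonempty {m₀ : ℕ} (hm₀ : ¬ ℓ ∣ m₀) : ∃ I, I ∈ famM ℓ H RO m₀ :=
  ⟨IM ℓ H RO m₀, m₀, hm₀, dvd_rfl, rfl⟩

theorem famM_directed (m₀ : ℕ) :
    ∀ I₁ ∈ famM ℓ H RO m₀, ∀ I₂ ∈ famM ℓ H RO m₀,
      ∃ I₃ ∈ famM ℓ H RO m₀, I₃ ⊆ I₁ ∧ I₃ ⊆ I₂ := by
  rintro I₁ ⟨m₁, h₁, hd₁, rfl⟩ I₂ ⟨m₂, h₂, -, rfl⟩
  have hp : ℓ.Prime := Fact.out
  refine ⟨IM ℓ H RO (m₁ * m₂), ⟨m₁ * m₂, ?_, hd₁.trans (dvd_mul_right _ _), rfl⟩,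
    IM_anti ℓ H RO (dvd_mul_right _ _), IM_anti ℓ H RO (dvd_mul_left _ _)⟩
  intro h
  rcases (Nat.Prime.dvd_mul hp).1 h with h | h
  · exact h₁ h
  · exact h₂ h

/-- The point `q` of chart 0 has a GALOIS centre: a point `q'` with invertible ideal, the same reduction,
equivariant for all `σ` fixing some `ℚ_ℓ(μ_m)` (`ℓ ∤ m`, `m₀ ∣ m`). -/
def HasGalCentre0 (m₀ : ℕ) (q : B0 →ₐ[W] O) : Prop :=
  ∃ m : ℕ, ¬ ℓ ∣ m ∧ m₀ ∣ m ∧
    ∃ (q' : B0 →ₐ[W] O) (_ : Module.Invertible (O ⊗[W] B0) (ptIdeal q')),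
      (∀ b, IsLocalRing.residue O (q' b) = IsLocalRing.residue O (q b)) ∧
      ∀ σ : Gp ℓ, (∀ e ∈ muField ℓ m, σ e = e) → ∀ b, q' ((H.S σ).σ0 b) = RO.f σ (q' b)

/-- The point `q` of chart 1 has a GALOIS centre. -/
def HasGalCentre1 (m₀ : ℕ) (q : B1 →ₐ[W] O) : Prop :=
  ∃ m : ℕ, ¬ ℓ ∣ m ∧ m₀ ∣ m ∧
    ∃ (q' : B1 →ₐ[W] O) (_ : Module.Invertible (O ⊗[W] B1) (ptIdeal q')),
      (∀ b, IsLocalRing.residue O (q' b) = IsLocalRing.residue O (q b)) ∧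
      ∀ σ : Gp ℓ, (∀ e ∈ muField ℓ m, σ e = e) → ∀ b, q' ((H.S σ).σ1 b) = RO.f σ (q' b)

/-- The classes of the points (with invertible ideal) having a Galois centre. -/
def GenG (m₀ : ℕ) : Set (PicX c0 O) :=
  {x | (∃ (q : B0 →ₐ[W] O) (h : Module.Invertible (O ⊗[W] B0) (ptIdeal q)),
          HasGalCentre0 ℓ H RO m₀ q ∧ x = ptClass0 c0 q h) ∨
       (∃ (q : B1 →ₐ[W] O) (h : Module.Invertible (O ⊗[W] B1) (ptIdeal q)),
          HasGalCentre1 ℓ H RO m₀ q ∧ x = ptClass1 c0 q h)}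

theorem genG_subset_genD (m₀ : ℕ) :
    GenG ℓ H RO m₀ ⊆ GenD c0 O (famM ℓ H RO m₀) := by
  rintro x (⟨q, h, ⟨m, hm, hd, q', hq', hred, hfix⟩, rfl⟩ | ⟨q, h, ⟨m, hm, hd, q', hq', hred, hfix⟩, rfl⟩)
  · refine Or.inl ⟨q, h, ⟨IM ℓ H RO m, ⟨m, hm, hd, rfl⟩, q', hq', hred, ?_⟩, rfl⟩
    rintro F ⟨σ, hσ, rfl⟩ b
    exact hfix σ hσ b
  · refine Or.inr ⟨q, h, ⟨IM ℓ H RO m, ⟨m, hm, hd, rfl⟩, q', hq', hred, ?_⟩, rfl⟩
    rintro F ⟨σ, hσ, rfl⟩ b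
    exact hfix σ hσ b

/-- **Class-level centres, Galois form, PER-CLASS** (the form to use in the hub: only the finitely many points
representing the classes of the finite module need centres over `O`, so `L` can be chosen after the centres):
every class in the subgroup generated by the classes of the points having a Galois centre is congruent modulo
`J̃1(O)` to a class of `PicPt O` fixed by all `σ` fixing some `ℚ_ℓ(μ_m)`. -/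
theorem exists_centre_gal_closure {m₀ : ℕ} (hm₀ : ¬ ℓ ∣ m₀)
    (y : PicX c0 O) (hy : y ∈ Subgroup.closure (GenG ℓ H RO m₀)) :
    ∃ x ∈ (pointClasses c0).PicPt O, y * x⁻¹ ∈ J1 c0 O ∧
      ∃ m : ℕ, ¬ ℓ ∣ m ∧ m₀ ∣ m ∧
        ∀ σ : Gp ℓ, (∀ e ∈ muField ℓ m, σ e = e) → actPic H RO σ x = x := by
  obtain ⟨I, ⟨m, hm, hd, rfl⟩, x, hx, hred, hfix⟩ :=
    exists_centre_dir c0 O (famM ℓ H RO m₀) (famM_nonempty ℓ H RO hm₀)
      (famM_directed ℓ H RO m₀) y (Subgroup.closure_mono (genG_subset_genD ℓ H RO m₀) hy)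
  refine ⟨x, hx, ?_, m, hm, hd, fun σ hσ => ?_⟩
  · exact MonoidHom.mem_ker.2 hred
  · exact hfix (semiAutOf ℓ H RO σ) ⟨σ, hσ, rfl⟩

/-- Per-class form with the conclusion in the shape of `Assembly41.HubData.centres` (`E` finite unramified). -/
theorem exists_centre_gal_closure_unram {m₀ : ℕ} (hm₀ : ¬ ℓ ∣ m₀)
    (y : PicX c0 O) (hy : y ∈ Subgroup.closure (GenG ℓ H RO m₀)) :
    ∃ x ∈ (pointClasses c0).PicPt O, y * x⁻¹ ∈ J1 c0 O ∧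
      ∃ E : IntermediateField ℚ_[ℓ] (Kbar ℓ), FiniteDimensional ℚ_[ℓ] E ∧ IsUnramifiedField ℓ E ∧
        ∀ σ : Gp ℓ, (∀ e ∈ E, σ e = e) → actPic H RO σ x = x := by
  obtain ⟨x, hx, hJ, m, hm, -, hfix⟩ := exists_centre_gal_closure ℓ H RO hm₀ y hy
  have hm0 : m ≠ 0 := fun h => hm (h ▸ dvd_zero ℓ)
  exact ⟨x, hx, hJ, muField ℓ m, finiteDimensional_muField ℓ hm0, isUnramifiedField_muField ℓ hm, hfix⟩

/-- A point with a plainly FIXED centre has a Galois centre, when the chart action of the `σ` fixing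
`ℚ_ℓ(μ_{m₀})` is trivial on `B0`. -/
theorem hasGalCentre0_of_trivial {m₀ : ℕ}
    (hS0 : ∀ σ : Gp ℓ, (∀ e ∈ muField ℓ m₀, σ e = e) → ∀ b, (H.S σ).σ0 b = b)
    {q : B0 →ₐ[W] O}
    (h : ∃ m : ℕ, ¬ ℓ ∣ m ∧ m₀ ∣ m ∧
        ∃ (q' : B0 →ₐ[W] O) (_ : Module.Invertible (O ⊗[W] B0) (ptIdeal q')),
          (∀ b, IsLocalRing.residue O (q' b) = IsLocalRing.residue O (q b)) ∧
          ∀ σ : Gp ℓ, (∀ e ∈ muField ℓ m, σ e = e) → ∀ b, RO.f σ (q' b) = q' b) :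
    HasGalCentre0 ℓ H RO m₀ q := by
  obtain ⟨m, hm, hd, q', hq', hred, hfix⟩ := h
  refine ⟨m, hm, hd, q', hq', hred, fun σ hσ b => ?_⟩
  rw [hS0 σ (fun e he => hσ e (muField_le_of_dvd ℓ hd he)) b, hfix σ hσ b]

/-- Chart 1 version of `hasGalCentre0_of_trivial`. -/
theorem hasGalCentre1_of_trivial {m₀ : ℕ}
    (hS1 : ∀ σ : Gp ℓ, (∀ e ∈ muField ℓ m₀, σ e = e) → ∀ b, (H.S σ).σ1 b = b)
    {q : B1 →ₐ[W] O}
    (h : ∃ m : ℕ, ¬ ℓ ∣ m ∧ m₀ ∣ m ∧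
        ∃ (q' : B1 →ₐ[W] O) (_ : Module.Invertible (O ⊗[W] B1) (ptIdeal q')),
          (∀ b, IsLocalRing.residue O (q' b) = IsLocalRing.residue O (q b)) ∧
          ∀ σ : Gp ℓ, (∀ e ∈ muField ℓ m, σ e = e) → ∀ b, RO.f σ (q' b) = q' b) :
    HasGalCentre1 ℓ H RO m₀ q := by
  obtain ⟨m, hm, hd, q', hq', hred, hfix⟩ := h
  refine ⟨m, hm, hd, q', hq', hred, fun σ hσ b => ?_⟩
  rw [hS1 σ (fun e he => hσ e (muField_le_of_dvd ℓ hd he)) b, hfix σ hσ b]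

/-- **Class-level centres, Galois form.**  If every `O`-point (with invertible ideal) of the two charts has a
centre which is equivariant for all `σ` fixing some `ℚ_ℓ(μ_m)` (`ℓ ∤ m`, `m₀ ∣ m`), then every class of
`PicPt O` is congruent modulo `J̃1(O)` to a class of `PicPt O` fixed by all `σ` fixing some `ℚ_ℓ(μ_m)`. -/
theorem exists_centre_gal {m₀ : ℕ} (hm₀ : ¬ ℓ ∣ m₀)
    (h0 : ∀ (q : B0 →ₐ[W] O), Module.Invertible (O ⊗[W] B0) (ptIdeal q) →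
      ∃ m : ℕ, ¬ ℓ ∣ m ∧ m₀ ∣ m ∧
        ∃ (q' : B0 →ₐ[W] O) (_ : Module.Invertible (O ⊗[W] B0) (ptIdeal q')),
          (∀ b, IsLocalRing.residue O (q' b) = IsLocalRing.residue O (q b)) ∧
          ∀ σ : Gp ℓ, (∀ e ∈ muField ℓ m, σ e = e) → ∀ b, q' ((H.S σ).σ0 b) = RO.f σ (q' b))
    (h1 : ∀ (q : B1 →ₐ[W] O), Module.Invertible (O ⊗[W] B1) (ptIdeal q) →
      ∃ m : ℕ, ¬ ℓ ∣ m ∧ m₀ ∣ m ∧
        ∃ (q' : B1 →ₐ[W] O) (_ : Module.Invertible (O ⊗[W] B1) (ptIdeal q')),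
          (∀ b, IsLocalRing.residue O (q' b) = IsLocalRing.residue O (q b)) ∧
          ∀ σ : Gp ℓ, (∀ e ∈ muField ℓ m, σ e = e) → ∀ b, q' ((H.S σ).σ1 b) = RO.f σ (q' b))
    (y : PicX c0 O) (hy : y ∈ (pointClasses c0).PicPt O) :
    ∃ x ∈ (pointClasses c0).PicPt O, y * x⁻¹ ∈ J1 c0 O ∧
      ∃ m : ℕ, ¬ ℓ ∣ m ∧ m₀ ∣ m ∧
        ∀ σ : Gp ℓ, (∀ e ∈ muField ℓ m, σ e = e) → actPic H RO σ x = x := by
  have h0' : ∀ (q : B0 →ₐ[W] O), Module.Invertible (O ⊗[W] B0) (ptIdeal q) →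
      ∃ I ∈ famM ℓ H RO m₀, CentresDir47.HasCentre0 c0 O I q := by
    intro q hq
    obtain ⟨m, hm, hd, q', hq', hred, hfix⟩ := h0 q hq
    refine ⟨IM ℓ H RO m, ⟨m, hm, hd, rfl⟩, q', hq', hred, ?_⟩
    rintro F ⟨σ, hσ, rfl⟩ b
    exact hfix σ hσ b
  have h1' : ∀ (q : B1 →ₐ[W] O), Module.Invertible (O ⊗[W] B1) (ptIdeal q) →
      ∃ I ∈ famM ℓ H RO m₀, CentresDir47.HasCentre1 c0 O I q := by
    intro q hq
    obtain ⟨m, hm, hd, q', hq', hred, hfix⟩ := h1 q hq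
    refine ⟨IM ℓ H RO m, ⟨m, hm, hd, rfl⟩, q', hq', hred, ?_⟩
    rintro F ⟨σ, hσ, rfl⟩ b
    exact hfix σ hσ b
  obtain ⟨I, ⟨m, hm, hd, rfl⟩, x, hx, hred, hfix⟩ :=
    exists_centre_of_forall c0 O (famM ℓ H RO m₀) (famM_nonempty ℓ H RO hm₀)
      (famM_directed ℓ H RO m₀) h0' h1' y hy
  refine ⟨x, hx, ?_, m, hm, hd, fun σ hσ => ?_⟩
  · exact MonoidHom.mem_ker.2 hred
  · exact hfix (semiAutOf ℓ H RO σ) ⟨σ, hσ, rfl⟩

/-- The same with the conclusion in the shape of `Assembly41.HubData.centres` / `AlgIface47.DiscGroupData.centres`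
(`E` finite unramified). -/
theorem exists_centre_gal_unram {m₀ : ℕ} (hm₀ : ¬ ℓ ∣ m₀)
    (h0 : ∀ (q : B0 →ₐ[W] O), Module.Invertible (O ⊗[W] B0) (ptIdeal q) →
      ∃ m : ℕ, ¬ ℓ ∣ m ∧ m₀ ∣ m ∧
        ∃ (q' : B0 →ₐ[W] O) (_ : Module.Invertible (O ⊗[W] B0) (ptIdeal q')),
          (∀ b, IsLocalRing.residue O (q' b) = IsLocalRing.residue O (q b)) ∧
          ∀ σ : Gp ℓ, (∀ e ∈ muField ℓ m, σ e = e) → ∀ b, q' ((H.S σ).σ0 b) = RO.f σ (q' b))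
    (h1 : ∀ (q : B1 →ₐ[W] O), Module.Invertible (O ⊗[W] B1) (ptIdeal q) →
      ∃ m : ℕ, ¬ ℓ ∣ m ∧ m₀ ∣ m ∧
        ∃ (q' : B1 →ₐ[W] O) (_ : Module.Invertible (O ⊗[W] B1) (ptIdeal q')),
          (∀ b, IsLocalRing.residue O (q' b) = IsLocalRing.residue O (q b)) ∧
          ∀ σ : Gp ℓ, (∀ e ∈ muField ℓ m, σ e = e) → ∀ b, q' ((H.S σ).σ1 b) = RO.f σ (q' b))
    (y : PicX c0 O) (hy : y ∈ (pointClasses c0).PicPt O) :
    ∃ x ∈ (pointClasses c0).PicPt O, y * x⁻¹ ∈ J1 c0 O ∧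
      ∃ E : IntermediateField ℚ_[ℓ] (Kbar ℓ), FiniteDimensional ℚ_[ℓ] E ∧ IsUnramifiedField ℓ E ∧
        ∀ σ : Gp ℓ, (∀ e ∈ E, σ e = e) → actPic H RO σ x = x := by
  obtain ⟨x, hx, hJ, m, hm, -, hfix⟩ := exists_centre_gal ℓ H RO hm₀ h0 h1 y hy
  have hm0 : m ≠ 0 := fun h => hm (h ▸ dvd_zero ℓ)
  exact ⟨x, hx, hJ, muField ℓ m, finiteDimensional_muField ℓ hm0, isUnramifiedField_muField ℓ hm, hfix⟩

/-- Variant: the chart action of the `σ` fixing `ℚ_ℓ(μ_{m₀})` is trivial on `B0` and `B1`; then the pointwise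
hypothesis is plain fixedness of the centre. -/
theorem exists_centre_gal_of_trivial {m₀ : ℕ} (hm₀ : ¬ ℓ ∣ m₀)
    (hS0 : ∀ σ : Gp ℓ, (∀ e ∈ muField ℓ m₀, σ e = e) → ∀ b, (H.S σ).σ0 b = b)
    (hS1 : ∀ σ : Gp ℓ, (∀ e ∈ muField ℓ m₀, σ e = e) → ∀ b, (H.S σ).σ1 b = b)
    (h0 : ∀ (q : B0 →ₐ[W] O), Module.Invertible (O ⊗[W] B0) (ptIdeal q) →
      ∃ m : ℕ, ¬ ℓ ∣ m ∧ m₀ ∣ m ∧
        ∃ (q' : B0 →ₐ[W] O) (_ : Module.Invertible (O ⊗[W] B0) (ptIdeal q')),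
          (∀ b, IsLocalRing.residue O (q' b) = IsLocalRing.residue O (q b)) ∧
          ∀ σ : Gp ℓ, (∀ e ∈ muField ℓ m, σ e = e) → ∀ b, RO.f σ (q' b) = q' b)
    (h1 : ∀ (q : B1 →ₐ[W] O), Module.Invertible (O ⊗[W] B1) (ptIdeal q) →
      ∃ m : ℕ, ¬ ℓ ∣ m ∧ m₀ ∣ m ∧
        ∃ (q' : B1 →ₐ[W] O) (_ : Module.Invertible (O ⊗[W] B1) (ptIdeal q')),
          (∀ b, IsLocalRing.residue O (q' b) = IsLocalRing.residue O (q b)) ∧
          ∀ σ : Gp ℓ, (∀ e ∈ muField ℓ m, σ e = e) → ∀ b, RO.f σ (q' b) = q' b)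
    (y : PicX c0 O) (hy : y ∈ (pointClasses c0).PicPt O) :
    ∃ x ∈ (pointClasses c0).PicPt O, y * x⁻¹ ∈ J1 c0 O ∧
      ∃ E : IntermediateField ℚ_[ℓ] (Kbar ℓ), FiniteDimensional ℚ_[ℓ] E ∧ IsUnramifiedField ℓ E ∧
        ∀ σ : Gp ℓ, (∀ e ∈ E, σ e = e) → actPic H RO σ x = x := by
  refine exists_centre_gal_unram ℓ H RO hm₀ ?_ ?_ y hy
  · intro q hq
    obtain ⟨m, hm, hd, q', hq', hred, hfix⟩ := h0 q hq
    refine ⟨m, hm, hd, q', hq', hred, fun σ hσ b => ?_⟩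
    rw [hS0 σ (fun e he => hσ e (muField_le_of_dvd ℓ hd he)) b, hfix σ hσ b]
  · intro q hq
    obtain ⟨m, hm, hd, q', hq', hred, hfix⟩ := h1 q hq
    refine ⟨m, hm, hd, q', hq', hred, fun σ hσ b => ?_⟩
    rw [hS1 σ (fun e he => hσ e (muField_le_of_dvd ℓ hd he)) b, hfix σ hσ b]

end Fermat.Agent.T1.CentresGal47
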