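/-
Programme T1a (S19), brick G9-H6 CHARTACTION-CONCRETE (helper9), parts (1)+(2):
the ARITHMETIC chart action on the canonical two-chart ring `Coh60.modelChart M` of a two-chart model.

ABSTRACT part (`M : TwoChartModel R K F π t B0 B1 Ov`, any group `G`):

* `SemiAct M G` : ring endomorphisms `σ g` of `R` and `γ g` of `F`, multiplicative in `g`, `γ g` semilinear
  over `σ g` on constants, preserving `B0`, `B1` and fixing `t`;
* `SemiAct.chartAut X g : ChartAut (modelChart M)` (`σW = σ g`, `σ_j = γ g |_{B_j}`);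
* `SemiAct.chartAction X : GalAct44.ChartAction (modelChart M) G`;
* `SemiAct.chartAut_σW_eq_id` … `_σ01_eq_id` : all four components are the identity when `σ g = id`,
  `γ g = id` (i.e. `chartAut X g` has the components of `CentresClass47.chartAutRefl`).

ARITHMETIC instance (`Kt ⊇ ℚ` any field, `O : ValuationSubring Kt`, `E = laurentBaseChange Kt F₀`,
`ρ : G →* (Kt ≃ₐ[ℚ] Kt)` preserving `O`, coefficientwise action on `E`):

* `arithSemiAct M ρ memO mem0 mem1 fix_t : SemiAct M G`, `arithSemiAct_ofCharts` (standard charts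
  `chart ↥O t`, `chart ↥O t⁻¹`: only `t` fixed is needed), `arithSemiAct_trivial` (`ρ g = 1 ⟹ σ g = id, γ g = id`).

CONCRETE group (`Kt = K1 ⊂ ℚ̄` normal over `ℚ`, `O = AK (padicPlace ℓ) K1`, `G = Gp ℓ`):

* `rhoK ℓ K1 : Gp ℓ →* (K1 ≃ₐ[ℚ] K1)`, `σ ↦ (localGaloisToGlobal ℓ σ)|_{K1}`; `rhoK_memO`;
  `rhoK_eq_one_of_fixes` : `rhoK ℓ K1 σ = 1` when `localGaloisToGlobal ℓ σ` fixes `K1` pointwise.
-/
import Mathlib
import Fermat.Agent.T1.ChartAut9.Build
import Fermat.Agent.T1.ChartAut9.Concrete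
import Fermat.Agent.T1.GalAct44
import Fermat.Agent.T1.Coh60.ModelLine
import Fermat.Prelude.Def_GaloisRep_CompletionBridge
import Fermat.Agent.TW.B5.Iface
import Fermat.Agent.T1.HubInst98.Galois
import Fermat.Agent.T1.HubInst98.Cyclo

set_option autoImplicit false
set_option linter.unusedSectionVars false
set_option linter.style.haveILetI false

noncomputable section

namespace Fermat.Agent.T1.ChartAct9

open HahnSeries AlgebraicCurve ModularCurve
open Fermat.Agent.Jac Fermat.Agent.RED.CORE.CoreIface24 Fermat.Agent.RED.PUR.ChartGeneric22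
open Fermat.Agent.T1.RedIface75 Fermat.Agent.T1.Coh60 Fermat.Agent.T1.ModelCoh30
open Fermat.Agent.T1.ChartAut9.Generic Fermat.Agent.T1.ChartAut9.Build

universe u v

/-! ### Abstract part -/

section Abstract

attribute [local instance] algebra0 algebra1 isScalarTower0 isScalarTower1

variable {R F : Type u} {K : Type*} [CommRing R] [Field K] [Field F] [Algebra R K] [Algebra K F]
  [Algebra R F] [IsScalarTower R K F]
  {π : R} {t : F} {B0 B1 : Subalgebra R F} {Ov : ValuationSubring F}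

/-- A semilinear action of a group `G` on the two-chart model `M`. -/
structure SemiAct (M : TwoChartModel R K F π t B0 B1 Ov) (G : Type v) [Group G] where
  /-- the action on the base ring -/
  σ : G → R →+* R
  /-- the action on the function field -/
  γ : G → F →+* F
  semi : ∀ g, SemiOn (σ g) (γ g)
  σ_one : σ 1 = RingHom.id R
  σ_mul : ∀ g h, σ (g * h) = (σ g).comp (σ h)
  γ_one : γ 1 = RingHom.id F
  γ_mul : ∀ g h, γ (g * h) = (γ g).comp (γ h)
  mem0 : ∀ g, ∀ x ∈ B0, γ g x ∈ B0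
  mem1 : ∀ g, ∀ x ∈ B1, γ g x ∈ B1
  fix_t : ∀ g, γ g t = t

variable {M : TwoChartModel R K F π t B0 B1 Ov} {G : Type v} [Group G] (X : SemiAct M G)

namespace SemiAct

theorem mem01 (g : G) : ∀ x ∈ B0 ⊔ B1, X.γ g x ∈ B0 ⊔ B1 := fun _ hx =>
  map_mem_sup (X.semi g) (X.mem0 g) (X.mem1 g) hx

/-- The hypotheses of `ChartAut9.Build.chartAutOf` for the canonical chart. -/
theorem preserves (g : G) : Preserves (X.σ g) (X.γ g) (modelChart M) where
  semi := X.semi g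
  mem0 := X.mem0 g
  mem1 := X.mem1 g
  mem01 := X.mem01 g
  map_t := X.fix_t g
  map_s := by
    show X.γ g t⁻¹ = t⁻¹
    rw [map_inv₀, X.fix_t g]

/-- **The chart automorphism** attached to `g`. -/
def chartAut (g : G) : ChartAut (modelChart M) :=
  chartAutOf (fun _ => rfl) (fun _ => rfl) (X.preserves g)

theorem chartAut_σW (g : G) : (X.chartAut g).σW = X.σ g := rfl

theorem coe_chartAut_σ0 (g : G) (b : ↥B0) : (((X.chartAut g).σ0 b : ↥B0) : F) = X.γ g b := rfl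

theorem coe_chartAut_σ1 (g : G) (b : ↥B1) : (((X.chartAut g).σ1 b : ↥B1) : F) = X.γ g b := rfl

theorem coe_chartAut_σ01 (g : G) (b : ↥(B0 ⊔ B1)) :
    (((X.chartAut g).σ01 b : ↥(B0 ⊔ B1)) : F) = X.γ g b := rfl

/-! #### Trivial elements act trivially -/

theorem chartAut_σW_eq_id {g : G} (hg : X.σ g = RingHom.id R) :
    (X.chartAut g).σW = RingHom.id R := by
  rw [chartAut_σW, hg]

theorem chartAut_σ0_eq_id {g : G} (hg : X.γ g = RingHom.id F) :
    (X.chartAut g).σ0 = RingHom.id ↥B0 := by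
  refine RingHom.ext fun b => Subtype.ext ?_
  rw [coe_chartAut_σ0, hg]
  rfl

theorem chartAut_σ1_eq_id {g : G} (hg : X.γ g = RingHom.id F) :
    (X.chartAut g).σ1 = RingHom.id ↥B1 := by
  refine RingHom.ext fun b => Subtype.ext ?_
  rw [coe_chartAut_σ1, hg]
  rfl

theorem chartAut_σ01_eq_id {g : G} (hg : X.γ g = RingHom.id F) :
    (X.chartAut g).σ01 = RingHom.id ↥(B0 ⊔ B1) := by
  refine RingHom.ext fun b => Subtype.ext ?_
  rw [coe_chartAut_σ01, hg]
  rfl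

/-! #### Multiplicativity -/

theorem chartAut_σW_mul (g h : G) :
    (X.chartAut (g * h)).σW = (X.chartAut g).σW.comp (X.chartAut h).σW := by
  rw [chartAut_σW, chartAut_σW, chartAut_σW, X.σ_mul]

theorem chartAut_σ0_mul (g h : G) :
    (X.chartAut (g * h)).σ0 = (X.chartAut g).σ0.comp (X.chartAut h).σ0 := by
  refine RingHom.ext fun b => Subtype.ext ?_
  rw [RingHom.comp_apply, coe_chartAut_σ0, coe_chartAut_σ0, coe_chartAut_σ0, X.γ_mul]
  rfl

theorem chartAut_σ1_mul (g h : G) :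
    (X.chartAut (g * h)).σ1 = (X.chartAut g).σ1.comp (X.chartAut h).σ1 := by
  refine RingHom.ext fun b => Subtype.ext ?_
  rw [RingHom.comp_apply, coe_chartAut_σ1, coe_chartAut_σ1, coe_chartAut_σ1, X.γ_mul]
  rfl

theorem chartAut_σ01_mul (g h : G) :
    (X.chartAut (g * h)).σ01 = (X.chartAut g).σ01.comp (X.chartAut h).σ01 := by
  refine RingHom.ext fun b => Subtype.ext ?_
  rw [RingHom.comp_apply, coe_chartAut_σ01, coe_chartAut_σ01, coe_chartAut_σ01, X.γ_mul]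
  rfl

/-- **(1) The chart action.** -/
def chartAction : GalAct44.ChartAction (modelChart M) G where
  S := X.chartAut
  oneW := X.chartAut_σW_eq_id X.σ_one
  one0 := X.chartAut_σ0_eq_id X.γ_one
  one1 := X.chartAut_σ1_eq_id X.γ_one
  one01 := X.chartAut_σ01_eq_id X.γ_one
  mulW := X.chartAut_σW_mul
  mul0 := X.chartAut_σ0_mul
  mul1 := X.chartAut_σ1_mul
  mul01 := X.chartAut_σ01_mul

theorem chartAction_S (g : G) : X.chartAction.S g = X.chartAut g := rfl

end SemiAct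

end Abstract

/-! ### The arithmetic instance -/

section Arith

attribute [local instance] algebra0 algebra1 isScalarTower0 isScalarTower1

open Fermat.Agent.T1.ChartAut9.Concrete

variable {Kt : Type u} [Field Kt] [Algebra ℚ Kt] {O : ValuationSubring Kt}
  {F₀ : IntermediateField ℚ (LaurentSeries ℚ)}
  [IsScalarTower ↥O Kt ↥(laurentBaseChange Kt F₀)]
  {π : ↥O} {t : ↥(laurentBaseChange Kt F₀)}
  {B0 B1 : Subalgebra ↥O ↥(laurentBaseChange Kt F₀)}
  {Ov : ValuationSubring ↥(laurentBaseChange Kt F₀)}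
  {G : Type v} [Group G]

/-- The arithmetic semilinear action: `G` acts on the constants through `ρ`, coefficientwise on `E`. -/
def arithSemiAct (M : TwoChartModel ↥O Kt ↥(laurentBaseChange Kt F₀) π t B0 B1 Ov)
    (ρ : G →* (Kt ≃ₐ[ℚ] Kt)) (memO : ∀ g, ∀ x ∈ O, ρ g x ∈ O)
    (mem0 : ∀ g, ∀ x ∈ B0, arithHom F₀ (ρ g) x ∈ B0)
    (mem1 : ∀ g, ∀ x ∈ B1, arithHom F₀ (ρ g) x ∈ B1)
    (fix_t : ∀ g, arithHom F₀ (ρ g) t = t) : SemiAct M G where
  σ g := sigmaO O (ρ g) (memO g)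
  γ g := arithHom F₀ (ρ g)
  semi g := semiOn_arith O F₀ (ρ g) (memO g)
  σ_one := by
    refine RingHom.ext fun w => Subtype.ext ?_
    rw [coe_sigmaO, map_one]
    rfl
  σ_mul g h := by
    refine RingHom.ext fun w => Subtype.ext ?_
    rw [RingHom.comp_apply, coe_sigmaO, coe_sigmaO, coe_sigmaO, map_mul]
    rfl
  γ_one := by rw [map_one, arithHom_one]
  γ_mul g h := by rw [map_mul, arithHom_mul]
  mem0 := mem0
  mem1 := mem1
  fix_t := fix_t

/-- For the standard charts `B0 = chart ↥O t`, `B1 = chart ↥O t⁻¹` it suffices that `ρ` preserves `O`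
and the coefficientwise action fixes `t`. -/
def arithSemiAct_ofCharts
    (M : TwoChartModel ↥O Kt ↥(laurentBaseChange Kt F₀) π t (chart ↥O t) (chart ↥O t⁻¹) Ov)
    (ρ : G →* (Kt ≃ₐ[ℚ] Kt)) (memO : ∀ g, ∀ x ∈ O, ρ g x ∈ O)
    (fix_t : ∀ g, arithHom F₀ (ρ g) t = t) : SemiAct M G :=
  arithSemiAct M ρ memO (fun g _ hx => arith_mem_chart (memO g) (fix_t g) hx)
    (fun g _ hx => arith_mem_chart_inv (memO g) (fix_t g) hx) fix_t

/-- **(2)** Elements acting trivially on the constants act trivially on everything. -/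
theorem arithSemiAct_trivial (M : TwoChartModel ↥O Kt ↥(laurentBaseChange Kt F₀) π t B0 B1 Ov)
    (ρ : G →* (Kt ≃ₐ[ℚ] Kt)) (memO : ∀ g, ∀ x ∈ O, ρ g x ∈ O)
    (mem0 : ∀ g, ∀ x ∈ B0, arithHom F₀ (ρ g) x ∈ B0)
    (mem1 : ∀ g, ∀ x ∈ B1, arithHom F₀ (ρ g) x ∈ B1)
    (fix_t : ∀ g, arithHom F₀ (ρ g) t = t) {g : G} (hg : ρ g = 1) :
    (arithSemiAct M ρ memO mem0 mem1 fix_t).σ g = RingHom.id ↥O ∧
      (arithSemiAct M ρ memO mem0 mem1 fix_t).γ g = RingHom.id _ := by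
  constructor
  · refine RingHom.ext fun w => Subtype.ext ?_
    show ρ g (w : Kt) = w
    rw [hg]
    rfl
  · show arithHom F₀ (ρ g) = RingHom.id _
    rw [hg, arithHom_one]

/-! #### The chart action for the standard charts -/

section StdCharts

variable (M : TwoChartModel ↥O Kt ↥(laurentBaseChange Kt F₀) π t (chart ↥O t) (chart ↥O t⁻¹) Ov)
  (ρ : G →* (Kt ≃ₐ[ℚ] Kt)) (memO : ∀ g, ∀ x ∈ O, ρ g x ∈ O)
  (fix_t : ∀ g, arithHom F₀ (ρ g) t = t)

/-- **(1)** The arithmetic chart action on the canonical two-chart ring of a model with the standard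
charts of a coefficientwise `ρ`-invariant parameter `t`. -/
def arithChartAction : GalAct44.ChartAction (modelChart M) G :=
  (arithSemiAct_ofCharts M ρ memO fix_t).chartAction

theorem coe_arithChartAction_σW (g : G) (w : ↥O) :
    ((((arithChartAction M ρ memO fix_t).S g).σW w : ↥O) : Kt) = ρ g (w : Kt) := rfl

theorem coe_arithChartAction_σ0 (g : G) (b : ↥(chart ↥O t)) :
    ((((arithChartAction M ρ memO fix_t).S g).σ0 b : ↥(chart ↥O t)) :
      ↥(laurentBaseChange Kt F₀)) = arithHom F₀ (ρ g) b := rfl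

theorem coe_arithChartAction_σ1 (g : G) (b : ↥(chart ↥O t⁻¹)) :
    ((((arithChartAction M ρ memO fix_t).S g).σ1 b : ↥(chart ↥O t⁻¹)) :
      ↥(laurentBaseChange Kt F₀)) = arithHom F₀ (ρ g) b := rfl

theorem coe_arithChartAction_σ01 (g : G) (b : ↥(chart ↥O t ⊔ chart ↥O t⁻¹)) :
    ((((arithChartAction M ρ memO fix_t).S g).σ01 b : ↥(chart ↥O t ⊔ chart ↥O t⁻¹)) :
      ↥(laurentBaseChange Kt F₀)) = arithHom F₀ (ρ g) b := rfl

/-- **(2)** If `ρ g = 1`, all four components of `S g` are the identity (the components of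
`CentresClass47.chartAutRefl`). -/
theorem arithChartAction_eq_id {g : G} (hg : ρ g = 1) :
    ((arithChartAction M ρ memO fix_t).S g).σW = RingHom.id ↥O ∧
      ((arithChartAction M ρ memO fix_t).S g).σ0 = RingHom.id ↥(chart ↥O t) ∧
      ((arithChartAction M ρ memO fix_t).S g).σ1 = RingHom.id ↥(chart ↥O t⁻¹) ∧
      ((arithChartAction M ρ memO fix_t).S g).σ01 =
        RingHom.id ↥(chart ↥O t ⊔ chart ↥O t⁻¹) := by
  obtain ⟨hσ, hγ⟩ := arithSemiAct_trivial M ρ memO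
    (fun g _ hx => arith_mem_chart (memO g) (fix_t g) hx)
    (fun g _ hx => arith_mem_chart_inv (memO g) (fix_t g) hx) fix_t hg
  exact ⟨(arithSemiAct_ofCharts M ρ memO fix_t).chartAut_σW_eq_id hσ,
    (arithSemiAct_ofCharts M ρ memO fix_t).chartAut_σ0_eq_id hγ,
    (arithSemiAct_ofCharts M ρ memO fix_t).chartAut_σ1_eq_id hγ,
    (arithSemiAct_ofCharts M ρ memO fix_t).chartAut_σ01_eq_id hγ⟩

end StdCharts

end Arith

/-! ### The local Galois group acting on `K1 ⊂ ℚ̄` -/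

section Concrete

attribute [local instance] algebra0 algebra1 isScalarTower0 isScalarTower1

open Fermat.Agent.RED.Interface4 Fermat.Agent.TW.B5.Iface Fermat.Agent.T1.ChartAut9.Concrete
open Fermat.Agent.T1.HubInst98 Fermat.Agent.RED.BASE.EtaQuot12

variable (ℓ : ℕ) [Fact ℓ.Prime] (K1 : IntermediateField ℚ Qbar) [Normal ℚ K1]

/-- `σ ↦ (localGaloisToGlobal ℓ σ)|_{K1}`. -/
def rhoK : Gp ℓ →* (K1 ≃ₐ[ℚ] K1) :=
  (AlgEquiv.restrictNormalHom (F := ℚ) (K₁ := Qbar) K1).comp (localGaloisToGlobal ℓ)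

theorem rhoK_apply (σ : Gp ℓ) : rhoK ℓ K1 σ = resL K1 (localGaloisToGlobal ℓ σ) := rfl

theorem coe_rhoK_apply (σ : Gp ℓ) (x : K1) :
    ((rhoK ℓ K1 σ x : K1) : Qbar) = localGaloisToGlobal ℓ σ (x : Qbar) :=
  AlgEquiv.restrictNormal_commutes (localGaloisToGlobal ℓ σ) K1 x

/-- `rhoK σ` preserves `A ∩ K1`, `A = padicPlace ℓ`. -/
theorem rhoK_memO (σ : Gp ℓ) : ∀ x ∈ AK (padicPlace ℓ) K1, rhoK ℓ K1 σ x ∈ AK (padicPlace ℓ) K1 :=
  fun x hx => (resL_mem_AK_iff (padicPlace ℓ) K1 (preserves_localGaloisToGlobal ℓ σ) x).mpr hx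

/-- **(2)** `rhoK σ = 1` when `localGaloisToGlobal ℓ σ` fixes `K1` pointwise. -/
theorem rhoK_eq_one_of_fixes {σ : Gp ℓ} (h : ∀ x ∈ K1, localGaloisToGlobal ℓ σ x = x) :
    rhoK ℓ K1 σ = 1 := by
  ext x
  rw [coe_rhoK_apply, h _ x.2]
  rfl

variable {ℓ K1}
variable {F₀ : IntermediateField ℚ (LaurentSeries ℚ)}
  [IsScalarTower ↥(AK (padicPlace ℓ) K1) ↥K1 ↥(laurentBaseChange ↥K1 F₀)]
  {π : ↥(AK (padicPlace ℓ) K1)} {t : ↥(laurentBaseChange ↥K1 F₀)}
  {Ov : ValuationSubring ↥(laurentBaseChange ↥K1 F₀)}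

/-- **(1) The concrete chart action** of `G_ℓ` on the canonical two-chart ring of a two-chart model over
`A ∩ K1` with the standard charts of a coefficientwise rational parameter `t`. -/
def galChartAction
    (M1 : TwoChartModel ↥(AK (padicPlace ℓ) K1) ↥K1 ↥(laurentBaseChange ↥K1 F₀) π t
      (chart ↥(AK (padicPlace ℓ) K1) t) (chart ↥(AK (padicPlace ℓ) K1) t⁻¹) Ov)
    (ht : ∀ s : ↥K1 ≃ₐ[ℚ] ↥K1, arithHom F₀ s t = t) :
    GalAct44.ChartAction (modelChart M1) (Gp ℓ) :=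
  arithChartAction M1 (rhoK ℓ K1) (rhoK_memO ℓ K1) (fun g => ht (rhoK ℓ K1 g))

/-- **`WCompat`** (the unfolded form of `Assembly41.WCompat`): on the constants the chart action is the
Galois action on `A ∩ K1`. -/
theorem galChartAction_σW
    (M1 : TwoChartModel ↥(AK (padicPlace ℓ) K1) ↥K1 ↥(laurentBaseChange ↥K1 F₀) π t
      (chart ↥(AK (padicPlace ℓ) K1) t) (chart ↥(AK (padicPlace ℓ) K1) t⁻¹) Ov)
    (ht : ∀ s : ↥K1 ≃ₐ[ℚ] ↥K1, arithHom F₀ s t = t)
    (σ : Gp ℓ) (w : ↥(AK (padicPlace ℓ) K1)) :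
    ((galChartAction M1 ht).S σ).σW w = resOloc K1 ℓ σ w :=
  Subtype.ext rfl

/-- The same in `ℚ̄`. -/
theorem coe_galChartAction_σW
    (M1 : TwoChartModel ↥(AK (padicPlace ℓ) K1) ↥K1 ↥(laurentBaseChange ↥K1 F₀) π t
      (chart ↥(AK (padicPlace ℓ) K1) t) (chart ↥(AK (padicPlace ℓ) K1) t⁻¹) Ov)
    (ht : ∀ s : ↥K1 ≃ₐ[ℚ] ↥K1, arithHom F₀ s t = t)
    (σ : Gp ℓ) (w : ↥(AK (padicPlace ℓ) K1)) :
    (((((galChartAction M1 ht).S σ).σW w : ↥(AK (padicPlace ℓ) K1)) : ↥K1) : Qbar) =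
      localGaloisToGlobal ℓ σ ((w : ↥K1) : Qbar) :=
  coe_rhoK_apply ℓ K1 σ (w : ↥K1)

/-- **(2)** If `localGaloisToGlobal ℓ σ` fixes `K1` pointwise, all four components of `S σ` are the identity
(the components of `CentresClass47.chartAutRefl`). -/
theorem galChartAction_eq_id_of_fixes
    (M1 : TwoChartModel ↥(AK (padicPlace ℓ) K1) ↥K1 ↥(laurentBaseChange ↥K1 F₀) π t
      (chart ↥(AK (padicPlace ℓ) K1) t) (chart ↥(AK (padicPlace ℓ) K1) t⁻¹) Ov)
    (ht : ∀ s : ↥K1 ≃ₐ[ℚ] ↥K1, arithHom F₀ s t = t) {σ : Gp ℓ}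
    (h : ∀ x ∈ K1, localGaloisToGlobal ℓ σ x = x) :
    ((galChartAction M1 ht).S σ).σW = RingHom.id ↥(AK (padicPlace ℓ) K1) ∧
      ((galChartAction M1 ht).S σ).σ0 = RingHom.id ↥(chart ↥(AK (padicPlace ℓ) K1) t) ∧
      ((galChartAction M1 ht).S σ).σ1 = RingHom.id ↥(chart ↥(AK (padicPlace ℓ) K1) t⁻¹) ∧
      ((galChartAction M1 ht).S σ).σ01 =
        RingHom.id ↥(chart ↥(AK (padicPlace ℓ) K1) t ⊔ chart ↥(AK (padicPlace ℓ) K1) t⁻¹) :=
  arithChartAction_eq_id M1 (rhoK ℓ K1) (rhoK_memO ℓ K1) (fun g => ht (rhoK ℓ K1 g))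
    (rhoK_eq_one_of_fixes ℓ K1 h)

/-- The eta quotient `t = tq K1 n e` (the Hauptmodul of the G0 model) is coefficientwise rational. -/
theorem arithHom_tq_all (n e : ℕ) [NeZero n] (hE : tq ↥K1 n e ∈ laurentBaseChange ↥K1 F₀) :
    ∀ s : ↥K1 ≃ₐ[ℚ] ↥K1,
      arithHom F₀ s (⟨tq ↥K1 n e, hE⟩ : ↥(laurentBaseChange ↥K1 F₀)) = ⟨tq ↥K1 n e, hE⟩ :=
  fun s => arithHom_tq F₀ s n e hE

end Concrete

end Fermat.Agent.T1.ChartAct9
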