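/-
Programme T1a (S19), brick G9-H6 CHARTACTION-CONCRETE (helper9), FINAL part:
the chart action of `G_ℓ` on the concrete hub `Assembly41.Concrete.c0 F` and its three exports in the
vocabulary of `Assembly41/FinalIface.lean`:

* `hubAction F : GalAct44.ChartAction (c0 F) (Gp ℓ)` (coefficientwise action through
  `σ ↦ (localGaloisToGlobal ℓ σ)|_{K₁}`);
* `hubAction_wCompat F : WCompat ℓ M (c0 F) (hubAction F)`;
* `hubAction_eq_id_of_fixes F` : all four components of `(hubAction F).S σ` are the identity when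
  `localGaloisToGlobal ℓ σ` fixes `K₁ = ℚ(ζ_M)` pointwise (`hubAction_σ01_eq_id_of_fixes` = hypothesis
  `h2` of `InvBasis70`);
* `exists_invariant_cechData F D hρ0 hρ1` : an invariant Čech basis (`hb` of `modCoordData_of_props`).
-/
import Mathlib
import Fermat.Agent.T1.ChartAct9
import Fermat.Agent.T1.Assembly41.ConcreteHub
import Fermat.Agent.T1.InvBasis70.Final

set_option autoImplicit false
set_option linter.unusedSectionVars false
set_option linter.style.haveILetI false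

noncomputable section

namespace Fermat.Agent.T1.ChartActFinal9

open HahnSeries AlgebraicCurve ModularCurve
open Fermat.Agent.Jac Fermat.Agent.RED.CORE.CoreIface24 Fermat.Agent.RED.PUR.ChartGeneric22
open Fermat.Agent.T1.RedIface75 Fermat.Agent.T1.Coh60 Fermat.Agent.T1.GalAct44
open Fermat.Agent.T1.CechFormal70
open Fermat.Agent.RED.Interface4 Fermat.Agent.TW.B5.Iface Fermat.Agent.T1.HubInst98
open Fermat.Agent.T1.Assembly41 Fermat.Agent.T1.Assembly41.Concrete
open Fermat.Agent.T1.ChartAct9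

attribute [local instance] algebra0 algebra1 isScalarTower0 isScalarTower1

variable {ℓ : ℕ} [Fact ℓ.Prime] {M : ℕ} [NeZero M] {n e : ℕ} [NeZero n]
  (F : ModelFamily ℓ M n e)

/-- **The chart action of `G_ℓ` on the concrete hub.** -/
def hubAction : ChartAction (c0 F :) (Gp ℓ) :=
  galChartAction (modelK F (K1 M) (zetaK_mem_K1 M)) (arithHom_tq_all n e (F.htq (K1 M)))

/-- **`WCompat`** for the concrete hub. -/
theorem hubAction_wCompat : WCompat ℓ M (c0 F :) (hubAction F) := fun σ w =>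
  galChartAction_σW (modelK F (K1 M) (zetaK_mem_K1 M)) (arithHom_tq_all n e (F.htq (K1 M))) σ w

/-- If `localGaloisToGlobal ℓ σ` fixes `K₁` pointwise, `(hubAction F).S σ` has identity components. -/
theorem hubAction_eq_id_of_fixes {σ : Gp ℓ} (h : ∀ x ∈ K1 M, localGaloisToGlobal ℓ σ x = x) :
    ((hubAction F).S σ).σW = RingHom.id (Wr ℓ M) ∧
      ((hubAction F).S σ).σ0 = RingHom.id ↥(B0K F (K1 M)) ∧
      ((hubAction F).S σ).σ1 = RingHom.id ↥(B1K F (K1 M)) ∧
      ((hubAction F).S σ).σ01 = RingHom.id ↥(B0K F (K1 M) ⊔ B1K F (K1 M)) :=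
  galChartAction_eq_id_of_fixes (modelK F (K1 M) (zetaK_mem_K1 M))
    (arithHom_tq_all n e (F.htq (K1 M))) h

/-- Hypothesis `h2` of `InvBasis70.exists_invariant_cechData_of_WCompat`. -/
theorem hubAction_σ01_eq_id_of_fixes (σ : Gp ℓ) (h : ∀ x ∈ K1 M, localGaloisToGlobal ℓ σ x = x) :
    ((hubAction F).S σ).σ01 = RingHom.id ↥(B0K F (K1 M) ⊔ B1K F (K1 M)) :=
  (hubAction_eq_id_of_fixes F h).2.2.2

/-- **Invariant Čech basis at the concrete hub.** -/
theorem exists_invariant_cechData {gn : ℕ}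
    (D : CechData (Wr ℓ M) ↥(B0K F (K1 M)) ↥(B1K F (K1 M)) ↥(B0K F (K1 M) ⊔ B1K F (K1 M)) gn)
    (hρ0 : ∀ x, D.ρ0 x = algebraMap ↥(B0K F (K1 M)) ↥(B0K F (K1 M) ⊔ B1K F (K1 M)) x)
    (hρ1 : ∀ x, D.ρ1 x = algebraMap ↥(B1K F (K1 M)) ↥(B0K F (K1 M) ⊔ B1K F (K1 M)) x) :
    ∃ D' : CechData (Wr ℓ M) ↥(B0K F (K1 M)) ↥(B1K F (K1 M))
        ↥(B0K F (K1 M) ⊔ B1K F (K1 M)) gn,
      D'.ρ0 = D.ρ0 ∧ D'.ρ1 = D.ρ1 ∧
        ∀ (σ : Gp ℓ) (i : Fin gn), ((hubAction F).S σ).σ01 (D'.b i) = D'.b i :=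
  Fermat.Agent.T1.InvBasis70.exists_invariant_cechData_of_WCompat ℓ M F.hℓM (hubAction F)
    (hubAction_wCompat F) (hubAction_σ01_eq_id_of_fixes F) D hρ0 hρ1

end Fermat.Agent.T1.ChartActFinal9
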