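/-
Programme T1a (S19), brick G9-H6 CHARTACTION-CONCRETE (helper9), coercion lemmas for the consumers
(CHARTISO `ChartIsoFam90.chartIsoFamily_of_std`: hypotheses `hσ0`, `hσ1`; `InvBasis70`: `h1`):
on the charts `B_j ⊂ K₁·F_M` the concrete chart action `ChartActFinal9.hubAction F` is the arithmetic
(coefficientwise) action `Dict59.arith M (K1 M) (resL (K1 M) (localGaloisToGlobal ℓ σ))`.
-/
import Mathlib
import Fermat.Agent.T1.ChartActFinal9
import Fermat.Agent.T1.Dict59.Iface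
import Fermat.Agent.T1.Assembly41.FastInst

set_option autoImplicit false
set_option linter.unusedSectionVars false
set_option linter.style.haveILetI false

noncomputable section

namespace Fermat.Agent.T1.ChartActCoe9

open HahnSeries AlgebraicCurve ModularCurve
open Fermat.Agent.Jac Fermat.Agent.RED.CORE.CoreIface24 Fermat.Agent.RED.PUR.ChartGeneric22
open Fermat.Agent.T1.RedIface75 Fermat.Agent.T1.Coh60 Fermat.Agent.T1.GalAct44
open Fermat.Agent.RED.Interface4 Fermat.Agent.TW.B5.Iface Fermat.Agent.T1.HubInst98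
open Fermat.Agent.T1.Assembly41 Fermat.Agent.T1.Assembly41.Concrete
open Fermat.Agent.T1.ChartAct9 Fermat.Agent.T1.ChartActFinal9
open Fermat.Agent.T1.Dict59
open scoped Fermat.Agent.T1.Assembly41.FastInst

attribute [local instance] algebra0 algebra1 isScalarTower0 isScalarTower1

variable {ℓ : ℕ} [Fact ℓ.Prime] {M : ℕ} [NeZero M] {n e : ℕ} [NeZero n]
  (F : ModelFamily ℓ M n e)

/-- On the constants, in `ℚ̄` (hypothesis `h1` of `InvBasis70.Cyclo`). -/
theorem coe_hubAction_σW (σ : Gp ℓ) (w : Wr ℓ M) :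
    (((((hubAction F).S σ).σW w : Wr ℓ M) : ↥(K1 M)) : Qbar) =
      localGaloisToGlobal ℓ σ ((w : ↥(K1 M)) : Qbar) :=
  coe_rhoK_apply ℓ (K1 M) σ (w : ↥(K1 M))

/-- On chart 0 the chart action is the arithmetic action. -/
theorem coe_hubAction_σ0 (σ : Gp ℓ) (b : ↥(B0K F (K1 M))) :
    ((((hubAction F).S σ).σ0 b : ↥(B0K F (K1 M))) : ↥(FK M (K1 M))) =
      arith M (K1 M) (resL (K1 M) (localGaloisToGlobal ℓ σ)) (b : ↥(FK M (K1 M))) := rfl

/-- On chart 1 the chart action is the arithmetic action. -/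
theorem coe_hubAction_σ1 (σ : Gp ℓ) (b : ↥(B1K F (K1 M))) :
    ((((hubAction F).S σ).σ1 b : ↥(B1K F (K1 M))) : ↥(FK M (K1 M))) =
      arith M (K1 M) (resL (K1 M) (localGaloisToGlobal ℓ σ)) (b : ↥(FK M (K1 M))) := rfl

/-- On the overlap the chart action is the arithmetic action. -/
theorem coe_hubAction_σ01 (σ : Gp ℓ) (b : ↥(B0K F (K1 M) ⊔ B1K F (K1 M))) :
    ((((hubAction F).S σ).σ01 b : ↥(B0K F (K1 M) ⊔ B1K F (K1 M))) : ↥(FK M (K1 M))) =
      arith M (K1 M) (resL (K1 M) (localGaloisToGlobal ℓ σ)) (b : ↥(FK M (K1 M))) := rfl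

/-- The subtype inclusions of the charts into `K₁·F_M`, as ring homs. -/
def β0 : ↥(B0K F (K1 M)) →+* ↥(FK M (K1 M)) := (B0K F (K1 M)).toSubring.subtype

/-- The subtype inclusion of chart 1. -/
def β1 : ↥(B1K F (K1 M)) →+* ↥(FK M (K1 M)) := (B1K F (K1 M)).toSubring.subtype

/-- The subtype inclusion of the overlap. -/
def β01 : ↥(B0K F (K1 M) ⊔ B1K F (K1 M)) →+* ↥(FK M (K1 M)) :=
  (B0K F (K1 M) ⊔ B1K F (K1 M)).toSubring.subtype

@[simp] theorem β0_apply (b : ↥(B0K F (K1 M))) : β0 F b = (b : ↥(FK M (K1 M))) := rfl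
@[simp] theorem β1_apply (b : ↥(B1K F (K1 M))) : β1 F b = (b : ↥(FK M (K1 M))) := rfl
@[simp] theorem β01_apply (b : ↥(B0K F (K1 M) ⊔ B1K F (K1 M))) :
    β01 F b = (b : ↥(FK M (K1 M))) := rfl

/-- Hypothesis `hσ0` of `ChartIsoFam90.chartIsoFamily_of_std` for `H := hubAction F`. -/
theorem hσ0 (σ : Gp ℓ) (b : ↥(B0K F (K1 M))) :
    β0 F (((hubAction F).S σ).σ0 b) =
      arith M (K1 M) (resL (K1 M) (localGaloisToGlobal ℓ σ)) (β0 F b) := rfl

/-- Hypothesis `hσ1` of `ChartIsoFam90.chartIsoFamily_of_std` for `H := hubAction F`. -/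
theorem hσ1 (σ : Gp ℓ) (b : ↥(B1K F (K1 M))) :
    β1 F (((hubAction F).S σ).σ1 b) =
      arith M (K1 M) (resL (K1 M) (localGaloisToGlobal ℓ σ)) (β1 F b) := rfl

/-- The same on the overlap. -/
theorem hσ01 (σ : Gp ℓ) (b : ↥(B0K F (K1 M) ⊔ B1K F (K1 M))) :
    β01 F (((hubAction F).S σ).σ01 b) =
      arith M (K1 M) (resL (K1 M) (localGaloisToGlobal ℓ σ)) (β01 F b) := rfl

end Fermat.Agent.T1.ChartActCoe9
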