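import Mathlib
import Fermat.Agent.T1.ChartIso20

/-!
# T1A (S19), brick G7-C CHARTISO, transport lemmas (helper20)

Generic `subst`-lemmas for the concrete instantiation of `ChartIso20.chartIso`: the model over `L`
is stated at the coordinate `t_L`, the chart isomorphism of `ChartIso20` at `D.iF t_K`, and
`D.iF t_K = t_L` is only a propositional equality.  With these lemmas the concrete file never
manipulates a cast.

* `model_congr`        : a `TwoChartModel` at `t'` (charts `chart R' t'`, `chart R' t'⁻¹`) is one at `t = t'`;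
* `chartIsoCongr h E`  : `Adapt96.ChartIso c t → Adapt96.ChartIso c t'` for `h : t = t'`;
* `coe_chartIsoCongr_e0 / _e1`, `chartIsoCongr_e01`, `chartIsoCongr_ι0 / _ι1` : the values do not change.
-/

set_option autoImplicit false
set_option linter.unusedSectionVars false

noncomputable section

namespace Fermat.Agent.T1.ChartIso20

open Fermat.Agent.RED.CORE.CoreIface24 Fermat.Agent.RED.PUR.ChartGeneric22
open Fermat.Agent.T1.Dict59

section Model

variable {R' L F' : Type*} [CommRing R'] [Field L] [Field F'] [Algebra R' L] [Algebra L F']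
  [Algebra R' F'] [IsScalarTower R' L F']

/-- A two-chart model with the standard charts at the coordinate `t'` is one at `t = t'`. -/
theorem model_congr {π' : R'} {Ov' : ValuationSubring F'} {t t' : F'} (h : t = t')
    (hL : TwoChartModel R' L F' π' t' (chart R' t') (chart R' t'⁻¹) Ov') :
    TwoChartModel R' L F' π' t (chart R' t) (chart R' t⁻¹) Ov' := by
  subst h
  exact hL

/-- The same for arbitrary charts, given as functions of the coordinate. -/
theorem model_congr' {π' : R'} {Ov' : ValuationSubring F'} (B0 B1 : F' → Subalgebra R' F')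
    {t t' : F'} (h : t = t') (hL : TwoChartModel R' L F' π' t' (B0 t') (B1 t') Ov') :
    TwoChartModel R' L F' π' t (B0 t) (B1 t) Ov' := by
  subst h
  exact hL

end Model

section Iso

universe u v

variable {K R0 R1 R01 : Type u} [Field K] [CommRing R0] [CommRing R1] [CommRing R01]
  [Algebra K R0] [Algebra K R1] [Algebra K R01] [Algebra R0 R01] [Algebra R1 R01]
  [IsScalarTower K R0 R01] [IsScalarTower K R1 R01]
  {F : Type v} [Field F] [Algebra K F]
  {c : Fermat.Agent.Jac.TwoChart K R0 R1 R01}

/-- Transport of a chart isomorphism along an equality of coordinates. -/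
def chartIsoCongr {t t' : F} (h : t = t') (E : Adapt96.ChartIso c t) : Adapt96.ChartIso c t' :=
  h ▸ E

theorem coe_chartIsoCongr_e0 {t t' : F} (h : t = t') (E : Adapt96.ChartIso c t) (x : R0) :
    (((chartIsoCongr h E).e0 x : ↥(C0 (K := K) t')) : F) = ((E.e0 x : ↥(C0 (K := K) t)) : F) := by
  subst h
  rfl

theorem coe_chartIsoCongr_e1 {t t' : F} (h : t = t') (E : Adapt96.ChartIso c t) (x : R1) :
    (((chartIsoCongr h E).e1 x : ↥(C1 (K := K) t')) : F) = ((E.e1 x : ↥(C1 (K := K) t)) : F) := by
  subst h
  rfl

theorem chartIsoCongr_e01 {t t' : F} (h : t = t') (E : Adapt96.ChartIso c t) (x : R01) :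
    (chartIsoCongr h E).e01 x = E.e01 x := by
  subst h
  rfl

theorem chartIsoCongr_ι0 {t t' : F} (h : t = t') (E : Adapt96.ChartIso c t) (x : R0) :
    (chartIsoCongr h E).ι0 x = E.ι0 x := by
  subst h
  rfl

theorem chartIsoCongr_ι1 {t t' : F} (h : t = t') (E : Adapt96.ChartIso c t) (x : R1) :
    (chartIsoCongr h E).ι1 x = E.ι1 x := by
  subst h
  rfl

end Iso

end Fermat.Agent.T1.ChartIso20
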