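/-
Programme T1A (S19), brick G7-C CHARTISO (helper90): **the chart isomorphism family of the CONCRETE
hub** `Concrete.c0 F` with the concrete Galois action `ChartAct.chartAction F` (helper41), from the
concrete inputs `E`, `hstd`, `isCoord` (helper22's `ChartIsoConcrete22`): the hypotheses `hσ0`, `hσ1`
of `ChartIsoFam90.chartIsoFamily_of_std` are `ChartAct.coe_σ0`, `ChartAct.coe_σ1`.

* `β0 F`, `β1 F`, `β01 F` : the inclusions `↥B_j ⊂ FK M (K1 M)` as ring homs;
* `concreteFamily_of F t isCoord E hstd : Dict59.ChartIsoFamily ℓ M (c0 F) (chartAction F)`.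
-/
import Mathlib
import Fermat.Agent.T1.ChartIsoFam90
import Fermat.Agent.T1.Assembly41.ChartActConcrete

set_option autoImplicit false
set_option linter.unusedSectionVars false
set_option linter.style.haveILetI false
set_option synthInstance.maxHeartbeats 400000
set_option maxHeartbeats 1000000

noncomputable section

open TensorProduct IntermediateField

namespace Fermat.Agent.T1.ChartIsoInst90

open Fermat.Agent Fermat.Agent.Jac Fermat.Agent.T1.RedIface75 Fermat.Agent.TW.B5.Iface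
open Fermat.Agent.T1.HubInst98 Fermat.Agent.T1.GalAct44 Fermat.Agent.T1.Assembly41
open Fermat.Agent.RED.Interface4 Fermat.Agent.T1.Adapt96 Fermat.Agent.T1.Dict59
open Fermat.Agent.T1.ChartIso90 Fermat.Agent.T1.ChartIsoFam90
open Fermat.Agent.T1.Coh60 Fermat.Agent.T1.Assembly41.Concrete Fermat.Agent.T1.Assembly41.ChartAct
open Fermat.Agent.Jac.BaseChange75
open scoped Fermat.Agent.Jac.BaseChange75
open scoped Fermat.Agent.T1.ChartIso90
open scoped Fermat.Agent.T1.Assembly41.FastInst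

attribute [local instance] Coh60.algebra0 Coh60.algebra1 Coh60.isScalarTower0
  Coh60.isScalarTower1

variable {ℓ : ℕ} [Fact ℓ.Prime] {M : ℕ} [NeZero M] {n e : ℕ} [NeZero n]
  (F : ModelFamily ℓ M n e)

/-- The inclusion of chart `0` of the model over `K₁` into `K₁·F_M`. -/
def β0 : ↥(B0K F (K1 M)) →+* ↥(FK M (K1 M)) := (B0K F (K1 M)).val.toRingHom

/-- The inclusion of chart `1`. -/
def β1 : ↥(B1K F (K1 M)) →+* ↥(FK M (K1 M)) := (B1K F (K1 M)).val.toRingHom

/-- The inclusion of the overlap. -/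
def β01 : ↥(B0K F (K1 M) ⊔ B1K F (K1 M)) →+* ↥(FK M (K1 M)) :=
  (B0K F (K1 M) ⊔ B1K F (K1 M)).val.toRingHom

@[simp] theorem β0_apply (b : ↥(B0K F (K1 M))) : β0 F b = (b : ↥(FK M (K1 M))) := rfl

@[simp] theorem β1_apply (b : ↥(B1K F (K1 M))) : β1 F b = (b : ↥(FK M (K1 M))) := rfl

@[simp] theorem β01_apply (b : ↥(B0K F (K1 M) ⊔ B1K F (K1 M))) :
    β01 F b = (b : ↥(FK M (K1 M))) := rfl

theorem hσ0 (σ : Gp ℓ) (b : ↥(B0K F (K1 M))) :
    β0 F (((chartAction F).S σ).σ0 b) =
      arith M (K1 M) (resL (K1 M) (localGaloisToGlobal ℓ σ)) (β0 F b) :=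
  coe_σ0 F σ b

theorem hσ1 (σ : Gp ℓ) (b : ↥(B1K F (K1 M))) :
    β1 F (((chartAction F).S σ).σ1 b) =
      arith M (K1 M) (resL (K1 M) (localGaloisToGlobal ℓ σ)) (β1 F b) :=
  coe_σ1 F σ b

/-- **The chart isomorphism family of the concrete hub** for ANY chart action `H` of `G_ℓ` which is the
arithmetic action on the charts (`hH0`, `hH1`: for helper41's `ChartAct.chartAction F`, helper62's
`ChartActConcrete.chartAction F` and helper9's `ChartActFinal9.hubAction F` these are `rfl`), from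
chart isomorphisms over every number field `L ⊇ K₁` which are standard on pure tensors. -/
def concreteFamily_of_action (H : ChartAction (c0 F :) (Gp ℓ))
    (hH0 : ∀ (σ : Gp ℓ) (b : ↥(B0K F (K1 M))),
      (((H.S σ).σ0 b : ↥(B0K F (K1 M))) : ↥(FK M (K1 M))) =
        arith M (K1 M) (resL (K1 M) (localGaloisToGlobal ℓ σ)) (b : ↥(FK M (K1 M))))
    (hH1 : ∀ (σ : Gp ℓ) (b : ↥(B1K F (K1 M))),
      (((H.S σ).σ1 b : ↥(B1K F (K1 M))) : ↥(FK M (K1 M))) =
        arith M (K1 M) (resL (K1 M) (localGaloisToGlobal ℓ σ)) (b : ↥(FK M (K1 M))))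
    (t : ∀ (L : IntermediateField ℚ Qbar) [FiniteDimensional ℚ L] (_ : K1 M ≤ L), FK M L)
    (isCoord : ∀ (L : IntermediateField ℚ Qbar) [FiniteDimensional ℚ L] (hle : K1 M ≤ L),
      IsCoord M (t L hle))
    (E : ∀ (L : IntermediateField ℚ Qbar) [FiniteDimensional ℚ L] (hle : K1 M ≤ L),
      letI := algAKL (padicPlace ℓ) hle
      ChartIso ((c0 F :).baseChange ↥L) (t L hle))
    (hstd : ∀ (L : IntermediateField ℚ Qbar) [FiniteDimensional ℚ L] (hle : K1 M ≤ L),
      letI := algAKL (padicPlace ℓ) hle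
      IsStdIso M hle (β0 F) (β1 F) (β01 F) (E L hle)) :
    ChartIsoFamily ℓ M (c0 F :) H :=
  chartIsoFamily_of_std ℓ M (c0 F :) H (β0 F) (β1 F) (β01 F) hH0 hH1 t isCoord E hstd

/-- **The chart isomorphism family of the concrete hub** with helper41's concrete Galois action
`ChartAct.chartAction F`. -/
def concreteFamily_of
    (t : ∀ (L : IntermediateField ℚ Qbar) [FiniteDimensional ℚ L] (_ : K1 M ≤ L), FK M L)
    (isCoord : ∀ (L : IntermediateField ℚ Qbar) [FiniteDimensional ℚ L] (hle : K1 M ≤ L),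
      IsCoord M (t L hle))
    (E : ∀ (L : IntermediateField ℚ Qbar) [FiniteDimensional ℚ L] (hle : K1 M ≤ L),
      letI := algAKL (padicPlace ℓ) hle
      ChartIso ((c0 F :).baseChange ↥L) (t L hle))
    (hstd : ∀ (L : IntermediateField ℚ Qbar) [FiniteDimensional ℚ L] (hle : K1 M ≤ L),
      letI := algAKL (padicPlace ℓ) hle
      IsStdIso M hle (β0 F) (β1 F) (β01 F) (E L hle)) :
    ChartIsoFamily ℓ M (c0 F :) (chartAction F) :=
  concreteFamily_of_action F (chartAction F) (hσ0 F) (hσ1 F) t isCoord E hstd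

end Fermat.Agent.T1.ChartIsoInst90
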