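import Mathlib
import Fermat.Agent.T1.Assembly41.FinalIface
import Fermat.Agent.T1.HubGal44
import Fermat.Agent.T1.HubNorms70
import Fermat.Agent.T1.Red20.RepsHub

/-!
# T1A (S19), assembly layer G9: from the final Props to `ModCoordData`  (helper47; hedge of `Assembly41/Final.lean`)

Fixed data as in `Assembly41/FinalIface.lean`.

* `nonempty_modCoord_at` : for a FIXED finite normal `L ⊇ K₁`, the hub Props at `L` (`HubRedAt`), a dictionary
  `d : J₀(M)[ℓ^k] → Pic X_L` (additive, injective, point-generated, equivariant) and centres at `L` give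
  `∃ J, Nonempty (ModCoordData ℓ J (TorsM ℓ M k) (locActM ℓ M k))`;
* `exists_normal_ge` : every finite subextension of `ℚ̄/ℚ` lies in a finite normal one;
* `exists_modCoordData` : the choice of `L` (first `L₀` from `DictFinal`, then `L₁` normal `⊇ K₁ L₀`, then `L` from
  `CentresFinal` applied to the finitely many classes `d₁ y`), i.e.
  `WCompat + hb + (∀ L, HubRedAt) + DictFinal + CentresFinal ⟹ ∃ J, Nonempty (ModCoordData …)`.
  (`NormsAt` and `WMu` are unconditional: `HubNorms70`.)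
-/

set_option autoImplicit false
set_option linter.unusedSectionVars false
set_option linter.style.haveILetI false

noncomputable section

open TensorProduct

namespace Fermat.Agent.T1.Final47

open Fermat.Agent Fermat.Agent.Jac Fermat.Agent.T1.RedIface75 Fermat.Agent.TW.B5.Iface
open Fermat.Agent.T1.AlgIface47 Fermat.Agent.T1.HubInst98 Fermat.Agent.T1.GalAct44
open Fermat.Agent.RED.Interface4 Fermat.Agent.Flat44
open Fermat.Agent.T1.Red20.CoordFun Fermat.Agent.T1.Assembly41 Fermat.Agent.T1.HubGal44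
open Fermat.Agent.T1.PtLine75
open ModularCurve

variable (ℓ : ℕ) [Fact ℓ.Prime] (M : ℕ) [NeZero M]

variable {B0 B1 B01 : Type} [CommRing B0] [CommRing B1] [CommRing B01]
  [Algebra (Wr ℓ M) B0] [Algebra (Wr ℓ M) B1] [Algebra (Wr ℓ M) B01] [Algebra B0 B01]
  [Algebra B1 B01] [IsScalarTower (Wr ℓ M) B0 B01] [IsScalarTower (Wr ℓ M) B1 B01]
  (c0 : TwoChart (Wr ℓ M) B0 B1 B01) {g : ℕ} (b : Fin g → B01)
  (H : ChartAction c0 (Gp ℓ))

/-- **The hub at a fixed field `L`.** -/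
theorem nonempty_modCoord_at (hℓM : ¬ ℓ ∣ M) (hW : WCompat ℓ M c0 H)
    (hb : ∀ σ i, (H.S σ).σ01 (b i) = b i)
    (L : IntermediateField ℚ Qbar) [FiniteDimensional ℚ L] [Normal ℚ L] (hle : K1 M ≤ L)
    (hred : HubRedAt ℓ M c0 b L hle) (k : ℕ) :
    letI := algAK (padicPlace ℓ) hle
    letI := algAKL (padicPlace ℓ) hle
    haveI := isScalarTower_AK (padicPlace ℓ) hle
    haveI := isDVR_OL ℓ L
    ∀ (d : TorsM ℓ M k → PicX c0 ↥L), (∀ x y, d (x + y) = d x * d y) → Function.Injective d →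
      (∀ y, d y ∈ (pointClasses c0).PicPt ↥L) →
      (∀ σ y, d (locActM ℓ M k σ y) = actPic H (semiL hW L hle) σ (d y)) →
      (∀ y, ∃ x ∈ (pointClasses c0).PicPt ↥L,
        (∃ w ∈ J1 c0 (OL ℓ L), PicX.map c0 (OL ℓ L) ↥L w = d y * x⁻¹) ∧
        ∃ E : IntermediateField ℚ_[ℓ] (Kbar ℓ), FiniteDimensional ℚ_[ℓ] E ∧
          IsUnramifiedField ℓ E ∧
          ∀ σ : Gp ℓ, (∀ e ∈ E, σ e = e) → actPic H (semiL hW L hle) σ x = x) →
      ∃ (J : Type) (_ : AddCommGroup J),
        Nonempty (ModCoordData ℓ J (TorsM ℓ M k) (locActM ℓ M k)) := by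
  letI := algAK (padicPlace ℓ) hle
  letI := algAKL (padicPlace ℓ) hle
  haveI := isScalarTower_AK (padicPlace ℓ) hle
  haveI := isDVR_OL ℓ L
  intro d hd_add hd_inj hd_mem hd_equiv hcen
  obtain ⟨hEU, hInj, hExt, hF⟩ := hred
  choose F hF using hF
  have hc : ∀ (σ : Gp ℓ) (a : OL ℓ L),
      (semiL hW L hle).f σ (algebraMap (OL ℓ L) ↥L a) =
        algebraMap (OL ℓ L) ↥L ((semiO hW L hle).f σ a) := fun σ a => rfl
  let HG := HubGal.ofPoints H (semiO hW L hle) (semiL hW L hle) hc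
  refine ⟨JModel25.Model (ptFamily c0 ↥L), inferInstance, ?_⟩
  refine HubData.nonempty_modCoordData (c0 := c0) (b := b) (O := OL ℓ L) (L := ↥L)
    { jL := jL L
      jL_int := HubNorms70.jL_int ℓ L
      e := HubNorms70.ramIdx ℓ L
      e_pos := HubNorms70.ramIdx_pos ℓ L
      mem_pow := HubNorms70.mem_pow ℓ L
      div_pow := HubNorms70.div_pow ℓ L
      mem_max := HubNorms70.mem_max ℓ L
      field := HubNorms70.field ℓ L
      S := HG.S
      fO := HG.fO
      fO_local := HG.fO_local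
      fO_semi := HG.fO_semi
      fL := HG.fL
      fL_semi := HG.fL_semi
      fOL := HG.fOL
      jL_fL := fun σ x => jL_resL L (localGaloisToGlobal ℓ σ) x
      hb := hb
      hEU := hEU
      hInj := hInj
      hExt := hExt
      m := M
      m_ndvd := hℓM
      W_mu := HubNorms70.W_mu ℓ L M hle
      F := F
      hF := hF
      φ := HG.φ
      φ_inj := HG.φ_inj
      act := HG.act
      act_one := HG.act_one
      act_mul := HG.act_mul
      φ_act := HG.φ_act
      emb := embOfPoints d hd_add hd_mem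
      emb_inj := embOfPoints_injective d hd_add hd_mem hd_inj
      emb_equiv := embOfPoints_equiv H (semiO hW L hle) (semiL hW L hle) hc d hd_add hd_mem
        (locActM ℓ M k) hd_equiv
      centres := ?_ }
  intro y
  obtain ⟨x', hx', ⟨w, hw, hwx⟩, E, hE1, hE2, hfix⟩ := hcen y
  obtain ⟨x, hx⟩ := ofPoints_exists_φ_eq H (semiO hW L hle) (semiL hW L hle) hc hx'
  refine ⟨x, ⟨w, hw, ?_⟩, E, hE1, hE2, fun σ hσ => ?_⟩
  · rw [hwx, map_sub]
    show d y * x'⁻¹ = Additive.toMul (HG.φ (embOfPoints d hd_add hd_mem y)) *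
      (Additive.toMul (HG.φ x))⁻¹
    rw [ofPoints_φ_emb H (semiO hW L hle) (semiL hW L hle) hc d hd_add hd_mem y, hx]
  · apply HG.φ_inj
    apply Additive.toMul.injective
    rw [HG.φ_act, hx]
    exact hfix σ hσ

/-- Every finite subextension of `ℚ̄/ℚ` lies in a finite normal one. -/
theorem exists_normal_ge (F : IntermediateField ℚ Qbar) [FiniteDimensional ℚ F] :
    ∃ L : IntermediateField ℚ Qbar, FiniteDimensional ℚ L ∧ Normal ℚ L ∧ F ≤ L := by
  haveI h0 : Algebra.IsAlgebraic ℚ Qbar := AlgebraicClosure.isAlgebraic ℚ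
  haveI : IsAlgClosure ℚ Qbar := ⟨inferInstance, h0⟩
  haveI : Normal ℚ Qbar := IsAlgClosure.normal ℚ Qbar
  exact ⟨IntermediateField.normalClosure ℚ F Qbar, normalClosure.is_finiteDimensional ℚ F Qbar,
    normalClosure.normal ℚ F Qbar, F.le_normalClosure⟩

/-- **The final assembly**: the Props of `FinalIface` give arithmetic local analytic group data for
`J₀(M)[ℓ^k]`.  (`NormsAt`, `WMu` are unconditional, `HubNorms70`.) -/
theorem exists_modCoordData (hℓM : ¬ ℓ ∣ M) (hW : WCompat ℓ M c0 H)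
    (hb : ∀ σ i, (H.S σ).σ01 (b i) = b i)
    (hred : ∀ (L : IntermediateField ℚ Qbar) [FiniteDimensional ℚ L] (hle : K1 M ≤ L),
      HubRedAt ℓ M c0 b L hle)
    (k : ℕ) [Finite (TorsM ℓ M k)]
    (hdict : DictFinal ℓ M c0 H hW k) (hcen : CentresFinal ℓ M c0 H hW) :
    ∃ (J : Type) (_ : AddCommGroup J),
      Nonempty (ModCoordData ℓ J (TorsM ℓ M k) (locActM ℓ M k)) := by
  obtain ⟨L₀, hL₀fin, hdict⟩ := hdict
  haveI := hL₀fin
  -- `L₁` finite normal containing `K₁` and `L₀`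
  obtain ⟨L₁, hL₁fin, hL₁nor, hL₁⟩ := exists_normal_ge (K1 M ⊔ L₀)
  haveI := hL₁fin
  haveI := hL₁nor
  have hle₁ : K1 M ≤ L₁ := le_sup_left.trans hL₁
  have hL₀₁ : L₀ ≤ L₁ := le_sup_right.trans hL₁
  obtain ⟨d₁, hd₁mem, hdict⟩ := hdict L₁ hle₁ hL₀₁
  -- `L` from the centres of the finitely many classes `d₁ y`
  obtain ⟨L, hLfin, hLnor, hL, hcen⟩ := hcen L₁ hle₁ (TorsM ℓ M k) d₁ hd₁mem
  haveI := hLfin
  haveI := hLnor
  obtain ⟨d, hd_add, hd_inj, hd_mem, hd_equiv, hd_compat⟩ := hdict L hL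
  refine nonempty_modCoord_at ℓ M c0 b H hℓM hW hb L (hle₁.trans hL) (hred L (hle₁.trans hL)) k
    d hd_add hd_inj hd_mem hd_equiv (fun y => ?_)
  obtain ⟨x, hx, ⟨w, hw, hwx⟩, hE⟩ := hcen y
  exact ⟨x, hx, ⟨w, hw, by rw [hwx, hd_compat y]⟩, hE⟩

end Fermat.Agent.T1.Final47
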