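import Mathlib
import Fermat.Agent.T1.GalAct44
import Fermat.Agent.T1.HubInst98.Galois
import Fermat.Agent.T1.ChartAut9.Build
import Fermat.Agent.T1.ChartAut9.Concrete
import Fermat.Agent.T1.Coh60.ModelLine

/-!
# T1A (S19), assembly layer G9, bricks G9-H4 part 2 / G9-H6 parts (1)+(2): the concrete chart action
(helper44)

## Abstract layer (`section Abstract`)

`R → F` a ring map to a field, `B0, B1, B01 ⊂ F` subalgebras with ANY algebra structures `B0 → B01`,
`B1 → B01` that are inclusions on elements, ANY `c0 : TwoChart R B0 B1 B01`; a group `G` with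
`σ : G → R →+* R`, `γ : G → F →+* F` multiplicative, `(σ g, γ g)` preserving the chart system
(`ChartAut9.Build.Preserves`):
`chartActionOf : GalAct44.ChartAction c0 G` with `(S g).σW = σ g`, `(S g).σ_j = γ g|_{B_j}`,
`chartActionOf_congr`, `chartActionOf_trivial`.

## Laurent layer (`section Laurent`)

`Kt` any `ℚ`-field, `O : ValuationSubring Kt`, `F = Kt·F₀ ⊂ Kt((q))`, `G` acting on `Kt` through
`r : G →* (Kt ≃ₐ[ℚ] Kt)` with `r g O ⊆ O`; `B0, B1, B01` stable under the coefficientwise action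
`arithHom F₀ (r g)`, coordinates of `c0` fixed:

* `chartActionG : ChartAction c0 G`, `(S g).σW = sigmaO O (r g)`, `(S g).σ_j =` restriction of
  `arithHom F₀ (r g)` (`coe_chartActionG_σW/σ0/σ1/σ01`, by `rfl`);
* `chartActionG_congr` : `r g = r g' →` the components of `S g`, `S g'` agree;
* `chartActionG_trivial` : `r g = 1 →` all four components of `S g` are identities.

## `ℚ̄` layer (`section Qbar`)

`A : ValuationSubring ℚ̄`, `ρ : G →* Gal(ℚ̄/ℚ)` preserving `A`, `K1` normal, `O = A ∩ K1`: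
`rK ρ K1 : G →* (K1 ≃ₐ[ℚ] K1)` (`g ↦ resL K1 (ρ g)`), `rK_mem`, `sigmaO_rK` (`= resO A K1 (ρ g) (hρ g)`),
`rK_eq_one_of_fix`.
-/

set_option autoImplicit false
set_option linter.unusedSectionVars false
set_option linter.style.haveILetI false
set_option synthInstance.maxHeartbeats 400000
set_option maxHeartbeats 4000000
set_option backward.isDefEq.respectTransparency.types false

noncomputable section

namespace Fermat.Agent.T1.HubGalInst44

open HahnSeries AlgebraicCurve ModularCurve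
open Fermat.Agent.RED.Interface4 Fermat.Agent.RED.PUR.ChartGeneric22
open Fermat.Agent.T1.ChartAut9 Fermat.Agent.T1.ChartAut9.Generic Fermat.Agent.T1.ChartAut9.Concrete
open Fermat.Agent.T1.GalAct44 Fermat.Agent.T1.RedIface75
open Fermat.Agent.Jac

/-! ### Abstract layer -/

section Abstract

universe u v

variable {R F : Type u} [CommRing R] [Field F] [Algebra R F]
  {B0 B1 B01 : Subalgebra R F}
  [Algebra ↥B0 ↥B01] [Algebra ↥B1 ↥B01] [IsScalarTower R ↥B0 ↥B01] [IsScalarTower R ↥B1 ↥B01]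
  {c0 : TwoChart R ↥B0 ↥B1 ↥B01}
  (hc0 : ∀ b : ↥B0, ((algebraMap ↥B0 ↥B01 b : ↥B01) : F) = (b : F))
  (hc1 : ∀ b : ↥B1, ((algebraMap ↥B1 ↥B01 b : ↥B01) : F) = (b : F))
  {G : Type v} [Group G] (σ : G → R →+* R) (γ : G → F →+* F)
  (P : ∀ g, Build.Preserves (σ g) (γ g) c0)
  (σ_one : σ 1 = RingHom.id R) (σ_mul : ∀ g h, σ (g * h) = (σ g).comp (σ h))
  (γ_one : γ 1 = RingHom.id F) (γ_mul : ∀ g h, γ (g * h) = (γ g).comp (γ h))

/-- **The chart action of a multiplicative family of chart-preserving pairs `(σ g, γ g)`.** -/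
def chartActionOf : ChartAction c0 G where
  S := fun g => Build.chartAutOf hc0 hc1 (P g)
  oneW := σ_one
  one0 := RingHom.ext fun b => Subtype.ext (by
    rw [Build.coe_chartAutOf_σ0, γ_one]; rfl)
  one1 := RingHom.ext fun b => Subtype.ext (by
    rw [Build.coe_chartAutOf_σ1, γ_one]; rfl)
  one01 := RingHom.ext fun b => Subtype.ext (by
    rw [Build.coe_chartAutOf_σ01, γ_one]; rfl)
  mulW := σ_mul
  mul0 := fun g h => RingHom.ext fun b => Subtype.ext (by
    rw [Build.coe_chartAutOf_σ0, γ_mul]; rfl)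
  mul1 := fun g h => RingHom.ext fun b => Subtype.ext (by
    rw [Build.coe_chartAutOf_σ1, γ_mul]; rfl)
  mul01 := fun g h => RingHom.ext fun b => Subtype.ext (by
    rw [Build.coe_chartAutOf_σ01, γ_mul]; rfl)

theorem chartActionOf_σW (g : G) :
    ((chartActionOf hc0 hc1 σ γ P σ_one σ_mul γ_one γ_mul).S g).σW = σ g := rfl

theorem coe_chartActionOf_σ0 (g : G) (b : ↥B0) :
    ((((chartActionOf hc0 hc1 σ γ P σ_one σ_mul γ_one γ_mul).S g).σ0 b : ↥B0) : F) = γ g b := rfl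

theorem coe_chartActionOf_σ1 (g : G) (b : ↥B1) :
    ((((chartActionOf hc0 hc1 σ γ P σ_one σ_mul γ_one γ_mul).S g).σ1 b : ↥B1) : F) = γ g b := rfl

theorem coe_chartActionOf_σ01 (g : G) (b : ↥B01) :
    ((((chartActionOf hc0 hc1 σ γ P σ_one σ_mul γ_one γ_mul).S g).σ01 b : ↥B01) : F) = γ g b :=
  rfl

/-- If `σ g = σ g'` and `γ g = γ g'` the chart automorphisms of `g` and `g'` agree componentwise. -/
theorem chartActionOf_congr {g g' : G} (hσ : σ g = σ g') (hγ : γ g = γ g') :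
    ((chartActionOf hc0 hc1 σ γ P σ_one σ_mul γ_one γ_mul).S g).σW =
        ((chartActionOf hc0 hc1 σ γ P σ_one σ_mul γ_one γ_mul).S g').σW ∧
      ((chartActionOf hc0 hc1 σ γ P σ_one σ_mul γ_one γ_mul).S g).σ0 =
        ((chartActionOf hc0 hc1 σ γ P σ_one σ_mul γ_one γ_mul).S g').σ0 ∧
      ((chartActionOf hc0 hc1 σ γ P σ_one σ_mul γ_one γ_mul).S g).σ1 =
        ((chartActionOf hc0 hc1 σ γ P σ_one σ_mul γ_one γ_mul).S g').σ1 ∧
      ((chartActionOf hc0 hc1 σ γ P σ_one σ_mul γ_one γ_mul).S g).σ01 =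
        ((chartActionOf hc0 hc1 σ γ P σ_one σ_mul γ_one γ_mul).S g').σ01 := by
  refine ⟨hσ, RingHom.ext fun b => Subtype.ext ?_, RingHom.ext fun b => Subtype.ext ?_,
    RingHom.ext fun b => Subtype.ext ?_⟩
  · rw [coe_chartActionOf_σ0, coe_chartActionOf_σ0, hγ]
  · rw [coe_chartActionOf_σ1, coe_chartActionOf_σ1, hγ]
  · rw [coe_chartActionOf_σ01, coe_chartActionOf_σ01, hγ]

/-- If `σ g = id` and `γ g = id` the chart automorphism of `g` is the identity componentwise. -/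
theorem chartActionOf_trivial {g : G} (hσ : σ g = RingHom.id R) (hγ : γ g = RingHom.id F) :
    ((chartActionOf hc0 hc1 σ γ P σ_one σ_mul γ_one γ_mul).S g).σW = RingHom.id R ∧
      ((chartActionOf hc0 hc1 σ γ P σ_one σ_mul γ_one γ_mul).S g).σ0 = RingHom.id ↥B0 ∧
      ((chartActionOf hc0 hc1 σ γ P σ_one σ_mul γ_one γ_mul).S g).σ1 = RingHom.id ↥B1 ∧
      ((chartActionOf hc0 hc1 σ γ P σ_one σ_mul γ_one γ_mul).S g).σ01 = RingHom.id ↥B01 := by
  refine ⟨hσ, RingHom.ext fun b => Subtype.ext ?_, RingHom.ext fun b => Subtype.ext ?_,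
    RingHom.ext fun b => Subtype.ext ?_⟩
  · rw [coe_chartActionOf_σ0, hγ]; rfl
  · rw [coe_chartActionOf_σ1, hγ]; rfl
  · rw [coe_chartActionOf_σ01, hγ]; rfl

end Abstract

/-! ### Laurent layer -/

section Laurent

variable {Kt : Type} [Field Kt] [Algebra ℚ Kt] (O : ValuationSubring Kt)
  (F₀ : IntermediateField ℚ (LaurentSeries ℚ))
  {G : Type} [Group G] (r : G →* (Kt ≃ₐ[ℚ] Kt)) (hr : ∀ g, ∀ x ∈ O, r g x ∈ O)
  {B0 B1 B01 : Subalgebra ↥O ↥(laurentBaseChange Kt F₀)}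
  [Algebra ↥B0 ↥B01] [Algebra ↥B1 ↥B01]
  [@IsScalarTower ↥O ↥B0 ↥B01 _ Algebra.toSMul _] [@IsScalarTower ↥O ↥B1 ↥B01 _ Algebra.toSMul _]
  (c0 : TwoChart ↥O ↥B0 ↥B1 ↥B01)
  (hc0 : ∀ b : ↥B0, ((algebraMap ↥B0 ↥B01 b : ↥B01) : ↥(laurentBaseChange Kt F₀)) = b)
  (hc1 : ∀ b : ↥B1, ((algebraMap ↥B1 ↥B01 b : ↥B01) : ↥(laurentBaseChange Kt F₀)) = b)
  (h0 : ∀ g, ∀ x ∈ B0, arithHom F₀ (r g) x ∈ B0)
  (h1 : ∀ g, ∀ x ∈ B1, arithHom F₀ (r g) x ∈ B1)
  (h01 : ∀ g, ∀ x ∈ B01, arithHom F₀ (r g) x ∈ B01)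
  (hct : ∀ g, arithHom F₀ (r g) ((c0.t : ↥B0) : ↥(laurentBaseChange Kt F₀)) = c0.t)
  (hcs : ∀ g, arithHom F₀ (r g) ((c0.s : ↥B1) : ↥(laurentBaseChange Kt F₀)) = c0.s)

include h0 h1 h01 hct hcs in
/-- The pair `(r g|_O, arithHom (r g))` preserves the chart system. -/
theorem preservesG (g : G) :
    Build.Preserves (sigmaO O (r g) (hr g)) (arithHom F₀ (r g)) c0 where
  semi := semiOn_arith O F₀ (r g) (hr g)
  mem0 := h0 g
  mem1 := h1 g
  mem01 := h01 g
  map_t := hct g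
  map_s := hcs g

/-- **The chart action (Laurent form).** -/
def chartActionG : ChartAction c0 G :=
  chartActionOf hc0 hc1 (fun g => sigmaO O (r g) (hr g)) (fun g => arithHom F₀ (r g))
    (preservesG O F₀ r hr c0 h0 h1 h01 hct hcs)
    (by
      refine RingHom.ext fun x => Subtype.ext ?_
      rw [coe_sigmaO, map_one]; rfl)
    (fun g h => by
      refine RingHom.ext fun x => Subtype.ext ?_
      rw [coe_sigmaO, map_mul]; rfl)
    (by rw [map_one]; exact arithHom_one F₀)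
    (fun g h => by rw [map_mul]; exact arithHom_mul F₀ _ _)

theorem chartActionG_σW (g : G) :
    ((chartActionG O F₀ r hr c0 hc0 hc1 h0 h1 h01 hct hcs).S g).σW = sigmaO O (r g) (hr g) := rfl

theorem coe_chartActionG_σW (g : G) (w : ↥O) :
    ((((chartActionG O F₀ r hr c0 hc0 hc1 h0 h1 h01 hct hcs).S g).σW w : ↥O) : Kt) =
      r g (w : Kt) := rfl

theorem coe_chartActionG_σ0 (g : G) (b : ↥B0) :
    ((((chartActionG O F₀ r hr c0 hc0 hc1 h0 h1 h01 hct hcs).S g).σ0 b : ↥B0) :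
      ↥(laurentBaseChange Kt F₀)) = arithHom F₀ (r g) b := rfl

theorem coe_chartActionG_σ1 (g : G) (b : ↥B1) :
    ((((chartActionG O F₀ r hr c0 hc0 hc1 h0 h1 h01 hct hcs).S g).σ1 b : ↥B1) :
      ↥(laurentBaseChange Kt F₀)) = arithHom F₀ (r g) b := rfl

theorem coe_chartActionG_σ01 (g : G) (b : ↥B01) :
    ((((chartActionG O F₀ r hr c0 hc0 hc1 h0 h1 h01 hct hcs).S g).σ01 b : ↥B01) :
      ↥(laurentBaseChange Kt F₀)) = arithHom F₀ (r g) b := rfl

/-- If `r g = r g'` the chart automorphisms of `g` and `g'` agree componentwise. -/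
theorem chartActionG_congr {g g' : G} (hgg : r g = r g') :
    ((chartActionG O F₀ r hr c0 hc0 hc1 h0 h1 h01 hct hcs).S g).σW =
        ((chartActionG O F₀ r hr c0 hc0 hc1 h0 h1 h01 hct hcs).S g').σW ∧
      ((chartActionG O F₀ r hr c0 hc0 hc1 h0 h1 h01 hct hcs).S g).σ0 =
        ((chartActionG O F₀ r hr c0 hc0 hc1 h0 h1 h01 hct hcs).S g').σ0 ∧
      ((chartActionG O F₀ r hr c0 hc0 hc1 h0 h1 h01 hct hcs).S g).σ1 =
        ((chartActionG O F₀ r hr c0 hc0 hc1 h0 h1 h01 hct hcs).S g').σ1 ∧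
      ((chartActionG O F₀ r hr c0 hc0 hc1 h0 h1 h01 hct hcs).S g).σ01 =
        ((chartActionG O F₀ r hr c0 hc0 hc1 h0 h1 h01 hct hcs).S g').σ01 :=
  chartActionOf_congr hc0 hc1 _ _ _ _ _ _ _
    (RingHom.ext fun x => Subtype.ext (by rw [coe_sigmaO, coe_sigmaO, hgg]))
    (by show arithHom F₀ (r g) = arithHom F₀ (r g'); rw [hgg])

/-- If `r g = 1` the chart automorphism of `g` is the identity componentwise. -/
theorem chartActionG_trivial {g : G} (hg : r g = 1) :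
    ((chartActionG O F₀ r hr c0 hc0 hc1 h0 h1 h01 hct hcs).S g).σW = RingHom.id ↥O ∧
      ((chartActionG O F₀ r hr c0 hc0 hc1 h0 h1 h01 hct hcs).S g).σ0 = RingHom.id ↥B0 ∧
      ((chartActionG O F₀ r hr c0 hc0 hc1 h0 h1 h01 hct hcs).S g).σ1 = RingHom.id ↥B1 ∧
      ((chartActionG O F₀ r hr c0 hc0 hc1 h0 h1 h01 hct hcs).S g).σ01 = RingHom.id ↥B01 :=
  chartActionOf_trivial hc0 hc1 _ _ _ _ _ _ _
    (RingHom.ext fun x => Subtype.ext (by rw [coe_sigmaO, hg]; rfl))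
    (by show arithHom F₀ (r g) = RingHom.id _; rw [hg]; exact arithHom_one F₀)

end Laurent

/-! ### Chart layer: `B0 = chart O t`, `B1 = chart O t⁻¹`, `B01 = B0 ⊔ B1` (the shape of
`Coh60.modelChart`) -/

section Chart

open Fermat.Agent.T1.Coh60

attribute [local instance] Fermat.Agent.T1.Coh60.algebra0 Fermat.Agent.T1.Coh60.algebra1
  Fermat.Agent.T1.Coh60.isScalarTower0 Fermat.Agent.T1.Coh60.isScalarTower1

variable {Kt : Type} [Field Kt] [Algebra ℚ Kt] (O : ValuationSubring Kt)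
  (F₀ : IntermediateField ℚ (LaurentSeries ℚ))
  {G : Type} [Group G] (r : G →* (Kt ≃ₐ[ℚ] Kt)) (hr : ∀ g, ∀ x ∈ O, r g x ∈ O)
  {t : ↥(laurentBaseChange Kt F₀)}
  (c0 : TwoChart ↥O ↥(chart ↥O t) ↥(chart ↥O t⁻¹) ↥(chart ↥O t ⊔ chart ↥O t⁻¹))
  (hct : ((c0.t : ↥(chart ↥O t)) : ↥(laurentBaseChange Kt F₀)) = t)
  (hcs : ((c0.s : ↥(chart ↥O t⁻¹)) : ↥(laurentBaseChange Kt F₀)) = t⁻¹)
  (ht : ∀ g, arithHom F₀ (r g) t = t)

/-- **The chart action on the canonical two-chart structure of a model with coordinate `t`**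
(e.g. `c0 = Coh60.modelChart M`, `hct = hcs = rfl`); the algebra structures are
`Coh60.algebra0/1`, `Coh60.isScalarTower0/1`. -/
def chartActionT : ChartAction c0 G :=
  chartActionG O F₀ r hr c0 (fun _ => rfl) (fun _ => rfl)
    (fun g _ hx => arith_mem_chart (hr g) (ht g) hx)
    (fun g _ hx => arith_mem_chart_inv (hr g) (ht g) hx)
    (fun g _ hx => arith_mem_overlap (hr g) (ht g) hx)
    (fun g => by rw [hct]; exact ht g)
    (fun g => by rw [hcs, map_inv₀, ht g])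

theorem chartActionT_S (g : G) :
    (chartActionT O F₀ r hr c0 hct hcs ht).S g =
      (chartActionG O F₀ r hr c0 (fun _ => rfl) (fun _ => rfl)
        (fun g _ hx => arith_mem_chart (hr g) (ht g) hx)
        (fun g _ hx => arith_mem_chart_inv (hr g) (ht g) hx)
        (fun g _ hx => arith_mem_overlap (hr g) (ht g) hx)
        (fun g => by rw [hct]; exact ht g)
        (fun g => by rw [hcs, map_inv₀, ht g])).S g := rfl

/-- **The chart action on `Coh60.modelChart M`** for a two-chart model `M` over `O` with charts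
`chart O t`, `chart O t⁻¹` and function field `Kt·F₀`. -/
def chartActionModel {ϖ : ↥O} {Ov : ValuationSubring ↥(laurentBaseChange Kt F₀)}
    (Mo : Fermat.Agent.RED.CORE.CoreIface24.TwoChartModel ↥O Kt ↥(laurentBaseChange Kt F₀) ϖ t
      (chart ↥O t) (chart ↥O t⁻¹) Ov) :
    ChartAction (modelChart Mo) G :=
  chartActionT O F₀ r hr (modelChart Mo) rfl rfl ht

end Chart

/-! ### The `ℚ̄` layer: the action on the constants -/

section Qbar

open Fermat.Agent.T1.HubInst98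

variable (A : ValuationSubring Qbar) {G : Type} [Group G] (ρ : G →* (Qbar ≃ₐ[ℚ] Qbar))
  (hρ : ∀ g, HubInst98.Preserves A (ρ g))
  (K1 : IntermediateField ℚ Qbar) [Normal ℚ K1]

/-- `g ↦ ρ g|_{K1}`. -/
def rK : G →* (K1 ≃ₐ[ℚ] K1) where
  toFun := fun g => resL K1 (ρ g)
  map_one' := by rw [map_one, resL_one]
  map_mul' := fun g h => by rw [map_mul, resL_mul]

@[simp] theorem rK_apply (g : G) : rK ρ K1 g = resL K1 (ρ g) := rfl

include hρ in
theorem rK_mem (g : G) : ∀ x ∈ AK A K1, rK ρ K1 g x ∈ AK A K1 := fun x hx =>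
  (resL_mem_AK_iff A K1 (hρ g) x).mpr hx

/-- On the constants the action is `resO`. -/
theorem sigmaO_rK (g : G) (w : ↥(AK A K1)) :
    sigmaO (AK A K1) (rK ρ K1 g) (rK_mem A ρ hρ K1 g) w = resO A K1 (ρ g) (hρ g) w :=
  Subtype.ext rfl

/-- If `ρ g` fixes `K1` pointwise then `rK ρ K1 g = 1`. -/
theorem rK_eq_one_of_fix {g : G} (hg : ∀ x ∈ K1, ρ g x = x) : rK ρ K1 g = 1 := by
  refine AlgEquiv.ext fun x => Subtype.ext ?_
  rw [rK_apply, coe_resL]
  exact hg (x : Qbar) x.2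

/-- If `ρ g` and `ρ g'` agree on `K1` then `rK ρ K1 g = rK ρ K1 g'`. -/
theorem rK_eq_of_eqOn {g g' : G} (hg : ∀ x ∈ K1, ρ g x = ρ g' x) : rK ρ K1 g = rK ρ K1 g' := by
  refine AlgEquiv.ext fun x => Subtype.ext ?_
  rw [rK_apply, rK_apply, coe_resL, coe_resL]
  exact hg (x : Qbar) x.2

end Qbar

end Fermat.Agent.T1.HubGalInst44
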