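import Mathlib
import Fermat.Agent.T1.HubGalInst44
import Fermat.Agent.T1.Assembly41.FinalIface

/-!
# T1A (S19), brick G9-H6 parts (1)+(2): the chart action of the local Galois group `G_ℓ`  (helper44)

`W = Wr ℓ M = A ∩ ℚ(ζ_M)` (`A = padicPlace ℓ`), `F = K₁·F₀ ⊂ K₁((q))`, `G_ℓ = Gp ℓ` acting on `K₁ = K1 M`
through `rLoc ℓ M : σ ↦ (localGaloisToGlobal ℓ σ)|_{K₁}`.

* General form: `B0, B1, B01 ⊂ F` any `W`-subalgebras stable under the coefficientwise action,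
  `c0 : TwoChart W B0 B1 B01` with fixed coordinates: `chartActionLoc : ChartAction c0 (Gp ℓ)`,
  `wCompat_chartActionLoc : Assembly41.WCompat ℓ M c0 (chartActionLoc ..)` (VERBATIM FinalIface),
  `chartActionLoc_trivial` (all components are identities when `localGaloisToGlobal ℓ σ` fixes `K₁`),
  `chartActionLoc_congr`, `coe_chartActionLoc_σW/σ0/σ1/σ01`, `coe_coe_chartActionLoc_σW` (helper70's
  shape `(h1)`).
* Chart form (`Coh60.modelChart`): `chartActionLocT`, `chartActionLocModel` with the same lemmas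
  (`wCompat_chartActionLocT`, ...).
-/

set_option autoImplicit false
set_option linter.unusedSectionVars false
set_option linter.style.haveILetI false
set_option synthInstance.maxHeartbeats 400000
set_option maxHeartbeats 4000000
set_option backward.isDefEq.respectTransparency.types false

noncomputable section

namespace Fermat.Agent.T1.HubGalLoc44

open HahnSeries AlgebraicCurve ModularCurve
open Fermat.Agent.RED.Interface4 Fermat.Agent.RED.PUR.ChartGeneric22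
open Fermat.Agent.T1.ChartAut9 Fermat.Agent.T1.ChartAut9.Generic Fermat.Agent.T1.ChartAut9.Concrete
open Fermat.Agent.T1.GalAct44 Fermat.Agent.T1.RedIface75
open Fermat.Agent.Jac Fermat.Agent.T1.HubInst98 Fermat.Agent.T1.HubGalInst44
open Fermat.Agent.T1.Assembly41 Fermat.Agent.TW.B5.Iface

variable (ℓ : ℕ) [Fact ℓ.Prime] (M : ℕ) [NeZero M]

/-- `σ ↦ (localGaloisToGlobal ℓ σ)|_{K₁}`. -/
def rLoc : Gp ℓ →* (K1 M ≃ₐ[ℚ] K1 M) := rK (localGaloisToGlobal ℓ) (K1 M)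

theorem rLoc_apply (σ : Gp ℓ) : rLoc ℓ M σ = resL (K1 M) (localGaloisToGlobal ℓ σ) := rfl

theorem rLoc_mem (σ : Gp ℓ) :
    ∀ x ∈ AK (padicPlace ℓ) (K1 M), rLoc ℓ M σ x ∈ AK (padicPlace ℓ) (K1 M) :=
  rK_mem (padicPlace ℓ) (localGaloisToGlobal ℓ) (preserves_localGaloisToGlobal ℓ) (K1 M) σ

theorem rLoc_eq_one {σ : Gp ℓ} (hσ : ∀ x ∈ K1 M, localGaloisToGlobal ℓ σ x = x) :
    rLoc ℓ M σ = 1 :=
  rK_eq_one_of_fix (localGaloisToGlobal ℓ) (K1 M) hσ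

theorem sigmaO_rLoc (σ : Gp ℓ) (w : Wr ℓ M) :
    sigmaO (AK (padicPlace ℓ) (K1 M)) (rLoc ℓ M σ) (rLoc_mem ℓ M σ) w = resOloc (K1 M) ℓ σ w :=
  Subtype.ext rfl

/-! ### General form -/

section General

variable (F₀ : IntermediateField ℚ (LaurentSeries ℚ))
  {B0 B1 B01 : Subalgebra (Wr ℓ M) ↥(laurentBaseChange (K1 M) F₀)}
  [Algebra ↥B0 ↥B01] [Algebra ↥B1 ↥B01]
  [@IsScalarTower (Wr ℓ M) ↥B0 ↥B01 _ Algebra.toSMul _]
  [@IsScalarTower (Wr ℓ M) ↥B1 ↥B01 _ Algebra.toSMul _]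
  (c0 : TwoChart (Wr ℓ M) ↥B0 ↥B1 ↥B01)
  (hc0 : ∀ b : ↥B0, ((algebraMap ↥B0 ↥B01 b : ↥B01) : ↥(laurentBaseChange (K1 M) F₀)) = b)
  (hc1 : ∀ b : ↥B1, ((algebraMap ↥B1 ↥B01 b : ↥B01) : ↥(laurentBaseChange (K1 M) F₀)) = b)
  (h0 : ∀ σ, ∀ x ∈ B0, arithHom F₀ (rLoc ℓ M σ) x ∈ B0)
  (h1 : ∀ σ, ∀ x ∈ B1, arithHom F₀ (rLoc ℓ M σ) x ∈ B1)
  (h01 : ∀ σ, ∀ x ∈ B01, arithHom F₀ (rLoc ℓ M σ) x ∈ B01)
  (hct : ∀ σ, arithHom F₀ (rLoc ℓ M σ) ((c0.t : ↥B0) : ↥(laurentBaseChange (K1 M) F₀)) = c0.t)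
  (hcs : ∀ σ, arithHom F₀ (rLoc ℓ M σ) ((c0.s : ↥B1) : ↥(laurentBaseChange (K1 M) F₀)) = c0.s)

/-- **The chart action of `G_ℓ`** (general form). -/
def chartActionLoc : ChartAction c0 (Gp ℓ) :=
  chartActionG (AK (padicPlace ℓ) (K1 M)) F₀ (rLoc ℓ M) (rLoc_mem ℓ M) c0 hc0 hc1 h0 h1 h01 hct hcs

/-- **`WCompat`** (verbatim `Assembly41.FinalIface`). -/
theorem wCompat_chartActionLoc :
    WCompat ℓ M c0 (chartActionLoc ℓ M F₀ c0 hc0 hc1 h0 h1 h01 hct hcs) :=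
  fun σ w => sigmaO_rLoc ℓ M σ w

/-- The action on the constants, inside `ℚ̄` (helper70's shape `(h1)`). -/
theorem coe_coe_chartActionLoc_σW (σ : Gp ℓ) (w : Wr ℓ M) :
    (((((chartActionLoc ℓ M F₀ c0 hc0 hc1 h0 h1 h01 hct hcs).S σ).σW w : Wr ℓ M) : K1 M) : Qbar) =
      localGaloisToGlobal ℓ σ ((w : K1 M) : Qbar) :=
  coe_resL (K1 M) (localGaloisToGlobal ℓ σ) (w : K1 M)

theorem coe_chartActionLoc_σ0 (σ : Gp ℓ) (b : ↥B0) :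
    ((((chartActionLoc ℓ M F₀ c0 hc0 hc1 h0 h1 h01 hct hcs).S σ).σ0 b : ↥B0) :
      ↥(laurentBaseChange (K1 M) F₀)) = arithHom F₀ (rLoc ℓ M σ) b := rfl

theorem coe_chartActionLoc_σ1 (σ : Gp ℓ) (b : ↥B1) :
    ((((chartActionLoc ℓ M F₀ c0 hc0 hc1 h0 h1 h01 hct hcs).S σ).σ1 b : ↥B1) :
      ↥(laurentBaseChange (K1 M) F₀)) = arithHom F₀ (rLoc ℓ M σ) b := rfl

theorem coe_chartActionLoc_σ01 (σ : Gp ℓ) (b : ↥B01) :
    ((((chartActionLoc ℓ M F₀ c0 hc0 hc1 h0 h1 h01 hct hcs).S σ).σ01 b : ↥B01) :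
      ↥(laurentBaseChange (K1 M) F₀)) = arithHom F₀ (rLoc ℓ M σ) b := rfl

/-- **Triviality**: if `localGaloisToGlobal ℓ σ` fixes `K₁ = ℚ(ζ_M)` pointwise, the chart
automorphism of `σ` is the identity (componentwise). -/
theorem chartActionLoc_trivial {σ : Gp ℓ} (hσ : ∀ x ∈ K1 M, localGaloisToGlobal ℓ σ x = x) :
    ((chartActionLoc ℓ M F₀ c0 hc0 hc1 h0 h1 h01 hct hcs).S σ).σW = RingHom.id (Wr ℓ M) ∧
      ((chartActionLoc ℓ M F₀ c0 hc0 hc1 h0 h1 h01 hct hcs).S σ).σ0 = RingHom.id ↥B0 ∧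
      ((chartActionLoc ℓ M F₀ c0 hc0 hc1 h0 h1 h01 hct hcs).S σ).σ1 = RingHom.id ↥B1 ∧
      ((chartActionLoc ℓ M F₀ c0 hc0 hc1 h0 h1 h01 hct hcs).S σ).σ01 = RingHom.id ↥B01 :=
  chartActionG_trivial (AK (padicPlace ℓ) (K1 M)) F₀ (rLoc ℓ M) (rLoc_mem ℓ M) c0 hc0 hc1 h0 h1 h01
    hct hcs (rLoc_eq_one ℓ M hσ)

/-- `σ`, `σ'` with the same restriction to `K₁` have the same chart automorphism. -/
theorem chartActionLoc_congr {σ σ' : Gp ℓ}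
    (hσ : ∀ x ∈ K1 M, localGaloisToGlobal ℓ σ x = localGaloisToGlobal ℓ σ' x) :
    ((chartActionLoc ℓ M F₀ c0 hc0 hc1 h0 h1 h01 hct hcs).S σ).σW =
        ((chartActionLoc ℓ M F₀ c0 hc0 hc1 h0 h1 h01 hct hcs).S σ').σW ∧
      ((chartActionLoc ℓ M F₀ c0 hc0 hc1 h0 h1 h01 hct hcs).S σ).σ0 =
        ((chartActionLoc ℓ M F₀ c0 hc0 hc1 h0 h1 h01 hct hcs).S σ').σ0 ∧
      ((chartActionLoc ℓ M F₀ c0 hc0 hc1 h0 h1 h01 hct hcs).S σ).σ1 =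
        ((chartActionLoc ℓ M F₀ c0 hc0 hc1 h0 h1 h01 hct hcs).S σ').σ1 ∧
      ((chartActionLoc ℓ M F₀ c0 hc0 hc1 h0 h1 h01 hct hcs).S σ).σ01 =
        ((chartActionLoc ℓ M F₀ c0 hc0 hc1 h0 h1 h01 hct hcs).S σ').σ01 :=
  chartActionG_congr (AK (padicPlace ℓ) (K1 M)) F₀ (rLoc ℓ M) (rLoc_mem ℓ M) c0 hc0 hc1 h0 h1 h01
    hct hcs (rK_eq_of_eqOn (localGaloisToGlobal ℓ) (K1 M) hσ)

end General

/-! ### Chart form -/

section Chart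

open Fermat.Agent.T1.Coh60

attribute [local instance] Fermat.Agent.T1.Coh60.algebra0 Fermat.Agent.T1.Coh60.algebra1
  Fermat.Agent.T1.Coh60.isScalarTower0 Fermat.Agent.T1.Coh60.isScalarTower1

variable (F₀ : IntermediateField ℚ (LaurentSeries ℚ))
  {t : ↥(laurentBaseChange (K1 M) F₀)}
  (c0 : TwoChart (Wr ℓ M) ↥(chart (Wr ℓ M) t) ↥(chart (Wr ℓ M) t⁻¹)
    ↥(chart (Wr ℓ M) t ⊔ chart (Wr ℓ M) t⁻¹))
  (hct : ((c0.t : ↥(chart (Wr ℓ M) t)) : ↥(laurentBaseChange (K1 M) F₀)) = t)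
  (hcs : ((c0.s : ↥(chart (Wr ℓ M) t⁻¹)) : ↥(laurentBaseChange (K1 M) F₀)) = t⁻¹)
  (ht : ∀ s : K1 M ≃ₐ[ℚ] K1 M, arithHom F₀ s t = t)

/-- **The chart action of `G_ℓ` on the canonical two-chart structure with coordinate `t`.** -/
def chartActionLocT : ChartAction c0 (Gp ℓ) :=
  chartActionT (AK (padicPlace ℓ) (K1 M)) F₀ (rLoc ℓ M) (rLoc_mem ℓ M) c0 hct hcs
    (fun σ => ht (rLoc ℓ M σ))

theorem wCompat_chartActionLocT : WCompat ℓ M c0 (chartActionLocT ℓ M F₀ c0 hct hcs ht) :=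
  fun σ w => sigmaO_rLoc ℓ M σ w

theorem coe_coe_chartActionLocT_σW (σ : Gp ℓ) (w : Wr ℓ M) :
    (((((chartActionLocT ℓ M F₀ c0 hct hcs ht).S σ).σW w : Wr ℓ M) : K1 M) : Qbar) =
      localGaloisToGlobal ℓ σ ((w : K1 M) : Qbar) :=
  coe_resL (K1 M) (localGaloisToGlobal ℓ σ) (w : K1 M)

theorem coe_chartActionLocT_σ0 (σ : Gp ℓ) (b : ↥(chart (Wr ℓ M) t)) :
    ((((chartActionLocT ℓ M F₀ c0 hct hcs ht).S σ).σ0 b : ↥(chart (Wr ℓ M) t)) :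
      ↥(laurentBaseChange (K1 M) F₀)) = arithHom F₀ (rLoc ℓ M σ) b := rfl

theorem coe_chartActionLocT_σ1 (σ : Gp ℓ) (b : ↥(chart (Wr ℓ M) t⁻¹)) :
    ((((chartActionLocT ℓ M F₀ c0 hct hcs ht).S σ).σ1 b : ↥(chart (Wr ℓ M) t⁻¹)) :
      ↥(laurentBaseChange (K1 M) F₀)) = arithHom F₀ (rLoc ℓ M σ) b := rfl

theorem coe_chartActionLocT_σ01 (σ : Gp ℓ) (b : ↥(chart (Wr ℓ M) t ⊔ chart (Wr ℓ M) t⁻¹)) :
    ((((chartActionLocT ℓ M F₀ c0 hct hcs ht).S σ).σ01 b :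
      ↥(chart (Wr ℓ M) t ⊔ chart (Wr ℓ M) t⁻¹)) :
      ↥(laurentBaseChange (K1 M) F₀)) = arithHom F₀ (rLoc ℓ M σ) b := rfl

theorem chartActionLocT_trivial {σ : Gp ℓ} (hσ : ∀ x ∈ K1 M, localGaloisToGlobal ℓ σ x = x) :
    ((chartActionLocT ℓ M F₀ c0 hct hcs ht).S σ).σW = RingHom.id (Wr ℓ M) ∧
      ((chartActionLocT ℓ M F₀ c0 hct hcs ht).S σ).σ0 = RingHom.id _ ∧
      ((chartActionLocT ℓ M F₀ c0 hct hcs ht).S σ).σ1 = RingHom.id _ ∧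
      ((chartActionLocT ℓ M F₀ c0 hct hcs ht).S σ).σ01 = RingHom.id _ :=
  chartActionG_trivial (AK (padicPlace ℓ) (K1 M)) F₀ (rLoc ℓ M) (rLoc_mem ℓ M) c0
    (fun _ => rfl) (fun _ => rfl)
    (fun g _ hx => arith_mem_chart (rLoc_mem ℓ M g) (ht _) hx)
    (fun g _ hx => arith_mem_chart_inv (rLoc_mem ℓ M g) (ht _) hx)
    (fun g _ hx => arith_mem_overlap (rLoc_mem ℓ M g) (ht _) hx)
    (fun g => by rw [hct]; exact ht _)
    (fun g => by rw [hcs, map_inv₀, ht _])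
    (rLoc_eq_one ℓ M hσ)

theorem chartActionLocT_congr {σ σ' : Gp ℓ}
    (hσ : ∀ x ∈ K1 M, localGaloisToGlobal ℓ σ x = localGaloisToGlobal ℓ σ' x) :
    ((chartActionLocT ℓ M F₀ c0 hct hcs ht).S σ).σW =
        ((chartActionLocT ℓ M F₀ c0 hct hcs ht).S σ').σW ∧
      ((chartActionLocT ℓ M F₀ c0 hct hcs ht).S σ).σ0 =
        ((chartActionLocT ℓ M F₀ c0 hct hcs ht).S σ').σ0 ∧
      ((chartActionLocT ℓ M F₀ c0 hct hcs ht).S σ).σ1 =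
        ((chartActionLocT ℓ M F₀ c0 hct hcs ht).S σ').σ1 ∧
      ((chartActionLocT ℓ M F₀ c0 hct hcs ht).S σ).σ01 =
        ((chartActionLocT ℓ M F₀ c0 hct hcs ht).S σ').σ01 :=
  chartActionG_congr (AK (padicPlace ℓ) (K1 M)) F₀ (rLoc ℓ M) (rLoc_mem ℓ M) c0
    (fun _ => rfl) (fun _ => rfl)
    (fun g _ hx => arith_mem_chart (rLoc_mem ℓ M g) (ht _) hx)
    (fun g _ hx => arith_mem_chart_inv (rLoc_mem ℓ M g) (ht _) hx)
    (fun g _ hx => arith_mem_overlap (rLoc_mem ℓ M g) (ht _) hx)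
    (fun g => by rw [hct]; exact ht _)
    (fun g => by rw [hcs, map_inv₀, ht _])
    (rK_eq_of_eqOn (localGaloisToGlobal ℓ) (K1 M) hσ)

end Chart

end Fermat.Agent.T1.HubGalLoc44
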