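/-
T1A (S19), assembly layer G9, brick G9-H5 HUB-RED (helper76), part 2: the Prop
`Assembly41.HubRedAt` of the FINAL INTERFACE (`Assembly41/FinalIface.lean`) from the MODEL-side
inputs, for a GENERAL chart system `c0 : TwoChart (Wr ℓ M) B0 B1 B01` over `W = A ∩ ℚ(ζ_M)`:

* `hfp`  : `c0.FiniteProjOverLine`                            (helper60, `Coh60.ModelLine/ModelTrans`)
* `D`, `hρ0`, `hρ1` : a Čech datum of `c0` (`b := D.b`; take helper70's INVARIANT datum `D'` of
  `InvBasis70.Cyclo.exists_invariant_cechData_K1`)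
* `hπ`   : a uniformiser `πO` of `O_L = A ∩ L` with `Red68.PiGood (c0.baseChange O_L) πO`
  (helper85 `ModelFacts85.piGood_baseChange` / helper62 `Wired`, from helper51's `BCData`;
  also `HubRed76.HubFacts.exists_pi`)

and the group law polynomials are helper70's `D.F n` (`CechFormal70.groupLawAt`).
-/
import Mathlib
import Fermat.Agent.T1.Assembly41.FinalIface
import Fermat.Agent.T1.CechFormal70.CoordLaw
import Fermat.Agent.T1.Red68.ExtInjModel
import Fermat.Agent.T1.Red11.CoordEU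
import Fermat.Agent.T1.CoordInj23.OfCechData

set_option autoImplicit false
set_option linter.unusedSectionVars false
set_option linter.style.haveILetI false

open TensorProduct

namespace Fermat.Agent.T1.HubRedAt76

open Fermat.Agent Fermat.Agent.Jac Fermat.Agent.T1.RedIface75 Fermat.Agent.T1.Assembly41
  Fermat.Agent.T1.HubInst98 Fermat.Agent.T1.CechFormal70 Fermat.Agent.RED.Interface4
open scoped Fermat.Agent.Jac.BaseChange75

variable (ℓ : ℕ) [Fact ℓ.Prime] (M : ℕ) [NeZero M]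
variable {B0 B1 B01 : Type} [CommRing B0] [CommRing B1] [CommRing B01]
  [Algebra (Wr ℓ M) B0] [Algebra (Wr ℓ M) B1] [Algebra (Wr ℓ M) B01] [Algebra B0 B01]
  [Algebra B1 B01] [IsScalarTower (Wr ℓ M) B0 B01] [IsScalarTower (Wr ℓ M) B1 B01]
  (c0 : TwoChart (Wr ℓ M) B0 B1 B01) {g : ℕ}

/-- **`HubRedAt` from the MODEL-side inputs** (general chart system over `W = A ∩ ℚ(ζ_M)`). -/
theorem hubRedAt_of_cechData (hfp : c0.FiniteProjOverLine)
    (D : CechData (Wr ℓ M) B0 B1 B01 g)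
    (hρ0 : ∀ x, D.ρ0 x = algebraMap B0 B01 x) (hρ1 : ∀ x, D.ρ1 x = algebraMap B1 B01 x)
    (L : IntermediateField ℚ Qbar) [FiniteDimensional ℚ L] (hle : K1 M ≤ L)
    (hπ : letI := algAK (padicPlace ℓ) hle
      ∃ πO : OL ℓ L, Irreducible πO ∧ Red68.PiGood (c0.baseChange (OL ℓ L)) πO) :
    HubRedAt ℓ M c0 D.b L hle := by
  letI := algAK (padicPlace ℓ) hle
  letI := algAKL (padicPlace ℓ) hle
  haveI := isScalarTower_AK (padicPlace ℓ) hle
  haveI := isDVR_OL ℓ L
  obtain ⟨πO, hπO, hg⟩ := hπ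
  exact ⟨Red11.coordExistsUnique c0 D hρ0 hρ1 (OL ℓ L),
    CoordInj23.coordInjective_of_cechData c0 hfp D hρ0 hρ1 (OL ℓ L),
    Red68.extInjective_of_cechData c0 D hρ0 hρ1 (OL ℓ L) ↥L hπO hg,
    fun n => ⟨D.F n, CechFormal70.groupLawAt c0 D hρ0 hρ1 (OL ℓ L) n⟩⟩

/-- The same for every finite `L ⊇ K₁`, in the shape of the field `hRed` of
`Assembly41.HubPackage`. -/
theorem forall_hubRedAt_of_cechData (hfp : c0.FiniteProjOverLine)
    (D : CechData (Wr ℓ M) B0 B1 B01 g)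
    (hρ0 : ∀ x, D.ρ0 x = algebraMap B0 B01 x) (hρ1 : ∀ x, D.ρ1 x = algebraMap B1 B01 x)
    (hπ : ∀ (L : IntermediateField ℚ Qbar) [FiniteDimensional ℚ L] (hle : K1 M ≤ L),
      letI := algAK (padicPlace ℓ) hle
      ∃ πO : OL ℓ L, Irreducible πO ∧ Red68.PiGood (c0.baseChange (OL ℓ L)) πO) :
    ∀ (L : IntermediateField ℚ Qbar) [FiniteDimensional ℚ L] (hle : K1 M ≤ L),
      HubRedAt ℓ M c0 D.b L hle :=
  fun L _ hle => hubRedAt_of_cechData ℓ M c0 hfp D hρ0 hρ1 L hle (hπ L hle)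

end Fermat.Agent.T1.HubRedAt76
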