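/-
Fermat/Agent/T1/HubRedGlue70.lean  (helper70, programme T1A, brick G9-H5 HUB-RED, hF/hb wiring)

From the MODEL-side inputs `RedMaster75.RedInputs c0 g (O_L) L` (for every finite `L ⊇ K₁`) to the
Prop `HubRedAt` of `Assembly41/FinalIface.lean`, with the group law `CechFormal70.CoordLaw.groupLawAt`
and the `G_ℓ`-INVARIANT basis of `InvBasis70`:

* `RedInputs.withD`      : replace the Čech datum of a `RedInputs` (same `ρ_j`);
* `RedInputs.hubRed`     : the four conjuncts of `HubRedAt` for `b := I.D.b`, abstract `O`, `L`;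
* `hubRedAt_of_redInputs`: `HubRedAt ℓ M c0 I.D.b L hle`;
* `exists_invariant_basis_hubRedAt` : `∃ b`, invariant under `H`, with `HubRedAt` for every `L`
  (= the fields `hb`, `hRed` of `Assembly41.HubPackage` / hypotheses of `modCoordData_of_props`).
-/
import Mathlib
import Fermat.Agent.T1.RedMaster75
import Fermat.Agent.T1.CechFormal70.CoordLaw
import Fermat.Agent.T1.InvBasis70.Final
import Fermat.Agent.T1.Assembly41.FinalIface

set_option autoImplicit false
set_option linter.unusedSectionVars false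
set_option linter.style.haveILetI false

noncomputable section

open TensorProduct

namespace Fermat.Agent.T1.HubRedGlue70

open Fermat.Agent.Jac Fermat.Agent.T1.RedIface75 Fermat.Agent.T1.GalAct44
open Fermat.Agent.T1.CechFormal70 Fermat.Agent.T1.RedMaster75
open Fermat.Agent.T1.Red20.CoordFun
open Fermat.Agent.TW.B5.Iface
open Fermat.Agent.RED.Interface4
open Fermat.Agent.T1.HubInst98 Fermat.Agent.T1.Assembly41

section Abstract

universe u

variable {W B0 B1 B01 : Type u} [CommRing W] [CommRing B0] [CommRing B1] [CommRing B01]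
  [Algebra W B0] [Algebra W B1] [Algebra W B01] [Algebra B0 B01] [Algebra B1 B01]
  [IsScalarTower W B0 B01] [IsScalarTower W B1 B01]
  {c0 : TwoChart W B0 B1 B01} {g : ℕ}
  {O : Type u} [CommRing O] [IsDomain O] [IsDiscreteValuationRing O] [Algebra W O]
  {L : Type u} [Field L] [Algebra W L] [Algebra O L] [IsScalarTower W O L] [IsFractionRing O L]

/-- Replace the Čech datum of a `RedInputs` by another one with the same restriction maps. -/
def withD (I : RedInputs c0 g O L) (D' : CechData W B0 B1 B01 g)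
    (hρ0 : ∀ x, D'.ρ0 x = algebraMap B0 B01 x) (hρ1 : ∀ x, D'.ρ1 x = algebraMap B1 B01 x) :
    RedInputs c0 g O L :=
  { I with D := D', hρ0 := hρ0, hρ1 := hρ1 }

@[simp] theorem withD_D (I : RedInputs c0 g O L) (D' : CechData W B0 B1 B01 g)
    (hρ0 : ∀ x, D'.ρ0 x = algebraMap B0 B01 x) (hρ1 : ∀ x, D'.ρ1 x = algebraMap B1 B01 x) :
    (withD I D' hρ0 hρ1).D = D' := rfl

/-- The four conjuncts of `HubRedAt`, for abstract `O`, `L`. -/
theorem hubRed (I : RedInputs c0 g O L) :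
    CoordExistsUnique c0 O I.D.b ∧ CoordInjective c0 O ∧ ExtInjective c0 O L ∧
      ∀ n : ℕ, ∃ F : Fin g → MvPolynomial (Fin g ⊕ Fin g) W,
        GroupLawAt I.D.b c0 O n (polyLaw F) :=
  ⟨I.coordExistsUnique, I.coordInjective, I.extInjective,
    fun n => ⟨I.D.F n, groupLawAt c0 I.D I.hρ0 I.hρ1 O n⟩⟩

end Abstract

section Hub

variable (ℓ : ℕ) [Fact ℓ.Prime] (M : ℕ) [NeZero M]

variable {B0 B1 B01 : Type} [CommRing B0] [CommRing B1] [CommRing B01]
  [Algebra (Wr ℓ M) B0] [Algebra (Wr ℓ M) B1] [Algebra (Wr ℓ M) B01] [Algebra B0 B01]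
  [Algebra B1 B01] [IsScalarTower (Wr ℓ M) B0 B01] [IsScalarTower (Wr ℓ M) B1 B01]
  (c0 : TwoChart (Wr ℓ M) B0 B1 B01) {g : ℕ}

/-- `RedInputs` at `O_L = A ∩ L` (with the instances of `FinalIface`). -/
abbrev RedInputsAt (L : IntermediateField ℚ Qbar) [FiniteDimensional ℚ L] (hle : K1 M ≤ L) :
    Type :=
  letI := algAK (padicPlace ℓ) hle
  letI := algAKL (padicPlace ℓ) hle
  haveI := isScalarTower_AK (padicPlace ℓ) hle
  haveI := isDVR_OL ℓ L
  RedInputs c0 g (OL ℓ L) ↥L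

/-- The Čech datum of a `RedInputsAt`. -/
def cechAt (L : IntermediateField ℚ Qbar) [FiniteDimensional ℚ L]
    (hle : K1 M ≤ L) (I : RedInputsAt ℓ M c0 (g := g) L hle) : CechData (Wr ℓ M) B0 B1 B01 g :=
  letI := algAK (padicPlace ℓ) hle
  letI := algAKL (padicPlace ℓ) hle
  haveI := isScalarTower_AK (padicPlace ℓ) hle
  haveI := isDVR_OL ℓ L
  RedInputs.D I

/-- **`HubRedAt`** from `RedInputs` at `O_L`. -/
theorem hubRedAt_of_redInputs (L : IntermediateField ℚ Qbar) [FiniteDimensional ℚ L]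
    (hle : K1 M ≤ L) (I : RedInputsAt ℓ M c0 (g := g) L hle) :
    HubRedAt ℓ M c0 (cechAt ℓ M c0 L hle I).b L hle := by
  letI := algAK (padicPlace ℓ) hle
  letI := algAKL (padicPlace ℓ) hle
  haveI := isScalarTower_AK (padicPlace ℓ) hle
  haveI := isDVR_OL ℓ L
  exact hubRed I

/-- **The invariant basis with `HubRedAt` for every `L`** (fields `hb`, `hRed` of the hub
package). -/
theorem exists_invariant_basis_hubRedAt (hM : ¬ ℓ ∣ M)
    (H : ChartAction c0 (Gp ℓ)) (hW : WCompat ℓ M c0 H)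
    (h2 : ∀ σ : Gp ℓ, (∀ x ∈ K1 M, localGaloisToGlobal ℓ σ x = x) →
      (H.S σ).σ01 = RingHom.id B01)
    (D : CechData (Wr ℓ M) B0 B1 B01 g)
    (hρ0 : ∀ x, D.ρ0 x = algebraMap B0 B01 x) (hρ1 : ∀ x, D.ρ1 x = algebraMap B1 B01 x)
    (hI : ∀ (L : IntermediateField ℚ Qbar) [FiniteDimensional ℚ L] (hle : K1 M ≤ L),
      Nonempty (RedInputsAt ℓ M c0 (g := g) L hle)) :
    ∃ b : Fin g → B01, (∀ (σ : Gp ℓ) (i : Fin g), (H.S σ).σ01 (b i) = b i) ∧
      ∀ (L : IntermediateField ℚ Qbar) [FiniteDimensional ℚ L] (hle : K1 M ≤ L),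
        HubRedAt ℓ M c0 b L hle := by
  obtain ⟨D', h0, h1, hinv⟩ :=
    InvBasis70.exists_invariant_cechData_of_WCompat ℓ M hM H hW h2 D hρ0 hρ1
  have hρ0' : ∀ x, D'.ρ0 x = algebraMap B0 B01 x := fun x => by rw [h0, hρ0]
  have hρ1' : ∀ x, D'.ρ1 x = algebraMap B1 B01 x := fun x => by rw [h1, hρ1]
  refine ⟨D'.b, hinv, fun L _ hle => ?_⟩
  obtain ⟨I⟩ := hI L hle
  letI := algAK (padicPlace ℓ) hle
  letI := algAKL (padicPlace ℓ) hle
  haveI := isScalarTower_AK (padicPlace ℓ) hle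
  haveI := isDVR_OL ℓ L
  exact hubRedAt_of_redInputs ℓ M c0 L hle (withD I D' hρ0' hρ1')

end Hub

end Fermat.Agent.T1.HubRedGlue70
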