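/-
Programme T1a (S19), layer (A) ALG: the TRUNCATED input WITHOUT NEGATION and its passage to the exact one
(helper47; the proof is helper46's `Trunc46.truncToExact` minus the negation block).

* `DiscGroupDataTruncNN` = a verbatim copy of `TruncIface47.DiscGroupDataTrunc` (from which the negation law has
  been deleted on 11:05Z); kept only for the record, use `Trunc46.truncToExact`;
* `DiscGroupDataTrunc.toNN`;
* `truncToExactNN : DiscGroupDataTruncNN ℓ J M actM → Nonempty (DiscGroupDataNN ℓ J M actM)`.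
-/
import Mathlib
import Fermat.Agent.T1.AlgIfaceNN47
import Fermat.Agent.T1.Trunc46

set_option autoImplicit false
set_option linter.unusedSectionVars false
set_option linter.unusedVariables false

noncomputable section

namespace Fermat.Agent.T1.TruncNN47

open Fermat.Agent.TW.B5.Iface Fermat.Agent.T1.AlgIface47 Fermat.Agent.T1.TruncIface47
  Fermat.Agent.T1.PolyNorm47 Fermat.Agent.T1.Trunc46

variable (ℓ : ℕ) [hℓ : Fact ℓ.Prime]

/-- `TruncIface47.DiscGroupDataTrunc` without the negation law. -/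
structure DiscGroupDataTruncNN (J : Type) [AddCommGroup J] (M : Type) [AddCommGroup M]
    (actM : Gp ℓ → M → M) where
  act : Gp ℓ → J →+ J
  act_one : ∀ x, act 1 x = x
  act_mul : ∀ σ τ x, act (σ * τ) x = act σ (act τ x)
  J1 : AddSubgroup J
  J1_stable : ∀ σ, ∀ x ∈ J1, act σ x ∈ J1
  g : ℕ
  tn : ℕ → J → Fin g → Kbar ℓ
  tn_norm : ∀ x ∈ J1, ∀ n i, ‖tn n x i‖ < 1
  tn_compat : ∀ x ∈ J1, ∀ n i, ‖tn (n + 1) x i - tn n x i‖ ≤ ‖(ℓ : Kbar ℓ)‖ ^ n
  tn_field : ∀ x ∈ J1, ∃ L : IntermediateField ℚ_[ℓ] (Kbar ℓ), FiniteDimensional ℚ_[ℓ] L ∧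
    ∀ n i, tn n x i ∈ L
  tn_inj : ∀ x ∈ J1, ∀ y ∈ J1, (∀ n i, ‖tn n x i - tn n y i‖ ≤ ‖(ℓ : Kbar ℓ)‖ ^ n) → x = y
  tn_equiv : ∀ σ, ∀ x ∈ J1, ∀ n i, ‖tn n (act σ x) i - σ (tn n x i)‖ ≤ ‖(ℓ : Kbar ℓ)‖ ^ n
  K' : IntermediateField ℚ_[ℓ] (Kbar ℓ)
  K'_fin : FiniteDimensional ℚ_[ℓ] K'
  K'_unr : IsUnramifiedField ℓ K'
  add_approx : ∀ ρ : ℝ, ρ < 1 → ∀ n : ℕ,
    ∃ F : Fin g → MvPolynomial (Fin g ⊕ Fin g) (intSubring ℓ K'),
      ∀ x ∈ J1, ∀ y ∈ J1, (∀ i, ‖tn n x i‖ ≤ ρ) → (∀ i, ‖tn n y i‖ ≤ ρ) → ∀ i,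
        ‖tn n (x + y) i - MvPolynomial.aeval (Sum.elim (tn n x) (tn n y)) (F i)‖
          ≤ ‖(ℓ : Kbar ℓ)‖ ^ n
  emb : M →+ J
  emb_inj : Function.Injective emb
  emb_equiv : ∀ σ y, emb (actM σ y) = act σ (emb y)
  centres : ∀ y : M, ∃ x : J, emb y - x ∈ J1 ∧
    ∃ E : IntermediateField ℚ_[ℓ] (Kbar ℓ), FiniteDimensional ℚ_[ℓ] E ∧ IsUnramifiedField ℓ E ∧
      ∀ σ : Gp ℓ, (∀ e ∈ E, σ e = e) → act σ x = x

variable {ℓ}
variable {J : Type} [AddCommGroup J] {M : Type} [AddCommGroup M] {actM : Gp ℓ → M → M}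

/-- Forget the negation law. -/
def _root_.Fermat.Agent.T1.TruncIface47.DiscGroupDataTrunc.toNN
    (D : DiscGroupDataTrunc ℓ J M actM) : DiscGroupDataTruncNN ℓ J M actM where
  act := D.act
  act_one := D.act_one
  act_mul := D.act_mul
  J1 := D.J1
  J1_stable := D.J1_stable
  g := D.g
  tn := D.tn
  tn_norm := D.tn_norm
  tn_compat := D.tn_compat
  tn_field := D.tn_field
  tn_inj := D.tn_inj
  tn_equiv := D.tn_equiv
  K' := D.K'
  K'_fin := D.K'_fin
  K'_unr := D.K'_unr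
  add_approx := D.add_approx
  emb := D.emb
  emb_inj := D.emb_inj
  emb_equiv := D.emb_equiv
  centres := D.centres

theorem exists_coordNN (D : DiscGroupDataTruncNN ℓ J M actM) {x : J} (hx : x ∈ D.J1) (i : Fin D.g) :
    ∃ b : Kbar ℓ, ∀ n, ‖b - D.tn n x i‖ ≤ ‖((ℓ : ℕ) : Kbar ℓ)‖ ^ n := by
  obtain ⟨L, hL, hmem⟩ := D.tn_field x hx
  exact exists_limit ℓ (fun n => D.tn n x i) L hL (fun n => hmem n i) (fun n => D.tn_compat x hx n i)

open Classical in
/-- the exact coordinates (`0` outside `J1`) -/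
def coordNN (D : DiscGroupDataTruncNN ℓ J M actM) (x : J) (i : Fin D.g) : Kbar ℓ :=
  if hx : x ∈ D.J1 then Classical.choose (exists_coordNN D hx i) else 0

theorem coordNN_spec (D : DiscGroupDataTruncNN ℓ J M actM) {x : J} (hx : x ∈ D.J1) (i : Fin D.g)
    (n : ℕ) : ‖coordNN D x i - D.tn n x i‖ ≤ ‖((ℓ : ℕ) : Kbar ℓ)‖ ^ n := by
  unfold coordNN
  rw [dif_pos hx]
  exact Classical.choose_spec (exists_coordNN D hx i) n

theorem coordNN_spec' (D : DiscGroupDataTruncNN ℓ J M actM) {x : J} (hx : x ∈ D.J1) (i : Fin D.g)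
    (n : ℕ) : ‖D.tn n x i - coordNN D x i‖ ≤ ‖((ℓ : ℕ) : Kbar ℓ)‖ ^ n := by
  rw [norm_sub_rev]; exact coordNN_spec D hx i n

theorem coordNN_norm_lt (D : DiscGroupDataTruncNN ℓ J M actM) {x : J} (hx : x ∈ D.J1)
    (i : Fin D.g) : ‖coordNN D x i‖ < 1 := by
  have h1 : coordNN D x i = (coordNN D x i - D.tn 1 x i) + D.tn 1 x i := by ring
  rw [h1]
  refine lt_of_le_of_lt (norm_add_le_max' ℓ _ _) (max_lt ?_ (D.tn_norm x hx 1 i))
  refine lt_of_le_of_lt (coordNN_spec D hx i 1) ?_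
  rw [pow_one]
  exact norm_ell_lt_one ℓ

theorem tnNN_norm_le (D : DiscGroupDataTruncNN ℓ J M actM) {x : J} (hx : x ∈ D.J1) (i : Fin D.g)
    {n : ℕ} (hn : 1 ≤ n) {ρ : ℝ} (h : ‖coordNN D x i‖ ≤ ρ) :
    ‖D.tn n x i‖ ≤ max ρ ‖((ℓ : ℕ) : Kbar ℓ)‖ := by
  have h1 : D.tn n x i = (D.tn n x i - coordNN D x i) + coordNN D x i := by ring
  rw [h1]
  refine (norm_add_le_max' ℓ _ _).trans (max_le ?_ (h.trans (le_max_left _ _)))
  refine (coordNN_spec' D hx i n).trans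
    ((pow_le_pow_of_le_one (norm_ell_pos ℓ).le (norm_ell_lt_one ℓ).le hn).trans ?_)
  rw [pow_one]
  exact le_max_right _ _

/-- **Truncated ⟹ exact, without negation.** -/
theorem truncToExactNN (D : DiscGroupDataTruncNN ℓ J M actM) :
    Nonempty (DiscGroupDataNN ℓ J M actM) := by
  classical
  have hr0 := norm_ell_pos ℓ
  have hr1 := norm_ell_lt_one ℓ
  refine ⟨{
    act := D.act
    act_one := D.act_one
    act_mul := D.act_mul
    J1 := D.J1
    J1_stable := D.J1_stable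
    g := D.g
    t := coordNN D
    t_norm := fun x hx i => coordNN_norm_lt D hx i
    t_inj := ?_
    t_equiv := ?_
    K' := D.K'
    K'_fin := D.K'_fin
    K'_unr := D.K'_unr
    add_approx := ?_
    emb := D.emb
    emb_inj := D.emb_inj
    emb_equiv := D.emb_equiv
    centres := D.centres }⟩
  · intro x hx y hy hxy
    apply D.tn_inj x hx y hy
    intro n i
    have h1 : ‖D.tn n x i - coordNN D x i‖ ≤ ‖((ℓ : ℕ) : Kbar ℓ)‖ ^ n := coordNN_spec' D hx i n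
    have h2 : ‖coordNN D x i - D.tn n y i‖ ≤ ‖((ℓ : ℕ) : Kbar ℓ)‖ ^ n := by
      rw [hxy]; exact coordNN_spec D hy i n
    exact norm_sub_le_of_le ℓ h1 h2
  · intro σ x hx i
    have hσx := D.J1_stable σ x hx
    rw [← sub_eq_zero]
    apply eq_zero_of_forall_le
    intro n
    have h1 := coordNN_spec D hσx i n
    have h2 := D.tn_equiv σ x hx n i
    have h3 : ‖σ (D.tn n x i) - σ (coordNN D x i)‖ ≤ ‖((ℓ : ℕ) : Kbar ℓ)‖ ^ n := by
      rw [← map_sub, norm_gp]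
      exact coordNN_spec' D hx i n
    exact norm_sub_le_of_le3 ℓ h1 h2 h3
  · intro ρ hρ n
    rcases Nat.eq_zero_or_pos n with rfl | hn
    · refine ⟨fun _ => 0, fun x hx y hy _ _ i => ?_⟩
      rw [map_zero, sub_zero, pow_zero]
      exact (coordNN_norm_lt D (D.J1.add_mem hx hy) i).le
    · obtain ⟨F, hF⟩ := D.add_approx (max ρ ‖((ℓ : ℕ) : Kbar ℓ)‖) (max_lt hρ hr1) n
      refine ⟨F, fun x hx y hy hxρ hyρ i => ?_⟩
      have hxy := D.J1.add_mem hx hy
      have h1 := coordNN_spec D hxy i n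
      have h2 := hF x hx y hy (fun j => tnNN_norm_le D hx j hn (hxρ j))
        (fun j => tnNN_norm_le D hy j hn (hyρ j)) i
      have h3 : ‖MvPolynomial.aeval (Sum.elim (D.tn n x) (D.tn n y)) (F i) -
          MvPolynomial.aeval (Sum.elim (coordNN D x) (coordNN D y)) (F i)‖
          ≤ ‖((ℓ : ℕ) : Kbar ℓ)‖ ^ n := by
        apply norm_aeval_sub_le D.K' (F i) _ _ _ ?_ ?_ ?_ (pow_nonneg hr0.le n)
        · rintro (j | j)
          · exact (D.tn_norm x hx n j).le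
          · exact (D.tn_norm y hy n j).le
        · rintro (j | j)
          · exact (coordNN_norm_lt D hx j).le
          · exact (coordNN_norm_lt D hy j).le
        · rintro (j | j)
          · exact coordNN_spec' D hx j n
          · exact coordNN_spec' D hy j n
      exact norm_sub_le_of_le3 ℓ h1 h2 h3

end Fermat.Agent.T1.TruncNN47
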